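import Mathlib
import Fermat.Agent.S26T.Points

/-!
# Conventions for the scheme side of the S26 project (packages P1, P3, P4)

`X : GVar K` is a proper integral commutative group scheme over a field `K` (file
`S26T/Points.lean`), with

* `X.A`, `X.f : X.A ⟶ Spec K`, `X.L` the group law;
* `X.F` the function field, `X.O w : Subalgebra K X.F` the local ring at a point `w : X.A`,
  `X.η` the generic point, `X.O_mono : w ⤳ w' → X.O w' ≤ X.O w`;
* `X.Pt R = A(R)` for a `K`-algebra `R` (an `AddCommGroup`), `X.map φ : X.Pt R →+ X.Pt S`;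
* `X.point w ψ : X.Pt R` for `ψ : X.O w →ₐ[K] R`; if `R` is local, every point is
  `X.point w ψ` for a unique `w = X.pt Q` and a unique local `ψ = X.ev Q`.
-/

set_option autoImplicit false

noncomputable section

open CategoryTheory AlgebraicGeometry IsLocalRing NeronModelInfra GoodReductionJacobian

universe u

namespace Fermat.Agent.S26T.GVar

variable {K : Type u} [Field K] (X : GVar K)

theorem mem_O_η (x : X.F) : x ∈ X.O X.η := X.O_η.ge Algebra.mem_top

/-- The maximal ideal of the local ring at `w`. -/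
def m (w : X.A) : Ideal (X.O w) := maximalIdeal (X.O w)

section Ev

variable {R S : Type u} [CommRing R] [CommRing S] [Algebra K R] [Algebra K S] [IsLocalRing R]
  [IsLocalRing S]

/-- The local homomorphism attached to a point with values in a local ring. -/
def ev (Q : X.Pt R) : X.O (X.pt Q) →ₐ[K] R := (X.exists_eq_point' Q).choose

theorem isLocalHom_ev (Q : X.Pt R) : IsLocalHom (X.ev Q).toRingHom :=
  (X.exists_eq_point' Q).choose_spec.1

theorem point_ev (Q : X.Pt R) : X.point _ (X.ev Q) = Q := (X.exists_eq_point' Q).choose_spec.2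

theorem ev_point {w : X.A} (ψ : X.O w →ₐ[K] R) (h : IsLocalHom ψ.toRingHom) (x : X.F)
    (hx : x ∈ X.O w) (hx' : x ∈ X.O (X.pt (X.point w ψ))) :
    X.ev (X.point w ψ) ⟨x, hx'⟩ = ψ ⟨x, hx⟩ :=
  ((X.point_eq_point_iff _ ψ (X.isLocalHom_ev _) h).mp (X.point_ev _)).2 x hx' hx

theorem pt_map_specializes (φ : R →ₐ[K] S) (Q : X.Pt R) : X.pt (X.map φ Q) ⤳ X.pt Q := by
  obtain ⟨w', h, ψ', h1, h2, h3⟩ := X.exists_local (X.pt Q) (φ.comp (X.ev Q))
  have h4 : X.point w' ψ' = X.map φ Q := by rw [h2, ← X.map_point, X.point_ev]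
  rw [← h4, X.pt_point w' ψ' h1]
  exact h

theorem ev_map (φ : R →ₐ[K] S) (Q : X.Pt R) (x : X.F) (hx : x ∈ X.O (X.pt Q)) :
    X.ev (X.map φ Q) ⟨x, X.O_mono (X.pt_map_specializes φ Q) hx⟩ = φ (X.ev Q ⟨x, hx⟩) := by
  have h1 : X.point (X.pt Q) ((X.ev (X.map φ Q)).comp
      (Subalgebra.inclusion (X.O_mono (X.pt_map_specializes φ Q)))) =
      X.point (X.pt Q) (φ.comp (X.ev Q)) := by
    rw [X.point_comp_inclusion (X.pt_map_specializes φ Q), X.point_ev, ← X.map_point,
      X.point_ev]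
  exact congrArg (fun q => q ⟨x, hx⟩) (X.point_injective h1)

theorem pt_map_of_isLocalHom (φ : R →ₐ[K] S) (hφ : IsLocalHom φ.toRingHom) (Q : X.Pt R) :
    X.pt (X.map φ Q) = X.pt Q := by
  have h1 := X.isLocalHom_ev Q
  have h2 : X.point (X.pt Q) (φ.comp (X.ev Q)) = X.map φ Q := by
    rw [← X.map_point, X.point_ev]
  rw [← h2]
  exact X.pt_point _ _ (RingHom.isLocalHom_comp φ.toRingHom (X.ev Q).toRingHom)

/-- `ev Q` detects units: it is a local homomorphism. -/
theorem mem_m_iff_ev (Q : X.Pt R) (x : X.O (X.pt Q)) :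
    x ∈ X.m (X.pt Q) ↔ X.ev Q x ∈ maximalIdeal R := by
  have h := X.isLocalHom_ev Q
  rw [m, mem_maximalIdeal, mem_maximalIdeal, mem_nonunits_iff, mem_nonunits_iff, not_iff_not]
  exact (isUnit_map_iff (X.ev Q).toRingHom x).symm

end Ev

section Gen

variable {k k' : Type u} [Field k] [Algebra K k] [Field k'] [Algebra K k']

/-- The homomorphism `O η = K(A) → k` attached to a homomorphism `K(A) → k`. -/
def ofF {R : Type u} [CommRing R] [Algebra K R] (σ : X.F →ₐ[K] R) (w : X.A) : X.O w →ₐ[K] R :=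
  σ.comp (X.O w).val

theorem ofF_apply {R : Type u} [CommRing R] [Algebra K R] (σ : X.F →ₐ[K] R) (w : X.A)
    (x : X.O w) : X.ofF σ w x = σ (x : X.F) := rfl

/-- The point with values in `R` attached to a homomorphism `K(A) → R`. -/
def genPt {R : Type u} [CommRing R] [Algebra K R] (σ : X.F →ₐ[K] R) : X.Pt R :=
  X.point X.η (X.ofF σ X.η)

theorem point_ofF {R : Type u} [CommRing R] [Algebra K R] (σ : X.F →ₐ[K] R) (w : X.A) :
    X.point w (X.ofF σ w) = X.genPt σ := by
  rw [genPt, ← X.point_comp_inclusion (X.η_specializes w)]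
  rfl

theorem map_genPt {R S : Type u} [CommRing R] [CommRing S] [Algebra K R] [Algebra K S]
    (φ : R →ₐ[K] S) (σ : X.F →ₐ[K] R) : X.map φ (X.genPt σ) = X.genPt (φ.comp σ) := by
  rw [genPt, X.map_point]
  rfl

theorem genPt_injective {R : Type u} [CommRing R] [Algebra K R] {σ σ' : X.F →ₐ[K] R}
    (h : X.genPt σ = X.genPt σ') : σ = σ' := by
  have h1 := X.point_injective h
  ext x
  exact congrArg (fun q => q ⟨x, X.mem_O_η _⟩) h1

/-- The universal generic point. -/
def gen : X.Pt X.F := X.genPt (AlgHom.id K X.F)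

theorem map_gen {R : Type u} [CommRing R] [Algebra K R] (σ : X.F →ₐ[K] R) :
    X.map σ X.gen = X.genPt σ := X.map_genPt _ _

/-- `IsGen Q σ`: `Q` hits the generic point and induces `σ` on the function field. -/
def IsGen (Q : X.Pt k) (σ : X.F →ₐ[K] k) : Prop := Q = X.genPt σ

theorem isLocalHom_ofF (σ : X.F →ₐ[K] k) : IsLocalHom (X.ofF σ X.η).toRingHom := by
  refine ⟨fun a ha => ?_⟩
  have ha0 : (a : X.F) ≠ 0 := by
    intro h
    apply ha.ne_zero
    change σ (a : X.F) = 0
    rw [h, map_zero]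
  refine IsUnit.of_mul_eq_one (⟨(a : X.F)⁻¹, X.mem_O_η _⟩ : X.O X.η) ?_
  exact Subtype.ext (mul_inv_cancel₀ ha0)

theorem pt_genPt (σ : X.F →ₐ[K] k) : X.pt (X.genPt σ) = X.η :=
  X.pt_point _ _ (X.isLocalHom_ofF σ)

/-- A point whose image is the generic point comes from a homomorphism of the function field. -/
theorem exists_isGen_of_pt_eq (Q : X.Pt k) (h : X.pt Q = X.η) : ∃ σ, X.IsGen Q σ := by
  obtain ⟨w, ψ, h1, h2⟩ := X.exists_eq_point Q
  have hw : w = X.η := by rw [← h, ← h2, X.pt_point w ψ h1]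
  subst hw
  let e : (⊤ : Subalgebra K X.F) →ₐ[K] X.O X.η := Subalgebra.inclusion X.O_η.ge
  refine ⟨(ψ.comp e).comp (Algebra.toTop (R := K) (A := X.F)), ?_⟩
  rw [IsGen, genPt, ← h2]
  congr 1

end Gen

end Fermat.Agent.S26T.GVar
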