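import Mathlib
import Fermat.Agent.AV.SchemeBase

/-!
# Affine open subsets of a group variety, as subalgebras of the function field
-/

set_option autoImplicit false

noncomputable section

open CategoryTheory AlgebraicGeometry IsLocalRing NeronModelInfra GoodReductionJacobian

universe u

namespace Fermat.Agent.S26T.GVar

variable {K : Type u} [Field K] (X : GVar K)

section Sections

variable (U : X.A.Opens)

/-- The structure map on sections. -/
def algΓ : K →+* Γ(X.A, U) :=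
  ((Scheme.ΓSpecIso (.of K)).inv ≫ X.f.appLE ⊤ U le_top).hom

/-- Sections as rational functions. -/
def toF [Nonempty U] : Γ(X.A, U) →+* X.F := (X.A.germToFunctionField U).hom

variable {U}

theorem toF_injective [Nonempty U] : Function.Injective (X.toF U) :=
  X.A.germToFunctionField_injective U

theorem fromSpec_comp (hU : IsAffineOpen U) :
    hU.fromSpec ≫ X.f = Spec.map (CommRingCat.ofHom (X.algΓ U)) := by
  rw [← IsAffineOpen.SpecMap_appLE_fromSpec X.f (isAffineOpen_top _) hU le_top,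
    IsAffineOpen.fromSpec_top, Scheme.isoSpec_Spec_inv, ← Spec.map_comp]
  rfl

theorem germ_algΓ (hU : IsAffineOpen U) (w : X.A) (hw : w ∈ U) (x : K) :
    (X.A.presheaf.germ U w hw).hom (X.algΓ U x) =
      (Spec.preimage (X.A.fromSpecStalk w ≫ X.f)).hom x := by
  have h : Spec.map (CommRingCat.ofHom (X.algΓ U) ≫ X.A.presheaf.germ U w hw) =
      X.A.fromSpecStalk w ≫ X.f := by
    rw [Spec.map_comp, ← X.fromSpec_comp hU, ← hU.fromSpecStalk_eq_fromSpecStalk hw,
      IsAffineOpen.fromSpecStalk, Category.assoc]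
  rw [← Spec.map_preimage (X.A.fromSpecStalk w ≫ X.f)] at h
  exact congrArg (fun q => q x) (congrArg CommRingCat.Hom.hom (Spec.map_injective h))

theorem toF_eq_germ [Nonempty U] {w : X.A} (hw : w ∈ U) (b : Γ(X.A, U)) :
    X.toF U b = algebraMap (X.A.presheaf.stalk w) X.A.functionField
      ((X.A.presheaf.germ U w hw).hom b) :=
  (Scheme.algebraMap_germ_eq_germToFunctionField X.A hw b).symm

theorem toF_algΓ [Nonempty U] (hU : IsAffineOpen U) (x : K) :
    X.toF U (X.algΓ U x) = algebraMap K X.F x := by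
  obtain ⟨w, hw⟩ := ‹Nonempty U›
  rw [X.toF_eq_germ hw, X.germ_algΓ hU w hw]
  exact Var.coe_algO X.f w x

/-- The sections over an affine open as a subalgebra of the function field. -/
def R (hU : IsAffineOpen U) [Nonempty U] : Subalgebra K X.F where
  __ := (X.toF U).range
  algebraMap_mem' x := ⟨X.algΓ U x, X.toF_algΓ hU x⟩

theorem mem_R (hU : IsAffineOpen U) [Nonempty U] {x : X.F} : x ∈ X.R hU ↔ ∃ b, X.toF U b = x :=
  Iff.rfl

theorem toF_mem_R (hU : IsAffineOpen U) [Nonempty U] (b : Γ(X.A, U)) : X.toF U b ∈ X.R hU :=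
  ⟨b, rfl⟩

/-- Sections over an affine open and the corresponding subalgebra. -/
def rEquiv (hU : IsAffineOpen U) [Nonempty U] : Γ(X.A, U) ≃+* X.R hU :=
  RingEquiv.ofBijective ((X.toF U).codRestrict (X.R hU).toSubring fun b => ⟨b, rfl⟩ : _ →+* X.R hU)
    ⟨fun _ _ h => X.toF_injective (congrArg Subtype.val h), fun ⟨_, b, hb⟩ => ⟨b, Subtype.ext hb⟩⟩

theorem R_le_O (hU : IsAffineOpen U) [Nonempty U] {w : X.A} (hw : w ∈ U) : X.R hU ≤ X.O w := by
  rintro _ ⟨b, rfl⟩
  exact ⟨_, (X.toF_eq_germ hw b).symm⟩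

omit U in
theorem isUnit_iff {w : X.A} (x : X.O w) : IsUnit x ↔ (x : X.F) ≠ 0 ∧ (x : X.F)⁻¹ ∈ X.O w := by
  constructor
  · intro h
    obtain ⟨y, hy⟩ := h.exists_right_inv
    have h1 : (x : X.F) * (y : X.F) = 1 := congrArg Subtype.val hy
    have h2 : (x : X.F) ≠ 0 := left_ne_zero_of_mul_eq_one h1
    refine ⟨h2, ?_⟩
    rw [← eq_inv_of_mul_eq_one_right h1]
    exact y.2
  · rintro ⟨h1, h2⟩
    exact IsUnit.of_mul_eq_one (⟨(x : X.F)⁻¹, h2⟩ : X.O w) (Subtype.ext (mul_inv_cancel₀ h1))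

theorem mem_basicOpen_iff [Nonempty U] {w : X.A} (hw : w ∈ U) (b : Γ(X.A, U)) :
    w ∈ X.A.basicOpen b ↔ X.toF U b ≠ 0 ∧ (X.toF U b)⁻¹ ∈ X.O w := by
  rw [Scheme.mem_basicOpen X.A _ w hw]
  have h1 : X.toF U b ∈ X.O w := ⟨_, (X.toF_eq_germ hw b).symm⟩
  have h2 := X.isUnit_iff (⟨X.toF U b, h1⟩ : X.O w)
  rw [← h2, ← MulEquiv.isUnit_map ((Var.stalkEquiv X.A w).trans (X.oEquiv w).symm)]
  have h3 : ((Var.stalkEquiv X.A w).trans (X.oEquiv w).symm)
      ((X.A.presheaf.germ U w hw).hom b) = (⟨X.toF U b, h1⟩ : X.O w) :=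
    Subtype.ext (X.toF_eq_germ hw b).symm
  rw [← h3]

/-- Description of the local ring at a point of an affine open. -/
theorem mem_O_iff (hU : IsAffineOpen U) [Nonempty U] {w : X.A} (hw : w ∈ U) (x : X.F) :
    x ∈ X.O w ↔ ∃ a ∈ X.R hU, ∃ b ∈ X.R hU, b ≠ 0 ∧ b⁻¹ ∈ X.O w ∧ x * b = a := by
  constructor
  · intro hx
    obtain ⟨a, b, hb, hab⟩ := (Var.mem_O_iff X.A hU hw x).mp hx
    obtain ⟨h1, h2⟩ := (X.mem_basicOpen_iff hw b).mp hb
    exact ⟨_, X.toF_mem_R hU a, _, X.toF_mem_R hU b, h1, h2, hab⟩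
  · rintro ⟨a, ha, b, hb, h1, h2, hab⟩
    rw [(eq_mul_inv_iff_mul_eq₀ h1).mpr hab]
    exact mul_mem (X.R_le_O hU hw ha) h2

end Sections

section PointR

variable {U : X.A.Opens} (hU : IsAffineOpen U) [Nonempty U]

/-- The inclusion of the sections in a local ring. -/
def rIncl {w : X.A} (hw : w ∈ U) : X.R hU →ₐ[K] X.O w := Subalgebra.inclusion (X.R_le_O hU hw)

theorem rEquiv_algΓ (x : K) : X.rEquiv hU (X.algΓ U x) = algebraMap K (X.R hU) x :=
  Subtype.ext (X.toF_algΓ hU x)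

/-- The point with values in `S` given by a homomorphism on the sections over an affine open. -/
def pointR {S : Type u} [CommRing S] [Algebra K S] (φ : X.R hU →ₐ[K] S) : X.Pt S :=
  ⟨Spec.map (CommRingCat.ofHom (φ.toRingHom.comp (X.rEquiv hU).toRingHom)) ≫ hU.fromSpec, by
    rw [Category.assoc, X.fromSpec_comp hU, ← Spec.map_comp, ← CommRingCat.ofHom_comp]
    congr 2
    ext x
    exact (congrArg φ (X.rEquiv_algΓ hU x)).trans (φ.commutes x)⟩

theorem pointR_injective {S : Type u} [CommRing S] [Algebra K S] {φ φ' : X.R hU →ₐ[K] S}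
    (h : X.pointR hU φ = X.pointR hU φ') : φ = φ' := by
  have h1 := congrArg Subtype.val h
  change Spec.map _ ≫ hU.fromSpec = Spec.map _ ≫ hU.fromSpec at h1
  rw [cancel_mono] at h1
  have h2 := congrArg CommRingCat.Hom.hom (Spec.map_injective h1)
  ext x
  obtain ⟨y, rfl⟩ := (X.rEquiv hU).surjective x
  exact congrArg (fun q => q y) h2

theorem point_eq_pointR {S : Type u} [CommRing S] [Algebra K S] {w : X.A} (hw : w ∈ U)
    (ψ : X.O w →ₐ[K] S) : X.point w ψ = X.pointR hU (ψ.comp (X.rIncl hU hw)) := by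
  apply Subtype.ext
  rw [X.point_coe, Var.mk, ← hU.fromSpecStalk_eq_fromSpecStalk hw, IsAffineOpen.fromSpecStalk,
    ← Category.assoc, ← Spec.map_comp]
  change Spec.map _ ≫ hU.fromSpec = Spec.map _ ≫ hU.fromSpec
  congr 2
  ext b
  change ψ _ = ψ _
  congr 1
  exact Subtype.ext (X.toF_eq_germ hw b).symm

variable {S : Type u} [CommRing S] [Algebra K S] [IsLocalRing S]

theorem pt_pointR_mem (φ : X.R hU →ₐ[K] S) : X.pt (X.pointR hU φ) ∈ U := by
  have h : X.pt (X.pointR hU φ) ∈ Set.range hU.fromSpec := by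
    rw [pt, pointR]
    rw [Scheme.Hom.comp_apply]
    exact ⟨_, rfl⟩
  rwa [hU.range_fromSpec] at h

theorem ev_pointR (φ : X.R hU →ₐ[K] S) (b : X.R hU) :
    X.ev (X.pointR hU φ) ⟨b, X.R_le_O hU (X.pt_pointR_mem hU φ) b.2⟩ = φ b := by
  have h1 : X.pointR hU ((X.ev (X.pointR hU φ)).comp (X.rIncl hU (X.pt_pointR_mem hU φ))) =
      X.pointR hU φ := by
    rw [← X.point_eq_pointR hU (X.pt_pointR_mem hU φ), X.point_ev]
  exact congrArg (fun q => q b) (X.pointR_injective hU h1)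

/-- A homomorphism from the sections over an affine open to a local ring gives a local
homomorphism on the local ring of a point of the affine open. -/
theorem exists_local_of_R (φ : X.R hU →ₐ[K] S) : ∃ (w : X.A) (hw : w ∈ U) (ψ : X.O w →ₐ[K] S),
    IsLocalHom ψ.toRingHom ∧ ψ.comp (X.rIncl hU hw) = φ :=
  ⟨_, X.pt_pointR_mem hU φ, X.ev _, X.isLocalHom_ev _, AlgHom.ext (X.ev_pointR hU φ)⟩

/-- Points of an affine open correspond to prime ideals. -/
theorem exists_mem_of_isPrime (𝔭 : Ideal (X.R hU)) [𝔭.IsPrime] :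
    ∃ w ∈ U, ∀ b : X.R hU, b ∉ 𝔭 ↔ (b : X.F) ≠ 0 ∧ (b : X.F)⁻¹ ∈ X.O w := by
  obtain ⟨w, hw, ψ, h1, h2⟩ := X.exists_local_of_R hU
    (IsScalarTower.toAlgHom K (X.R hU) (Localization.AtPrime 𝔭))
  refine ⟨w, hw, fun b => ?_⟩
  have h3 : ψ (X.rIncl hU hw b) = algebraMap _ (Localization.AtPrime 𝔭) b :=
    congrArg (fun q => q b) h2
  refine Iff.trans ?_ (X.isUnit_iff (X.rIncl hU hw b))
  have h4 : IsUnit (X.rIncl hU hw b) ↔ IsUnit (ψ (X.rIncl hU hw b)) :=
    ⟨fun h => h.map ψ, fun h => h1.map_nonunit _ h⟩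
  rw [h4, h3, IsLocalization.AtPrime.isUnit_to_map_iff (Localization.AtPrime 𝔭) 𝔭]
  rfl

end PointR

end Fermat.Agent.S26T.GVar
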