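import Mathlib
import Fermat.Agent.FF.GenPrincipal
import Fermat.Agent.RR.Riemann

/-!
# Places with values in a field, and abstract height data (team AV = S26)

* `Pl Ω k κ` : `κ`-valued places of `k` which are trivial on `Ω`
  (a valuation subring `V` of `k` together with a local homomorphism `V → κ`).
* `HeightDatum Ω` : an abelian group valued functor on the category of fields over `Ω` with
  places as morphisms (think `k ↦ A(k)` with `A` a proper group scheme), together with a cocycle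
  `g` (think: local equations of a Cartier divisor on `A`).
-/

set_option autoImplicit false

noncomputable section

open AlgebraicCurve

universe u

namespace Fermat.Agent.AV

/-- A `κ`-valued place of `k` over `Ω`. -/
structure Pl (Ω k κ : Type u) [Field Ω] [Field k] [Field κ] [Algebra Ω k] [Algebra Ω κ] where
  /-- the valuation ring of the place -/
  V : ValuationSubring k
  alg_mem : ∀ x : Ω, algebraMap Ω k x ∈ V
  /-- the residue map of the place -/
  π : V →+* κ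
  isLocal : ∀ x : V, π x ≠ 0 → IsUnit x
  π_alg : ∀ x : Ω, π ⟨algebraMap Ω k x, alg_mem x⟩ = algebraMap Ω κ x

namespace Pl

section Basic

variable {Ω k κ l m : Type u} [Field Ω] [Field k] [Field κ] [Field l] [Field m]
  [Algebra Ω k] [Algebra Ω κ] [Algebra Ω l] [Algebra Ω m]

theorem ext' {p q : Pl Ω k κ} (hV : ∀ x, x ∈ p.V ↔ x ∈ q.V)
    (hπ : ∀ x (hp : x ∈ p.V) (hq : x ∈ q.V), p.π ⟨x, hp⟩ = q.π ⟨x, hq⟩) : p = q := by
  obtain ⟨V, h1, π, h2, h3⟩ := p
  obtain ⟨V', h1', π', h2', h3'⟩ := q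
  obtain rfl : V = V' := SetLike.ext hV
  obtain rfl : π = π' := RingHom.ext fun x => hπ x.1 x.2 x.2
  rfl

theorem isUnit_iff (p : Pl Ω k κ) (x : p.V) : IsUnit x ↔ p.π x ≠ 0 :=
  ⟨fun h => (h.map p.π).ne_zero, p.isLocal x⟩

theorem inv_mem_of_π_ne_zero (p : Pl Ω k κ) {x : k} (hx : x ∈ p.V) (h : p.π ⟨x, hx⟩ ≠ 0) :
    x⁻¹ ∈ p.V := by
  obtain ⟨y, hy⟩ := (p.isLocal _ h).exists_right_inv
  have h1 : x * (y : k) = 1 := congrArg Subtype.val hy
  have h2 : x⁻¹ = (y : k) := by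
    have hx0 : x ≠ 0 := by
      rintro rfl
      simp at h1
    field_simp
    exact h1.symm
  exact h2 ▸ y.2

theorem π_eq_zero_iff (p : Pl Ω k κ) {x : k} (hx : x ∈ p.V) (hx0 : x ≠ 0) :
    p.π ⟨x, hx⟩ = 0 ↔ x⁻¹ ∉ p.V := by
  constructor
  · intro h h'
    have : (⟨x, hx⟩ : p.V) * ⟨x⁻¹, h'⟩ = 1 := Subtype.ext (mul_inv_cancel₀ hx0)
    have h2 := congrArg p.π this
    rw [map_mul, h, zero_mul, map_one] at h2
    exact zero_ne_one h2
  · intro h
    by_contra h'
    exact h (p.inv_mem_of_π_ne_zero hx h')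

/-- The place attached to a homomorphism of fields. -/
def ofAlgHom (i : k →ₐ[Ω] κ) : Pl Ω k κ where
  V := ⊤
  alg_mem _ := trivial
  π := (i : k →+* κ).comp (⊤ : ValuationSubring k).subtype
  isLocal x hx := by
    have hx0 : (x : k) ≠ 0 := by
      intro h
      apply hx
      simp [h]
    refine IsUnit.of_mul_eq_one (⟨(x : k)⁻¹, trivial⟩ : (⊤ : ValuationSubring k)) ?_
    exact Subtype.ext (mul_inv_cancel₀ hx0)
  π_alg x := i.commutes x

@[simp] theorem ofAlgHom_V (i : k →ₐ[Ω] κ) : (ofAlgHom i).V = ⊤ := rfl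

@[simp] theorem ofAlgHom_π (i : k →ₐ[Ω] κ) (x : k) (hx : x ∈ (ofAlgHom i).V) :
    (ofAlgHom i).π ⟨x, hx⟩ = i x := rfl

theorem π_inv (p : Pl Ω k κ) {x : k} (hx : x ∈ p.V) (hx' : x⁻¹ ∈ p.V) (hx0 : x ≠ 0) :
    p.π ⟨x⁻¹, hx'⟩ = (p.π ⟨x, hx⟩)⁻¹ := by
  apply eq_inv_of_mul_eq_one_left
  rw [← map_mul]
  have : (⟨x⁻¹, hx'⟩ : p.V) * ⟨x, hx⟩ = 1 := Subtype.ext (inv_mul_cancel₀ hx0)
  rw [this, map_one]

/-- The valuation ring of a composite place. -/
def compV (q : Pl Ω κ l) (p : Pl Ω k κ) : ValuationSubring k where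
  carrier := {x | ∃ h : x ∈ p.V, p.π ⟨x, h⟩ ∈ q.V}
  mul_mem' := by
    rintro a b ⟨ha, ha'⟩ ⟨hb, hb'⟩
    refine ⟨mul_mem ha hb, ?_⟩
    have : (⟨a * b, mul_mem ha hb⟩ : p.V) = ⟨a, ha⟩ * ⟨b, hb⟩ := rfl
    rw [this, map_mul]
    exact mul_mem ha' hb'
  one_mem' := by
    refine ⟨one_mem _, ?_⟩
    have : (⟨1, one_mem _⟩ : p.V) = 1 := rfl
    rw [this, map_one]
    exact one_mem _
  add_mem' := by
    rintro a b ⟨ha, ha'⟩ ⟨hb, hb'⟩
    refine ⟨add_mem ha hb, ?_⟩
    have : (⟨a + b, add_mem ha hb⟩ : p.V) = ⟨a, ha⟩ + ⟨b, hb⟩ := rfl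
    rw [this, map_add]
    exact add_mem ha' hb'
  zero_mem' := by
    refine ⟨zero_mem _, ?_⟩
    have : (⟨0, zero_mem _⟩ : p.V) = 0 := rfl
    rw [this, map_zero]
    exact zero_mem _
  neg_mem' := by
    rintro a ⟨ha, ha'⟩
    refine ⟨neg_mem ha, ?_⟩
    have : (⟨-a, neg_mem ha⟩ : p.V) = -⟨a, ha⟩ := rfl
    rw [this, map_neg]
    exact neg_mem ha'
  mem_or_inv_mem' := by
    intro x
    by_cases hx0 : x = 0
    · subst hx0
      refine Or.inl ⟨zero_mem _, ?_⟩
      have : (⟨0, zero_mem _⟩ : p.V) = 0 := rfl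
      rw [this, map_zero]
      exact zero_mem _
    rcases p.V.mem_or_inv_mem x with hx | hx
    · by_cases h0 : p.π ⟨x, hx⟩ = 0
      · exact Or.inl ⟨hx, h0 ▸ zero_mem _⟩
      · have hx' := p.inv_mem_of_π_ne_zero hx h0
        rcases q.V.mem_or_inv_mem (p.π ⟨x, hx⟩) with h | h
        · exact Or.inl ⟨hx, h⟩
        · exact Or.inr ⟨hx', by rwa [p.π_inv hx hx' hx0]⟩
    · by_cases h0 : p.π ⟨x⁻¹, hx⟩ = 0
      · exact Or.inr ⟨hx, h0 ▸ zero_mem _⟩
      · have hx' := p.inv_mem_of_π_ne_zero hx h0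
        rw [inv_inv] at hx'
        rcases q.V.mem_or_inv_mem (p.π ⟨x⁻¹, hx⟩) with h | h
        · exact Or.inr ⟨hx, h⟩
        · refine Or.inl ⟨hx', ?_⟩
          rw [p.π_inv hx' hx hx0, inv_inv] at h
          exact h

theorem mem_compV {q : Pl Ω κ l} {p : Pl Ω k κ} {x : k} :
    x ∈ compV q p ↔ ∃ h : x ∈ p.V, p.π ⟨x, h⟩ ∈ q.V := Iff.rfl

/-- The residue map of a composite place. -/
def compπ (q : Pl Ω κ l) (p : Pl Ω k κ) : compV q p →+* l where
  toFun x := q.π ⟨p.π ⟨x.1, x.2.1⟩, x.2.2⟩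
  map_one' := by
    rw [← map_one q.π]
    exact congrArg q.π (Subtype.ext (map_one p.π))
  map_mul' a b := by
    rw [← map_mul q.π]
    exact congrArg q.π (Subtype.ext (map_mul p.π ⟨a.1, a.2.1⟩ ⟨b.1, b.2.1⟩))
  map_zero' := by
    rw [← map_zero q.π]
    exact congrArg q.π (Subtype.ext (map_zero p.π))
  map_add' a b := by
    rw [← map_add q.π]
    exact congrArg q.π (Subtype.ext (map_add p.π ⟨a.1, a.2.1⟩ ⟨b.1, b.2.1⟩))

theorem compπ_apply (q : Pl Ω κ l) (p : Pl Ω k κ) (x : compV q p) :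
    compπ q p x = q.π ⟨p.π ⟨x.1, x.2.1⟩, x.2.2⟩ := rfl

/-- Composition of places: first `p`, then `q`. -/
def comp (q : Pl Ω κ l) (p : Pl Ω k κ) : Pl Ω k l where
  V := compV q p
  alg_mem x := ⟨p.alg_mem x, by rw [p.π_alg]; exact q.alg_mem x⟩
  π := compπ q p
  isLocal x hx := by
    rw [compπ_apply] at hx
    have hπ : p.π ⟨x.1, x.2.1⟩ ≠ 0 := by
      intro h
      apply hx
      have : (⟨p.π ⟨x.1, x.2.1⟩, x.2.2⟩ : q.V) = 0 := Subtype.ext h
      rw [this, map_zero]
    have hx0 : x.1 ≠ 0 := by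
      intro h
      apply hπ
      have : (⟨x.1, x.2.1⟩ : p.V) = 0 := Subtype.ext h
      rw [this, map_zero]
    have h1 := p.inv_mem_of_π_ne_zero x.2.1 hπ
    have h2 := q.inv_mem_of_π_ne_zero x.2.2 hx
    refine IsUnit.of_mul_eq_one (⟨x.1⁻¹, h1, ?_⟩ : compV q p) ?_
    · rw [p.π_inv x.2.1 h1 hx0]
      exact h2
    · exact Subtype.ext (mul_inv_cancel₀ hx0)
  π_alg x := by
    rw [compπ_apply, ← q.π_alg x]
    exact congrArg q.π (Subtype.ext (p.π_alg x))

theorem mem_comp_V {q : Pl Ω κ l} {p : Pl Ω k κ} {x : k} :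
    x ∈ (q.comp p).V ↔ ∃ h : x ∈ p.V, p.π ⟨x, h⟩ ∈ q.V := Iff.rfl

theorem comp_π {q : Pl Ω κ l} {p : Pl Ω k κ} {x : k} (hx : x ∈ (q.comp p).V) (h : x ∈ p.V)
    (h' : p.π ⟨x, h⟩ ∈ q.V) : (q.comp p).π ⟨x, hx⟩ = q.π ⟨p.π ⟨x, h⟩, h'⟩ := rfl

theorem comp_assoc (r : Pl Ω l m) (q : Pl Ω κ l) (p : Pl Ω k κ) :
    (r.comp q).comp p = r.comp (q.comp p) := by
  apply ext'
  · intro x
    rw [mem_comp_V, mem_comp_V]
    constructor
    · rintro ⟨h, h'⟩
      rw [mem_comp_V] at h'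
      obtain ⟨h1, h2⟩ := h'
      exact ⟨mem_comp_V.mpr ⟨h, h1⟩, h2⟩
    · rintro ⟨h, h'⟩
      obtain ⟨h1, h2⟩ := mem_comp_V.mp h
      exact ⟨h1, mem_comp_V.mpr ⟨h2, h'⟩⟩
  · intro x hp hq
    rfl

@[simp] theorem comp_ofAlgHom_ofAlgHom (j : κ →ₐ[Ω] l) (i : k →ₐ[Ω] κ) :
    (ofAlgHom j).comp (ofAlgHom i) = ofAlgHom (j.comp i) := by
  apply ext'
  · intro x
    rw [mem_comp_V]
    simp [ofAlgHom]
  · intro x hp hq
    rfl

@[simp] theorem comp_id (p : Pl Ω k κ) : p.comp (ofAlgHom (AlgHom.id Ω k)) = p := by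
  apply ext'
  · intro x
    rw [mem_comp_V]
    exact ⟨fun ⟨_, h⟩ => h, fun h => ⟨trivial, h⟩⟩
  · intro x hp hq
    rfl

@[simp] theorem id_comp (p : Pl Ω k κ) : (ofAlgHom (AlgHom.id Ω κ)).comp p = p := by
  apply ext'
  · intro x
    rw [mem_comp_V]
    exact ⟨fun ⟨h, _⟩ => h, fun h => ⟨h, trivial⟩⟩
  · intro x hp hq
    rfl

end Basic

end Pl

section Residue

variable {L E : Type u} [Field L] [Field E] [Algebra L E] [IsAlgClosed L] [Fermat.FF.IsFF1 L E]

/-- The residue field of a place of a function field over an algebraically closed field. -/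
def residueEquiv (P : Place L E) : L ≃+* P.ResidueField :=
  haveI : Module.Finite L P.ResidueField := Fermat.FF.Gen.finite_residueField P
  haveI : Algebra.IsIntegral L P.ResidueField := Algebra.IsIntegral.of_finite L P.ResidueField
  RingEquiv.ofBijective (algebraMap L P.ResidueField)
    IsAlgClosed.algebraMap_bijective_of_isIntegral

theorem residueEquiv_apply (P : Place L E) (c : L) :
    residueEquiv P c = IsLocalRing.residue P.toValuationSubring
      (algebraMap L P.toValuationSubring c) := rfl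

variable (Ω : Type u) [Field Ω] [Algebra Ω L] [Algebra Ω E] [IsScalarTower Ω L E]

/-- A place of a function field over an algebraically closed field `L`, as an `L`-valued place. -/
def plOf (P : Place L E) : Pl Ω E L where
  V := P.toValuationSubring
  alg_mem x := by
    rw [IsScalarTower.algebraMap_apply Ω L E]
    exact P.algebraMap_mem' _
  π := ((residueEquiv P).symm : P.ResidueField →+* L).comp
    (IsLocalRing.residue P.toValuationSubring)
  isLocal x hx := by
    by_contra h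
    apply hx
    have : IsLocalRing.residue P.toValuationSubring x = 0 := by
      rwa [IsLocalRing.residue_eq_zero_iff, IsLocalRing.mem_maximalIdeal, mem_nonunits_iff]
    show (residueEquiv P).symm (IsLocalRing.residue P.toValuationSubring x) = 0
    rw [this, map_zero]
  π_alg x := by
    show (residueEquiv P).symm (IsLocalRing.residue P.toValuationSubring _) = _
    rw [RingEquiv.symm_apply_eq, residueEquiv_apply]
    congr 1
    exact Subtype.ext (IsScalarTower.algebraMap_apply Ω L E x)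

@[simp] theorem plOf_V (P : Place L E) : (plOf Ω P).V = P.toValuationSubring := rfl

theorem plOf_π_eq_iff (P : Place L E) {f : E} (hf : f ∈ (plOf Ω P).V) (c : L) :
    (plOf Ω P).π ⟨f, hf⟩ = c ↔ P.adicValuation (f - algebraMap L E c) < 1 := by
  show (residueEquiv P).symm (IsLocalRing.residue P.toValuationSubring ⟨f, hf⟩) = c ↔ _
  rw [RingEquiv.symm_apply_eq, residueEquiv_apply, ← sub_eq_zero, ← map_sub,
    IsLocalRing.residue_eq_zero_iff]
  exact Fermat.FF.mem_maximalIdeal_iff P _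

theorem plOf_comp_algebraMap (P : Place L E) :
    (plOf Ω P).comp (Pl.ofAlgHom (IsScalarTower.toAlgHom Ω L E)) =
      Pl.ofAlgHom (AlgHom.id Ω L) := by
  apply Pl.ext'
  · intro x
    rw [Pl.mem_comp_V]
    exact ⟨fun _ => trivial, fun _ => ⟨trivial, P.algebraMap_mem' _⟩⟩
  · intro x hp hq
    show (residueEquiv P).symm (IsLocalRing.residue P.toValuationSubring _) = x
    rw [RingEquiv.symm_apply_eq, residueEquiv_apply]
    rfl

end Residue

/-- An abelian group valued functor on (fields over `Ω`, places), with a cocycle `g`.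

Intended model: `Pt k = A(k)` for a proper commutative group scheme `A` over `Ω`, `spec` is
given by the valuative criterion, and for a Cartier divisor given by rational functions `s_w`
(`w ∈ A`, unique up to units of the local ring at `w`)
`g p Q = Q^♯ (s_w / s_{w₀})` where `w` is the centre of `Q` at `p` and `w₀` the image of `Q`. -/
structure HeightDatum (Ω : Type u) [Field Ω] where
  Pt : ∀ (k : Type u) [Field k] [Algebra Ω k], Type u
  [grp : ∀ (k : Type u) [Field k] [Algebra Ω k], AddCommGroup (Pt k)]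
  /-- specialisation along a place (in particular: base change along a homomorphism) -/
  spec : ∀ {k κ : Type u} [Field k] [Field κ] [Algebra Ω k] [Algebra Ω κ],
    Pl Ω k κ → (Pt k →+ Pt κ)
  spec_id : ∀ {k : Type u} [Field k] [Algebra Ω k] (Q : Pt k),
    spec (Pl.ofAlgHom (AlgHom.id Ω k)) Q = Q
  spec_comp : ∀ {k κ l : Type u} [Field k] [Field κ] [Field l] [Algebra Ω k] [Algebra Ω κ]
    [Algebra Ω l] (q : Pl Ω κ l) (p : Pl Ω k κ) (Q : Pt k),
    spec (q.comp p) Q = spec q (spec p Q)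
  /-- the cocycle -/
  g : ∀ {k κ : Type u} [Field k] [Field κ] [Algebra Ω k] [Algebra Ω κ],
    Pl Ω k κ → Pt k → k
  g_ne_zero : ∀ {k κ : Type u} [Field k] [Field κ] [Algebra Ω k] [Algebra Ω κ]
    (p : Pl Ω k κ) (Q : Pt k), g p Q ≠ 0
  g_ofAlgHom : ∀ {k κ : Type u} [Field k] [Field κ] [Algebra Ω k] [Algebra Ω κ]
    (i : k →ₐ[Ω] κ) (Q : Pt k), g (Pl.ofAlgHom i) Q = 1
  /-- `g` only depends on the centre -/
  g_congr : ∀ {k κ : Type u} [Field k] [Field κ] [Algebra Ω k] [Algebra Ω κ]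
    (p p' : Pl Ω k κ) (Q : Pt k), spec p Q = spec p' Q → g p Q = g p' Q
  /-- `g` does not change under extension of the residue field -/
  g_ofAlgHom_comp : ∀ {k κ l : Type u} [Field k] [Field κ] [Field l] [Algebra Ω k]
    [Algebra Ω κ] [Algebra Ω l] (i : κ →ₐ[Ω] l) (p : Pl Ω k κ) (Q : Pt k),
    g ((Pl.ofAlgHom i).comp p) Q = g p Q
  /-- the cocycle relation -/
  g_comp : ∀ {k κ l : Type u} [Field k] [Field κ] [Field l] [Algebra Ω k] [Algebra Ω κ]
    [Algebra Ω l] (q : Pl Ω κ l) (p : Pl Ω k κ) (Q : Pt k),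
    ∃ h : g (q.comp p) Q / g p Q ∈ p.V, p.π ⟨_, h⟩ = g q (spec p Q)
  /-- finiteness of the support of the pull back to function fields -/
  finite_support : ∀ {L E : Type u} [Field L] [Field E] [Algebra Ω L] [Algebra Ω E]
    [Algebra L E] [IsScalarTower Ω L E] [IsAlgClosed L] [Fermat.FF.IsFF1 L E] (Q : Pt E),
    {P : Place L E | P.ord (g (plOf Ω P) Q) ≠ 0}.Finite
  /-- generic points -/
  exists_generic : ∀ (L : Type u) [Field L] [Algebra Ω L] [IsAlgClosed L],
    ∃ (M : Type u) (_ : Field M) (_ : Algebra Ω M) (_ : IsAlgClosed M) (i : L →ₐ[Ω] M)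
      (a : Pt M), ∀ a₁ : Pt L, ∃ (κ : Type u) (_ : Field κ) (_ : Algebra Ω κ)
        (_ : IsAlgClosed κ) (p : Pl Ω M κ) (j : L →ₐ[Ω] κ), Function.Surjective p.π ∧
        p.comp (Pl.ofAlgHom i) = Pl.ofAlgHom j ∧ spec p a = spec (Pl.ofAlgHom j) a₁

attribute [instance] HeightDatum.grp

namespace HeightDatum

variable {Ω : Type u} [Field Ω] (𝒜 : HeightDatum Ω)

section Div

variable {L E : Type u} [Field L] [Field E] [Algebra Ω L] [Algebra Ω E]
    [Algebra L E] [IsScalarTower Ω L E] [IsAlgClosed L] [Fermat.FF.IsFF1 L E]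

variable (L) in
/-- The divisor on a function field `E/L` attached to `Q ∈ A(E)` (representing `Q^*O(D)`). -/
def div (Q : 𝒜.Pt E) : Divisor L E :=
  Finsupp.onFinset (𝒜.finite_support (L := L) Q).toFinset
    (fun P => P.ord (𝒜.g (plOf Ω P) Q)) (fun P hP => by simpa using hP)

@[simp] theorem div_apply (Q : 𝒜.Pt E) (P : Place L E) :
    𝒜.div L Q P = P.ord (𝒜.g (plOf Ω P) Q) := rfl

variable (L) in
/-- The height of a point over a function field. -/
def ht (Q : 𝒜.Pt E) : ℤ := Divisor.degree (𝒜.div L Q)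

end Div

end HeightDatum

end Fermat.Agent.AV
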