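import Mathlib
import Fermat.Agent.AV.Defs
import Fermat.Agent.RR.Corollaries

/-!
# Basic facts on divisors and valued places (team AV = S26)
-/

set_option autoImplicit false

noncomputable section

open AlgebraicCurve IntermediateField Polynomial

universe u

namespace Fermat.Agent.AV

/-- A function field in the sense of `Fermat.FF` is one in the sense of `RR`. -/
instance (priority := 50) instFunctionField (K F : Type*) [Field K] [Field F] [Algebra K F]
    [h : Fermat.FF.IsFF1 K F] : RR.FunctionField K F where
  toHasPrincipalDivisors := Fermat.FF.Gen.hasPrincipalDivisors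
  finiteResidue v := Fermat.FF.Gen.finite_residueField v
  nonempty_place := by
    obtain ⟨x, hx, hfin⟩ := h.exists_finite
    have h1 := Fermat.FF.Gen.sum_pos_ord_mul_deg hx
    by_contra hne
    rw [not_nonempty_iff] at hne
    have h2 : (Fermat.FF.Gen.setOf_ord_pos_finite (K := K) (F := F) hx).toFinset = ∅ := by
      apply Finset.eq_empty_of_isEmpty
    rw [h2, Finset.sum_empty] at h1
    have h3 : 0 < Module.finrank K⟮x⟯ F := Module.finrank_pos
    omega
  exists_finite := h.exists_finite

section Degree

variable {K F K' F' : Type*} [Field K] [Field F] [Algebra K F] [IsAlgClosed K]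
  [Fermat.FF.IsFF1 K F] [Field K'] [Field F'] [Algebra K' F'] [IsAlgClosed K']
  [Fermat.FF.IsFF1 K' F']

/-- the degree is preserved by push forward along a map of places -/
theorem degree_mapDomain (r : Place K F → Place K' F') (D : Divisor K F) :
    Divisor.degree (D.mapDomain r : Divisor K' F') = Divisor.degree D := by
  induction D using Finsupp.induction_linear with
  | zero => simp
  | add D E hD hE => rw [Finsupp.mapDomain_add, map_add, map_add, hD, hE]
  | single v n =>
    rw [Finsupp.mapDomain_single, RR.degree_single_one, RR.degree_single_one]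

end Degree

/-- The residue field of a valuation ring of an algebraically closed field is algebraically
closed. -/
theorem isAlgClosed_of_surjective {K k : Type*} [Field K] [Field k] [IsAlgClosed K]
    {A : ValuationSubring K} {π : A →+* k} (hπ : Function.Surjective π) : IsAlgClosed k := by
  refine IsAlgClosed.of_exists_root k fun p hp hirr => ?_
  obtain ⟨q, hq, hdeg, hmon⟩ := lifts_and_natDegree_eq_and_monic
    ((lifts_iff_coeff_lifts p).mpr fun n => (hπ _)) hp
  have hne : (q.map (algebraMap A K)).degree ≠ 0 := by
    rw [hmon.degree_map, degree_eq_natDegree hmon.ne_zero, hdeg]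
    have := hirr.natDegree_pos
    exact_mod_cast this.ne'
  obtain ⟨α, hα⟩ := IsAlgClosed.exists_root _ hne
  have hint : IsIntegral A α := ⟨q, hmon, by rwa [IsRoot.def, eval_map] at hα⟩
  obtain ⟨a, ha⟩ := IsIntegrallyClosed.isIntegral_iff.mp hint
  refine ⟨π a, ?_⟩
  rw [← hq, eval_map, eval₂_hom]
  rw [show q.eval a = 0 from ?_, map_zero]
  have h1 : algebraMap A K (q.eval a) = 0 := by
    rw [IsRoot.def, eval_map, ← ha, eval₂_hom] at hα
    exact hα
  exact (map_eq_zero_iff _ (FaithfulSMul.algebraMap_injective A K)).mp h1

end Fermat.Agent.AV
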