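import Mathlib

/-!
# Tensor products of domains over an algebraically closed field are domains (team AV = S26)
-/

set_option autoImplicit false

noncomputable section

open TensorProduct

namespace Fermat.Agent.AV

/-- Nullstellensatz: a nonzero element of a finitely generated domain over an algebraically closed
field does not vanish at some rational point. -/
theorem exists_algHom_ne_zero {Ω A : Type*} [Field Ω] [IsAlgClosed Ω] [CommRing A] [IsDomain A]
    [Algebra Ω A] [Algebra.FiniteType Ω A] {c : A} (hc : c ≠ 0) :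
    ∃ χ : A →ₐ[Ω] Ω, χ c ≠ 0 := by
  classical
  have hJ : (⊥ : Ideal A).jacobson = ⊥ := by
    have : IsJacobsonRing A := isJacobsonRing_of_finiteType (A := Ω)
    exact IsJacobsonRing.out' _ (Ideal.IsPrime.isRadical inferInstance)
  have : c ∉ (⊥ : Ideal A).jacobson := by
    rw [hJ]
    simpa using hc
  rw [Ideal.jacobson, Submodule.mem_sInf] at this
  push Not at this
  obtain ⟨m, ⟨-, hm⟩, hcm⟩ := this
  let _ : Field (A ⧸ m) := Ideal.Quotient.field m
  have : Algebra.FiniteType Ω (A ⧸ m) := inferInstance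
  have : Module.Finite Ω (A ⧸ m) := finite_of_finite_type_of_isJacobsonRing Ω (A ⧸ m)
  have : Algebra.IsIntegral Ω (A ⧸ m) := Algebra.IsIntegral.of_finite _ _
  have hb : Function.Bijective (algebraMap Ω (A ⧸ m)) :=
    IsAlgClosed.algebraMap_bijective_of_isIntegral
  let e : Ω ≃ₐ[Ω] (A ⧸ m) := AlgEquiv.ofBijective (Algebra.ofId Ω (A ⧸ m)) hb
  refine ⟨(e.symm : (A ⧸ m) →ₐ[Ω] Ω).comp (Ideal.Quotient.mkₐ Ω m), ?_⟩
  intro h
  have h1 : e.symm (Ideal.Quotient.mk m c) = 0 := h
  rw [map_eq_zero_iff _ e.symm.injective, Ideal.Quotient.eq_zero_iff_mem] at h1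
  exact hcm h1

/-- If `x * y = 0` then all products of coordinates vanish. -/
theorem tensor_coord_mul_eq_zero {Ω A B ι : Type*} [Field Ω] [IsAlgClosed Ω] [CommRing A]
    [IsDomain A] [Algebra Ω A] [CommRing B] [IsDomain B] [Algebra Ω B]
    [Algebra.FiniteType Ω A] (b : Module.Basis ι Ω B) (x y : A ⊗[Ω] B) (hxy : x * y = 0)
    (i j : ι) :
    (Algebra.TensorProduct.basis A b).repr x i * (Algebra.TensorProduct.basis A b).repr y j = 0 := by
  classical
  by_contra hc
  obtain ⟨χ, hχ⟩ := exists_algHom_ne_zero (Ω := Ω) hc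
  let θ : A ⊗[Ω] B →ₐ[Ω] B := Algebra.TensorProduct.lift
    ((Algebra.ofId Ω B).comp χ) (AlgHom.id Ω B) (fun _ _ => Commute.all _ _)
  have hθ : ∀ z : A ⊗[Ω] B, ∀ k : ι,
      b.repr (θ z) k = χ ((Algebra.TensorProduct.basis A b).repr z k) := by
    intro z k
    induction z using TensorProduct.induction_on with
    | zero => simp
    | tmul a c =>
      have h1 : θ (a ⊗ₜ c) = χ a • c := by
        simp [θ, Algebra.ofId_apply, Algebra.smul_def]
      rw [h1, Algebra.TensorProduct.basis_repr_tmul, map_smul]
      simp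
    | add u v hu hv => simp [map_add, hu, hv]
  have h0 : θ x * θ y = 0 := by rw [← map_mul, hxy, map_zero]
  apply hχ
  rw [map_mul, ← hθ, ← hθ]
  rcases mul_eq_zero.mp h0 with h | h
  · rw [h]; simp
  · rw [h]; simp

theorem isDomain_tensorProduct (Ω A B : Type*) [Field Ω] [IsAlgClosed Ω] [CommRing A] [IsDomain A]
    [Algebra Ω A] [CommRing B] [IsDomain B] [Algebra Ω B] : IsDomain (A ⊗[Ω] B) := by
  classical
  let b := Module.Free.chooseBasis Ω B
  let bA := Algebra.TensorProduct.basis A b
  have hnt : Nontrivial (A ⊗[Ω] B) := by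
    have : Nonempty (Module.Free.ChooseBasisIndex Ω B) := by
      by_contra h
      rw [not_nonempty_iff] at h
      have := b.repr.injective.subsingleton
      exact not_subsingleton B this
    exact bA.repr.toEquiv.nontrivial
  have key : ∀ x y : A ⊗[Ω] B, x * y = 0 → x = 0 ∨ y = 0 := by
    intro x y hxy
    by_contra hcon
    push Not at hcon
    obtain ⟨hx, hy⟩ := hcon
    obtain ⟨i, hi⟩ : ∃ i, bA.repr x i ≠ 0 := by
      by_contra h
      push Not at h
      exact hx (bA.repr.injective (Finsupp.ext fun i => by simpa using h i))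
    obtain ⟨j, hj⟩ : ∃ j, bA.repr y j ≠ 0 := by
      by_contra h
      push Not at h
      exact hy (bA.repr.injective (Finsupp.ext fun i => by simpa using h i))
    let S : Finset A := (bA.repr x).support.image (bA.repr x) ∪ (bA.repr y).support.image (bA.repr y)
    let A0 : Subalgebra Ω A := Algebra.adjoin Ω (S : Set A)
    have : Algebra.FiniteType Ω A0 :=
      (Subalgebra.fg_iff_finiteType _).mp (Subalgebra.fg_adjoin_finset S)
    let bA0 := Algebra.TensorProduct.basis A0 b
    let f : A0 ⊗[Ω] B →ₐ[Ω] A ⊗[Ω] B := Algebra.TensorProduct.map A0.val (AlgHom.id Ω B)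
    have hf : Function.Injective f :=
      Module.Flat.rTensor_preserves_injective_linearMap (M := B) A0.val.toLinearMap
        Subtype.val_injective
    have hfc : ∀ z k, bA.repr (f z) k = (bA0.repr z k : A) := by
      intro z k
      induction z using TensorProduct.induction_on with
      | zero => simp
      | tmul a c =>
        simp only [f, Algebra.TensorProduct.map_tmul, bA, bA0,
          Algebra.TensorProduct.basis_repr_tmul]
        simp
      | add u v hu hv => simp [map_add, hu, hv]
    have hlift : ∀ z : A ⊗[Ω] B, (∀ k, bA.repr z k ∈ A0) → ∃ z0, f z0 = z := by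
      intro z hz
      refine ⟨bA0.repr.symm ((bA.repr z).mapRange (fun a => if h : a ∈ A0 then (⟨a, h⟩ : A0) else 0)
        (by simp; rfl)), ?_⟩
      apply bA.repr.injective
      ext k
      rw [hfc]
      simp [hz k]
    have hmem : ∀ z, (∀ k, bA.repr z k ≠ 0 → bA.repr z k ∈ S) → ∀ k, bA.repr z k ∈ A0 := by
      intro z hz k
      by_cases h : bA.repr z k = 0
      · rw [h]; exact zero_mem _
      · exact Algebra.subset_adjoin (hz k h)
    obtain ⟨x0, hx0⟩ := hlift x (hmem x fun k hk => Finset.mem_union_left _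
      (Finset.mem_image_of_mem _ (Finsupp.mem_support_iff.mpr hk)))
    obtain ⟨y0, hy0⟩ := hlift y (hmem y fun k hk => Finset.mem_union_right _
      (Finset.mem_image_of_mem _ (Finsupp.mem_support_iff.mpr hk)))
    have hxy0 : x0 * y0 = 0 := by
      apply hf
      rw [map_mul, hx0, hy0, hxy, map_zero]
    have h := tensor_coord_mul_eq_zero b x0 y0 hxy0 i j
    have h' : bA.repr x i * bA.repr y j = 0 := by
      rw [← hx0, ← hy0, hfc, hfc, ← Subalgebra.coe_mul]
      rw [h]
      rfl
    exact (mul_ne_zero hi hj) h'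
  have : NoZeroDivisors (A ⊗[Ω] B) := ⟨fun {x y} h => key x y h⟩
  exact NoZeroDivisors.to_isDomain _

end Fermat.Agent.AV
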