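import Mathlib
import Fermat.Agent.AV.TensorDomain
import Fermat.Agent.AV.Defs

/-!
# Constant field extensions of function fields (team AV = S26)

`CF Ω F L` is the field of fractions of `L ⊗[Ω] F`.
-/

set_option autoImplicit false

noncomputable section

open TensorProduct AlgebraicCurve IntermediateField

universe u

namespace Fermat.Agent.AV

section Def

variable (Ω F L : Type u) [Field Ω] [IsAlgClosed Ω] [Field F] [Algebra Ω F] [Field L] [Algebra Ω L]

instance isDomain_tensor : IsDomain (L ⊗[Ω] F) := isDomain_tensorProduct Ω L F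

/-- The constant field extension `L(F) = Frac (L ⊗ F)`. -/
def CF : Type u := FractionRing (L ⊗[Ω] F)

instance CF.instField : Field (CF Ω F L) := inferInstanceAs (Field (FractionRing (L ⊗[Ω] F)))

instance CF.instAlgL : Algebra L (CF Ω F L) :=
  inferInstanceAs (Algebra L (FractionRing (L ⊗[Ω] F)))

instance CF.instAlgΩ : Algebra Ω (CF Ω F L) :=
  Algebra.compHom (CF Ω F L) (algebraMap Ω L)

instance CF.instTower : IsScalarTower Ω L (CF Ω F L) := IsScalarTower.of_algebraMap_eq fun _ => rfl

end Def

namespace CF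

section Basic

variable (Ω F L : Type u) [Field Ω] [IsAlgClosed Ω] [Field F] [Algebra Ω F] [Field L] [Algebra Ω L]

/-- The inclusion `L ⊗ F → CF`. -/
def ofTensor : L ⊗[Ω] F →ₐ[L] CF Ω F L :=
  IsScalarTower.toAlgHom L (L ⊗[Ω] F) (FractionRing (L ⊗[Ω] F))

theorem ofTensor_injective : Function.Injective (ofTensor Ω F L) :=
  IsFractionRing.injective (L ⊗[Ω] F) (FractionRing (L ⊗[Ω] F))

/-- The inclusion `F → CF`. -/
def inr : F →ₐ[Ω] CF Ω F L :=
  ((ofTensor Ω F L).restrictScalars Ω).comp Algebra.TensorProduct.includeRight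

variable {Ω F L}

theorem ofTensor_tmul (l : L) (f : F) :
    ofTensor Ω F L (l ⊗ₜ[Ω] f) = algebraMap L (CF Ω F L) l * inr Ω F L f := by
  have : l ⊗ₜ[Ω] f = l • ((1 : L) ⊗ₜ[Ω] f) := by
    rw [TensorProduct.smul_tmul', smul_eq_mul, mul_one]
  rw [this, map_smul, Algebra.smul_def]
  rfl

theorem inr_injective : Function.Injective (inr Ω F L) := (inr Ω F L).injective

theorem exists_div (f : CF Ω F L) :
    ∃ a b : L ⊗[Ω] F, b ≠ 0 ∧ f * ofTensor Ω F L b = ofTensor Ω F L a := by
  obtain ⟨a, b, hb, h⟩ := IsFractionRing.div_surjective (A := L ⊗[Ω] F)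
    (K := FractionRing (L ⊗[Ω] F)) f
  have hb0 : b ≠ 0 := nonZeroDivisors.ne_zero hb
  have hb1 : ofTensor Ω F L b ≠ 0 := by
    intro h0
    exact hb0 (ofTensor_injective Ω F L (by rw [h0, map_zero]))
  refine ⟨a, b, hb0, ?_⟩
  have h2 : f = ofTensor Ω F L a / ofTensor Ω F L b := h.symm
  rw [h2, div_mul_cancel₀ _ hb1]

theorem linearIndependent_inr {ι : Type*} {v : ι → F} (hv : LinearIndependent Ω v) :
    LinearIndependent L (fun i => inr Ω F L (v i)) := by
  have h1 : LinearIndependent L (fun i => (1 : L) ⊗ₜ[Ω] v i) := by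
    let b := Module.Basis.extend hv.linearIndepOn_id
    let j : ι → hv.linearIndepOn_id.extend (Set.subset_univ _) := fun i =>
      ⟨v i, hv.linearIndepOn_id.subset_extend _ ⟨i, rfl⟩⟩
    have hj : Function.Injective j := fun i i' h => hv.injective (congrArg Subtype.val h)
    have h2 := (Algebra.TensorProduct.basis L b).linearIndependent.comp j hj
    convert h2 using 1
    ext i
    rw [Function.comp_apply, Algebra.TensorProduct.basis_apply, Module.Basis.extend_apply_self]
  exact h1.map' (ofTensor Ω F L).toLinearMap (LinearMap.ker_eq_bot.mpr (ofTensor_injective Ω F L))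

end Basic

section FF1

open IntermediateField.algebraAdjoinAdjoin

variable {Ω F L : Type u} [Field Ω] [IsAlgClosed Ω] [Field F] [Algebra Ω F] [Field L] [Algebra Ω L]

theorem linearIndependent_pow {K E : Type*} [Field K] [Field E] [Algebra K E] {x : E}
    (hx : Transcendental K x) : LinearIndependent K (fun i : ℕ => x ^ i) := by
  have h1 := (Polynomial.basisMonomials K).linearIndependent.map'
    (Polynomial.aeval x : Polynomial K →ₐ[K] E).toLinearMap
    (LinearMap.ker_eq_bot.mpr (transcendental_iff_injective.mp hx))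
  have h2 : (fun i : ℕ => x ^ i) =
      (Polynomial.aeval x : Polynomial K →ₐ[K] E).toLinearMap ∘ (Polynomial.basisMonomials K) := by
    ext i
    simp
  rw [h2]
  exact h1

theorem transcendental_inr {x : F} (hx : Transcendental Ω x) : Transcendental L (inr Ω F L x) := by
  rw [transcendental_iff]
  intro p hp
  have h1 := linearIndependent_inr (L := L) (linearIndependent_pow hx)
  rw [Polynomial.aeval_eq_sum_range] at hp
  have h2 : ∀ i, inr Ω F L (x ^ i) = inr Ω F L x ^ i := fun i => map_pow _ _ _
  simp only [h2] at h1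
  ext i
  rw [Polynomial.coeff_zero]
  by_cases hi : i ∈ Finset.range (p.natDegree + 1)
  · exact linearIndependent_iff'.mp h1 _ _ hp i hi
  · apply Polynomial.coeff_eq_zero_of_natDegree_lt
    simpa [Nat.lt_succ_iff] using hi

theorem inr_mem_adjoin {x : F} {c : F} (hc : c ∈ Ω⟮x⟯) : inr Ω F L c ∈ L⟮inr Ω F L x⟯ := by
  have h1 : inr Ω F L c ∈ Ω⟮inr Ω F L x⟯ := by
    have := IntermediateField.adjoin_map Ω {x} (inr Ω F L)
    rw [Set.image_singleton] at this
    rw [← this]
    exact ⟨c, hc, rfl⟩
  have h2 : Ω⟮inr Ω F L x⟯ ≤ (L⟮inr Ω F L x⟯).restrictScalars Ω := by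
    rw [IntermediateField.adjoin_simple_le_iff]
    exact IntermediateField.mem_adjoin_simple_self L _
  exact h2 h1

/-- linear independence over `Ω(x)` implies linear independence over `L(x)`. -/
theorem linearIndependent_inr_adjoin {x : F} (hx : Transcendental Ω x) {ι : Type*}
    {w : ι → F} (hw : LinearIndependent Ω⟮x⟯ w) :
    LinearIndependent L⟮inr Ω F L x⟯ (fun j => inr Ω F L (w j)) := by
  classical
  -- the family `x ^ i * w j` is linearly independent over `Ω`
  have h1 : LinearIndependent Ω (fun ij : ℕ × ι => x ^ ij.1 * w ij.2) := by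
    have h2 : LinearIndependent Ω (fun i : ℕ => (AdjoinSimple.gen Ω x) ^ i) := by
      apply linearIndependent_pow
      rw [← transcendental_algebraMap_iff (algebraMap Ω⟮x⟯ F).injective]
      exact hx
    have h3 := linearIndependent_smul h2 hw
    exact h3
  have h4 := linearIndependent_inr (L := L) h1
  have h5 : LinearIndependent (Algebra.adjoin L {inr Ω F L x}) (fun j => inr Ω F L (w j)) := by
    rw [linearIndependent_iff']
    intro s r hr j hj
    have h6 : ∀ y : Algebra.adjoin L {inr Ω F L x}, ∃ p : Polynomial L,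
        (y : CF Ω F L) = Polynomial.aeval (inr Ω F L x) p := by
      intro y
      obtain ⟨y, hy⟩ := y
      rw [Algebra.adjoin_singleton_eq_range_aeval] at hy
      obtain ⟨p, hp⟩ := hy
      exact ⟨p, hp.symm⟩
    choose q hq using h6
    let N := s.sup (fun j => (q (r j)).natDegree) + 1
    have h7 : ∑ ij ∈ Finset.range N ×ˢ s, (q (r ij.2)).coeff ij.1 •
        inr Ω F L (x ^ ij.1 * w ij.2) = 0 := by
      rw [Finset.sum_product_right, ← hr]
      refine Finset.sum_congr rfl fun k hk => ?_
      have h8 : (r k • inr Ω F L (w k) : CF Ω F L) =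
          Polynomial.aeval (inr Ω F L x) (q (r k)) * inr Ω F L (w k) := by
        rw [← hq]; rfl
      have h9 : (q (r k)).natDegree < N := Nat.lt_succ_of_le
        (Finset.le_sup (f := fun j => (q (r j)).natDegree) hk)
      rw [h8, Polynomial.aeval_eq_sum_range' h9, Finset.sum_mul]
      refine Finset.sum_congr rfl fun i _ => ?_
      rw [map_mul, map_pow, smul_mul_assoc]
    have h10 := linearIndependent_iff'.mp h4 _ _ h7
    have h11 : q (r j) = 0 := by
      ext i
      rw [Polynomial.coeff_zero]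
      by_cases hi : i < N
      · exact h10 (i, j) (Finset.mem_product.mpr ⟨Finset.mem_range.mpr hi, hj⟩)
      · apply Polynomial.coeff_eq_zero_of_natDegree_lt
        have h9 : (q (r j)).natDegree < N := Nat.lt_succ_of_le
          (Finset.le_sup (f := fun j => (q (r j)).natDegree) hj)
        omega
    have h12 := hq (r j)
    rw [h11, map_zero] at h12
    exact Subtype.ext h12
  exact (LinearIndependent.iff_fractionRing (Algebra.adjoin L {inr Ω F L x})
    L⟮inr Ω F L x⟯).mp h5

theorem span_inr_eq_top {x : F} {ι : Type*} [Finite ι]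
    (w : Module.Basis ι Ω⟮x⟯ F) :
    Submodule.span L⟮inr Ω F L x⟯ (Set.range fun j => inr Ω F L (w j)) = ⊤ := by
  classical
  have := Fintype.ofFinite ι
  set S := Submodule.span L⟮inr Ω F L x⟯ (Set.range fun j => inr Ω F L (w j)) with hS
  have hinr : ∀ f : F, inr Ω F L f ∈ S := by
    intro f
    rw [← w.sum_repr f, map_sum]
    refine Submodule.sum_mem _ fun j _ => ?_
    have h1 : inr Ω F L (w.repr f j • w j) =
        (⟨inr Ω F L (w.repr f j), inr_mem_adjoin (w.repr f j).2⟩ : L⟮inr Ω F L x⟯) •
          inr Ω F L (w j) := by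
      have : (w.repr f j • w j : F) = (w.repr f j : F) * w j := rfl
      rw [this, map_mul]
      rfl
    rw [h1]
    exact Submodule.smul_mem _ _ (Submodule.subset_span ⟨j, rfl⟩)
  have hone : (1 : CF Ω F L) ∈ S := by
    rw [← map_one (inr Ω F L)]
    exact hinr 1
  have hmul : ∀ a b, a ∈ S → b ∈ S → a * b ∈ S := by
    intro a b ha hb
    induction ha using Submodule.span_induction with
    | mem a ha =>
      obtain ⟨j, rfl⟩ := ha
      induction hb using Submodule.span_induction with
      | mem b hb =>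
        obtain ⟨k, rfl⟩ := hb
        show inr Ω F L (w j) * inr Ω F L (w k) ∈ S
        rw [← map_mul]
        exact hinr _
      | zero => rw [mul_zero]; exact zero_mem _
      | add b c _ _ hb hc => rw [mul_add]; exact add_mem hb hc
      | smul r b _ hb => rw [mul_smul_comm]; exact Submodule.smul_mem _ _ hb
    | zero => rw [zero_mul]; exact zero_mem _
    | add b c _ _ hb hc => rw [add_mul]; exact add_mem hb hc
    | smul r b _ hb => rw [smul_mul_assoc]; exact Submodule.smul_mem _ _ hb
  let A : Subalgebra L⟮inr Ω F L x⟯ (CF Ω F L) := S.toSubalgebra hone hmul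
  have hfd : FiniteDimensional L⟮inr Ω F L x⟯ A :=
    FiniteDimensional.span_of_finite _ (Set.finite_range _)
  have hT : ∀ a : L ⊗[Ω] F, ofTensor Ω F L a ∈ A := by
    intro a
    induction a using TensorProduct.induction_on with
    | zero => rw [map_zero]; exact zero_mem _
    | tmul l f =>
      rw [ofTensor_tmul]
      refine mul_mem ?_ (hinr f)
      exact A.algebraMap_mem (algebraMap L L⟮inr Ω F L x⟯ l)
    | add a b ha hb => rw [map_add]; exact add_mem ha hb
  rw [eq_top_iff]
  intro f _
  obtain ⟨a, b, hb, h⟩ := exists_div f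
  have hb' : ofTensor Ω F L b ≠ 0 := by
    intro h0
    exact hb (ofTensor_injective Ω F L (by rw [h0, map_zero]))
  have h1 : f = ofTensor Ω F L a * (ofTensor Ω F L b)⁻¹ := by
    rw [← h, mul_assoc, mul_inv_cancel₀ hb', mul_one]
  have h2 : (ofTensor Ω F L b)⁻¹ ∈ A := by
    refine Subalgebra.inv_mem_of_algebraic A (x := ⟨_, hT b⟩) ?_
    have : IsAlgebraic L⟮inr Ω F L x⟯ (⟨_, hT b⟩ : A) := Algebra.IsAlgebraic.isAlgebraic _
    exact this.algebraMap (A := CF Ω F L)
  have h3 : ofTensor Ω F L a * (ofTensor Ω F L b)⁻¹ ∈ A := mul_mem (hT a) h2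
  rw [h1]
  exact h3

/-- A basis of `F/Ω(x)` is a basis of `L(F)/L(x)`. -/
def basisAdjoin {x : F} (hx : Transcendental Ω x) {ι : Type*} [Finite ι]
    (w : Module.Basis ι Ω⟮x⟯ F) : Module.Basis ι L⟮inr Ω F L x⟯ (CF Ω F L) :=
  Module.Basis.mk (linearIndependent_inr_adjoin hx w.linearIndependent)
    (span_inr_eq_top w).ge

@[simp] theorem basisAdjoin_apply {x : F} (hx : Transcendental Ω x) {ι : Type*} [Finite ι]
    (w : Module.Basis ι Ω⟮x⟯ F) (j : ι) :
    basisAdjoin (L := L) hx w j = inr Ω F L (w j) := by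
  rw [basisAdjoin, Module.Basis.mk_apply]

theorem finrank_adjoin_inr [Fermat.FF.IsFF1 Ω F] {x : F} (hx : Transcendental Ω x) :
    Module.finrank L⟮inr Ω F L x⟯ (CF Ω F L) = Module.finrank Ω⟮x⟯ F := by
  have := Fermat.FF.IsFF1.finiteDimensional_adjoin hx
  have b := Module.finBasis Ω⟮x⟯ F
  rw [Module.finrank_eq_card_basis (basisAdjoin (L := L) hx b), Fintype.card_fin]

variable (Ω F L) in
instance instIsFF1 [Fermat.FF.IsFF1 Ω F] : Fermat.FF.IsFF1 L (CF Ω F L) := by
  obtain ⟨x, hx, hfin⟩ := ‹Fermat.FF.IsFF1 Ω F›.exists_finite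
  exact ⟨inr Ω F L x, transcendental_inr hx,
    Module.Finite.of_basis (basisAdjoin (L := L) hx (Module.finBasis Ω⟮x⟯ F))⟩

end FF1

end CF

end Fermat.Agent.AV
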