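import Mathlib
import Fermat.Agent.S26T.LocalRings

/-!
# Values of rational functions at points of an integral scheme (team AV = S26)

For a local ring `R` and `h : Spec R ⟶ A`, `Val h φ c` says that the rational function `φ` on the
integral scheme `A` is regular at the image of the closed point and that its pull back is `c`.
-/

set_option autoImplicit false

noncomputable section

open CategoryTheory AlgebraicGeometry IsLocalRing TopologicalSpace Fermat.Agent.S26T

universe u

namespace Fermat.Agent.AV.Sch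

variable {A : Scheme.{u}} [IsIntegral A]

theorem mem_O {w : A} {φ : A.functionField} :
    φ ∈ Var.O A w ↔ ∃ u : A.presheaf.stalk w, algebraMap _ A.functionField u = φ := Iff.rfl

/-- `Val h φ c` : the rational function `φ` is regular at the image of the closed point of
`Spec R` and its pull back along `h` is `c`. -/
def Val {R : Type u} [CommRing R] [IsLocalRing R] (h : Spec (CommRingCat.of R) ⟶ A)
    (φ : A.functionField) (c : R) : Prop :=
  ∃ u : A.presheaf.stalk (h (closedPoint R)), algebraMap _ A.functionField u = φ ∧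
    (Scheme.stalkClosedPointTo h).hom u = c

omit [IsIntegral A] in
theorem specializes_of_factor {R : Type u} [CommRing R] [IsLocalRing R] {w : A}
    (θ : A.presheaf.stalk w ⟶ CommRingCat.of R) :
    (Spec.map θ ≫ A.fromSpecStalk w) (closedPoint R) ⤳ w := by
  have h1 : (Spec.map θ ≫ A.fromSpecStalk w) (closedPoint R) ∈ Set.range (A.fromSpecStalk w) :=
    ⟨Spec.map θ (closedPoint R), rfl⟩
  rwa [Scheme.range_fromSpecStalk] at h1

omit [IsIntegral A] in
theorem factor_eq {R : Type u} [CommRing R] [IsLocalRing R] (h : Spec (CommRingCat.of R) ⟶ A)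
    {w : A} (hw : h (closedPoint R) ⤳ w) (θ : A.presheaf.stalk w ⟶ CommRingCat.of R)
    (hθ : Spec.map θ ≫ A.fromSpecStalk w = h) :
    θ = A.presheaf.stalkSpecializes hw ≫ Scheme.stalkClosedPointTo h := by
  apply Spec.map_injective
  rw [← cancel_mono (A.fromSpecStalk w), hθ, Spec.map_comp, Category.assoc,
    Scheme.SpecMap_stalkSpecializes_fromSpecStalk, Scheme.Spec_stalkClosedPointTo_fromSpecStalk]

theorem val_of_factor {R : Type u} [CommRing R] [IsLocalRing R]
    (h : Spec (CommRingCat.of R) ⟶ A)
    {w : A} (θ : A.presheaf.stalk w ⟶ CommRingCat.of R)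
    (hθ : Spec.map θ ≫ A.fromSpecStalk w = h) (u : A.presheaf.stalk w) :
    Val h (algebraMap _ _ u) (θ.hom u) := by
  have hw : h (closedPoint R) ⤳ w := by
    subst hθ; exact specializes_of_factor θ
  refine ⟨(A.presheaf.stalkSpecializes hw).hom u, Var.algebraMap_stalkSpecializes A hw u, ?_⟩
  conv_rhs => rw [factor_eq h hw θ hθ]
  rfl

/-- the value at a point given by a homomorphism from a local ring -/
theorem val_mk {R : Type u} [CommRing R] [IsLocalRing R] {w : A} (ψ : Var.O A w →+* R)
    (x : Var.O A w) : Val (Var.mk w ψ) (x : A.functionField) (ψ x) := by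
  obtain ⟨u, rfl⟩ := (Var.stalkEquiv A w).surjective x
  exact val_of_factor (Var.mk w ψ)
    (CommRingCat.ofHom (ψ.comp (Var.stalkEquiv A w).toRingHom)) rfl u

namespace Val

variable {R : Type u} [CommRing R] [IsLocalRing R] {h : Spec (CommRingCat.of R) ⟶ A}

theorem unique {φ : A.functionField} {c c' : R} (h1 : Val h φ c) (h2 : Val h φ c') : c = c' := by
  obtain ⟨u, hu, rfl⟩ := h1
  obtain ⟨u', hu', rfl⟩ := h2
  have := Var.algebraMap_stalk_injective A _ (hu.trans hu'.symm)
  rw [this]

theorem mul {φ ψ : A.functionField} {c d : R} (h1 : Val h φ c) (h2 : Val h ψ d) :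
    Val h (φ * ψ) (c * d) := by
  obtain ⟨u, rfl, rfl⟩ := h1
  obtain ⟨u', rfl, rfl⟩ := h2
  exact ⟨u * u', map_mul _ _ _, map_mul _ _ _⟩

theorem add {φ ψ : A.functionField} {c d : R} (h1 : Val h φ c) (h2 : Val h ψ d) :
    Val h (φ + ψ) (c + d) := by
  obtain ⟨u, rfl, rfl⟩ := h1
  obtain ⟨u', rfl, rfl⟩ := h2
  exact ⟨u + u', map_add _ _ _, map_add _ _ _⟩

theorem one : Val h 1 1 := ⟨1, map_one _, map_one _⟩

theorem exists_of_mem {φ : A.functionField} (hφ : φ ∈ Var.O A (h (closedPoint R))) :
    ∃ c, Val h φ c := by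
  obtain ⟨u, hu⟩ := hφ
  exact ⟨_, u, hu, rfl⟩

theorem exists_of_mem' {w : A} (hw : h (closedPoint R) ⤳ w) {φ : A.functionField}
    (hφ : φ ∈ Var.O A w) : ∃ c, Val h φ c :=
  exists_of_mem (Var.O_mono A hw hφ)

theorem isUnit {φ : A.functionField} {c : R} (h1 : Val h φ c)
    (hφ : φ⁻¹ ∈ Var.O A (h (closedPoint R))) (h0 : φ ≠ 0) : IsUnit c := by
  obtain ⟨d, hd⟩ := exists_of_mem hφ
  have := h1.mul hd
  rw [mul_inv_cancel₀ h0] at this
  exact IsUnit.of_mul_eq_one _ (this.unique one)

theorem map {φ : A.functionField} {c : R} (h1 : Val h φ c) {S : Type u} [CommRing S]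
    [IsLocalRing S] (ρ : R →+* S) : Val (Spec.map (CommRingCat.ofHom ρ) ≫ h) φ (ρ c) := by
  obtain ⟨u, rfl, rfl⟩ := h1
  refine val_of_factor _ (Scheme.stalkClosedPointTo h ≫ CommRingCat.ofHom ρ) ?_ u
  rw [Spec.map_comp, Category.assoc, Scheme.Spec_stalkClosedPointTo_fromSpecStalk]

end Val

omit [IsIntegral A] in
/-- the image of the closed point of a composite along a local homomorphism -/
theorem comp_closedPoint {R S : Type u} [CommRing R] [IsLocalRing R] [CommRing S] [IsLocalRing S]
    (ρ : R →+* S) [IsLocalHom ρ] (h : Spec (CommRingCat.of R) ⟶ A) :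
    (Spec.map (CommRingCat.ofHom ρ) ≫ h) (closedPoint S) = h (closedPoint R) := by
  have : Spec.map (CommRingCat.ofHom ρ) (closedPoint S) = closedPoint R :=
    comap_closedPoint (S := S) ρ
  exact congrArg h this

omit [IsIntegral A] in
/-- the image of the closed point of a composite specialises to the image of the closed point -/
theorem comp_closedPoint_specializes {R S : Type u} [CommRing R] [IsLocalRing R] [CommRing S]
    [IsLocalRing S] (ρ : R →+* S) (h : Spec (CommRingCat.of R) ⟶ A) :
    (Spec.map (CommRingCat.ofHom ρ) ≫ h) (closedPoint S) ⤳ h (closedPoint R) := by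
  exact (specializes_closedPoint (R := R)
    (Spec.map (CommRingCat.ofHom ρ) (closedPoint S))).map h.continuous

end Fermat.Agent.AV.Sch
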