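import Mathlib
import Fermat.Agent.AV.Defs
import Fermat.Agent.AV.SchemeVal
import Fermat.Agent.AV.SchemeBase

/-!
# Points of a proper group scheme with values in fields; specialisation along places (S26)

`X : GVar K` is a proper integral commutative group scheme over `K`, `Ω` a field over `K`, and
`Pt X Ω k = A(k)` for every field `k` over `Ω` (it is `X.Pt k` where `k` is considered as a
`K`-algebra via `K → Ω → k`).  `extend p Q` is the extension of `Q : Spec k → A` to the
valuation ring of the place `p`, `specHom p` the specialisation.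
-/

set_option autoImplicit false

noncomputable section

open CategoryTheory AlgebraicGeometry IsLocalRing NeronModelInfra GoodReductionJacobian
open Fermat.Agent.S26T

universe u

namespace Fermat.Agent.AV.Sch

/-- `Spec` of a ring homomorphism -/
abbrev sp {R S : Type u} [CommRing R] [CommRing S] (φ : R →+* S) :
    Spec (CommRingCat.of S) ⟶ Spec (CommRingCat.of R) := Spec.map (CommRingCat.ofHom φ)

theorem sp_comp {R S T : Type u} [CommRing R] [CommRing S] [CommRing T] (φ : R →+* S)
    (ψ : S →+* T) : sp ψ ≫ sp φ = sp (ψ.comp φ) := by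
  rw [← Spec.map_comp]
  rfl

theorem sp_id {R : Type u} [CommRing R] : sp (RingHom.id R) = 𝟙 _ := Spec.map_id _

theorem sp_injective {R S : Type u} [CommRing R] [CommRing S] {φ ψ : R →+* S} (h : sp φ = sp ψ) :
    φ = ψ := by
  have h1 := Spec.map_injective h
  exact congrArg CommRingCat.Hom.hom h1

variable {K : Type u} [Field K] (X : GVar K)
variable (Ω : Type u) [Field Ω] [Algebra K Ω]

/-- the composite `K → Ω → k` -/
abbrev toFld (k : Type u) [Field k] [Algebra Ω k] : K →+* k :=
  (algebraMap Ω k).comp (algebraMap K Ω)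

/-- points of `A` with values in the field `k` over `Ω` -/
def Pt (k : Type u) [Field k] [Algebra Ω k] : Type u :=
  @GVar.Pt K _ X k _ (toFld (K := K) Ω k).toAlgebra

instance (k : Type u) [Field k] [Algebra Ω k] : AddCommGroup (Pt X Ω k) :=
  @GVar.instAddCommGroupPt K _ X k _ (toFld (K := K) Ω k).toAlgebra

variable {X Ω}

/-- the morphism underlying a point -/
def Pt.mor {k : Type u} [Field k] [Algebra Ω k] (Q : Pt X Ω k) : Spec (CommRingCat.of k) ⟶ X.A :=
  Q.1

theorem Pt.mor_comp {k : Type u} [Field k] [Algebra Ω k] (Q : Pt X Ω k) :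
    Q.mor ≫ X.f = sp (toFld (K := K) Ω k) := Q.2

/-- construct a point -/
def Pt.mk {k : Type u} [Field k] [Algebra Ω k] (h : Spec (CommRingCat.of k) ⟶ X.A)
    (hh : h ≫ X.f = sp (toFld (K := K) Ω k)) : Pt X Ω k := ⟨h, hh⟩

@[simp] theorem Pt.mor_mk {k : Type u} [Field k] [Algebra Ω k]
    (h : Spec (CommRingCat.of k) ⟶ X.A)
    (hh : h ≫ X.f = sp (toFld (K := K) Ω k)) : (Pt.mk h hh).mor = h := rfl

theorem Pt.ext {k : Type u} [Field k] [Algebra Ω k] {Q Q' : Pt X Ω k} (h : Q.mor = Q'.mor) :
    Q = Q' := Subtype.ext h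

/-- the image point in `A` -/
def Pt.pt {k : Type u} [Field k] [Algebra Ω k] (Q : Pt X Ω k) : X.A := Q.mor (closedPoint k)

section Place

variable {k κ l : Type u} [Field k] [Field κ] [Field l] [Algebra Ω k] [Algebra Ω κ] [Algebra Ω l]

/-- the structure homomorphism of the valuation ring -/
def plHom (p : Pl Ω k κ) : Ω →+* p.V := (algebraMap Ω k).codRestrict p.V.toSubring p.alg_mem

theorem subtype_comp_plHom (p : Pl Ω k κ) : (p.V.subtype).comp (plHom p) = algebraMap Ω k := rfl

theorem π_comp_plHom (p : Pl Ω k κ) : p.π.comp (plHom p) = algebraMap Ω κ :=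
  RingHom.ext fun x => p.π_alg x

/-- the structure homomorphism of the valuation ring -/
abbrev toV (p : Pl Ω k κ) : K →+* p.V := (plHom p).comp (algebraMap K Ω)

instance (p : Pl Ω k κ) : IsLocalHom p.π := ⟨fun x hx => p.isLocal x hx.ne_zero⟩

theorem exists_extend (p : Pl Ω k κ) (Q : Pt X Ω k) :
    ∃ e : Spec (CommRingCat.of p.V) ⟶ X.A, sp p.V.subtype ≫ e = Q.mor ∧
      e ≫ X.f = sp (toV (K := K) p) := by
  have h1 : ValuativeCriterion X.f := by
    have : IsProper X.f := inferInstance
    rw [IsProper.eq_valuativeCriterion] at this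
    exact this.1.1.1
  let S : ValuativeCommSq X.f :=
    { R := p.V
      K := k
      i₁ := Q.mor
      i₂ := sp (toV (K := K) p)
      commSq := ⟨by
        rw [Q.mor_comp]
        exact (sp_comp (toV (K := K) p) (algebraMap p.V k)).symm⟩ }
  obtain ⟨⟨⟨e, he, he'⟩, -⟩⟩ := h1 S
  exact ⟨e, he, he'⟩

variable (X) in
theorem extend_unique {V : Type u} [CommRing V] [IsDomain V] [ValuationRing V] [Algebra V k]
    [IsFractionRing V k] {e e' : Spec (CommRingCat.of V) ⟶ X.A}
    (h : sp (algebraMap V k) ≫ e = sp (algebraMap V k) ≫ e') (h' : e ≫ X.f = e' ≫ X.f) :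
    e = e' := by
  have h1 : ValuativeCriterion.Uniqueness X.f := IsSeparated.valuativeCriterion X.f
  let S : ValuativeCommSq X.f :=
    { R := V
      K := k
      i₁ := sp (algebraMap V k) ≫ e
      i₂ := e ≫ X.f
      commSq := ⟨Category.assoc _ _ _⟩ }
  have h2 := (h1 S).elim ⟨e, rfl, rfl⟩ ⟨e', h.symm, h'.symm⟩
  exact congrArg CommSq.LiftStruct.l h2

/-- the extension of a point to the valuation ring of a place -/
def extend (p : Pl Ω k κ) (Q : Pt X Ω k) : Spec (CommRingCat.of p.V) ⟶ X.A :=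
  (exists_extend p Q).choose

@[reassoc] theorem sp_extend (p : Pl Ω k κ) (Q : Pt X Ω k) : sp p.V.subtype ≫ extend p Q = Q.mor :=
  (exists_extend p Q).choose_spec.1

theorem extend_comp (p : Pl Ω k κ) (Q : Pt X Ω k) : extend p Q ≫ X.f = sp (toV (K := K) p) :=
  (exists_extend p Q).choose_spec.2

theorem eq_extend (p : Pl Ω k κ) (Q : Pt X Ω k) {e : Spec (CommRingCat.of p.V) ⟶ X.A}
    (h : sp p.V.subtype ≫ e = Q.mor) (h' : e ≫ X.f = sp (toV (K := K) p)) : e = extend p Q :=
  extend_unique (k := k) X (h.trans (sp_extend p Q).symm) (h'.trans (extend_comp p Q).symm)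

/-- specialisation of points (underlying function) -/
def specFun (p : Pl Ω k κ) (Q : Pt X Ω k) : Pt X Ω κ :=
  Pt.mk (sp p.π ≫ extend p Q) (by
    rw [Category.assoc, extend_comp, sp_comp, ← RingHom.comp_assoc, π_comp_plHom])

theorem specFun_mor (p : Pl Ω k κ) (Q : Pt X Ω k) : (specFun p Q).mor = sp p.π ≫ extend p Q := rfl

theorem specFun_ofAlgHom (i : k →ₐ[Ω] κ) (Q : Pt X Ω k) :
    (specFun (Pl.ofAlgHom i) Q).mor = sp (i : k →+* κ) ≫ Q.mor := by
  rw [specFun_mor, ← sp_extend (Pl.ofAlgHom i) Q, ← Category.assoc, sp_comp]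
  rfl

theorem specFun_comp (q : Pl Ω κ l) (p : Pl Ω k κ) (Q : Pt X Ω k) :
    specFun (q.comp p) Q = specFun q (specFun p Q) := by
  apply Pt.ext
  rw [specFun_mor, specFun_mor]
  -- the map `V_{qp} → V_p`
  let ι : (q.comp p).V →+* p.V :=
    ((q.comp p).V.subtype).codRestrict p.V.toSubring (fun x => x.2.1)
  let ρ : (q.comp p).V →+* q.V :=
    (p.π.comp ι).codRestrict q.V.toSubring (fun x => x.2.2)
  have h1 : sp ι ≫ extend (q.comp p) Q = extend p Q := by
    apply eq_extend
    · rw [← Category.assoc, sp_comp]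
      exact sp_extend (q.comp p) Q
    · rw [Category.assoc, extend_comp, sp_comp]
      rfl
  have h2 : sp ρ ≫ extend (q.comp p) Q = extend q (specFun p Q) := by
    apply eq_extend
    · rw [specFun_mor, ← h1, ← Category.assoc, ← Category.assoc, sp_comp, sp_comp]
      rfl
    · rw [Category.assoc, extend_comp, sp_comp]
      congr 1
      apply RingHom.ext
      intro x
      exact Subtype.ext (p.π_alg _)
  rw [← h2, ← Category.assoc, sp_comp]
  rfl

theorem extend_closedPoint (p : Pl Ω k κ) (Q : Pt X Ω k) :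
    extend p Q (closedPoint p.V) = (specFun p Q).pt := by
  exact (comp_closedPoint p.π (extend p Q)).symm

theorem pt_specializes (p : Pl Ω k κ) (Q : Pt X Ω k) : Q.pt ⤳ (specFun p Q).pt := by
  rw [← extend_closedPoint]
  have h1 := comp_closedPoint_specializes p.V.subtype (extend p Q)
  rw [sp_extend] at h1
  exact h1

theorem pt_ofAlgHom (i : k →ₐ[Ω] κ) (Q : Pt X Ω k) :
    (specFun (Pl.ofAlgHom i) Q).pt = Q.pt := by
  unfold Pt.pt
  rw [specFun_ofAlgHom]
  exact comp_closedPoint (i : k →+* κ) Q.mor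

theorem specFun_add (p : Pl Ω k κ) (Q Q' : Pt X Ω k) :
    specFun p (Q + Q') = specFun p Q + specFun p Q' := by
  apply Pt.ext
  have h1 : extend p (Q + Q') = (X.L.mul (sp (toV (K := K) p)) ⟨extend p Q, extend_comp p Q⟩
      ⟨extend p Q', extend_comp p Q'⟩).1 := by
    symm
    apply eq_extend
    · have h2 := X.L.mul_natural (sp (toV (K := K) p)) (sp (toFld (K := K) Ω k))
        (sp p.V.subtype) (by rw [sp_comp]; rfl) ⟨extend p Q, extend_comp p Q⟩
        ⟨extend p Q', extend_comp p Q'⟩
      have h3 := congrArg Subtype.val h2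
      rw [schemeHomOverComp_coe] at h3
      rw [h3]
      have h4 : schemeHomOverComp (sp p.V.subtype) (by rw [sp_comp]; rfl)
          (⟨extend p Q, extend_comp p Q⟩ : SchemeHomOver (sp (toV (K := K) p)) X.f) =
          Q := Subtype.ext (sp_extend p Q)
      have h5 : schemeHomOverComp (sp p.V.subtype) (by rw [sp_comp]; rfl)
          (⟨extend p Q', extend_comp p Q'⟩ : SchemeHomOver (sp (toV (K := K) p)) X.f) =
          Q' := Subtype.ext (sp_extend p Q')
      rw [h4, h5]
      rfl
    · exact (X.L.mul (sp (toV (K := K) p)) ⟨extend p Q, extend_comp p Q⟩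
        ⟨extend p Q', extend_comp p Q'⟩).2
  rw [specFun_mor, h1]
  have h2 := X.L.mul_natural (sp (toV (K := K) p)) (sp (toFld (K := K) Ω κ))
        (sp p.π) (by rw [sp_comp, ← RingHom.comp_assoc, π_comp_plHom])
        ⟨extend p Q, extend_comp p Q⟩
        ⟨extend p Q', extend_comp p Q'⟩
  exact congrArg Subtype.val h2

/-- specialisation of points -/
def specHom (p : Pl Ω k κ) : Pt X Ω k →+ Pt X Ω κ := AddMonoidHom.mk' (specFun p) (specFun_add p)

@[simp] theorem specHom_apply (p : Pl Ω k κ) (Q : Pt X Ω k) : specHom p Q = specFun p Q := rfl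

theorem specHom_id (Q : Pt X Ω k) : specHom (Pl.ofAlgHom (AlgHom.id Ω k)) Q = Q := by
  apply Pt.ext
  rw [specHom_apply, specFun_ofAlgHom]
  exact (congrArg (· ≫ Q.mor) (sp_id (R := k))).trans (Category.id_comp _)

theorem specHom_comp (q : Pl Ω κ l) (p : Pl Ω k κ) (Q : Pt X Ω k) :
    specHom (q.comp p) Q = specHom q (specHom p Q) := specFun_comp q p Q

end Place

end Fermat.Agent.AV.Sch
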