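import Mathlib
import Fermat.Agent.AV.SchemePt

/-!
# Local equations of a Cartier divisor and the cocycle `g` (team AV = S26)
-/

set_option autoImplicit false

noncomputable section

open CategoryTheory AlgebraicGeometry IsLocalRing NeronModelInfra GoodReductionJacobian
open AlgebraicCurve Fermat.Agent.S26T

universe u

namespace Fermat.Agent.AV.Sch

/-- `φ` is a unit of the local ring at `w`. -/
def IsUnitAt {K : Type u} [Field K] (X : GVar K) (w : X.A) (φ : X.F) : Prop :=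
  φ ∈ X.O w ∧ φ⁻¹ ∈ X.O w

/-- Local equations of a Cartier divisor on `A`. -/
structure LocEq {K : Type u} [Field K] (X : GVar K) where
  /-- the local equation at `w`, unique up to units of the local ring at `w` -/
  s : X.A → X.F
  s_ne_zero : ∀ w, s w ≠ 0
  /-- compatibility with specialisation -/
  spz : ∀ w₀ w : X.A, w₀ ⤳ w → IsUnitAt X w₀ (s w / s w₀)
  /-- local constancy -/
  loc : ∀ w₀ : X.A, ∃ U : X.A.Opens, w₀ ∈ U ∧ ∀ w ∈ U, IsUnitAt X w (s w / s w₀)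
  /-- normalisation at the generic point -/
  s_gen : s X.η = 1

namespace LocEq

variable {K : Type u} [Field K] {X : GVar K} (𝓛 : LocEq X)

/-- `H⁰(A, O(rD))` as a subspace of the function field -/
def LD (r : ℕ) : Submodule K X.F where
  carrier := {φ | ∀ w, φ * 𝓛.s w ^ r ∈ X.O w}
  add_mem' := by
    intro a b ha hb w
    rw [add_mul]
    exact add_mem (ha w) (hb w)
  zero_mem' := by
    intro w
    rw [zero_mul]
    exact zero_mem _
  smul_mem' := by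
    intro c x hx w
    rw [smul_mul_assoc]
    exact (X.O w).smul_mem (hx w) c

theorem mem_LD {r : ℕ} {φ : X.F} : φ ∈ 𝓛.LD r ↔ ∀ w, φ * 𝓛.s w ^ r ∈ X.O w := Iff.rfl

theorem LD_mul (r r' : ℕ) (φ φ' : X.F) (h : φ ∈ 𝓛.LD r) (h' : φ' ∈ 𝓛.LD r') :
    φ * φ' ∈ 𝓛.LD (r + r') := by
  intro w
  have := mul_mem (h w) (h' w)
  rwa [mul_mul_mul_comm, ← pow_add] at this

end LocEq

variable {K : Type u} [Field K] {X : GVar K}
variable {Ω : Type u} [Field Ω] [Algebra K Ω] (𝓛 : LocEq X)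

section Cocycle

variable {k κ l : Type u} [Field k] [Field κ] [Field l] [Algebra Ω k] [Algebra Ω κ] [Algebra Ω l]

/-- the cocycle, in terms of the centre `w` -/
def gAt (Q : Pt X Ω k) (w : X.A) : k :=
  open Classical in if h : ∃ c, Val Q.mor (𝓛.s w / 𝓛.s Q.pt) c then h.choose else 0

theorem val_gAt (Q : Pt X Ω k) {w : X.A} (h : Q.pt ⤳ w) :
    Val Q.mor (𝓛.s w / 𝓛.s Q.pt) (gAt 𝓛 Q w) := by
  have h1 : ∃ c, Val Q.mor (𝓛.s w / 𝓛.s Q.pt) c := Val.exists_of_mem (𝓛.spz _ _ h).1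
  unfold gAt
  rw [dif_pos h1]
  exact h1.choose_spec

theorem gAt_ne_zero (Q : Pt X Ω k) {w : X.A} (h : Q.pt ⤳ w) : gAt 𝓛 Q w ≠ 0 :=
  ((val_gAt 𝓛 Q h).isUnit (𝓛.spz _ _ h).2 (div_ne_zero (𝓛.s_ne_zero _) (𝓛.s_ne_zero _))).ne_zero

/-- the cocycle -/
def gFun (p : Pl Ω k κ) (Q : Pt X Ω k) : k := gAt 𝓛 Q (specFun p Q).pt

theorem val_gFun (p : Pl Ω k κ) (Q : Pt X Ω k) :
    Val Q.mor (𝓛.s (specFun p Q).pt / 𝓛.s Q.pt) (gFun 𝓛 p Q) :=
  val_gAt 𝓛 Q (pt_specializes p Q)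

theorem gFun_ne_zero (p : Pl Ω k κ) (Q : Pt X Ω k) : gFun 𝓛 p Q ≠ 0 :=
  gAt_ne_zero 𝓛 Q (pt_specializes p Q)

theorem gFun_ofAlgHom (i : k →ₐ[Ω] κ) (Q : Pt X Ω k) : gFun 𝓛 (Pl.ofAlgHom i) Q = 1 := by
  have h1 := val_gFun 𝓛 (Pl.ofAlgHom i) Q
  rw [pt_ofAlgHom, div_self (𝓛.s_ne_zero _)] at h1
  exact h1.unique Val.one

theorem gFun_congr (p p' : Pl Ω k κ) (Q : Pt X Ω k) (h : specFun p Q = specFun p' Q) :
    gFun 𝓛 p Q = gFun 𝓛 p' Q := by
  unfold gFun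
  rw [h]

theorem gFun_ofAlgHom_comp (i : κ →ₐ[Ω] l) (p : Pl Ω k κ) (Q : Pt X Ω k) :
    gFun 𝓛 ((Pl.ofAlgHom i).comp p) Q = gFun 𝓛 p Q := by
  unfold gFun
  rw [specFun_comp, pt_ofAlgHom]

/-- values on the extension of a point to the valuation ring -/
theorem Val.of_extend {p : Pl Ω k κ} {Q : Pt X Ω k} {φ : X.F} {c : p.V}
    (h : Val (extend p Q) φ c) : Val Q.mor φ (c : k) := by
  have h1 := h.map p.V.subtype
  rwa [sp_extend] at h1

theorem Val.of_extend_spec {p : Pl Ω k κ} {Q : Pt X Ω k} {φ : X.F} {c : p.V}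
    (h : Val (extend p Q) φ c) : Val (specFun p Q).mor φ (p.π c) :=
  h.map p.π

theorem gFun_comp (q : Pl Ω κ l) (p : Pl Ω k κ) (Q : Pt X Ω k) :
    ∃ h : gFun 𝓛 (q.comp p) Q / gFun 𝓛 p Q ∈ p.V, p.π ⟨_, h⟩ = gFun 𝓛 q (specFun p Q) := by
  set w₁ := (specFun p Q).pt with hw₁
  set w₂ := (specFun (q.comp p) Q).pt with hw₂
  have hw₂' : w₂ = (specFun q (specFun p Q)).pt := by rw [hw₂, specFun_comp]
  have h12 : w₁ ⤳ w₂ := by rw [hw₂']; exact pt_specializes q (specFun p Q)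
  have h1 : 𝓛.s w₂ / 𝓛.s w₁ ∈ Var.O X.A (extend p Q (closedPoint p.V)) := by
    rw [extend_closedPoint]
    exact (𝓛.spz _ _ h12).1
  obtain ⟨c, hc⟩ := Val.exists_of_mem h1
  have h2 : gFun 𝓛 (q.comp p) Q = c * gFun 𝓛 p Q := by
    have h3 := hc.of_extend.mul (val_gFun 𝓛 p Q)
    have h4 : 𝓛.s w₂ / 𝓛.s w₁ * (𝓛.s w₁ / 𝓛.s Q.pt) = 𝓛.s w₂ / 𝓛.s Q.pt :=
      div_mul_div_cancel₀ (𝓛.s_ne_zero _)
    exact (val_gFun 𝓛 (q.comp p) Q).unique (h4 ▸ h3)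
  have h3 : gFun 𝓛 (q.comp p) Q / gFun 𝓛 p Q = c := by
    rw [h2, mul_div_assoc, div_self (gFun_ne_zero 𝓛 p Q), mul_one]
  have h4 : p.π c = gFun 𝓛 q (specFun p Q) := by
    have h5 := val_gFun 𝓛 q (specFun p Q)
    rw [← hw₂', ← hw₁] at h5
    exact hc.of_extend_spec.unique h5
  refine ⟨h3 ▸ c.2, ?_⟩
  rw [← h4]
  congr 1
  exact Subtype.ext h3

/-- if the local equations at the centre and the image point agree up to a unit at the centre
then the cocycle is a unit of the valuation ring -/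
theorem gFun_isUnit (p : Pl Ω k κ) (Q : Pt X Ω k)
    (h : IsUnitAt X (specFun p Q).pt (𝓛.s (specFun p Q).pt / 𝓛.s Q.pt)) :
    ∃ c : p.V, IsUnit c ∧ (c : k) = gFun 𝓛 p Q := by
  have h1 : 𝓛.s (specFun p Q).pt / 𝓛.s Q.pt ∈ Var.O X.A (extend p Q (closedPoint p.V)) := by
    rw [extend_closedPoint]
    exact h.1
  obtain ⟨c, hc⟩ := Val.exists_of_mem h1
  refine ⟨c, hc.isUnit ?_ (div_ne_zero (𝓛.s_ne_zero _) (𝓛.s_ne_zero _)),
    hc.of_extend.unique (val_gFun 𝓛 p Q)⟩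
  rw [extend_closedPoint]
  exact h.2

end Cocycle

end Fermat.Agent.AV.Sch
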