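import Mathlib
import Fermat.Agent.AV.Affine
import Fermat.Agent.S26T.SmoothCoords

/-!
# Formal coordinates at rational points of a smooth group variety
-/

set_option autoImplicit false

noncomputable section

open CategoryTheory AlgebraicGeometry IsLocalRing NeronModelInfra GoodReductionJacobian

universe u

namespace Fermat.Agent.S26T.GVar

open SmoothCoords

variable {K : Type u} [Field K] (X : GVar K)

/-- Standard smooth affine charts. -/
theorem exists_chart (g : ℕ) [SmoothOfRelativeDimension g X.f] (w : X.A) :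
    ∃ (V : X.A.Opens) (_ : IsAffineOpen V), w ∈ V ∧
      RingHom.IsStandardSmoothOfRelativeDimension g (X.algΓ V) := by
  obtain ⟨U, hU, V, hV, hw, e, h⟩ :=
    SmoothOfRelativeDimension.exists_isStandardSmoothOfRelativeDimension (n := g) (f := X.f) w
  refine ⟨V, hV, hw, ?_⟩
  have hU' : U = ⊤ := by
    ext x
    simp only [SetLike.mem_coe, TopologicalSpace.Opens.coe_top, Set.mem_univ, iff_true]
    have h1 : X.f w ∈ U := e hw
    have h2 : x = X.f w := by
      have : Subsingleton (PrimeSpectrum K) := inferInstance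
      exact Subsingleton.elim (α := PrimeSpectrum K) _ _
    rwa [h2]
  subst hU'
  exact RingHom.isStandardSmoothOfRelativeDimension_respectsIso.2 _
    (Scheme.ΓSpecIso (.of K)).symm.commRingCatIsoToRingEquiv h

/-- Formal coordinates at a rational point; the function field is finite over the field
generated by the coordinates. -/
theorem exists_coord' (g : ℕ) [SmoothOfRelativeDimension g X.f] (a : X.Pt K) :
    ∃ C : Coord K g (X.O (X.pt a)), Module.Finite
      (IntermediateField.adjoin K (Set.range fun i => (C.t i : X.F))) X.F := by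
  obtain ⟨V, hV, hw, hst⟩ := X.exists_chart g (X.pt a)
  have hne : Nonempty V := ⟨⟨_, hw⟩⟩
  let : Algebra K Γ(X.A, V) := (X.algΓ V).toAlgebra
  have : Algebra.IsStandardSmoothOfRelativeDimension g K Γ(X.A, V) := hst
  let φ : Γ(X.A, V) →ₐ[K] X.O (X.pt a) :=
    { toRingHom := (X.rIncl hV hw).toRingHom.comp (X.rEquiv hV).toRingHom
      commutes' := fun x => by
        refine (congrArg (X.rIncl hV hw) (X.rEquiv_algΓ hV x)).trans ?_
        exact (X.rIncl hV hw).commutes x }
  let : Algebra Γ(X.A, V) (X.O (X.pt a)) := φ.toRingHom.toAlgebra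
  have h1 : IsScalarTower K Γ(X.A, V) (X.O (X.pt a)) :=
    IsScalarTower.of_algebraMap_eq fun x => (φ.commutes x).symm
  let w : Γ(X.A, V) →ₐ[K] K := (X.ev a).comp φ
  let 𝔪 : Ideal Γ(X.A, V) := (hV.primeIdealOf ⟨X.pt a, hw⟩).asIdeal
  have h2 : IsLocalization.AtPrime (X.O (X.pt a)) 𝔪 := by
    let := TopCat.Presheaf.algebra_section_stalk X.A.presheaf (⟨X.pt a, hw⟩ : V)
    have h := hV.isLocalization_stalk ⟨X.pt a, hw⟩
    let e : (X.A.presheaf.stalk (X.pt a)) ≃ₐ[Γ(X.A, V)] X.O (X.pt a) :=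
      AlgEquiv.ofRingEquiv (f := (Var.stalkEquiv X.A _).trans (X.oEquiv _).symm)
        (fun b => Subtype.ext (X.toF_eq_germ hw b).symm)
    exact IsLocalization.isLocalization_of_algEquiv 𝔪.primeCompl e
  have h3 : ∀ b, b ∈ 𝔪 ↔ w b = 0 := by
    intro b
    have h4 := X.mem_m_iff_ev a (φ b)
    rw [IsLocalRing.maximalIdeal_eq_bot, Ideal.mem_bot] at h4
    exact (IsLocalization.AtPrime.to_map_mem_maximal_iff (X.O (X.pt a)) 𝔪 b).symm.trans h4
  obtain ⟨C, t, ht, hCt, -⟩ := exists_coord_localization' g Γ(X.A, V) w 𝔪 h3 (X.O (X.pt a))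
  refine ⟨C, ?_⟩
  let : Algebra Γ(X.A, V) X.F := ((X.O (X.pt a)).val.comp φ).toRingHom.toAlgebra
  have h4 : IsScalarTower K Γ(X.A, V) X.F :=
    IsScalarTower.of_algebraMap_eq fun x => (((X.O (X.pt a)).val.comp φ).commutes x).symm
  have h5 : ∀ b : Γ(X.A, V), algebraMap Γ(X.A, V) X.F b = X.toF V b := fun b => rfl
  have h6 : FaithfulSMul Γ(X.A, V) X.F := by
    rw [faithfulSMul_iff_algebraMap_injective]
    exact X.toF_injective
  have hη : X.η ∈ V :=
    ((genericPoint_spec X.A).mem_open_set_iff V.isOpen).mpr (by simpa using hne)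
  have h7 : IsFractionRing Γ(X.A, V) X.F := by
    refine IsFractionRing.of_field _ _ fun z => ?_
    obtain ⟨_, ⟨b₁, rfl⟩, _, ⟨b₂, rfl⟩, h8, -, h9⟩ := (X.mem_O_iff hV hη z).mp (X.mem_O_η z)
    exact ⟨b₁, b₂, (eq_div_iff h8).mpr h9⟩
  have h8 := finite_adjoin_of_etale Γ(X.A, V) X.F t ht
  have h9 : (fun i => (C.t i : X.F)) = fun i => algebraMap Γ(X.A, V) X.F (t i) := by
    funext i
    rw [hCt]
    rfl
  rw [h9]
  exact h8

/-- Formal coordinates at a rational point. -/
theorem exists_coord (g : ℕ) [SmoothOfRelativeDimension g X.f] (a : X.Pt K) :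
    Nonempty (Coord K g (X.O (X.pt a))) := by
  obtain ⟨C, -⟩ := X.exists_coord' g a
  exact ⟨C⟩

end Fermat.Agent.S26T.GVar
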