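import Mathlib
import Fermat.Agent.AV.SmoothStalk
import Fermat.Agent.AV.SchemeCocycle

/-!
# Denominator divisors of rational functions on a smooth group variety (package P3)
-/

set_option autoImplicit false

noncomputable section

open CategoryTheory AlgebraicGeometry IsLocalRing NeronModelInfra GoodReductionJacobian

universe u

namespace Fermat.Agent.S26T.GVar

open SmoothCoords Fermat.Agent.AV.Sch

variable {K : Type u} [Field K] (X : GVar K)

section Open

theorem exists_affine (w : X.A) : ∃ (U : X.A.Opens) (_ : IsAffineOpen U), w ∈ U := by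
  obtain ⟨_, ⟨U, hU, rfl⟩, hxU, -⟩ :=
    X.A.isBasis_affineOpens.exists_subset_of_mem_open (Set.mem_univ w) isOpen_univ
  exact ⟨U, hU, hxU⟩

/-- The domain of definition of a rational function is open. -/
theorem isOpen_mem_O (x : X.F) : IsOpen {w : X.A | x ∈ X.O w} := by
  rw [isOpen_iff_forall_mem_open]
  intro w hw
  obtain ⟨U, hU, hwU⟩ := X.exists_affine w
  have hne : Nonempty U := ⟨⟨_, hwU⟩⟩
  obtain ⟨a, ha, b, hb, hb0, hbu, hab⟩ := (X.mem_O_iff hU hwU x).mp hw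
  obtain ⟨b', rfl⟩ := hb
  have h1 : w ∈ X.A.basicOpen b' := (X.mem_basicOpen_iff hwU b').mpr ⟨hb0, hbu⟩
  refine ⟨X.A.basicOpen b', fun w' hw' => ?_, (X.A.basicOpen b').isOpen, h1⟩
  have hw'U : w' ∈ U := X.A.basicOpen_le b' hw'
  obtain ⟨-, h3⟩ := (X.mem_basicOpen_iff hw'U b').mp hw'
  exact (X.mem_O_iff hU hw'U x).mpr ⟨a, ha, _, X.toF_mem_R hU b', hb0, h3, hab⟩

theorem finiteType_R {U : X.A.Opens} (hU : IsAffineOpen U) [Nonempty U] :
    Algebra.FiniteType K (X.R hU) := by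
  have h1 : (X.f.appLE ⊤ U le_top).hom.FiniteType :=
    LocallyOfFiniteType.finiteType_appLE X.f (isAffineOpen_top _) hU le_top
  have h2 : (X.algΓ U).FiniteType :=
    RingHom.finiteType_respectsIso.2 _
      (Scheme.ΓSpecIso (.of K)).symm.commRingCatIsoToRingEquiv h1
  have h3 : ((X.rEquiv hU).toRingHom.comp (X.algΓ U)).FiniteType :=
    RingHom.finiteType_respectsIso.1 _ (X.rEquiv hU) h2
  have h4 : (X.rEquiv hU).toRingHom.comp (X.algΓ U) = algebraMap K (X.R hU) :=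
    RingHom.ext (X.rEquiv_algΓ hU)
  rw [h4] at h3
  exact (RingHom.finiteType_algebraMap).mp h3

theorem isNoetherianRing_R {U : X.A.Opens} (hU : IsAffineOpen U) [Nonempty U] :
    IsNoetherianRing (X.R hU) := by
  have := X.finiteType_R hU
  exact Algebra.FiniteType.isNoetherianRing K _

/-- Every point specialises to a rational point. -/
theorem exists_specializes_pt [IsAlgClosed K] (w : X.A) : ∃ a : X.Pt K, w ⤳ X.pt a := by
  have hc : CompactSpace X.A := by
    exact QuasiCompact.compactSpace_of_compactSpace X.f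
  obtain ⟨x, hx, hx'⟩ := (isClosed_closure (s := {w})).exists_closed_singleton
    ⟨w, subset_closure rfl⟩
  let a : X.Pt K := ⟨pointOfClosedPoint X.f x hx', by
    rw [pointOfClosedPoint_comp]
    exact (Spec.map_id (CommRingCat.of K)).symm⟩
  have ha : X.pt a = x := pointOfClosedPoint_apply X.f x hx' _
  refine ⟨a, ?_⟩
  rw [specializes_iff_mem_closure, ha]
  exact hx

end Open

section Den

/-- `s` generates the ideal of denominators of `f` at `w`. -/
structure IsDen (w : X.A) (f s : X.F) : Prop where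
  ne_zero : s ≠ 0
  mem_O : s ∈ X.O w
  mem_mul : s * f ∈ X.O w
  mem_div : ∀ b ∈ X.O w, b * f ∈ X.O w → b / s ∈ X.O w

variable {X}

theorem IsDen.isUnitAt {w : X.A} {f s s' : X.F} (h : X.IsDen w f s) (h' : X.IsDen w f s') :
    IsUnitAt X w (s / s') := by
  refine ⟨h'.mem_div s h.mem_O h.mem_mul, ?_⟩
  rw [inv_div]
  exact h.mem_div s' h'.mem_O h'.mem_mul

variable (X)

theorem exists_isDen_pt (g : ℕ) [SmoothOfRelativeDimension g X.f] [Infinite K] (a : X.Pt K)
    (f : X.F) : ∃ s, X.IsDen (X.pt a) f s := by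
  obtain ⟨C⟩ := X.exists_coord g a
  obtain ⟨p, q, hq, hpq⟩ := IsFractionRing.div_surjective (A := X.O (X.pt a)) f
  have hq0 : (q : X.F) ≠ 0 := by
    intro h
    exact nonZeroDivisors.ne_zero hq (Subtype.ext h)
  have hf : (p : X.F) = f * q := by
    rw [← hpq]
    exact (div_mul_cancel₀ (p : X.F) hq0).symm
  obtain ⟨c, hc⟩ := C.exists_dvd_mul_iff p q
  have hc0 : (c : X.F) ≠ 0 := by
    intro h
    have h0 : c = 0 := Subtype.ext h
    have h1 : c ∣ q := (hc q).mp (dvd_mul_left _ _)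
    rw [h0, zero_dvd_iff] at h1
    exact hq0 (congrArg Subtype.val h1)
  refine ⟨c, hc0, c.2, ?_, fun b hb hbf => ?_⟩
  · obtain ⟨y, hy⟩ := (hc c).mpr dvd_rfl
    have h1 : (p : X.F) * c = q * y := congrArg Subtype.val hy
    have h2 : (c : X.F) * f = y := by
      apply mul_left_cancel₀ hq0
      rw [← h1, hf]
      ring
    rw [h2]
    exact y.2
  · have h1 : q ∣ p * (⟨b, hb⟩ : X.O (X.pt a)) := by
      refine ⟨⟨b * f, hbf⟩, Subtype.ext ?_⟩
      change (p : X.F) * b = q * (b * f)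
      rw [hf]
      ring
    obtain ⟨y, hy⟩ := (hc _).mp h1
    have h2 : b = c * y := congrArg Subtype.val hy
    rw [h2, mul_div_cancel_left₀ _ hc0]
    exact y.2

theorem IsDen.exists_open {w : X.A} {f s : X.F} (h : X.IsDen w f s) :
    ∃ U : X.A.Opens, w ∈ U ∧ ∀ w' ∈ U, X.IsDen w' f s := by
  obtain ⟨V, hV, hwV⟩ := X.exists_affine w
  have hne : Nonempty V := ⟨⟨_, hwV⟩⟩
  have hN := X.isNoetherianRing_R hV
  let I : Ideal (X.R hV) :=
    { carrier := {b | (b : X.F) * f ∈ X.R hV}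
      add_mem' := by
        intro a b ha hb
        simp only [Set.mem_ofPred_eq] at *
        rw [Subalgebra.coe_add, add_mul]
        exact add_mem ha hb
      zero_mem' := by simp
      smul_mem' := by
        intro c x hx
        simp only [Set.mem_ofPred_eq] at *
        rw [smul_eq_mul, Subalgebra.coe_mul, mul_assoc]
        exact mul_mem c.2 hx }
  obtain ⟨T, hT⟩ := (isNoetherianRing_iff_ideal_fg _).mp hN I
  have hTI : ∀ b ∈ T, (b : X.F) * f ∈ X.R hV := fun b hb => by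
    have : b ∈ I := hT ▸ Ideal.subset_span hb
    exact this
  -- the open subset
  let W : Set X.A := (V : Set X.A) ∩ ({w | s ∈ X.O w} ∩ ({w | s * f ∈ X.O w} ∩
    ⋂ b ∈ T, {w | (b : X.F) / s ∈ X.O w}))
  have hWo : IsOpen W := by
    refine V.isOpen.inter ((X.isOpen_mem_O s).inter ((X.isOpen_mem_O _).inter ?_))
    exact isOpen_biInter_finset fun b _ => X.isOpen_mem_O _
  have hwW : w ∈ W := by
    refine ⟨hwV, h.mem_O, h.mem_mul, ?_⟩
    simp only [Set.mem_iInter]
    intro b hb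
    exact h.mem_div _ (X.R_le_O hV hwV b.2) (X.R_le_O hV hwV (hTI b hb))
  refine ⟨⟨W, hWo⟩, hwW, fun w' hw' => ?_⟩
  obtain ⟨h1, h2, h3, h4⟩ := hw'
  simp only [Set.mem_iInter] at h4
  refine ⟨h.ne_zero, h2, h3, fun b hb hbf => ?_⟩
  obtain ⟨a₁, ha₁, c₁, hc₁, hc₁0, hc₁u, e₁⟩ := (X.mem_O_iff hV h1 b).mp hb
  obtain ⟨a₂, ha₂, c₂, hc₂, hc₂0, hc₂u, e₂⟩ := (X.mem_O_iff hV h1 _).mp hbf
  have h5 : (⟨c₁ * c₂ * b, by
      rw [mul_right_comm, mul_comm c₁ b, e₁]; exact mul_mem ha₁ hc₂⟩ : X.R hV) ∈ I := by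
    change c₁ * c₂ * b * f ∈ X.R hV
    rw [mul_assoc, mul_assoc, mul_comm c₂, e₂]
    exact mul_mem hc₁ ha₂
  have h6 : ∀ x ∈ Ideal.span (T : Set (X.R hV)), (x : X.F) / s ∈ X.O w' := by
    intro x hx
    induction hx using Submodule.span_induction with
    | mem x hx => exact h4 x hx
    | zero => simp
    | add x y _ _ hx hy =>
      rw [Subalgebra.coe_add, add_div]
      exact add_mem hx hy
    | smul c x _ hx =>
      rw [smul_eq_mul, Subalgebra.coe_mul, mul_div_assoc]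
      exact mul_mem (X.R_le_O hV h1 c.2) hx
  have h7 := h6 _ (hT ▸ h5)
  have h8 : b / s = c₁⁻¹ * c₂⁻¹ * (c₁ * c₂ * b / s) := by
    field_simp
  rw [h8]
  exact mul_mem (mul_mem hc₁u hc₂u) h7

theorem exists_isDen (g : ℕ) [SmoothOfRelativeDimension g X.f] [IsAlgClosed K] (w : X.A)
    (f : X.F) : ∃ s, X.IsDen w f s := by
  obtain ⟨a, ha⟩ := X.exists_specializes_pt w
  obtain ⟨s, hs⟩ := X.exists_isDen_pt g a f
  obtain ⟨U, hU, h⟩ := hs.exists_open
  exact ⟨s, h w (ha.mem_open U.isOpen hU)⟩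

theorem isDen_η (f : X.F) : X.IsDen X.η f 1 :=
  ⟨one_ne_zero, X.mem_O_η _, X.mem_O_η _, fun _ _ _ => X.mem_O_η _⟩

end Den

section LocEq

variable (g : ℕ) [SmoothOfRelativeDimension g X.f] [IsAlgClosed K]

open Classical in
/-- A chosen generator of the ideal of denominators. -/
def den (f : X.F) (w : X.A) : X.F :=
  if w = X.η then 1 else (X.exists_isDen g w f).choose

theorem isDen_den (f : X.F) (w : X.A) : X.IsDen w f (X.den g f w) := by
  unfold den
  split_ifs with h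
  · rw [h]
    exact X.isDen_η f
  · exact (X.exists_isDen g w f).choose_spec

theorem den_η (f : X.F) : X.den g f X.η = 1 := by
  unfold den
  rw [if_pos rfl]

theorem exists_open_den (f : X.F) (w₀ : X.A) :
    ∃ U : X.A.Opens, w₀ ∈ U ∧ ∀ w ∈ U, IsUnitAt X w (X.den g f w / X.den g f w₀) := by
  obtain ⟨U, hU, h⟩ := (X.isDen_den g f w₀).exists_open
  exact ⟨U, hU, fun w hw => (X.isDen_den g f w).isUnitAt (h w hw)⟩

theorem isUnitAt_den (f : X.F) {w₀ w : X.A} (h : w₀ ⤳ w) :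
    IsUnitAt X w₀ (X.den g f w / X.den g f w₀) := by
  obtain ⟨U, hU, hU'⟩ := (X.isDen_den g f w).exists_open
  exact (hU' w₀ (h.mem_open U.isOpen hU)).isUnitAt (X.isDen_den g f w₀)

omit [IsAlgClosed K] in
variable {X} in
theorem isUnitAt_prod {ι : Type*} (S : Finset ι) (w : X.A) (φ : ι → X.F)
    (h : ∀ i ∈ S, IsUnitAt X w (φ i)) : IsUnitAt X w (∏ i ∈ S, φ i) := by
  refine ⟨prod_mem fun i hi => (h i hi).1, ?_⟩
  rw [← Finset.prod_inv_distrib]
  exact prod_mem fun i hi => (h i hi).2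

/-- The Cartier divisor which is the sum of the denominator divisors of finitely many functions. -/
def locEq (S : Finset X.F) : LocEq X where
  s w := ∏ f ∈ S, X.den g f w
  s_ne_zero w := Finset.prod_ne_zero_iff.mpr fun f _ => (X.isDen_den g f w).ne_zero
  spz w₀ w h := by
    rw [← Finset.prod_div_distrib]
    exact isUnitAt_prod S w₀ _ fun f _ => X.isUnitAt_den g f h
  loc w₀ := by
    choose U hU hU' using fun f => X.exists_open_den g f w₀
    refine ⟨⟨⋂ f ∈ S, (U f : Set X.A), isOpen_biInter_finset fun f _ => (U f).isOpen⟩, ?_, ?_⟩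
    · change w₀ ∈ ⋂ f ∈ S, (U f : Set X.A)
      exact Set.mem_iInter₂.mpr fun f _ => hU f
    · intro w hw
      replace hw : w ∈ ⋂ f ∈ S, (U f : Set X.A) := hw
      rw [← Finset.prod_div_distrib]
      exact isUnitAt_prod S w _ fun f hf => hU' f w (Set.mem_iInter₂.mp hw f hf)
  s_gen := Finset.prod_eq_one fun f _ => X.den_η g f

theorem locEq_s_mem (S : Finset X.F) (w : X.A) : (X.locEq g S).s w ∈ X.O w :=
  prod_mem fun f _ => (X.isDen_den g f w).mem_O

theorem mem_LD_locEq (S : Finset X.F) (f : X.F) (hf : f ∈ S) : f ∈ (X.locEq g S).LD 1 := by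
  classical
  intro w
  rw [pow_one]
  change f * ∏ f ∈ S, X.den g f w ∈ X.O w
  rw [← Finset.mul_prod_erase S _ hf, ← mul_assoc, mul_comm f]
  exact mul_mem (X.isDen_den g f w).mem_mul (prod_mem fun f _ => (X.isDen_den g f w).mem_O)

end LocEq

section LD

variable {X}

theorem LD_one_of_mem (𝓛 : LocEq X) (h : ∀ w, 𝓛.s w ∈ X.O w) (r : ℕ) : (1 : X.F) ∈ 𝓛.LD r := by
  intro w
  rw [one_mul]
  exact pow_mem (h w) r

theorem LD_mono (𝓛 : LocEq X) (h : ∀ w, 𝓛.s w ∈ X.O w) {r r' : ℕ} (hr : r ≤ r') {f : X.F}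
    (hf : f ∈ 𝓛.LD r) : f ∈ 𝓛.LD r' := by
  obtain ⟨k, rfl⟩ := Nat.exists_eq_add_of_le hr
  have := 𝓛.LD_mul r k f 1 hf (LD_one_of_mem 𝓛 h k)
  rwa [mul_one] at this

/-- The union of the `LD r` is a subalgebra. -/
def LDU (𝓛 : LocEq X) (h : ∀ w, 𝓛.s w ∈ X.O w) : Subalgebra K X.F where
  carrier := {f | ∃ r, f ∈ 𝓛.LD r}
  mul_mem' := by
    rintro a b ⟨r, hr⟩ ⟨r', hr'⟩
    exact ⟨r + r', 𝓛.LD_mul _ _ _ _ hr hr'⟩
  add_mem' := by
    rintro a b ⟨r, hr⟩ ⟨r', hr'⟩
    exact ⟨max r r', add_mem (LD_mono 𝓛 h (le_max_left _ _) hr)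
      (LD_mono 𝓛 h (le_max_right _ _) hr')⟩
  algebraMap_mem' c := ⟨0, by
    rw [Algebra.algebraMap_eq_smul_one]
    exact (𝓛.LD 0).smul_mem c (LD_one_of_mem 𝓛 h 0)⟩

theorem mem_LDU (𝓛 : LocEq X) (h : ∀ w, 𝓛.s w ∈ X.O w) {f : X.F} :
    f ∈ LDU 𝓛 h ↔ ∃ r, f ∈ 𝓛.LD r := Iff.rfl

theorem exists_div_R {U : X.A.Opens} (hU : IsAffineOpen U) [Nonempty U] (f : X.F) :
    ∃ a ∈ X.R hU, ∃ b ∈ X.R hU, b ≠ 0 ∧ f * b = a := by
  have hη : X.η ∈ U :=
    ((genericPoint_spec X.A).mem_open_set_iff U.isOpen).mpr (by simpa using ‹Nonempty U›)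
  obtain ⟨a, ha, b, hb, h1, -, h2⟩ := (X.mem_O_iff hU hη f).mp (X.mem_O_η f)
  exact ⟨a, ha, b, hb, h1, h2⟩

/-- The regular parameters at a rational point are algebraically independent. -/
theorem algebraicIndependent_coord {g : ℕ} {w : X.A} (C : Coord K g (X.O w)) :
    AlgebraicIndependent K (fun i => (C.t i : X.F)) := by
  let e : MvPolynomial (Fin g) K →ₐ[K] MvPowerSeries (Fin g) K :=
    MvPolynomial.coeToMvPowerSeries.algHom K
  have he : ∀ p, e p = (p : MvPowerSeries (Fin g) K) := by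
    intro p
    rw [MvPolynomial.coeToMvPowerSeries.algHom_apply, Algebra.algebraMap_self,
      MvPowerSeries.map_id, RingHom.id_apply]
  have hinj : Function.Injective e := by
    intro p q hpq
    rw [he, he] at hpq
    exact MvPolynomial.coe_injective _ _ hpq
  have h1 : AlgebraicIndependent K (C.ι ∘ C.t) := by
    have h3 := (MvPolynomial.algebraicIndependent_X (Fin g) K).map' hinj
    have h4 : (e ∘ fun i => MvPolynomial.X i) = C.ι ∘ C.t := by
      funext i
      rw [Function.comp_apply, he, MvPolynomial.coe_X, Function.comp_apply, C.ι_t]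
    rwa [h4] at h3
  have h2 : AlgebraicIndependent K C.t := AlgebraicIndependent.of_comp C.ι h1
  exact h2.map' (f := (X.O w).val) Subtype.val_injective

variable (X) in
/-- Existence of a suitable effective Cartier divisor: this is the output of package P3(a). -/
theorem exists_locEq (g : ℕ) [SmoothOfRelativeDimension g X.f] [IsAlgClosed K] :
    ∃ 𝓛 : LocEq X, (∀ w, 𝓛.s w ∈ X.O w) ∧ (∀ r, (1 : X.F) ∈ 𝓛.LD r) ∧
      (∀ f : X.F, ∃ (r : ℕ) (u v : X.F), u ∈ 𝓛.LD r ∧ v ∈ 𝓛.LD r ∧ v ≠ 0 ∧ f * v = u) ∧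
      (∃ (r : ℕ) (f : Fin g → X.F), AlgebraicIndependent K f ∧ ∀ i, f i ∈ 𝓛.LD r) := by
  classical
  obtain ⟨C⟩ := X.exists_coord g (0 : X.Pt K)
  obtain ⟨U, hU, hwU⟩ := X.exists_affine (X.pt (0 : X.Pt K))
  have hne : Nonempty U := ⟨⟨_, hwU⟩⟩
  obtain ⟨T, hT⟩ := (X.finiteType_R hU).out
  let S : Finset X.F := T.image (fun x : X.R hU => (x : X.F)) ∪
    Finset.univ.image (fun i => (C.t i : X.F))
  have hs := X.locEq_s_mem g S
  refine ⟨X.locEq g S, hs, LD_one_of_mem _ hs, fun f => ?_, 1, fun i => (C.t i : X.F),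
    algebraicIndependent_coord C, fun i => X.mem_LD_locEq g S _ ?_⟩
  · have h1 : ∀ x ∈ X.R hU, x ∈ LDU (X.locEq g S) hs := by
      intro x hx
      have h2 : (⟨x, hx⟩ : X.R hU) ∈ Algebra.adjoin K (T : Set (X.R hU)) := hT ▸ Algebra.mem_top
      have h3 : Algebra.adjoin K (T : Set (X.R hU)) ≤
          (LDU (X.locEq g S) hs).comap (X.R hU).val := by
        rw [Algebra.adjoin_le_iff]
        intro y hy
        exact ⟨1, X.mem_LD_locEq g S _ (Finset.mem_union_left _
          (Finset.mem_image_of_mem _ hy))⟩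
      exact h3 h2
    obtain ⟨a, ha, b, hb, hb0, hab⟩ := exists_div_R (X := X) hU f
    obtain ⟨r, hr⟩ := h1 a ha
    obtain ⟨r', hr'⟩ := h1 b hb
    exact ⟨max r r', a, b, LD_mono _ hs (le_max_left _ _) hr,
      LD_mono _ hs (le_max_right _ _) hr', hb0, hab⟩
  · exact Finset.mem_union_right _ (Finset.mem_image_of_mem _ (Finset.mem_univ i))

end LD

end Fermat.Agent.S26T.GVar
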