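import Mathlib

/-!
# Algebraic preliminaries for the counting argument (team AV = S26, package P8)
-/

set_option autoImplicit false

noncomputable section

universe u

namespace Fermat.Agent.AV.Count

open Module

/-! ### Finite quotients of local rings -/

section Quot

variable {K O : Type*} [Field K] [CommRing O] [Algebra K O] {g : ℕ} (z : Fin g → O)

theorem exists_approx (hres : ∀ x : O, ∃ c : K, x - algebraMap K O c ∈ Ideal.span (Set.range z))
    (T : ℕ) (x : O) : ∃ p : MvPolynomial (Fin g) K,
      x - MvPolynomial.aeval z p ∈ Ideal.span (Set.range z) ^ T := by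
  induction T generalizing x with
  | zero => exact ⟨0, by simp⟩
  | succ T ih =>
    obtain ⟨c, hc⟩ := hres x
    obtain ⟨a, ha⟩ := Ideal.mem_span_range_iff_exists_fun.mp hc
    choose p hp using fun i => ih (a i)
    refine ⟨MvPolynomial.C c + ∑ i, p i * MvPolynomial.X i, ?_⟩
    have h1 : x - MvPolynomial.aeval z (MvPolynomial.C c + ∑ i, p i * MvPolynomial.X i) =
        ∑ i, (a i - MvPolynomial.aeval z (p i)) * z i := by
      rw [map_add, MvPolynomial.aeval_C, map_sum, ← sub_sub, ← ha, ← Finset.sum_sub_distrib]
      refine Finset.sum_congr rfl fun i _ => ?_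
      rw [map_mul, MvPolynomial.aeval_X]
      ring
    rw [h1, pow_succ]
    exact Ideal.sum_mem _ fun i _ => Ideal.mul_mem_mul (hp i) (Ideal.subset_span ⟨i, rfl⟩)

/-- Monomials with bounded exponents. -/
def mon {A : Type*} [CommMonoid A] (T : ℕ) (y : Fin g → A) (e : Fin g → Fin T) : A :=
  ∏ i, y i ^ (e i : ℕ)

theorem span_mon_eq_top
    (hres : ∀ x : O, ∃ c : K, x - algebraMap K O c ∈ Ideal.span (Set.range z)) (T : ℕ) :
    ⊤ ≤ Submodule.span K (Set.range fun e : Fin g → Fin T =>
      Ideal.Quotient.mk (Ideal.span (Set.range z) ^ T) (mon T z e)) := by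
  rintro x -
  obtain ⟨x, rfl⟩ := Ideal.Quotient.mk_surjective x
  obtain ⟨p, hp⟩ := exists_approx z hres T x
  have h1 : Ideal.Quotient.mk (Ideal.span (Set.range z) ^ T) x =
      Ideal.Quotient.mkₐ K (Ideal.span (Set.range z) ^ T) (MvPolynomial.aeval z p) :=
    (Ideal.Quotient.mk_eq_mk_iff_sub_mem _ _).mpr hp
  rw [h1]
  clear h1 hp
  induction p using MvPolynomial.induction_on' with
  | add p q hp hq =>
    rw [map_add, map_add]
    exact add_mem hp hq
  | monomial e c =>
    have h2 : MvPolynomial.aeval z (MvPolynomial.monomial e c) = c • ∏ i, z i ^ e i := by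
      rw [MvPolynomial.aeval_monomial, Algebra.smul_def, Finsupp.prod_fintype]
      intro i
      exact pow_zero _
    rw [h2, map_smul]
    apply Submodule.smul_mem
    by_cases h : ∀ i, e i < T
    · apply Submodule.subset_span
      exact ⟨fun i => ⟨e i, h i⟩, rfl⟩
    · push Not at h
      obtain ⟨i, hi⟩ := h
      have h3 : ∏ i, z i ^ e i ∈ Ideal.span (Set.range z) ^ T := by
        rw [← Finset.mul_prod_erase _ _ (Finset.mem_univ i)]
        apply Ideal.mul_mem_right
        have h5 : z i ∈ Ideal.span (Set.range z) := Ideal.subset_span ⟨i, rfl⟩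
        exact Ideal.pow_le_pow_right hi (Ideal.pow_mem_pow h5 (e i))
      have h4 : Ideal.Quotient.mkₐ K (Ideal.span (Set.range z) ^ T) (∏ i, z i ^ e i) = 0 :=
        Ideal.Quotient.eq_zero_iff_mem.mpr h3
      rw [h4]
      exact zero_mem _

theorem finite_quotient_pow
    (hres : ∀ x : O, ∃ c : K, x - algebraMap K O c ∈ Ideal.span (Set.range z)) (T : ℕ) :
    Module.Finite K (O ⧸ Ideal.span (Set.range z) ^ T) := by
  rw [Module.finite_def, Submodule.fg_def]
  exact ⟨_, Set.finite_range _, top_le_iff.mp (span_mon_eq_top z hres T)⟩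

theorem finrank_quotient_pow_le
    (hres : ∀ x : O, ∃ c : K, x - algebraMap K O c ∈ Ideal.span (Set.range z)) (T : ℕ) :
    finrank K (O ⧸ Ideal.span (Set.range z) ^ T) ≤ T ^ g := by
  have h1 := top_le_iff.mp (span_mon_eq_top z hres T)
  have h2 := finrank_range_le_card (R := K) (fun e : Fin g → Fin T =>
      Ideal.Quotient.mk (Ideal.span (Set.range z) ^ T) (mon T z e))
  rw [Set.finrank, h1, finrank_top] at h2
  simpa using h2

end Quot

/-! ### Monomials in algebraically independent elements -/

section Mon

variable {K F : Type*} [Field K] [Field F] [Algebra K F] {g : ℕ}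

theorem linearIndependent_mon {f : Fin g → F} (hf : AlgebraicIndependent K f) (T : ℕ) :
    LinearIndependent K (mon T f) := by
  have h1 : LinearIndependent K fun e : Fin g →₀ ℕ =>
      MvPolynomial.aeval f (MvPolynomial.monomial e (1 : K)) := by
    have h2 := (MvPolynomial.basisMonomials (Fin g) K).linearIndependent
    have h3 := h2.map' (MvPolynomial.aeval (R := K) f).toLinearMap
      (LinearMap.ker_eq_bot.mpr hf)
    exact h3
  have h4 : Function.Injective (fun e : Fin g → Fin T =>
      (Finsupp.equivFunOnFinite.symm (fun i => (e i : ℕ)) : Fin g →₀ ℕ)) := by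
    intro e e' h
    have h5 := Finsupp.equivFunOnFinite.symm.injective h
    funext i
    exact Fin.ext (congrFun h5 i)
  have h6 := h1.comp _ h4
  have h7 : mon T f = (fun e : Fin g →₀ ℕ =>
      MvPolynomial.aeval f (MvPolynomial.monomial e (1 : K))) ∘ (fun e : Fin g → Fin T =>
      (Finsupp.equivFunOnFinite.symm (fun i => (e i : ℕ)) : Fin g →₀ ℕ)) := by
    funext e
    show ∏ i, f i ^ (e i : ℕ) = MvPolynomial.aeval f (MvPolynomial.monomial _ (1 : K))
    rw [MvPolynomial.aeval_monomial, map_one, one_mul, Finsupp.prod_fintype]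
    · rfl
    · intro i
      exact pow_zero _
  rw [h7]
  exact h6

end Mon

/-! ### Dedekind independence and towers -/

section Ded

variable {K F : Type*} [Field K] [Field F] [Algebra K F]

/-- `N` distinct automorphisms fixing `μ(F)` give `N` elements independent over `μ(F)`. -/
theorem exists_linearIndependent_fieldRange (μ : F →ₐ[K] F) {S : Type*} [Fintype S]
    (τ : S → (F ≃ₐ[K] F)) (hτ : Function.Injective τ) (hμ : ∀ a f, τ a (μ f) = μ f) :
    ∃ b : Fin (Fintype.card S) → F, LinearIndependent μ.fieldRange b := by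
  classical
  set L := μ.fieldRange with hL
  -- automorphisms over `L`
  let τ' : S → (F ≃ₐ[L] F) := fun a =>
    AlgEquiv.ofRingEquiv (f := (τ a : F ≃+* F)) (by
      rintro ⟨x, hx⟩
      obtain ⟨f, rfl⟩ := AlgHom.mem_fieldRange.mp hx
      exact hμ a f)
  have hτ' : Function.Injective τ' := by
    intro a b h
    apply hτ
    ext x
    exact congrArg (fun e : F ≃ₐ[L] F => e x) h
  have key : ((Fintype.card S : ℕ) : Cardinal) ≤ Module.rank L F := by
    by_cases hfin : FiniteDimensional L F
    · have h1 : Fintype.card S ≤ finrank L F :=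
        (Fintype.card_le_of_injective τ' hτ').trans AlgEquiv.card_le
      rw [← Module.finrank_eq_rank L F]
      exact_mod_cast h1
    · have h1 : Cardinal.aleph0 ≤ Module.rank L F := by
        by_contra h
        push Not at h
        exact hfin (Module.rank_lt_aleph0_iff.mp h)
      exact (Cardinal.natCast_lt_aleph0.le).trans h1
  obtain ⟨s, hs, hli⟩ := le_rank_iff_exists_linearIndependent_finset.mp key
  let e : Fin (Fintype.card S) ≃ s := (Fintype.equivFinOfCardEq (by
    rw [Fintype.card_coe, hs])).symm
  exact ⟨fun i => (e i : F), hli.comp _ e.injective⟩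

theorem linearIndependent_mul (μ : F →ₐ[K] F) {ι κ : Type*} {b : ι → F} {c : κ → F}
    (hb : LinearIndependent μ.fieldRange b) (hc : LinearIndependent K c) :
    LinearIndependent K fun p : κ × ι => μ (c p.1) * b p.2 := by
  have h1 : LinearIndependent K fun j : κ => (⟨μ (c j), c j, rfl⟩ : μ.fieldRange) := by
    have h2 := hc.map' μ.toLinearMap (LinearMap.ker_eq_bot.mpr (RingHom.injective _))
    refine LinearIndependent.of_comp (μ.fieldRange.val.toLinearMap) ?_
    exact h2
  exact linearIndependent_smul h1 hb

theorem linearIndependent_mul_const {R : Type*} [Field R] [Algebra R F] {ι : Type*} {b : ι → F}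
    (hb : LinearIndependent R b) {v : F} (hv : v ≠ 0) :
    LinearIndependent R fun i => b i * v := by
  have := hb.map' (LinearMap.mulRight R v) (LinearMap.ker_eq_bot.mpr (fun x y h =>
    mul_right_cancel₀ hv h))
  exact this

end Ded

/-! ### Growth -/

/-- If `N^k` is squeezed between constant multiples of `M^k`, then `N = M`. -/
theorem eq_of_pow_squeeze {N M C : ℕ} (h1 : ∀ k : ℕ, M ^ k ≤ C * N ^ k)
    (h2 : ∀ k : ℕ, N ^ k ≤ C * M ^ k) : N = M := by
  have key : ∀ a b : ℕ, (∀ k : ℕ, a ^ k ≤ C * b ^ k) → a ≤ b := by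
    intro a b h
    by_contra hlt
    push Not at hlt
    -- (b+1)^k ≤ a^k ≤ C b^k
    have h3 : ∀ k : ℕ, b ^ k + k * b ^ (k - 1) ≤ C * b ^ k := by
      intro k
      refine le_trans ?_ (le_trans (Nat.pow_le_pow_left (show b + 1 ≤ a from hlt) k) (h k))
      rcases k with _ | k
      · simp
      · rw [Nat.add_sub_cancel]
        have h4 : ∀ k : ℕ, b ^ (k + 1) + (k + 1) * b ^ k ≤ (b + 1) ^ (k + 1) := by
          intro k
          induction k with
          | zero => simp
          | succ k ih =>
            calc b ^ (k + 1 + 1) + (k + 1 + 1) * b ^ (k + 1)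
                ≤ (b ^ (k + 1) + (k + 1) * b ^ k) * (b + 1) := by
                  ring_nf
                  nlinarith [Nat.zero_le (b ^ k), Nat.zero_le (k * b ^ k)]
              _ ≤ (b + 1) ^ (k + 1) * (b + 1) := Nat.mul_le_mul_right _ ih
              _ = (b + 1) ^ (k + 1 + 1) := by ring
        exact h4 k
    rcases Nat.eq_zero_or_pos b with rfl | hb
    · have h4 := h 1
      rw [pow_one, pow_one, mul_zero] at h4
      omega
    · have h4 := h3 (C * b + 1)
      rw [Nat.add_sub_cancel] at h4
      have h5 : (C * b + 1) * b ^ (C * b) ≤ C * b ^ (C * b + 1) := by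
        refine le_trans ?_ h4
        exact Nat.le_add_left _ _
      have h6 : C * b ^ (C * b + 1) = (C * b) * b ^ (C * b) := by ring
      rw [h6] at h5
      have h7 : 0 < b ^ (C * b) := pow_pos hb _
      have h8 := Nat.le_of_mul_le_mul_right h5 h7
      omega
  exact le_antisymm (key N M h2) (key M N h1)

/-! ### Torsion of divisible groups -/

section Torsion

variable {A : Type*} [AddCommGroup A]

/-- the `n`-torsion as a subgroup -/
def tors (A : Type*) [AddCommGroup A] (n : ℕ) : AddSubgroup A := (nsmulAddMonoidHom n : A →+ A).ker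

theorem mem_tors {n : ℕ} {a : A} : a ∈ tors A n ↔ n • a = 0 := Iff.rfl

theorem card_tors_mul {n m : ℕ} (hdiv : ∀ a : A, ∃ b : A, n • b = a) :
    Nat.card (tors A (m * n)) = Nat.card (tors A m) * Nat.card (tors A n) := by
  -- multiplication by `n` maps the `mn`-torsion onto the `m`-torsion with kernel the `n`-torsion
  let ψ : tors A (m * n) →+ tors A m :=
    { toFun := fun a => ⟨n • (a : A), by
        rw [mem_tors, ← mul_nsmul']
        exact a.2⟩
      map_zero' := Subtype.ext (nsmul_zero n)
      map_add' := fun a b => Subtype.ext (nsmul_add (a : A) (b : A) n) }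
  have hψs : Function.Surjective ψ := by
    rintro ⟨a, ha⟩
    obtain ⟨b, hb⟩ := hdiv a
    refine ⟨⟨b, ?_⟩, Subtype.ext hb⟩
    rw [mem_tors, mul_nsmul', hb]
    exact ha
  have h1 := AddSubgroup.card_eq_card_quotient_mul_card_addSubgroup ψ.ker
  have h2 : Nat.card (tors A (m * n) ⧸ ψ.ker) = Nat.card (tors A m) :=
    Nat.card_congr (QuotientAddGroup.quotientKerEquivOfSurjective ψ hψs).toEquiv
  have h3 : Nat.card ψ.ker = Nat.card (tors A n) := by
    refine Nat.card_congr
      { toFun := fun a => ⟨(a : tors A (m * n)), by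
          have := a.2
          rw [AddMonoidHom.mem_ker] at this
          exact congrArg Subtype.val this⟩
        invFun := fun a => ⟨⟨(a : A), by
          rw [mem_tors, mul_nsmul']
          have : n • (a : A) = 0 := a.2
          rw [this, nsmul_zero]⟩, by
          rw [AddMonoidHom.mem_ker]
          exact Subtype.ext a.2⟩
        left_inv := fun _ => rfl
        right_inv := fun _ => rfl }
  rw [h1, h2, h3]

theorem card_tors_pow {n : ℕ} (hdiv : ∀ a : A, ∃ b : A, n • b = a) (k : ℕ) :
    Nat.card (tors A (n ^ k)) = Nat.card (tors A n) ^ k := by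
  induction k with
  | zero =>
    rw [pow_zero, pow_zero]
    have : tors A 1 = ⊥ := by
      ext a
      rw [mem_tors, one_nsmul, AddSubgroup.mem_bot]
    rw [this]
    exact AddSubgroup.card_bot
  | succ k ih => rw [pow_succ, card_tors_mul hdiv, ih, pow_succ]

end Torsion

end Fermat.Agent.AV.Count
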