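import Fermat.Agent.AV.CountUpper

/-!
# Counting torsion points: the lower bound (team AV = S26, package P8)
-/

set_option autoImplicit false
set_option linter.unusedSectionVars false

noncomputable section

open AlgebraicCurve Module

universe u

namespace Fermat.Agent.AV

open Fermat.Agent.AV.Count Fermat.Agent.RR

section Fiber

variable {Ω : Type u} [Field Ω] [IsAlgClosed Ω] {E E' : Type u} [Field E] [Field E']
  [Algebra Ω E] [Algebra Ω E'] [Algebra E E'] [IsScalarTower Ω E E'] [FiniteDimensional E E']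
  [Fermat.FF.IsFF1 Ω E] [Fermat.FF.IsFF1 Ω E']

theorem plOf_comp_ofAlgHom (P : Place Ω E') :
    (plOf Ω P).comp (Pl.ofAlgHom (IsScalarTower.toAlgHom Ω E E')) = plOf Ω (P.restrict E) := by
  apply Pl.ext'
  · intro x
    rw [Pl.mem_comp_V]
    exact ⟨fun ⟨_, h⟩ => h, fun h => ⟨trivial, h⟩⟩
  · intro x hp hq
    set c := (plOf Ω (P.restrict E)).π ⟨x, hq⟩ with hc
    have h1 := (plOf_π_eq_iff Ω (P.restrict E) hq c).mp rfl
    have h2 : algebraMap E E' x ∈ (plOf Ω P).V := hq
    show (plOf Ω P).π ⟨algebraMap E E' x, h2⟩ = c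
    rw [plOf_π_eq_iff]
    rw [Fermat.FF.val_lt_one_iff] at h1 ⊢
    have h3 : algebraMap E E' x - algebraMap Ω E' c = algebraMap E E' (x - algebraMap Ω E c) := by
      rw [map_sub, ← IsScalarTower.algebraMap_apply]
    rw [h3]
    rcases h1 with h1 | h1
    · left
      rw [h1, map_zero]
    · right
      rw [P.ord_restrict]
      have := P.ramificationIndex_pos (F := E)
      positivity

theorem inertiaDeg_eq_one (P : Place Ω E') : P.inertiaDeg E = 1 := by
  have := functionField_of_isFF1 Ω E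
  have := functionField_of_isFF1 Ω E'
  have h := P.deg_restrict_mul_inertiaDeg (F := E)
  rw [deg_eq_one, deg_eq_one, one_mul] at h
  exact h

theorem exists_fiber (v : Place Ω E) : ∃ s : Finset (Place Ω E'),
    (∀ w, w ∈ s ↔ w.restrict E = v) ∧
      ∑ w ∈ s, (w.ramificationIndex E : ℤ) = finrank E E' := by
  have := Fermat.FF.Gen.finiteAt E' v
  refine ⟨(Fermat.FF.Rel.fiber_finite E' v).toFinset, fun w => ?_, ?_⟩
  · rw [Set.Finite.mem_toFinset]
    rfl
  · rw [← Fermat.FF.Rel.sum_ramificationIndex_mul_inertiaDeg (F' := E') v]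
    refine Finset.sum_congr rfl fun w _ => ?_
    rw [inertiaDeg_eq_one, Nat.cast_one, mul_one]

end Fiber

namespace GeomDatum

variable {K Ω : Type u} [Field K] [Field Ω] [IsAlgClosed Ω] [Algebra K Ω] {g : ℕ}
  (G : GeomDatum K Ω g)

/-- If the number of conditions is small, there is a section vanishing to high order at all
torsion points. -/
theorem exists_section {A : Type*} [Finite A] (pts : A → G.P0) {r : ℕ} {f : Fin g → G.F0}
    (hf : AlgebraicIndependent K f) (hfr : ∀ i, f i ∈ G.LD r) (q T : ℕ)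
    (hlt : Nat.card A * T ^ g < (q + 1) ^ g) :
    ∃ h ∈ G.LD (r * g * q), h ≠ 0 ∧ ∀ a : A,
      ∃ y ∈ G.m (pts a) ^ T, (y : G.F0) = h * G.s (pts a) ^ (r * g * q) := by
  classical
  have := Fintype.ofFinite A
  set R := r * g * q with hR
  have hw : ∀ (a : A) (e : Fin g → Fin (q + 1)), mon (q + 1) f e * G.s (pts a) ^ R ∈
      G.O (pts a) := fun a e => G.LD_mem R _ (G.mon_mem_LD hfr q e) _
  let w : ∀ a : A, (Fin g → Fin (q + 1)) → G.O (pts a) := fun a e => ⟨_, hw a e⟩
  let Φ : ((Fin g → Fin (q + 1)) → K) →ₗ[K] (∀ a : A, G.O (pts a) ⧸ G.m (pts a) ^ T) :=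
    LinearMap.pi fun a => (Ideal.Quotient.mkₐ K (G.m (pts a) ^ T)).toLinearMap ∘ₗ
      (Fintype.linearCombination K (w a))
  have hfin : ∀ a : A, Module.Finite K (G.O (pts a) ⧸ G.m (pts a) ^ T) := fun a =>
    G.finite_quot (pts a) T
  have hdim : finrank K (∀ a : A, G.O (pts a) ⧸ G.m (pts a) ^ T) ≤ Nat.card A * T ^ g := by
    rw [Module.finrank_pi_fintype]
    calc ∑ a : A, finrank K (G.O (pts a) ⧸ G.m (pts a) ^ T) ≤ ∑ _a : A, T ^ g :=
          Finset.sum_le_sum fun a _ => G.finrank_quot_le (pts a) T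
      _ = Nat.card A * T ^ g := by
          rw [Finset.sum_const, Finset.card_univ, smul_eq_mul, Nat.card_eq_fintype_card]
  have hker : ∃ a : (Fin g → Fin (q + 1)) → K, a ≠ 0 ∧ Φ a = 0 := by
    by_contra hcon
    push Not at hcon
    have hinj : Function.Injective Φ := by
      rw [← LinearMap.ker_eq_bot, LinearMap.ker_eq_bot']
      intro a ha
      by_contra h
      exact hcon a h ha
    have h1 := LinearMap.finrank_le_finrank_of_injective hinj
    rw [Module.finrank_fintype_fun_eq_card, Fintype.card_fun, Fintype.card_fin,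
      Fintype.card_fin] at h1
    omega
  obtain ⟨a, ha0, ha⟩ := hker
  have hli := linearIndependent_mon hf (q + 1)
  refine ⟨∑ e, a e • mon (q + 1) f e, ?_, ?_, fun b => ?_⟩
  · exact Submodule.sum_mem _ fun e _ => Submodule.smul_mem _ _ (G.mon_mem_LD hfr q e)
  · intro h
    apply ha0
    funext e
    exact Fintype.linearIndependent_iff.mp hli a h e
  · refine ⟨Fintype.linearCombination K (w b) a, ?_, ?_⟩
    · rw [← Ideal.Quotient.eq_zero_iff_mem]
      exact congrFun ha b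
    · rw [Fintype.linearCombination_apply, Finset.sum_mul]
      push_cast
      refine Finset.sum_congr rfl fun e _ => ?_
      rw [smul_mul_assoc]

theorem exists_le_card (hquad : G.𝒜.IsQuadratic) (hmap : G.𝒜.HtMap) :
    ∃ C : ℕ, ∀ n : ℕ, (n : K) ≠ 0 → Finite {a : G.P0 // n • a = 0} →
      n ^ (2 * g) ≤ C * Nat.card {a : G.P0 // n • a = 0} := by
  classical
  obtain ⟨E, _, _, _, φ, σ, x₀, hφ, hx₀⟩ := G.exists_curve
  obtain ⟨r, f, hf, hfr⟩ := G.LD_algInd
  set δ : ℤ := G.𝒜.ht Ω φ + G.𝒜.ht Ω (-φ) with hδ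
  have h1 := G.ht_nonneg hφ
  have h2 := G.ht_neg_nonneg hφ
  have hδ0 : 0 ≤ δ := add_nonneg h1 h2
  obtain ⟨d, hd⟩ := Int.eq_ofNat_of_zero_le hδ0
  refine ⟨(r * g * d + 1) ^ g, fun n hn hfin => ?_⟩
  have hn0 : 1 ≤ n := by
    rcases Nat.eq_zero_or_pos n with rfl | h
    · exact absurd Nat.cast_zero hn
    · exact h
  obtain ⟨μ, hgen, hloc, τ, hτ, hτμ⟩ := G.exists_mul n hn
  by_contra hcon
  push Not at hcon
  set T : ℕ := r * g * d + 1 with hT
  set q : ℕ := n ^ 2 with hq
  obtain ⟨h, hh, hh0, hvan⟩ := G.exists_section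
    (fun a : {a : G.P0 // n • a = 0} => a.1) hf hfr q T (by
      rw [mul_comm]
      refine hcon.trans_le ?_
      rw [pow_mul]
      exact Nat.pow_le_pow_left (Nat.le_succ _) _)
  set R : ℕ := r * g * q with hR
  -- divide the point by `n`
  obtain ⟨E', _, _, _, _, _, φ', hφ'⟩ := G.exists_div n hn φ
  have hFF : Fermat.FF.IsFF1 Ω E' := Fermat.FF.Gen.isFF1_of_finite Ω E E'
  have := functionField_of_isFF1 Ω E
  have := functionField_of_isFF1 Ω E'
  set i := IsScalarTower.toAlgHom Ω E E' with hi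
  have hgi := G.gen_map i φ σ hφ
  rw [← hφ'] at hgi
  obtain ⟨σ', hσ'⟩ := G.gen_of_mul n hn φ' _ hgi
  have hσμ : (i : E →+* E').comp σ = σ'.comp (μ : G.F0 →+* G.F0) :=
    G.gen_unique _ _ _ hgi (hgen φ' σ' hσ')
  have hσμ' : ∀ x, algebraMap E E' (σ x) = σ' (μ x) := fun x => RingHom.congr_fun hσμ x
  obtain ⟨hO0, hm0, hg0⟩ := G.gen_local φ σ hφ x₀ 0 (by rw [hx₀, map_zero])
  obtain ⟨s, hs, hsum⟩ := exists_fiber (E' := E') x₀
  have hσh0 : σ' h ≠ 0 := by rwa [Ne, map_eq_zero]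
  -- vanishing of `h` at the places above `x₀`
  have hkey : ∀ P ∈ s, (T : ℤ) * P.ramificationIndex E ≤
      P.ord (σ' h) + R * P.ord (G.𝒜.g (plOf Ω P) φ') := by
    intro P hP
    rw [hs] at hP
    have ha : n • G.𝒜.spec (plOf Ω P) φ' = 0 := by
      rw [← map_nsmul, hφ', ← G.𝒜.spec_comp, plOf_comp_ofAlgHom, hP, hx₀]
    obtain ⟨a, haP⟩ := G.pt_torsion n hn _ ha
    have hna : n • a = 0 := by
      apply G.pt_injective
      rw [map_nsmul, haP, ha, map_zero]
    obtain ⟨hO, hm, hg⟩ := G.gen_local φ' σ' hσ' P a haP.symm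
    obtain ⟨y, hy, hyh⟩ := hvan ⟨a, hna⟩
    have hmord : ∀ x ∈ G.m a, OrdGe P (P.ramificationIndex E : ℤ)
        (σ' (((G.O a).val : G.O a →+* G.F0) x)) := by
      intro x hx
      refine ordGe_of_mem_span ((G.O a).val : G.O a →+* G.F0) σ' P
        {y : G.O a | ∃ x ∈ G.m 0, (y : G.F0) = μ (x : G.F0)} hO _ ?_ x ((hloc a hna).2 hx)
      rintro z ⟨x', hx', hz⟩
      have h3 : ((G.O a).val : G.O a →+* G.F0) z = μ (x' : G.F0) := hz
      rw [h3, ← hσμ']
      rcases (Fermat.FF.val_lt_one_iff x₀).mp (hm0 x' hx') with h4 | h4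
      · left
        rw [h4, map_zero]
      · right
        rw [P.ord_restrict, hP]
        have h5 : (0 : ℤ) < P.ramificationIndex E := by
          exact_mod_cast P.ramificationIndex_pos (F := E)
        nlinarith
    have hord := ordGe_of_mem_pow ((G.O a).val : G.O a →+* G.F0) σ' P (G.m a) hO _ hmord T y hy
    have h6 : ((G.O a).val : G.O a →+* G.F0) y = h * G.s a ^ R := hyh
    have hs0 : σ' (G.s a) ^ R ≠ 0 := pow_ne_zero _ (by rw [Ne, map_eq_zero]; exact G.s_ne_zero a)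
    rw [h6, map_mul, map_pow] at hord
    have h7 := hord.resolve_left (mul_ne_zero hσh0 hs0)
    rw [P.ord_mul hσh0 hs0, ord_pow, ← hg] at h7
    exact h7
  -- the divisor
  set Z : Divisor Ω E' := ∑ P ∈ s, Finsupp.single P ((T : ℤ) * P.ramificationIndex E) with hZ
  have hZP : ∀ P, Z P = if P ∈ s then (T : ℤ) * P.ramificationIndex E else 0 := by
    intro P
    rw [hZ, Finsupp.finsetSum_apply]
    have h3 : ∀ Q ∈ s, (Finsupp.single Q ((T : ℤ) * Q.ramificationIndex E) : Divisor Ω E') P =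
        if P = Q then (T : ℤ) * Q.ramificationIndex E else 0 := by
      intro Q _
      rw [Finsupp.single_apply]
      simp only [eq_comm]
    rw [Finset.sum_congr rfl h3, Finset.sum_ite_eq]
  have hsec : σ' h ∈ riemannRochSpace ((R : ℤ) • G.𝒜.div Ω φ' - Z) := by
    rw [mem_riemannRochSpace_iff]
    intro P
    right
    rw [Finsupp.sub_apply, Finsupp.smul_apply, HeightDatum.div_apply, hZP, smul_eq_mul]
    split_ifs with hP
    · have := hkey P hP
      linarith
    · have := G.gen_LD φ' σ' hσ' R h hh hh0 P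
      linarith
  have hdeg := degree_nonneg_of_mem hsec hσh0
  have hdegZ : Divisor.degree Z = T * finrank E E' := by
    rw [hZ, map_sum, ← hsum, Finset.mul_sum]
    refine Finset.sum_congr rfl fun P _ => ?_
    rw [degree_single_one]
  have hht' : Divisor.degree (G.𝒜.div Ω φ') = G.𝒜.ht Ω φ' := rfl
  rw [map_sub, map_zsmul, hdegZ, hht', smul_eq_mul] at hdeg
  -- the height of `φ'`
  have h3 := ht_nsmul_add_ht_nsmul_neg hquad φ' n
  have h4 : n • (-φ') = G.𝒜.spec (Pl.ofAlgHom i) (-φ) := by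
    rw [smul_neg, hφ', map_neg]
  rw [hφ', h4, hmap, hmap] at h3
  have h5 : (finrank E E' : ℤ) * d = n ^ 2 * (G.𝒜.ht Ω φ' + G.𝒜.ht Ω (-φ')) := by
    rw [← h3, ← hd, hδ]
    ring
  have h6 := G.ht_neg_nonneg hσ'
  have hpos : (0 : ℤ) < finrank E E' := by exact_mod_cast Module.finrank_pos
  have hn2 : (0 : ℤ) < (n : ℤ) ^ 2 := by positivity
  have h7 : (T : ℤ) * finrank E E' ≤ ((r * g : ℕ) : ℤ) * (finrank E E' * d) := by
    rw [h5]
    have h8 : (R : ℤ) * G.𝒜.ht Ω φ' =
        ((r * g : ℕ) : ℤ) * (n ^ 2 * G.𝒜.ht Ω φ') := by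
      rw [hR, hq]
      push_cast
      ring
    have h9 : (0 : ℤ) ≤ ((r * g : ℕ) : ℤ) * (n ^ 2 * G.𝒜.ht Ω (-φ')) := by positivity
    rw [mul_add, mul_add]
    linarith
  have h8 : (T : ℤ) ≤ ((r * g : ℕ) : ℤ) * d := by
    have : (T : ℤ) * finrank E E' ≤ (((r * g : ℕ) : ℤ) * d) * finrank E E' := by
      calc (T : ℤ) * finrank E E' ≤ ((r * g : ℕ) : ℤ) * (finrank E E' * d) := h7
        _ = _ := by ring
    exact le_of_mul_le_mul_right this hpos
  rw [hT] at h8
  push_cast at h8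
  linarith

end GeomDatum

end Fermat.Agent.AV
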