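import Fermat.Agent.AV.Geom
import Fermat.Agent.AV.CountAlg
import Fermat.Agent.RR.OfFF1

/-!
# Counting torsion points: the upper bound (team AV = S26, package P8)
-/

set_option autoImplicit false
set_option linter.unusedSectionVars false

noncomputable section

open AlgebraicCurve Module

universe u

namespace Fermat.Agent.AV

open Fermat.Agent.AV.Count Fermat.Agent.RR

namespace GeomDatum

variable {K Ω : Type u} [Field K] [Field Ω] [IsAlgClosed Ω] [Algebra K Ω] {g : ℕ}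
  (G : GeomDatum K Ω g)

theorem LD_mono {r r' : ℕ} (h : r ≤ r') {f : G.F0} (hf : f ∈ G.LD r) : f ∈ G.LD r' := by
  obtain ⟨s, rfl⟩ := Nat.exists_eq_add_of_le h
  have := G.LD_mul r s f 1 hf (G.LD_one s)
  rwa [mul_one] at this

theorem LD_pow {r : ℕ} {f : G.F0} (hf : f ∈ G.LD r) (k : ℕ) : f ^ k ∈ G.LD (r * k) := by
  induction k with
  | zero =>
    rw [pow_zero]
    exact G.LD_one _
  | succ k ih =>
    rw [pow_succ, Nat.mul_succ]
    exact G.LD_mul _ _ _ _ ih hf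

theorem LD_prod {ι : Type*} (s : Finset ι) (f : ι → G.F0) (r : ι → ℕ)
    (hf : ∀ i ∈ s, f i ∈ G.LD (r i)) : ∏ i ∈ s, f i ∈ G.LD (∑ i ∈ s, r i) := by
  classical
  induction s using Finset.induction_on with
  | empty => exact G.LD_one _
  | insert a s ha ih =>
    rw [Finset.prod_insert ha, Finset.sum_insert ha]
    exact G.LD_mul _ _ _ _ (hf a (Finset.mem_insert_self a s))
      (ih fun i hi => hf i (Finset.mem_insert_of_mem hi))

theorem mon_mem_LD {r : ℕ} {f : Fin g → G.F0} (hf : ∀ i, f i ∈ G.LD r) (q : ℕ)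
    (e : Fin g → Fin (q + 1)) : mon (q + 1) f e ∈ G.LD (r * g * q) := by
  have h1 := G.LD_prod Finset.univ (fun i => f i ^ (e i : ℕ)) (fun i => r * (e i : ℕ))
    (fun i _ => G.LD_pow (hf i) _)
  refine G.LD_mono ?_ h1
  calc ∑ i, r * (e i : ℕ) ≤ ∑ _i : Fin g, r * q := by
        refine Finset.sum_le_sum fun i _ => Nat.mul_le_mul_left _ ?_
        have := (e i).2
        omega
    _ = r * g * q := by
        rw [Finset.sum_const, Finset.card_univ, Fintype.card_fin, smul_eq_mul]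
        ring

/-- Common denominators. -/
theorem exists_common_LD {ι : Type*} [Finite ι] (b : ι → G.F0) :
    ∃ (m₀ : ℕ) (v : G.F0), v ≠ 0 ∧ ∀ i, b i * v ∈ G.LD m₀ := by
  classical
  have := Fintype.ofFinite ι
  choose r u v hu hv hv0 huv using fun i => G.LD_frac (b i)
  refine ⟨∑ i, r i, ∏ i, v i, Finset.prod_ne_zero_iff.mpr fun i _ => hv0 i, fun i => ?_⟩
  have h1 : b i * ∏ j, v j = ∏ j, if j = i then u i else v j := by
    rw [← Finset.mul_prod_erase _ _ (Finset.mem_univ i),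
      ← Finset.mul_prod_erase _ (fun j => if j = i then u i else v j) (Finset.mem_univ i),
      ← mul_assoc, huv i, if_pos rfl]
    congr 1
    refine Finset.prod_congr rfl fun j hj => ?_
    rw [if_neg (Finset.ne_of_mem_erase hj)]
  rw [h1]
  apply G.LD_prod
  intro j _
  split_ifs with h
  · subst h
    exact hu j
  · exact hv j

/-! ### Heights -/

section Ht

variable {E : Type u} [Field E] [Algebra Ω E] [Fermat.FF.IsFF1 Ω E]

theorem div_nonneg {Q : G.𝒜.Pt E} {σ : G.F0 →+* E} (hQ : G.IsGen Q σ) :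
    0 ≤ G.𝒜.div Ω Q := by
  intro P
  have h1 := G.gen_LD Q σ hQ 1 1 (G.LD_one 1) one_ne_zero P
  rw [map_one, P.ord_one, Nat.cast_one, one_mul, zero_add] at h1
  exact h1

theorem ht_nonneg {Q : G.𝒜.Pt E} {σ : G.F0 →+* E} (hQ : G.IsGen Q σ) :
    0 ≤ G.𝒜.ht Ω Q :=
  degree_nonneg (G.div_nonneg hQ)

theorem ht_neg_nonneg {Q : G.𝒜.Pt E} {σ : G.F0 →+* E} (hQ : G.IsGen Q σ) :
    0 ≤ G.𝒜.ht Ω (-Q) := by
  obtain ⟨σ', hσ'⟩ := G.gen_neg Q σ hQ
  exact G.ht_nonneg hσ'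

end Ht

/-- The quadraticity of the height (parallelogram law along multiples). -/
def _root_.Fermat.Agent.AV.HeightDatum.IsQuadratic (𝒜 : HeightDatum Ω) : Prop :=
  ∀ {F : Type u} [Field F] [Algebra Ω F] [Fermat.FF.IsFF1 Ω F] (φ : 𝒜.Pt F) (n : ℕ),
    𝒜.ht Ω ((n + 2) • φ) + 𝒜.ht Ω (n • φ) =
      2 * 𝒜.ht Ω ((n + 1) • φ) + 𝒜.ht Ω φ + 𝒜.ht Ω (-φ)

/-- Functoriality of the height under finite extensions. -/
def _root_.Fermat.Agent.AV.HeightDatum.HtMap (𝒜 : HeightDatum Ω) : Prop :=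
  ∀ {F F' : Type u} [Field F] [Field F'] [Algebra Ω F] [Algebra Ω F'] [Algebra F F']
    [IsScalarTower Ω F F'] [FiniteDimensional F F'] [Fermat.FF.IsFF1 Ω F]
    [Fermat.FF.IsFF1 Ω F'] (φ : 𝒜.Pt F),
    𝒜.ht Ω (𝒜.spec (Pl.ofAlgHom (IsScalarTower.toAlgHom Ω F F')) φ) =
      (finrank F F' : ℤ) * 𝒜.ht Ω φ

section Quad

variable {𝒜 : HeightDatum Ω} (hquad : 𝒜.IsQuadratic)
  {E : Type u} [Field E] [Algebra Ω E] [Fermat.FF.IsFF1 Ω E]

include hquad in
theorem ht_zero : 𝒜.ht Ω (0 : 𝒜.Pt E) = 0 := by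
  have h := hquad (0 : 𝒜.Pt E) 0
  simp only [nsmul_zero, neg_zero] at h
  linarith

include hquad in
theorem two_ht_nsmul (φ : 𝒜.Pt E) (n : ℕ) :
    2 * 𝒜.ht Ω (n • φ) = n * (n + 1) * 𝒜.ht Ω φ + n * (n - 1) * 𝒜.ht Ω (-φ) := by
  induction n using Nat.strong_induction_on with
  | _ n ih =>
    rcases n with _ | _ | n
    · simp [ht_zero hquad]
    · simp
    · have h1 := ih n (by omega)
      have h2 := ih (n + 1) (by omega)
      have h3 := hquad φ n
      push_cast at h2 ⊢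
      linear_combination 2 * h3 + 2 * h2 - h1

include hquad in
theorem ht_nsmul_add_ht_nsmul_neg (φ : 𝒜.Pt E) (n : ℕ) :
    𝒜.ht Ω (n • φ) + 𝒜.ht Ω (n • (-φ)) = n ^ 2 * (𝒜.ht Ω φ + 𝒜.ht Ω (-φ)) := by
  have h1 := two_ht_nsmul hquad φ n
  have h2 := two_ht_nsmul hquad (-φ) n
  rw [neg_neg] at h2
  have h3 : 2 * (𝒜.ht Ω (n • φ) + 𝒜.ht Ω (n • (-φ))) =
      2 * (n ^ 2 * (𝒜.ht Ω φ + 𝒜.ht Ω (-φ))) := by
    linear_combination h1 + h2
  exact mul_left_cancel₀ two_ne_zero h3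

include hquad in
theorem ht_nsmul_le (φ : 𝒜.Pt E) (h1 : 0 ≤ 𝒜.ht Ω φ) (h2 : 0 ≤ 𝒜.ht Ω (-φ)) (n : ℕ) :
    𝒜.ht Ω (n • φ) ≤ n ^ 2 * (𝒜.ht Ω φ + 𝒜.ht Ω (-φ)) := by
  have h3 := two_ht_nsmul hquad φ n
  have h4 : (0 : ℤ) ≤ n := Int.natCast_nonneg n
  have h5 : (0 : ℤ) ≤ n * (n - 1) := by
    rcases Nat.eq_zero_or_pos n with rfl | hn
    · simp
    · have : (1 : ℤ) ≤ n := by exact_mod_cast hn
      exact mul_nonneg h4 (by linarith)
  have h6 := mul_nonneg h5 h1
  have h7 : (0 : ℤ) ≤ n * (n + 1) * 𝒜.ht Ω (-φ) := by positivity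
  nlinarith

end Quad

/-! ### Orders of elements of powers of ideals -/

section Ord

variable {E : Type u} [Field E] [Algebra Ω E]

/-- vanishing to order at least `c` -/
def OrdGe (P : Place Ω E) (c : ℤ) (x : E) : Prop := x = 0 ∨ c ≤ P.ord x

theorem OrdGe.add {P : Place Ω E} {c : ℤ} {x y : E} (hx : OrdGe P c x) (hy : OrdGe P c y) :
    OrdGe P c (x + y) := by
  by_cases h : x + y = 0
  · exact Or.inl h
  rcases hx with rfl | hx
  · rwa [zero_add]
  rcases hy with rfl | hy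
  · rw [add_zero]
    exact Or.inr hx
  exact Or.inr ((le_min hx hy).trans (ord_add P h))

theorem OrdGe.mul {P : Place Ω E} {c d : ℤ} {x y : E} (hx : OrdGe P c x) (hy : OrdGe P d y) :
    OrdGe P (c + d) (x * y) := by
  rcases eq_or_ne x 0 with rfl | hx0
  · exact Or.inl (zero_mul _)
  rcases eq_or_ne y 0 with rfl | hy0
  · exact Or.inl (mul_zero _)
  right
  rw [P.ord_mul hx0 hy0]
  have := hx.resolve_left hx0
  have := hy.resolve_left hy0
  linarith

theorem OrdGe.of_mem {P : Place Ω E} {x : E} (hx : x ∈ P.toValuationSubring) : OrdGe P 0 x :=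
  Or.inr (ord_nonneg_of_mem P hx)

/-- Elements of `m ^ T` vanish to order at least `T * e`. -/
theorem ordGe_of_mem_pow {F₀ R : Type*} [Field F₀] [CommRing R] (ρ : R →+* F₀) (σ : F₀ →+* E)
    (P : Place Ω E) (m : Ideal R) (hR : ∀ x : R, σ (ρ x) ∈ P.toValuationSubring) (e : ℤ)
    (hm : ∀ x ∈ m, OrdGe P e (σ (ρ x))) (T : ℕ) : ∀ x ∈ m ^ T, OrdGe P (T * e) (σ (ρ x)) := by
  induction T with
  | zero =>
    intro x _
    rw [Nat.cast_zero, zero_mul]
    exact OrdGe.of_mem (hR x)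
  | succ T ih =>
    intro x hx
    rw [pow_succ] at hx
    refine Submodule.mul_induction_on hx (fun a ha b hb => ?_) (fun a b ha hb => ?_)
    · rw [map_mul, map_mul]
      have := (ih a ha).mul (hm b hb)
      have h2 : ((T + 1 : ℕ) : ℤ) * e = T * e + e := by push_cast; ring
      rw [h2]
      exact this
    · rw [map_add, map_add]
      exact ha.add hb

/-- Elements of an ideal generated by elements vanishing to order `≥ e`. -/
theorem ordGe_of_mem_span {F₀ R : Type*} [Field F₀] [CommRing R] (ρ : R →+* F₀) (σ : F₀ →+* E)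
    (P : Place Ω E) (X : Set R) (hR : ∀ x : R, σ (ρ x) ∈ P.toValuationSubring) (e : ℤ)
    (hX : ∀ x ∈ X, OrdGe P e (σ (ρ x))) : ∀ x ∈ Ideal.span X, OrdGe P e (σ (ρ x)) := by
  intro x hx
  refine Submodule.span_induction (fun a ha => hX a ha) ?_ (fun a b _ _ ha hb => ?_)
    (fun r a _ ha => ?_) hx
  · left
    rw [map_zero, map_zero]
  · rw [map_add, map_add]
    exact ha.add hb
  · rw [smul_eq_mul, map_mul, map_mul]
    have := (OrdGe.of_mem (hR r)).mul ha
    rwa [zero_add] at this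

end Ord

theorem finite_quot (a : G.P0) (T : ℕ) : Module.Finite K (G.O a ⧸ G.m a ^ T) := by
  obtain ⟨z, hz⟩ := G.m_span a
  rw [hz]
  exact finite_quotient_pow z (fun x => by rw [← hz]; exact G.m_residue a x) T

theorem finrank_quot_le (a : G.P0) (T : ℕ) : finrank K (G.O a ⧸ G.m a ^ T) ≤ T ^ g := by
  obtain ⟨z, hz⟩ := G.m_span a
  rw [hz]
  exact finrank_quotient_pow_le z (fun x => by rw [← hz]; exact G.m_residue a x) T

section Sections

variable {E : Type u} [Field E] [Algebra Ω E] [Fermat.FF.IsFF1 Ω E]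

theorem map_mem_riemannRochSpace {Q : G.𝒜.Pt E} {σ : G.F0 →+* E} (hQ : G.IsGen Q σ) {r : ℕ}
    {f : G.F0} (hf : f ∈ G.LD r) : σ f ∈ riemannRochSpace ((r : ℤ) • G.𝒜.div Ω Q) := by
  rcases eq_or_ne f 0 with rfl | hf0
  · rw [map_zero]
    exact zero_mem _
  rw [mem_riemannRochSpace_iff]
  intro P
  right
  have h1 := G.gen_LD Q σ hQ r f hf hf0 P
  rw [Finsupp.smul_apply, HeightDatum.div_apply, smul_eq_mul]
  linarith

theorem mul_mem_riemannRochSpace {D D' : Divisor Ω E} {x y : E} (hx : x ∈ riemannRochSpace D)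
    (hy : y ∈ riemannRochSpace D') : x * y ∈ riemannRochSpace (D + D') := by
  rw [mem_riemannRochSpace_iff] at hx hy ⊢
  intro P
  rcases eq_or_ne x 0 with rfl | hx0
  · exact Or.inl (zero_mul _)
  rcases eq_or_ne y 0 with rfl | hy0
  · exact Or.inl (mul_zero _)
  right
  rw [P.ord_mul hx0 hy0, Finsupp.add_apply]
  have := (hx P).resolve_left hx0
  have := (hy P).resolve_left hy0
  linarith

theorem sum_smul_mem_riemannRochSpace {Q : G.𝒜.Pt E} {σ : G.F0 →+* E} (hQ : G.IsGen Q σ)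
    {ι : Type*} (s : Finset ι) (a : ι → K) (u : ι → G.F0) (D : Divisor Ω E)
    (hu : ∀ i, σ (u i) ∈ riemannRochSpace D) : σ (∑ i ∈ s, a i • u i) ∈ riemannRochSpace D := by
  rw [map_sum]
  refine Submodule.sum_mem _ fun i _ => ?_
  rw [Algebra.smul_def, map_mul, G.gen_alg Q σ hQ, ← Algebra.smul_def]
  exact Submodule.smul_mem _ _ (hu i)

/-- **The key estimate** for the upper bound. -/
theorem card_le_pow {φ ψ : G.𝒜.Pt E} {σ : G.F0 →+* E} (hφ : G.IsGen φ σ)
    {μ : G.F0 →ₐ[K] G.F0} (hψ : G.IsGen ψ (σ.comp (μ : G.F0 →+* G.F0)))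
    (x₀ : Place Ω E) (hx : G.𝒜.spec (plOf Ω x₀) φ = 0) (hx' : G.𝒜.spec (plOf Ω x₀) ψ = 0)
    (hμ : ∀ x ∈ G.O 0, μ x ∈ G.O 0) {ι : Type*} [Fintype ι] (c b : ι → G.F0) {r m₀ : ℕ}
    (hc : ∀ i, c i ∈ G.LD r) (hb : ∀ i, b i ∈ G.LD m₀)
    (hli : LinearIndependent K fun i => μ (c i) * b i) {T : ℕ}
    (hT : (r : ℤ) * G.𝒜.ht Ω ψ + m₀ * G.𝒜.ht Ω φ < T) : Fintype.card ι ≤ T ^ g := by
  classical
  have := functionField_of_isFF1 Ω E
  set s₀ := G.s 0 with hs₀
  have hs0 : s₀ ≠ 0 := G.s_ne_zero 0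
  set t : G.F0 := μ s₀ ^ r * s₀ ^ m₀ with ht
  have hμs0 : μ s₀ ≠ 0 := by rwa [Ne, map_eq_zero]
  have ht0 : t ≠ 0 := mul_ne_zero (pow_ne_zero _ hμs0) (pow_ne_zero _ hs0)
  have hpt : G.pt 0 = 0 := map_zero _
  obtain ⟨hO, hm, hg⟩ := G.gen_local φ σ hφ x₀ 0 (by rw [hx, hpt])
  obtain ⟨hO', hm', hg'⟩ := G.gen_local ψ _ hψ x₀ 0 (by rw [hx', hpt])
  -- the elements `w i = u i * t` of the local ring
  have hw : ∀ i, μ (c i) * b i * t ∈ G.O 0 := by
    intro i
    have h1 : μ (c i * s₀ ^ r) ∈ G.O 0 := hμ _ (G.LD_mem r (c i) (hc i) 0)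
    have h2 : b i * s₀ ^ m₀ ∈ G.O 0 := G.LD_mem m₀ (b i) (hb i) 0
    have h3 : μ (c i) * b i * t = μ (c i * s₀ ^ r) * (b i * s₀ ^ m₀) := by
      rw [map_mul, map_pow, ht]
      ring
    rw [h3]
    exact mul_mem h1 h2
  let w : ι → G.O 0 := fun i => ⟨μ (c i) * b i * t, hw i⟩
  let Φ : (ι → K) →ₗ[K] (G.O 0 ⧸ G.m 0 ^ T) :=
    (Ideal.Quotient.mkₐ K (G.m 0 ^ T)).toLinearMap ∘ₗ (Fintype.linearCombination K w)
  have hinj : Function.Injective Φ := by
    rw [← LinearMap.ker_eq_bot, LinearMap.ker_eq_bot']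
    intro a ha
    by_contra hne
    -- the section
    set u : G.F0 := ∑ i, a i • (μ (c i) * b i) with hu
    have hu0 : u ≠ 0 := by
      intro h
      apply hne
      funext i
      exact Fintype.linearIndependent_iff.mp hli a h i
    have hmem : Fintype.linearCombination K w a ∈ G.m 0 ^ T := by
      rw [← Ideal.Quotient.eq_zero_iff_mem]
      exact ha
    have hval : ((Fintype.linearCombination K w a : G.O 0) : G.F0) = u * t := by
      rw [Fintype.linearCombination_apply, hu, Finset.sum_mul]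
      push_cast
      refine Finset.sum_congr rfl fun i _ => ?_
      rw [smul_mul_assoc]
    have hord := ordGe_of_mem_pow ((G.O 0).val : G.O 0 →+* G.F0) σ x₀ (G.m 0) hO 1 (by
      intro x hx
      rcases Fermat.FF.val_lt_one_iff x₀ |>.mp (hm x hx) with h | h
      · exact Or.inl h
      · exact Or.inr h) T _ hmem
    have hσu0 : σ u ≠ 0 := by rwa [Ne, map_eq_zero]
    have hσt0 : σ t ≠ 0 := by rwa [Ne, map_eq_zero]
    have hord2 : (T : ℤ) ≤ x₀.ord (σ u) + x₀.ord (σ t) := by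
      have h1 : ((G.O 0).val : G.O 0 →+* G.F0) (Fintype.linearCombination K w a) = u * t := hval
      rw [h1, map_mul, mul_one] at hord
      rcases hord with h2 | h2
      · exact absurd h2 (mul_ne_zero hσu0 hσt0)
      · rwa [x₀.ord_mul hσu0 hσt0] at h2
    set D : Divisor Ω E := (r : ℤ) • G.𝒜.div Ω ψ + (m₀ : ℤ) • G.𝒜.div Ω φ with hD
    have hordt : x₀.ord (σ t) = D x₀ := by
      rw [hD, ht, map_mul, map_pow, map_pow, x₀.ord_mul, ord_pow, ord_pow, Finsupp.add_apply,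
        Finsupp.smul_apply, Finsupp.smul_apply, HeightDatum.div_apply, HeightDatum.div_apply, hg,
        hg']
      · rfl
      · exact pow_ne_zero _ (by rwa [Ne, map_eq_zero])
      · exact pow_ne_zero _ (by rwa [Ne, map_eq_zero])
    have hsec : σ u ∈ riemannRochSpace D := by
      apply G.sum_smul_mem_riemannRochSpace hφ
      intro i
      rw [map_mul]
      exact mul_mem_riemannRochSpace (G.map_mem_riemannRochSpace hψ (hc i))
        (G.map_mem_riemannRochSpace hφ (hb i))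
    have hsec' : σ u ∈ riemannRochSpace (D - Finsupp.single x₀ (T : ℤ)) := by
      rw [mem_riemannRochSpace_iff] at hsec ⊢
      intro P
      right
      by_cases hP : P = x₀
      · subst hP
        rw [Finsupp.sub_apply, Finsupp.single_eq_same]
        linarith
      · rw [Finsupp.sub_apply, Finsupp.single_eq_of_ne hP, sub_zero]
        exact (hsec P).resolve_left hσu0
    have hdeg := degree_nonneg_of_mem hsec' hσu0
    rw [map_sub, degree_single_one, hD, map_add, map_zsmul, map_zsmul, smul_eq_mul,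
      smul_eq_mul] at hdeg
    have h5 : Divisor.degree (G.𝒜.div Ω ψ) = G.𝒜.ht Ω ψ := rfl
    have h6 : Divisor.degree (G.𝒜.div Ω φ) = G.𝒜.ht Ω φ := rfl
    rw [h5, h6] at hdeg
    linarith
  have := G.finite_quot 0 T
  have h1 := LinearMap.finrank_le_finrank_of_injective hinj
  rw [Module.finrank_fintype_fun_eq_card] at h1
  exact h1.trans (G.finrank_quot_le 0 T)

end Sections

/-- The torsion subgroup of `A(K)` has at most `C * n ^ (2 g)` elements. -/
theorem exists_card_le (hquad : G.𝒜.IsQuadratic) : ∃ C : ℕ, ∀ n : ℕ, (n : K) ≠ 0 →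
    ∀ S : Finset {a : G.P0 // n • a = 0}, S.card ≤ C * n ^ (2 * g) := by
  classical
  obtain ⟨E, _, _, _, φ, σ, x₀, hφ, hx₀⟩ := G.exists_curve
  obtain ⟨r, f, hf, hfr⟩ := G.LD_algInd
  set δ : ℤ := G.𝒜.ht Ω φ + G.𝒜.ht Ω (-φ) with hδ
  have h1 := G.ht_nonneg hφ
  have h2 := G.ht_neg_nonneg hφ
  have hδ0 : 0 ≤ δ := add_nonneg h1 h2
  obtain ⟨d, hd⟩ := Int.eq_ofNat_of_zero_le hδ0
  refine ⟨(r * g * d + 1) ^ g, fun n hn S => ?_⟩
  have hn0 : 1 ≤ n := by
    rcases Nat.eq_zero_or_pos n with rfl | h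
    · exact absurd Nat.cast_zero hn
    · exact h
  obtain ⟨μ, hgen, hloc, τ, hτ, hτμ⟩ := G.exists_mul n hn
  obtain ⟨b, hb⟩ := exists_linearIndependent_fieldRange μ (S := S) (fun a => τ a.1)
    (fun a b h => Subtype.ext (hτ h)) (fun a f => hτμ a.1 f)
  obtain ⟨m₀, v, hv0, hv⟩ := G.exists_common_LD b
  have hb' := linearIndependent_mul_const hb hv0
  -- the multiplicity
  set q : ℕ := m₀ * d with hq
  set T : ℕ := (r * g * q) * (n ^ 2 * d) + m₀ * d + 1 with hT
  have hli := linearIndependent_mul μ hb' (linearIndependent_mon hf (q + 1))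
  have key := G.card_le_pow hφ (hgen φ σ hφ) x₀ hx₀ (by rw [map_nsmul, hx₀, nsmul_zero])
    (hloc 0 (nsmul_zero n)).1
    (fun p : (Fin g → Fin (q + 1)) × Fin (Fintype.card S) => mon (q + 1) f p.1)
    (fun p => b p.2 * v) (r := r * g * q) (m₀ := m₀) (T := T)
    (fun p => G.mon_mem_LD hfr q p.1) (fun p => hv p.2) hli (by
      have h3 := ht_nsmul_le hquad φ h1 h2 n
      rw [← hδ, hd] at h3
      have h4 : G.𝒜.ht Ω φ ≤ d := by
        have : δ = d := hd
        linarith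
      have h5 : ((r * g * q : ℕ) : ℤ) * G.𝒜.ht Ω (n • φ) ≤
          ((r * g * q : ℕ) : ℤ) * (n ^ 2 * d) := by
        gcongr
      have h6 : (m₀ : ℤ) * G.𝒜.ht Ω φ ≤ m₀ * d := by gcongr
      have h7 : ((T : ℕ) : ℤ) = ((r * g * q : ℕ) : ℤ) * (n ^ 2 * d) + m₀ * d + 1 := by
        rw [hT]
        push_cast
        ring
      rw [h7]
      linarith)
  rw [Fintype.card_prod, Fintype.card_fin, Fintype.card_fun, Fintype.card_fin,
    Fintype.card_fin, Fintype.card_coe] at key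
  have hle : T ≤ (q + 1) * ((r * g * d + 1) * n ^ 2) := by
    have h8 : 1 ≤ n ^ 2 := Nat.one_le_pow _ _ hn0
    calc T = r * g * q * (n ^ 2 * d) + (q + 1) := by rw [hT, hq]; ring
      _ ≤ r * g * (q + 1) * (n ^ 2 * d) + (q + 1) * n ^ 2 := by
        gcongr
        · omega
        · exact Nat.le_mul_of_pos_right _ h8
      _ = (q + 1) * ((r * g * d + 1) * n ^ 2) := by ring
  have h9 : (q + 1) ^ g * S.card ≤ (q + 1) ^ g * ((r * g * d + 1) ^ g * n ^ (2 * g)) := by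
    calc (q + 1) ^ g * S.card ≤ T ^ g := key
      _ ≤ ((q + 1) * ((r * g * d + 1) * n ^ 2)) ^ g := Nat.pow_le_pow_left hle g
      _ = _ := by rw [mul_pow, mul_pow, ← pow_mul]
  exact Nat.le_of_mul_le_mul_left h9 (pow_pos (Nat.succ_pos q) g)

end GeomDatum

end Fermat.Agent.AV
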