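import Fermat.Agent.AV.CountLower

/-!
# Counting torsion points (team AV = S26, package P8)
-/

set_option autoImplicit false
set_option linter.unusedSectionVars false

noncomputable section

open AlgebraicCurve Module

universe u

namespace Fermat.Agent.AV

open Fermat.Agent.AV.Count Fermat.Agent.RR

namespace GeomDatum

variable {K Ω : Type u} [Field K] [Field Ω] [IsAlgClosed Ω] [Algebra K Ω] {g : ℕ}
  (G : GeomDatum K Ω g)

theorem finite_torsion (hquad : G.𝒜.IsQuadratic) {n : ℕ} (hn : (n : K) ≠ 0) :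
    Finite {a : G.P0 // n • a = 0} := by
  obtain ⟨C, hC⟩ := G.exists_card_le hquad
  by_contra hinf
  rw [not_finite_iff_infinite] at hinf
  obtain ⟨S, hS⟩ := Infinite.exists_subset_card_eq {a : G.P0 // n • a = 0} (C * n ^ (2 * g) + 1)
  have := hC n hn S
  omega

/-- **The number of `n`-torsion points of an abelian variety of dimension `g` is `n ^ (2 g)`**, for
`n` invertible. -/
theorem card_torsion (hquad : G.𝒜.IsQuadratic) (hmap : G.𝒜.HtMap) {n : ℕ} (hn : (n : K) ≠ 0) :
    Nat.card {a : G.P0 // n • a = 0} = n ^ (2 * g) := by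
  classical
  obtain ⟨C, hC⟩ := G.exists_card_le hquad
  obtain ⟨C', hC'⟩ := G.exists_le_card hquad hmap
  have hcard : ∀ m : ℕ, Nat.card {a : G.P0 // m • a = 0} = Nat.card (tors G.P0 m) := fun m => rfl
  have hnk : ∀ k : ℕ, ((n ^ k : ℕ) : K) ≠ 0 := fun k => by
    rw [Nat.cast_pow]
    exact pow_ne_zero _ hn
  have hpow : ∀ k : ℕ, Nat.card {a : G.P0 // (n ^ k) • a = 0} =
      Nat.card {a : G.P0 // n • a = 0} ^ k := fun k => by
    rw [hcard, hcard]
    exact card_tors_pow (G.divisible n hn) k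
  apply eq_of_pow_squeeze (C := max C C')
  · intro k
    have := G.finite_torsion hquad (hnk k)
    have h1 := hC' (n ^ k) (hnk k) this
    rw [hpow] at h1
    calc (n ^ (2 * g)) ^ k = (n ^ k) ^ (2 * g) := by rw [← pow_mul, ← pow_mul, mul_comm]
      _ ≤ C' * Nat.card {a : G.P0 // n • a = 0} ^ k := h1
      _ ≤ _ := Nat.mul_le_mul_right _ (le_max_right _ _)
  · intro k
    have := G.finite_torsion hquad (hnk k)
    have := Fintype.ofFinite {a : G.P0 // (n ^ k) • a = 0}
    have h1 := hC (n ^ k) (hnk k) Finset.univ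
    rw [Finset.card_univ, ← Nat.card_eq_fintype_card, hpow] at h1
    calc Nat.card {a : G.P0 // n • a = 0} ^ k ≤ C * (n ^ k) ^ (2 * g) := h1
      _ = C * (n ^ (2 * g)) ^ k := by rw [← pow_mul, ← pow_mul, mul_comm k]
      _ ≤ _ := Nat.mul_le_mul_right _ (le_max_left _ _)

end GeomDatum

end Fermat.Agent.AV
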