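import Mathlib
import Fermat.Agent.AV.CF

/-!
# The Gauss extension of a place to a constant field extension (team AV = S26)
-/

set_option autoImplicit false
set_option linter.unusedSectionVars false

noncomputable section

open TensorProduct AlgebraicCurve IntermediateField

universe u

namespace Fermat.Agent.AV

/-- the structure map `L → L(F)` as an `Ω`-homomorphism -/
def CF.inl (Ω F L : Type u) [Field Ω] [IsAlgClosed Ω] [Field F] [Algebra Ω F] [Field L]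
    [Algebra Ω L] : L →ₐ[Ω] CF Ω F L := IsScalarTower.toAlgHom Ω L (CF Ω F L)

namespace Pl

section Alg

variable {Ω k κ : Type u} [Field Ω] [Field k] [Field κ] [Algebra Ω k] [Algebra Ω κ]

/-- the valuation ring of a place over `Ω` is an `Ω`-algebra -/
instance instAlgV (p : Pl Ω k κ) : Algebra Ω p.V :=
  RingHom.toAlgebra ((algebraMap Ω k).codRestrict p.V.toSubring p.alg_mem)

/-- the inclusion as an algebra homomorphism -/
def valₐ (p : Pl Ω k κ) : p.V →ₐ[Ω] k where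
  toRingHom := p.V.subtype
  commutes' _ := rfl

/-- the residue map as an algebra homomorphism -/
def πₐ (p : Pl Ω k κ) : p.V →ₐ[Ω] κ where
  toRingHom := p.π
  commutes' x := p.π_alg x

theorem π_congr {p q : Pl Ω k κ} (h : p = q) {x : k} (hp : x ∈ p.V) (hq : x ∈ q.V) :
    p.π ⟨x, hp⟩ = q.π ⟨x, hq⟩ := by
  subst h
  rfl

@[simp] theorem valₐ_apply (p : Pl Ω k κ) (x : p.V) : p.valₐ x = x := rfl

@[simp] theorem πₐ_apply (p : Pl Ω k κ) (x : p.V) : p.πₐ x = p.π x := rfl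

end Alg

end Pl

section Gauss

variable {Ω F L κ l : Type u} [Field Ω] [IsAlgClosed Ω] [Field F] [Algebra Ω F]
  [Field L] [Algebra Ω L] [Field κ] [Algebra Ω κ] [Field l] [Algebra Ω l]

namespace Gauss

variable (F) (p : Pl Ω L κ)

/-- `V ⊗ F → L ⊗ F` -/
def ι : p.V ⊗[Ω] F →ₐ[Ω] L ⊗[Ω] F := Algebra.TensorProduct.map p.valₐ (AlgHom.id Ω F)

/-- `V ⊗ F → κ ⊗ F` -/
def ψ : p.V ⊗[Ω] F →ₐ[Ω] κ ⊗[Ω] F := Algebra.TensorProduct.map p.πₐ (AlgHom.id Ω F)

/-- `V ⊗ F → L(F)` -/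
def ιC : p.V ⊗[Ω] F →ₐ[Ω] CF Ω F L := ((CF.ofTensor Ω F L).restrictScalars Ω).comp (ι F p)

/-- `V ⊗ F → κ(F)` -/
def ψC : p.V ⊗[Ω] F →ₐ[Ω] CF Ω F κ := ((CF.ofTensor Ω F κ).restrictScalars Ω).comp (ψ F p)

theorem ιC_apply (a : p.V ⊗[Ω] F) : ιC F p a = CF.ofTensor Ω F L (ι F p a) := rfl

theorem ψC_apply (a : p.V ⊗[Ω] F) : ψC F p a = CF.ofTensor Ω F κ (ψ F p a) := rfl

@[simp] theorem ι_tmul (r : p.V) (f : F) : ι F p (r ⊗ₜ f) = (r : L) ⊗ₜ f := rfl

@[simp] theorem ψ_tmul (r : p.V) (f : F) : ψ F p (r ⊗ₜ f) = p.π r ⊗ₜ f := rfl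

theorem ιC_tmul (r : p.V) (f : F) :
    ιC F p (r ⊗ₜ f) = algebraMap L (CF Ω F L) r * CF.inr Ω F L f := by
  rw [ιC_apply, ι_tmul, CF.ofTensor_tmul]

theorem ψC_tmul (r : p.V) (f : F) :
    ψC F p (r ⊗ₜ f) = algebraMap κ (CF Ω F κ) (p.π r) * CF.inr Ω F κ f := by
  rw [ψC_apply, ψ_tmul, CF.ofTensor_tmul]

theorem ι_injective : Function.Injective (ι F p) :=
  Module.Flat.rTensor_preserves_injective_linearMap (M := F) p.valₐ.toLinearMap
    Subtype.val_injective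

theorem ιC_injective : Function.Injective (ιC F p) :=
  (CF.ofTensor_injective Ω F L).comp (ι_injective F p)

theorem ψC_ne_zero_iff (a : p.V ⊗[Ω] F) : ψC F p a ≠ 0 ↔ ψ F p a ≠ 0 := by
  rw [ψC_apply, Ne, map_eq_zero_iff _ (CF.ofTensor_injective Ω F κ)]

/-- coordinates of `ψ` -/
theorem repr_ψ {i : Type*} (b : Module.Basis i Ω F) (a : p.V ⊗[Ω] F) (k : i) :
    (Algebra.TensorProduct.basis κ b).repr (ψ F p a) k =
      p.π ((Algebra.TensorProduct.basis p.V b).repr a k) := by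
  induction a using TensorProduct.induction_on with
  | zero => simp
  | tmul r f =>
    simp only [ψ_tmul, Algebra.TensorProduct.basis_repr_tmul]
    simp only [Finsupp.smul_apply, Finsupp.mapRange_apply, smul_eq_mul, map_mul, ← p.π_alg]
    rfl
  | add u v hu hv => simp [map_add, hu, hv]

theorem repr_ι {i : Type*} (b : Module.Basis i Ω F) (a : p.V ⊗[Ω] F) (k : i) :
    (Algebra.TensorProduct.basis L b).repr (ι F p a) k =
      ((Algebra.TensorProduct.basis p.V b).repr a k : L) := by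
  induction a using TensorProduct.induction_on with
  | zero => simp
  | tmul r f =>
    simp only [ι_tmul, Algebra.TensorProduct.basis_repr_tmul]
    rfl
  | add u v hu hv => simp [map_add, hu, hv]

/-- Content lemma: every nonzero element of `L ⊗ F` is a constant times a primitive element,
with a prescribed coordinate equal to `1` if that coordinate is the largest one. -/
theorem exists_primitive_aux {i : Type*} (b : Module.Basis i Ω F) (a : L ⊗[Ω] F) (k : i)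
    (hk : (Algebra.TensorProduct.basis L b).repr a k ≠ 0)
    (hmax : ∀ j, (Algebra.TensorProduct.basis L b).repr a j /
      (Algebra.TensorProduct.basis L b).repr a k ∈ p.V) :
    ∃ a₀ : p.V ⊗[Ω] F, ι F p a₀ = ((Algebra.TensorProduct.basis L b).repr a k)⁻¹ • a ∧
      (Algebra.TensorProduct.basis p.V b).repr a₀ k = 1 ∧ ψ F p a₀ ≠ 0 := by
  classical
  set bL := Algebra.TensorProduct.basis L b
  set bV := Algebra.TensorProduct.basis p.V b
  let a₀ : p.V ⊗[Ω] F := bV.repr.symm ((bL.repr a).mapRange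
    (fun x => if h : x / bL.repr a k ∈ p.V then (⟨x / bL.repr a k, h⟩ : p.V) else 0)
    (by
      have : (0 : L) / bL.repr a k ∈ p.V := by rw [zero_div]; exact zero_mem _
      rw [dif_pos this]
      exact Subtype.ext (zero_div _)))
  have h0 : ∀ j, bV.repr a₀ j = ⟨_, hmax j⟩ := by
    intro j
    simp only [a₀, LinearEquiv.apply_symm_apply, Finsupp.mapRange_apply]
    rw [dif_pos (hmax j)]
  have h1 : bV.repr a₀ k = 1 := by
    rw [h0]
    exact Subtype.ext (div_self hk)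
  refine ⟨a₀, ?_, h1, ?_⟩
  · apply bL.repr.injective
    ext j
    rw [repr_ι, map_smul, Finsupp.smul_apply, smul_eq_mul]
    have h2 := h0 j
    simp only [bV] at h2
    rw [h2]
    exact div_eq_inv_mul _ _
  · intro h2
    have h3 := repr_ψ F p b a₀ k
    rw [h2, map_zero, Finsupp.zero_apply] at h3
    have h4 : (Algebra.TensorProduct.basis p.V b).repr a₀ k = 1 := h1
    rw [h4, map_one] at h3
    exact zero_ne_one h3

/-- among finitely many elements, not all zero, there is a largest one -/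
theorem exists_max {i : Type*} (a : i →₀ L) (ha : a ≠ 0) :
    ∃ k, a k ≠ 0 ∧ ∀ j, a j / a k ∈ p.V := by
  classical
  obtain ⟨k, hk, hmax⟩ := Finset.exists_max_image a.support (fun j => p.V.valuation (a j))
    (Finsupp.support_nonempty_iff.mpr ha)
  have hk0 : a k ≠ 0 := Finsupp.mem_support_iff.mp hk
  refine ⟨k, hk0, fun j => ?_⟩
  by_cases hj : a j = 0
  · rw [hj, zero_div]; exact zero_mem _
  · rw [← ValuationSubring.valuation_le_one_iff, map_div₀]
    have h1 : p.V.valuation (a k) ≠ 0 := (Valuation.ne_zero_iff _).mpr hk0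
    exact (div_le_one₀ (zero_lt_iff.mpr h1)).mpr (hmax j (Finsupp.mem_support_iff.mpr hj))

theorem exists_primitive (a : L ⊗[Ω] F) (ha : a ≠ 0) :
    ∃ c : L, c ≠ 0 ∧ ∃ a₀ : p.V ⊗[Ω] F, ι F p a₀ = c • a ∧ ψC F p a₀ ≠ 0 := by
  let b := Module.Free.chooseBasis Ω F
  have h : (Algebra.TensorProduct.basis L b).repr a ≠ 0 := by simpa using ha
  obtain ⟨k, hk, hmax⟩ := exists_max p _ h
  obtain ⟨a₀, h1, -, h2⟩ := exists_primitive_aux F p b a k hk hmax
  exact ⟨_, inv_ne_zero hk, a₀, h1, (ψC_ne_zero_iff F p a₀).mpr h2⟩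

/-- `f = c * (a / b)` with `a, b` primitive. -/
theorem exists_const_mul (f : CF Ω F L) (hf : f ≠ 0) :
    ∃ c : L, c ≠ 0 ∧ ∃ a b : p.V ⊗[Ω] F, ψC F p a ≠ 0 ∧ ψC F p b ≠ 0 ∧
      algebraMap L (CF Ω F L) c * f * ιC F p b = ιC F p a := by
  obtain ⟨u, v, hv, h⟩ := CF.exists_div f
  have hv' : CF.ofTensor Ω F L v ≠ 0 := by
    intro h0
    exact hv (CF.ofTensor_injective Ω F L (by rw [h0, map_zero]))
  have hu : u ≠ 0 := by
    rintro rfl
    rw [map_zero] at h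
    exact (mul_ne_zero hf hv') h
  obtain ⟨c, hc, a, ha, ha'⟩ := exists_primitive F p u hu
  obtain ⟨d, hd, b, hb, hb'⟩ := exists_primitive F p v hv
  refine ⟨c / d, div_ne_zero hc hd, a, b, ha', hb', ?_⟩
  rw [ιC_apply, ιC_apply, ha, hb, map_smul, map_smul, Algebra.smul_def, Algebra.smul_def, ← h,
    map_div₀]
  have hd' : algebraMap L (CF Ω F L) d ≠ 0 := (_root_.map_ne_zero _).mpr hd
  field_simp

end Gauss

open Gauss

variable (F) in
/-- the valuation ring of the Gauss place -/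
def gaussV (p : Pl Ω L κ) : ValuationSubring (CF Ω F L) where
  carrier := {f | ∃ a b : p.V ⊗[Ω] F, ψC F p b ≠ 0 ∧ f * ιC F p b = ιC F p a}
  mul_mem' := by
    rintro f g ⟨a, b, hb, h⟩ ⟨a', b', hb', h'⟩
    refine ⟨a * a', b * b', ?_, ?_⟩
    · rw [map_mul]; exact mul_ne_zero hb hb'
    · rw [map_mul, map_mul, ← h, ← h']; ring
  one_mem' := ⟨1, 1, by rw [map_one]; exact one_ne_zero, by rw [one_mul]⟩
  add_mem' := by
    rintro f g ⟨a, b, hb, h⟩ ⟨a', b', hb', h'⟩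
    refine ⟨a * b' + a' * b, b * b', ?_, ?_⟩
    · rw [map_mul]; exact mul_ne_zero hb hb'
    · rw [map_add, map_mul, map_mul, map_mul, ← h, ← h']; ring
  zero_mem' := ⟨0, 1, by rw [map_one]; exact one_ne_zero, by rw [zero_mul, map_zero]⟩
  neg_mem' := by
    rintro f ⟨a, b, hb, h⟩
    exact ⟨-a, b, hb, by rw [map_neg, ← h]; ring⟩
  mem_or_inv_mem' := by
    intro f
    by_cases hf : f = 0
    · left
      subst hf
      exact ⟨0, 1, by rw [map_one]; exact one_ne_zero, by rw [zero_mul, map_zero]⟩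
    obtain ⟨c, hc, a, b, ha, hb, h⟩ := exists_const_mul F p f hf
    have hc' : algebraMap L (CF Ω F L) c ≠ 0 := (_root_.map_ne_zero _).mpr hc
    have hb' : ιC F p b ≠ 0 := by
      intro h0
      apply hb
      rw [ιC_injective F p (h0.trans (map_zero _).symm), map_zero]
    rcases p.V.mem_or_inv_mem c with hcV | hcV
    · right
      refine ⟨((⟨c, hcV⟩ : p.V) ⊗ₜ[Ω] (1 : F)) * b, a, ha, ?_⟩
      rw [map_mul, ιC_tmul, map_one, mul_one, ← h]
      field_simp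
    · left
      refine ⟨((⟨c⁻¹, hcV⟩ : p.V) ⊗ₜ[Ω] (1 : F)) * a, b, hb, ?_⟩
      rw [map_mul, ιC_tmul, map_one, mul_one, ← h, map_inv₀]
      field_simp

theorem mem_gaussV {p : Pl Ω L κ} {f : CF Ω F L} :
    f ∈ gaussV F p ↔ ∃ a b : p.V ⊗[Ω] F, ψC F p b ≠ 0 ∧ f * ιC F p b = ιC F p a := Iff.rfl

theorem gaussV_spec {p : Pl Ω L κ} (f : gaussV F p) :
    ∃ ab : (p.V ⊗[Ω] F) × (p.V ⊗[Ω] F), ψC F p ab.2 ≠ 0 ∧
      (f : CF Ω F L) * ιC F p ab.2 = ιC F p ab.1 := by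
  obtain ⟨a, b, hb, h⟩ := mem_gaussV.mp f.2
  exact ⟨(a, b), hb, h⟩

/-- the residue map of the Gauss place, as a function -/
def gaussFun (p : Pl Ω L κ) (f : gaussV F p) : CF Ω F κ :=
  ψC F p (gaussV_spec f).choose.1 / ψC F p (gaussV_spec f).choose.2

theorem gaussFun_eq {p : Pl Ω L κ} (f : gaussV F p) {a b : p.V ⊗[Ω] F} (hb : ψC F p b ≠ 0)
    (h : (f : CF Ω F L) * ιC F p b = ιC F p a) : gaussFun p f = ψC F p a / ψC F p b := by
  obtain ⟨hb', h'⟩ := (gaussV_spec f).choose_spec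
  rw [gaussFun, div_eq_div_iff hb' hb, ← map_mul, ← map_mul]
  congr 1
  apply ιC_injective F p
  rw [map_mul, map_mul, ← h, ← h']
  ring

theorem ψC_one_ne (p : Pl Ω L κ) : ψC F p 1 ≠ 0 := by rw [map_one]; exact one_ne_zero

variable (F) in
/-- the residue map of the Gauss place -/
def gaussπ (p : Pl Ω L κ) : gaussV F p →+* CF Ω F κ where
  toFun := gaussFun p
  map_one' := by
    rw [gaussFun_eq (a := 1) (b := 1) _ (ψC_one_ne p) (by simp)]
    simp
  map_zero' := by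
    rw [gaussFun_eq (a := 0) (b := 1) _ (ψC_one_ne p) (by simp)]
    simp
  map_mul' f g := by
    obtain ⟨⟨a, b⟩, hb, h⟩ := gaussV_spec f
    obtain ⟨⟨a', b'⟩, hb', h'⟩ := gaussV_spec g
    have hbb : ψC F p (b * b') ≠ 0 := by rw [map_mul]; exact mul_ne_zero hb hb'
    have e1 := gaussFun_eq f hb h
    have e2 := gaussFun_eq g hb' h'
    have e3 := gaussFun_eq (f * g) (a := a * a') (b := b * b') hbb (by
      have : ((f * g : gaussV F p) : CF Ω F L) = f * g := rfl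
      rw [this, map_mul, map_mul, ← h, ← h']; ring)
    rw [e1, e2, e3, map_mul, map_mul, div_mul_div_comm]
  map_add' f g := by
    obtain ⟨⟨a, b⟩, hb, h⟩ := gaussV_spec f
    obtain ⟨⟨a', b'⟩, hb', h'⟩ := gaussV_spec g
    have hbb : ψC F p (b * b') ≠ 0 := by rw [map_mul]; exact mul_ne_zero hb hb'
    have e1 := gaussFun_eq f hb h
    have e2 := gaussFun_eq g hb' h'
    have e3 := gaussFun_eq (f + g) (a := a * b' + b * a') (b := b * b') hbb (by
      have : ((f + g : gaussV F p) : CF Ω F L) = f + g := rfl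
      rw [this, map_add, map_mul, map_mul, map_mul, ← h, ← h']; ring)
    rw [e1, e2, e3, map_add, map_mul, map_mul, map_mul, div_add_div _ _ hb hb']

theorem gaussπ_eq {p : Pl Ω L κ} (f : gaussV F p) {a b : p.V ⊗[Ω] F} (hb : ψC F p b ≠ 0)
    (h : (f : CF Ω F L) * ιC F p b = ιC F p a) : gaussπ F p f = ψC F p a / ψC F p b :=
  gaussFun_eq f hb h

theorem alg_mul_ιC (p : Pl Ω L κ) (x : Ω) :
    algebraMap Ω (CF Ω F L) x * ιC F p 1 = ιC F p (algebraMap Ω _ x) := by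
  rw [map_one, mul_one, AlgHom.commutes]

theorem alg_mem_gaussV (p : Pl Ω L κ) (x : Ω) : algebraMap Ω (CF Ω F L) x ∈ gaussV F p :=
  mem_gaussV.mpr ⟨algebraMap Ω _ x, 1, ψC_one_ne p, alg_mul_ιC p x⟩

theorem ιC_ne_zero {p : Pl Ω L κ} {a : p.V ⊗[Ω] F} (ha : ψC F p a ≠ 0) : ιC F p a ≠ 0 := by
  intro h0
  apply ha
  rw [ιC_injective F p (h0.trans (map_zero _).symm), map_zero]

variable (F) in
/-- **The Gauss extension** of the place `p : L ⇝ κ` to a place `L(F) ⇝ κ(F)`. -/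
def gauss (p : Pl Ω L κ) : Pl Ω (CF Ω F L) (CF Ω F κ) where
  V := gaussV F p
  alg_mem x := alg_mem_gaussV p x
  π := gaussπ F p
  isLocal f hf := by
    obtain ⟨⟨a, b⟩, hb, h⟩ := gaussV_spec f
    rw [gaussπ_eq _ hb h] at hf
    have ha : ψC F p a ≠ 0 := by
      intro h0
      rw [h0, zero_div] at hf
      exact hf rfl
    have ha' := ιC_ne_zero ha
    have hb' := ιC_ne_zero hb
    have hf0 : (f : CF Ω F L) ≠ 0 := by
      intro h0
      rw [h0, zero_mul] at h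
      exact ha' h.symm
    have h1 : (f : CF Ω F L)⁻¹ ∈ gaussV F p := mem_gaussV.mpr ⟨b, a, ha, by
      rw [← h, inv_mul_cancel_left₀ hf0]⟩
    exact IsUnit.of_mul_eq_one (⟨(f : CF Ω F L)⁻¹, h1⟩ : gaussV F p)
      (Subtype.ext (mul_inv_cancel₀ hf0))
  π_alg x := by
    rw [gaussπ_eq (⟨_, alg_mem_gaussV p x⟩ : gaussV F p) (ψC_one_ne p) (alg_mul_ιC p x),
      map_one, div_one, AlgHom.commutes]

theorem gauss_V (p : Pl Ω L κ) : (gauss F p).V = gaussV F p := rfl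

theorem mem_gauss {p : Pl Ω L κ} {f : CF Ω F L} :
    f ∈ (gauss F p).V ↔ ∃ a b : p.V ⊗[Ω] F, ψC F p b ≠ 0 ∧ f * ιC F p b = ιC F p a := Iff.rfl

theorem gauss_π_eq {p : Pl Ω L κ} {f : CF Ω F L} (hf : f ∈ (gauss F p).V) {a b : p.V ⊗[Ω] F}
    (hb : ψC F p b ≠ 0) (h : f * ιC F p b = ιC F p a) :
    (gauss F p).π ⟨f, hf⟩ = ψC F p a / ψC F p b :=
  gaussπ_eq ⟨f, hf⟩ hb h

theorem ιC_mem (p : Pl Ω L κ) (a : p.V ⊗[Ω] F) : ιC F p a ∈ (gauss F p).V :=
  ⟨a, 1, by rw [map_one]; exact one_ne_zero, by rw [map_one, mul_one]⟩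

theorem gauss_π_ιC (p : Pl Ω L κ) (a : p.V ⊗[Ω] F) (h : ιC F p a ∈ (gauss F p).V) :
    (gauss F p).π ⟨ιC F p a, h⟩ = ψC F p a := by
  rw [gauss_π_eq h (a := a) (b := 1) (by rw [map_one]; exact one_ne_zero) (by
    rw [map_one, mul_one]), map_one, div_one]

theorem inl_mem (p : Pl Ω L κ) {x : L} (hx : x ∈ p.V) :
    algebraMap L (CF Ω F L) x ∈ (gauss F p).V := by
  have := ιC_mem (F := F) p ((⟨x, hx⟩ : p.V) ⊗ₜ[Ω] (1 : F))
  rwa [ιC_tmul, map_one, mul_one] at this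

theorem gauss_π_inl (p : Pl Ω L κ) {x : L} (hx : x ∈ p.V)
    (h : algebraMap L (CF Ω F L) x ∈ (gauss F p).V) :
    (gauss F p).π ⟨algebraMap L (CF Ω F L) x, h⟩ = algebraMap κ (CF Ω F κ) (p.π ⟨x, hx⟩) := by
  have h2 : algebraMap L (CF Ω F L) x * ιC F p 1 =
      ιC F p ((⟨x, hx⟩ : p.V) ⊗ₜ[Ω] (1 : F)) := by
    rw [ιC_tmul, map_one, map_one]
  rw [gauss_π_eq h (ψC_one_ne p) h2, ψC_tmul, map_one, map_one, mul_one, div_one]

theorem inr_mem (p : Pl Ω L κ) (f : F) : CF.inr Ω F L f ∈ (gauss F p).V := by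
  have := ιC_mem (F := F) p ((1 : p.V) ⊗ₜ[Ω] f)
  rw [ιC_tmul] at this
  simpa using this

theorem gauss_π_inr (p : Pl Ω L κ) (f : F) (h : CF.inr Ω F L f ∈ (gauss F p).V) :
    (gauss F p).π ⟨CF.inr Ω F L f, h⟩ = CF.inr Ω F κ f := by
  have h2 : CF.inr Ω F L f * ιC F p 1 = ιC F p ((1 : p.V) ⊗ₜ[Ω] f) := by
    rw [ιC_tmul, map_one]
    simp
  rw [gauss_π_eq h (ψC_one_ne p) h2, ψC_tmul, map_one, map_one, map_one, one_mul, div_one]

theorem inl_mem_iff (p : Pl Ω L κ) {x : L} :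
    algebraMap L (CF Ω F L) x ∈ (gauss F p).V ↔ x ∈ p.V := by
  refine ⟨fun h => ?_, inl_mem p⟩
  by_contra hx
  have hx0 : x ≠ 0 := by
    rintro rfl
    exact hx (zero_mem _)
  have hx' : x⁻¹ ∈ p.V := (p.V.mem_or_inv_mem x).resolve_left hx
  have h1 : p.π ⟨x⁻¹, hx'⟩ = 0 := by
    rw [p.π_eq_zero_iff hx' (inv_ne_zero hx0), inv_inv]
    exact hx
  have h2 := gauss_π_inl (F := F) p hx' (inl_mem p hx')
  rw [h1, map_zero] at h2
  have h3 : (⟨algebraMap L (CF Ω F L) x, h⟩ : (gauss F p).V) *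
      ⟨algebraMap L (CF Ω F L) x⁻¹, inl_mem p hx'⟩ = 1 := by
    apply Subtype.ext
    show algebraMap L (CF Ω F L) x * algebraMap L (CF Ω F L) x⁻¹ = 1
    rw [← map_mul, mul_inv_cancel₀ hx0, map_one]
  have h4 := congrArg (gauss F p).π h3
  rw [map_mul, h2, mul_zero, map_one] at h4
  exact zero_ne_one h4

theorem gauss_comp_inl (p : Pl Ω L κ) :
    (gauss F p).comp (Pl.ofAlgHom (CF.inl Ω F L)) = (Pl.ofAlgHom (CF.inl Ω F κ)).comp p := by
  apply Pl.ext'
  · intro x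
    rw [Pl.mem_comp_V, Pl.mem_comp_V]
    constructor
    · rintro ⟨h0, h⟩
      exact ⟨(inl_mem_iff p).mp h, trivial⟩
    · rintro ⟨h, h0⟩
      exact ⟨trivial, inl_mem p h⟩
  · intro x hp hq
    obtain ⟨hx, -⟩ := Pl.mem_comp_V.mp hq
    exact gauss_π_inl p hx (inl_mem p hx)

theorem gauss_comp_inr (p : Pl Ω L κ) :
    (gauss F p).comp (Pl.ofAlgHom (CF.inr Ω F L)) = Pl.ofAlgHom (CF.inr Ω F κ) := by
  apply Pl.ext'
  · intro x
    rw [Pl.mem_comp_V]
    exact ⟨fun _ => trivial, fun _ => ⟨trivial, inr_mem p x⟩⟩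
  · intro x hp hq
    exact gauss_π_inr p x (inr_mem p x)

/-- the Gauss place is characterised by its restrictions to `L` and `F` -/
theorem eq_gauss (p : Pl Ω L κ) (G : Pl Ω (CF Ω F L) (CF Ω F κ))
    (h1 : G.comp (Pl.ofAlgHom (CF.inl Ω F L)) = (Pl.ofAlgHom (CF.inl Ω F κ)).comp p)
    (h2 : G.comp (Pl.ofAlgHom (CF.inr Ω F L)) = Pl.ofAlgHom (CF.inr Ω F κ)) :
    G = gauss F p := by
  have hinl : ∀ x : p.V, ∃ h : algebraMap L (CF Ω F L) x ∈ G.V,
      G.π ⟨_, h⟩ = algebraMap κ (CF Ω F κ) (p.π x) := by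
    intro x
    have hx : (x : L) ∈ ((Pl.ofAlgHom (CF.inl Ω F κ)).comp p).V :=
      Pl.mem_comp_V.mpr ⟨x.2, trivial⟩
    have hx' : (x : L) ∈ (G.comp (Pl.ofAlgHom (CF.inl Ω F L))).V := by rw [h1]; exact hx
    obtain ⟨h3, h4⟩ := Pl.mem_comp_V.mp hx'
    refine ⟨h4, ?_⟩
    exact Pl.π_congr h1 hx' hx
  have hinr : ∀ f : F, ∃ h : CF.inr Ω F L f ∈ G.V, G.π ⟨_, h⟩ = CF.inr Ω F κ f := by
    intro x
    have hx : x ∈ (Pl.ofAlgHom (CF.inr Ω F κ)).V := trivial
    have hx' : x ∈ (G.comp (Pl.ofAlgHom (CF.inr Ω F L))).V := by rw [h2]; exact hx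
    obtain ⟨h3, h4⟩ := Pl.mem_comp_V.mp hx'
    refine ⟨h4, ?_⟩
    exact Pl.π_congr h2 hx' hx
  have hT : ∀ a : p.V ⊗[Ω] F, ∃ h : ιC F p a ∈ G.V, G.π ⟨_, h⟩ = ψC F p a := by
    intro a
    induction a using TensorProduct.induction_on with
    | zero =>
      have h0 : ιC F p 0 ∈ G.V := by rw [map_zero]; exact zero_mem _
      refine ⟨h0, ?_⟩
      have : (⟨_, h0⟩ : G.V) = 0 := Subtype.ext (map_zero _)
      rw [this, map_zero, map_zero]
    | tmul r f =>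
      obtain ⟨ha, ha'⟩ := hinl r
      obtain ⟨hb, hb'⟩ := hinr f
      have h0 : ιC F p (r ⊗ₜ f) ∈ G.V := by rw [ιC_tmul]; exact mul_mem ha hb
      refine ⟨h0, ?_⟩
      have : (⟨_, h0⟩ : G.V) = ⟨_, ha⟩ * ⟨_, hb⟩ := Subtype.ext (ιC_tmul _ _ _ _)
      rw [this, map_mul, ha', hb', ψC_tmul]
    | add a b ha hb =>
      obtain ⟨ha, ha'⟩ := ha
      obtain ⟨hb, hb'⟩ := hb
      have h0 : ιC F p (a + b) ∈ G.V := by rw [map_add]; exact add_mem ha hb
      refine ⟨h0, ?_⟩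
      have : (⟨_, h0⟩ : G.V) = ⟨_, ha⟩ + ⟨_, hb⟩ := Subtype.ext (map_add _ _ _)
      rw [this, map_add, ha', hb', map_add]
  have hsub : ∀ f (hf : f ∈ (gauss F p).V), ∃ h : f ∈ G.V,
      G.π ⟨f, h⟩ = (gauss F p).π ⟨f, hf⟩ := by
    intro f hf
    obtain ⟨a, b, hb, h⟩ := mem_gauss.mp hf
    obtain ⟨h3, h4⟩ := hT a
    obtain ⟨h5, h6⟩ := hT b
    have h7 : G.π ⟨_, h5⟩ ≠ 0 := by rw [h6]; exact hb
    have h8 := G.inv_mem_of_π_ne_zero h5 h7
    have hb0 := ιC_ne_zero hb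
    have h9 : f = ιC F p a * (ιC F p b)⁻¹ := by
      rw [← h, mul_assoc, mul_inv_cancel₀ hb0, mul_one]
    have h10 : f ∈ G.V := by rw [h9]; exact mul_mem h3 h8
    refine ⟨h10, ?_⟩
    have h11 : (⟨f, h10⟩ : G.V) = ⟨_, h3⟩ * ⟨_, h8⟩ := Subtype.ext h9
    rw [h11, map_mul, G.π_inv h5 h8 hb0, h4, h6, gauss_π_eq hf hb h, div_eq_mul_inv]
  apply Pl.ext'
  · intro f
    constructor
    · intro hf
      by_contra hf'
      have hf0 : f ≠ 0 := by
        rintro rfl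
        exact hf' (zero_mem _)
      have h3 : f⁻¹ ∈ (gauss F p).V := ((gauss F p).V.mem_or_inv_mem f).resolve_left hf'
      have h4 : (gauss F p).π ⟨f⁻¹, h3⟩ = 0 := by
        rw [(gauss F p).π_eq_zero_iff h3 (inv_ne_zero hf0), inv_inv]
        exact hf'
      obtain ⟨h5, h6⟩ := hsub _ h3
      rw [h4, G.π_eq_zero_iff h5 (inv_ne_zero hf0), inv_inv] at h6
      exact h6 hf
    · intro hf
      exact (hsub f hf).1
  · intro f hp hq
    exact (hsub f hq).2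

theorem gauss_comp (q : Pl Ω κ l) (p : Pl Ω L κ) :
    gauss F (q.comp p) = (gauss F q).comp (gauss F p) := by
  symm
  apply eq_gauss
  · rw [Pl.comp_assoc, gauss_comp_inl, ← Pl.comp_assoc, gauss_comp_inl, Pl.comp_assoc]
  · rw [Pl.comp_assoc, gauss_comp_inr, gauss_comp_inr]

/-- every function is a constant times a Gauss unit -/
theorem exists_const_mul_gaussUnit (p : Pl Ω L κ) (f : CF Ω F L) (hf : f ≠ 0) :
    ∃ (c : L) (_ : c ≠ 0) (h : algebraMap L (CF Ω F L) c * f ∈ (gauss F p).V),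
      (gauss F p).π ⟨_, h⟩ ≠ 0 := by
  obtain ⟨c, hc, a, b, ha, hb, h⟩ := exists_const_mul F p f hf
  have h1 : algebraMap L (CF Ω F L) c * f ∈ (gauss F p).V := mem_gauss.mpr ⟨a, b, hb, h⟩
  refine ⟨c, hc, h1, ?_⟩
  rw [gauss_π_eq h1 hb h]
  exact div_ne_zero ha hb

/-- nonconstant functions have nonconstant reduction after an affine change of variable -/
theorem exists_affine_gaussUnit (p : Pl Ω L κ) (f : CF Ω F L)
    (hf : ∀ c : L, f ≠ algebraMap L (CF Ω F L) c) :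
    ∃ (c d : L) (_ : d ≠ 0)
      (h : algebraMap L (CF Ω F L) d * (f - algebraMap L (CF Ω F L) c) ∈ (gauss F p).V),
      ∀ e : κ, (gauss F p).π ⟨_, h⟩ ≠ algebraMap κ (CF Ω F κ) e := by
  obtain ⟨u, v, hv, h⟩ := CF.exists_div f
  have hv' : CF.ofTensor Ω F L v ≠ 0 := by
    intro h0
    exact hv (CF.ofTensor_injective Ω F L (by rw [h0, map_zero]))
  let b := Module.Free.chooseBasis Ω F
  set bL := Algebra.TensorProduct.basis L b with hbL
  have hv0 : bL.repr v ≠ 0 := by simpa using hv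
  obtain ⟨k, hk, hmax⟩ := exists_max p _ hv0
  obtain ⟨v₀, h1, h1k, h2⟩ := exists_primitive_aux F p b v k hk hmax
  set c : L := bL.repr u k / bL.repr v k with hc
  set u' : L ⊗[Ω] F := u - c • v with hu'
  have hu'k : bL.repr u' k = 0 := by
    rw [hu', map_sub, map_smul, Finsupp.sub_apply, Finsupp.smul_apply, smul_eq_mul, hc,
      div_mul_cancel₀ _ hk, sub_self]
  have hfc : (f - algebraMap L (CF Ω F L) c) * CF.ofTensor Ω F L v = CF.ofTensor Ω F L u' := by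
    rw [hu', map_sub, map_smul, sub_mul, h, Algebra.smul_def]
  have hu'0 : u' ≠ 0 := by
    intro h0
    rw [h0, map_zero] at hfc
    exact hf c (sub_eq_zero.mp ((mul_eq_zero.mp hfc).resolve_right hv'))
  have hu'1 : bL.repr u' ≠ 0 := by simpa using hu'0
  obtain ⟨k', hk', hmax'⟩ := exists_max p _ hu'1
  obtain ⟨u₀, h3, h3k, h4⟩ := exists_primitive_aux F p b u' k' hk' hmax'
  have hb : ψC F p v₀ ≠ 0 := (ψC_ne_zero_iff F p v₀).mpr h2
  have ha : ψC F p u₀ ≠ 0 := (ψC_ne_zero_iff F p u₀).mpr h4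
  have hd : (bL.repr u' k')⁻¹ / (bL.repr v k)⁻¹ ≠ 0 := div_ne_zero (inv_ne_zero hk') (inv_ne_zero hk)
  have key : algebraMap L (CF Ω F L) ((bL.repr u' k')⁻¹ / (bL.repr v k)⁻¹) *
      (f - algebraMap L (CF Ω F L) c) * ιC F p v₀ = ιC F p u₀ := by
    rw [ιC_apply, ιC_apply, h1, h3, map_smul, map_smul, Algebra.smul_def, Algebra.smul_def, ← hfc,
      map_div₀]
    have hd' : algebraMap L (CF Ω F L) (bL.repr v k)⁻¹ ≠ 0 :=
      (_root_.map_ne_zero _).mpr (inv_ne_zero hk)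
    rw [hbL] at hd' ⊢
    generalize algebraMap L (CF Ω F L) (((Algebra.TensorProduct.basis L b).repr v) k)⁻¹ = e1 at *
    generalize algebraMap L (CF Ω F L) (((Algebra.TensorProduct.basis L b).repr u') k')⁻¹ = e2 at *
    field_simp
  have hmem : algebraMap L (CF Ω F L) ((bL.repr u' k')⁻¹ / (bL.repr v k)⁻¹) *
      (f - algebraMap L (CF Ω F L) c) ∈ (gauss F p).V := mem_gauss.mpr ⟨u₀, v₀, hb, key⟩
  refine ⟨c, _, hd, hmem, fun e he => ?_⟩
  rw [gauss_π_eq hmem hb key, div_eq_iff hb, ψC_apply, ψC_apply, ← Algebra.smul_def,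
    ← map_smul] at he
  have he' := CF.ofTensor_injective Ω F κ he
  have he1 := congrArg (fun z => (Algebra.TensorProduct.basis κ b).repr z k) he'
  simp only [map_smul, Finsupp.smul_apply, repr_ψ, smul_eq_mul] at he1
  rw [h1k, map_one, mul_one] at he1
  have h5 : ((Algebra.TensorProduct.basis p.V b).repr u₀ k : L) = 0 := by
    rw [← repr_ι, h3, map_smul, Finsupp.smul_apply, hu'k, smul_zero]
  have h6 : (Algebra.TensorProduct.basis p.V b).repr u₀ k = 0 := Subtype.ext h5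
  rw [h6, map_zero] at he1
  rw [← he1, zero_smul] at he'
  exact h4 he'

end Gauss

end Fermat.Agent.AV
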