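import Mathlib
import Fermat.Agent.AV.Gauss
import Fermat.Agent.AV.Base

/-!
# Places of a constant field extension are valued places (team AV = S26)
-/

set_option autoImplicit false
set_option linter.unusedSectionVars false

noncomputable section

open TensorProduct AlgebraicCurve IntermediateField IsLocalRing IsDedekindDomain

universe u

namespace Fermat.Agent.AV

theorem mem_of_isIntegral {R F : Type*} [CommRing R] [Field F] [Algebra R F]
    (W : ValuationSubring F) (h : ∀ r : R, algebraMap R F r ∈ W) {x : F} (hx : IsIntegral R x) :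
    x ∈ W := by
  obtain ⟨P, hP, hPx⟩ := hx
  let j : R →+* W := (algebraMap R F).codRestrict W.toSubring h
  have h1 : IsIntegral W x := by
    refine ⟨P.map j, hP.map j, ?_⟩
    rw [Polynomial.eval₂_map]
    exact hPx
  obtain ⟨a, ha⟩ := IsIntegrallyClosed.isIntegral_iff.mp h1
  rw [← ha]
  exact a.2

section PlaceOfValuationSubring

open IntermediateField.algebraAdjoinAdjoin

variable {K F : Type*} [Field K] [Field F] [Algebra K F] [Fermat.FF.IsFF1 K F]

/-- A nontrivial valuation ring of a function field is a place. -/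
theorem exists_place_of_valuationSubring (W : ValuationSubring F)
    (hK : ∀ a : K, algebraMap K F a ∈ W) (hW : W ≠ ⊤) :
    ∃ P : Place K F, P.toValuationSubring = W := by
  obtain ⟨x, hx⟩ : ∃ x, x ∉ W := by
    by_contra h
    push Not at h
    exact hW (SetLike.ext fun y => ⟨fun _ => ValuationSubring.mem_top y, fun _ => h y⟩)
  have hx0 : x ≠ 0 := by rintro rfl; exact hx (zero_mem _)
  set y := x⁻¹ with hy
  have hyW : y ∈ W := (W.mem_or_inv_mem x).resolve_left hx
  have hy0 : y ≠ 0 := inv_ne_zero hx0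
  have hyt : Transcendental K y := by
    intro halg
    apply hx
    have h1 : IsAlgebraic K x := by
      have := halg.inv
      rwa [hy, inv_inv] at this
    exact mem_of_isIntegral W hK h1.isIntegral
  have := Fermat.FF.IsFF1.finiteDimensional_adjoin hyt
  have hPID : IsPrincipalIdealRing (Algebra.adjoin K {y}) :=
    Fermat.FF.adjoin_isPrincipalIdealRing hyt
  have hfin : Module.Finite (Algebra.adjoin K {y}) (integralClosure (Algebra.adjoin K {y}) F) :=
    Fermat.FF.Gen.finite_integralClosure_adjoin hyt F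
  have hded : IsDedekindDomain (integralClosure (Algebra.adjoin K {y}) F) :=
    Fermat.FF.Gen.isDedekindDomain_integralClosure (Algebra.adjoin K {y}) K⟮y⟯ F
  have hfrac : IsFractionRing (integralClosure (Algebra.adjoin K {y}) F) F :=
    integralClosure.isFractionRing_of_finite_extension K⟮y⟯ F
  let WA : Subalgebra K F := { W.toSubring.toSubsemiring with algebraMap_mem' := hK }
  have hR : ∀ r : Algebra.adjoin K {y}, algebraMap (Algebra.adjoin K {y}) F r ∈ W := by
    intro r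
    have h2 : Algebra.adjoin K {y} ≤ WA := by
      apply Algebra.adjoin_le
      rintro _ rfl
      exact hyW
    exact h2 r.2
  have hB : ∀ b : integralClosure (Algebra.adjoin K {y}) F,
      algebraMap (integralClosure (Algebra.adjoin K {y}) F) F b ∈ W :=
    fun b => mem_of_isIntegral W hR b.2
  set B := integralClosure (Algebra.adjoin K {y}) F with hBdef
  let j : B →+* W := (algebraMap B F).codRestrict W.toSubring hB
  let q : Ideal B := Ideal.comap j (maximalIdeal W)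
  have hq : q.IsPrime := inferInstance
  have hmem : ∀ b : B, b ∈ q ↔ algebraMap B F b ∈ W.nonunits := by
    intro b
    show j b ∈ maximalIdeal W ↔ _
    rw [← ValuationSubring.coe_mem_nonunits_iff]
    rfl
  let yR : Algebra.adjoin K {y} := ⟨y, Algebra.self_mem_adjoin_singleton K y⟩
  have hyq : algebraMap (Algebra.adjoin K {y}) B yR ∈ q := by
    rw [hmem, ← IsScalarTower.algebraMap_apply (Algebra.adjoin K {y}) B F]
    show y ∈ W.nonunits
    rw [← inv_inv y, ValuationSubring.inv_mem_nonunits_iff]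
    right
    rw [hy, inv_inv]
    exact hx
  have hq0 : q ≠ ⊥ := by
    intro h
    rw [h, Ideal.mem_bot] at hyq
    have h1 := congrArg (algebraMap B F) hyq
    rw [← IsScalarTower.algebraMap_apply (Algebra.adjoin K {y}) B F, map_zero] at h1
    exact hy0 h1
  let P : Place K F := Place.ofHeightOneSpectrum (K := K) (R := B) ⟨q, hq, hq0⟩
  have hle : P.toValuationSubring ≤ W := by
    intro z hz
    have hz' : z ∈ (HeightOneSpectrum.valuation F (⟨q, hq, hq0⟩ : HeightOneSpectrum B)).valuationSubring :=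
      hz
    rw [← HeightOneSpectrum.valuationSubringAtPrime_eq_valuationSubring] at hz'
    obtain ⟨a, s, hs, rfl⟩ := hz'
    have hs' : s ∉ q := hs
    rw [hmem] at hs'
    have hs0 : algebraMap B F s ≠ 0 := by
      intro h
      apply hs'
      rw [h]
      exact W.mem_nonunits_iff_or.mpr (Or.inl rfl)
    have h3 : (algebraMap B F s)⁻¹ ∈ W := by
      by_contra h4
      apply hs'
      rw [← inv_inv (algebraMap B F s), ValuationSubring.inv_mem_nonunits_iff]
      exact Or.inr h4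
    exact mul_mem (hB a) h3
  refine ⟨P, le_antisymm hle fun z hz => ?_⟩
  by_contra hzP
  apply hW
  refine SetLike.ext fun t => ⟨fun _ => ValuationSubring.mem_top t, fun _ => ?_⟩
  by_cases ht : t = 0
  · rw [ht]; exact zero_mem _
  have hz0 : z ≠ 0 := by rintro rfl; exact hzP (zero_mem _)
  have hzneg : P.ord z < 0 := (Fermat.FF.not_mem_iff_ord P).mp hzP
  obtain ⟨n, hn⟩ : ∃ n : ℕ, 0 ≤ P.ord t + n * (-P.ord z) := by
    refine ⟨(P.ord t).natAbs, ?_⟩
    have h1 : (0 : ℤ) ≤ (P.ord t).natAbs := Int.natCast_nonneg _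
    have h2 : -(P.ord t) ≤ (P.ord t).natAbs := by
      have := neg_abs_le (P.ord t)
      rw [Int.abs_eq_natAbs] at this
      omega
    nlinarith
  have h1 : t * (z⁻¹) ^ n ∈ P.toValuationSubring := by
    rw [Fermat.FF.mem_iff_ord P (mul_ne_zero ht (pow_ne_zero _ (inv_ne_zero hz0))),
      P.ord_mul ht (pow_ne_zero _ (inv_ne_zero hz0)), Fermat.FF.ord_pow, P.ord_inv]
    exact hn
  have h2 : t = t * (z⁻¹) ^ n * z ^ n := by
    rw [mul_assoc, ← mul_pow, inv_mul_cancel₀ hz0, one_pow, mul_one]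
  rw [h2]
  exact mul_mem (hle h1) (pow_mem hz n)

end PlaceOfValuationSubring

variable {Ω F L : Type u} [Field Ω] [IsAlgClosed Ω] [Field F] [Algebra Ω F]
  [Fermat.FF.IsFF1 Ω F] [Field L] [Algebra Ω L] [IsAlgClosed L]

/-- restriction of a place of `L(F)` to `F`: an `L`-valued place of `F` -/
def evPl (P : Place L (CF Ω F L)) : Pl Ω F L :=
  (plOf Ω P).comp (Pl.ofAlgHom (CF.inr Ω F L))

theorem mem_evPl {P : Place L (CF Ω F L)} {f : F} :
    f ∈ (evPl P).V ↔ CF.inr Ω F L f ∈ P.toValuationSubring := by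
  constructor
  · rintro ⟨h1, h2⟩
    exact h2
  · intro h
    exact ⟨trivial, h⟩

theorem evPl_π {P : Place L (CF Ω F L)} {f : F} (hf : f ∈ (evPl P).V) (c : L) :
    (evPl P).π ⟨f, hf⟩ = c ↔ P.adicValuation (CF.inr Ω F L f - algebraMap L (CF Ω F L) c) < 1 := by
  rw [← plOf_π_eq_iff Ω P (mem_evPl.mp hf) c]
  rfl

/-- criterion for `evPl P = q` -/
theorem evPl_eq_of_forall {P : Place L (CF Ω F L)} {q : Pl Ω F L}
    (h : ∀ (f : F) (hf : f ∈ q.V), P.adicValuation
      (CF.inr Ω F L f - algebraMap L (CF Ω F L) (q.π ⟨f, hf⟩)) < 1) : evPl P = q := by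
  have hsub : ∀ f, f ∈ q.V → f ∈ (evPl P).V := by
    intro f hf
    rw [mem_evPl]
    have h1 := h f hf
    have h2 : CF.inr Ω F L f - algebraMap L (CF Ω F L) (q.π ⟨f, hf⟩) ∈ P.toValuationSubring :=
      (Fermat.FF.mem_iff_val_le_one P _).mpr h1.le
    have h3 := add_mem h2 (P.algebraMap_mem' (q.π ⟨f, hf⟩))
    simpa using h3
  apply Pl.ext'
  · intro f
    refine ⟨fun hf => ?_, hsub f⟩
    by_contra hf'
    have hf0 : f ≠ 0 := by rintro rfl; exact hf' (zero_mem _)
    have h1 : f⁻¹ ∈ q.V := (q.V.mem_or_inv_mem f).resolve_left hf'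
    have h2 : q.π ⟨f⁻¹, h1⟩ = 0 := by
      rw [q.π_eq_zero_iff h1 (inv_ne_zero hf0), inv_inv]
      exact hf'
    have h3 := h _ h1
    rw [h2] at h3
    have h4 := (evPl_π (hsub _ h1) 0).mpr h3
    rw [(evPl P).π_eq_zero_iff _ (inv_ne_zero hf0), inv_inv] at h4
    exact h4 hf
  · intro f hp hq
    exact (evPl_π hp _).mpr (h f hq)

/-- the map `L ⊗ V → L` given by the place `q` -/
def tenVal (q : Pl Ω F L) : L ⊗[Ω] q.V →ₐ[Ω] L :=
  Algebra.TensorProduct.lift (AlgHom.id Ω L) q.πₐ (fun _ _ => Commute.all _ _)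

/-- the map `L ⊗ V → L(F)` -/
def tenIn (q : Pl Ω F L) : L ⊗[Ω] q.V →ₐ[Ω] CF Ω F L :=
  ((CF.ofTensor Ω F L).restrictScalars Ω).comp
    (Algebra.TensorProduct.map (AlgHom.id Ω L) q.valₐ)

@[simp] theorem tenVal_tmul (q : Pl Ω F L) (l : L) (f : q.V) :
    tenVal q (l ⊗ₜ f) = l * q.π f := by
  simp [tenVal]

theorem tenIn_tmul (q : Pl Ω F L) (l : L) (f : q.V) :
    tenIn q (l ⊗ₜ f) = algebraMap L (CF Ω F L) l * CF.inr Ω F L f :=
  CF.ofTensor_tmul l (f : F)

theorem tenIn_injective (q : Pl Ω F L) : Function.Injective (tenIn q) :=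
  (CF.ofTensor_injective Ω F L).comp
    (Module.Flat.lTensor_preserves_injective_linearMap (M := L) q.valₐ.toLinearMap
      Subtype.val_injective)

theorem evPl_surjective : Function.Surjective (evPl : Place L (CF Ω F L) → Pl Ω F L) := by
  intro q
  let θ : L ⊗[Ω] q.V →ₐ[Ω] L := tenVal q
  let ι₂ : L ⊗[Ω] q.V →ₐ[Ω] CF Ω F L := tenIn q
  have hι₂ : Function.Injective ι₂ := tenIn_injective q
  have hι₂t : ∀ (l : L) (f : q.V), ι₂ (l ⊗ₜ f) = algebraMap L (CF Ω F L) l * CF.inr Ω F L f :=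
    tenIn_tmul q
  let e := AlgEquiv.ofInjective ι₂ hι₂
  let A : Subring (CF Ω F L) := ι₂.range.toSubring
  let I : Ideal A := Ideal.comap (e.symm : ι₂.range →+* L ⊗[Ω] q.V) (RingHom.ker θ)
  have hImem : ∀ z : L ⊗[Ω] q.V, θ z = 0 → ∃ h : ι₂ z ∈ A, (⟨ι₂ z, h⟩ : A) ∈ I := by
    intro z hz
    refine ⟨⟨z, rfl⟩, ?_⟩
    have h1 : e.symm ⟨ι₂ z, ⟨z, rfl⟩⟩ = z := by
      have : (⟨ι₂ z, ⟨z, rfl⟩⟩ : ι₂.range) = e z := rfl
      rw [this, AlgEquiv.symm_apply_apply]
    show (e.symm : ι₂.range →+* L ⊗[Ω] q.V) ⟨ι₂ z, ⟨z, rfl⟩⟩ ∈ RingHom.ker θ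
    rw [RingHom.mem_ker]
    show θ (e.symm _) = 0
    rw [h1, hz]
  have hI : I ≠ ⊤ := by
    intro h
    have h1 : (1 : A) ∈ I := by rw [h]; trivial
    have h2 : θ (e.symm (1 : ι₂.range)) = 0 := h1
    rw [map_one, map_one] at h2
    exact one_ne_zero h2
  obtain ⟨W, hAW, hIW⟩ := I.image_subset_nonunits_valuationSubring hI
  have hLW : ∀ a : L, algebraMap L (CF Ω F L) a ∈ W := by
    intro a
    apply hAW
    refine ⟨a ⊗ₜ 1, ?_⟩
    show ι₂ (a ⊗ₜ 1) = _
    rw [hι₂t]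
    simp
  have hker : ∀ (f : F) (hf : f ∈ q.V),
      CF.inr Ω F L f - algebraMap L (CF Ω F L) (q.π ⟨f, hf⟩) ∈ W.nonunits := by
    intro f hf
    obtain ⟨h1, h2⟩ := hImem ((1 : L) ⊗ₜ (⟨f, hf⟩ : q.V) - (q.π ⟨f, hf⟩) ⊗ₜ (1 : q.V)) (by
      rw [map_sub]
      simp only [θ, tenVal_tmul]
      simp)
    have h3 := hIW ⟨_, h2, rfl⟩
    have h4 : ι₂ ((1 : L) ⊗ₜ (⟨f, hf⟩ : q.V) - (q.π ⟨f, hf⟩) ⊗ₜ (1 : q.V)) =
        CF.inr Ω F L f - algebraMap L (CF Ω F L) (q.π ⟨f, hf⟩) := by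
      rw [map_sub, hι₂t, hι₂t]
      simp
    rw [← h4]
    exact h3
  have hWtop : W ≠ ⊤ := by
    intro hW
    obtain ⟨x, hx, -⟩ := ‹Fermat.FF.IsFF1 Ω F›.exists_finite
    obtain ⟨x', hx', hx'V⟩ : ∃ x' : F, Transcendental Ω x' ∧ x' ∈ q.V := by
      rcases q.V.mem_or_inv_mem x with h | h
      · exact ⟨x, hx, h⟩
      · refine ⟨x⁻¹, fun halg => hx ?_, h⟩
        have := halg.inv
        rwa [inv_inv] at this
    have h1 := hker x' hx'V
    have h2 : CF.inr Ω F L x' - algebraMap L (CF Ω F L) (q.π ⟨x', hx'V⟩) = 0 := by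
      by_contra h3
      rw [← inv_inv (CF.inr Ω F L x' - algebraMap L (CF Ω F L) (q.π ⟨x', hx'V⟩)),
        ValuationSubring.inv_mem_nonunits_iff] at h1
      rcases h1 with h1 | h1
      · exact inv_ne_zero h3 h1
      · exact h1 (by rw [hW]; trivial)
    rw [sub_eq_zero] at h2
    exact CF.transcendental_inr (L := L) hx' (h2 ▸ isAlgebraic_algebraMap _)
  obtain ⟨P, hP⟩ := exists_place_of_valuationSubring W hLW hWtop
  refine ⟨P, evPl_eq_of_forall fun f hf => ?_⟩
  have h1 := hker f hf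
  rw [← hP] at h1
  obtain ⟨h2, h3⟩ := ValuationSubring.mem_nonunits_iff_exists_mem_maximalIdeal.mp h1
  exact (Fermat.FF.mem_maximalIdeal_iff P _).mp h3

/-- the values of elements of `L ⊗ V` -/
theorem tenIn_value {P : Place L (CF Ω F L)} {q : Pl Ω F L} (hP : evPl P = q)
    (z : L ⊗[Ω] q.V) : ∃ h : tenIn q z ∈ (plOf Ω P).V, (plOf Ω P).π ⟨_, h⟩ = tenVal q z := by
  subst hP
  induction z using TensorProduct.induction_on with
  | zero =>
    have h0 : tenIn (evPl P) 0 ∈ (plOf Ω P).V := by rw [map_zero]; exact zero_mem _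
    refine ⟨h0, ?_⟩
    have : (⟨_, h0⟩ : (plOf Ω P).V) = 0 := Subtype.ext (map_zero _)
    rw [this, map_zero, map_zero]
  | tmul l f =>
    have h1 : algebraMap L (CF Ω F L) l ∈ (plOf Ω P).V := P.algebraMap_mem' l
    have h2 : CF.inr Ω F L (f : F) ∈ (plOf Ω P).V := mem_evPl.mp f.2
    have h0 : tenIn (evPl P) (l ⊗ₜ f) ∈ (plOf Ω P).V := by rw [tenIn_tmul]; exact mul_mem h1 h2
    refine ⟨h0, ?_⟩
    have : (⟨_, h0⟩ : (plOf Ω P).V) = ⟨_, h1⟩ * ⟨_, h2⟩ := Subtype.ext (tenIn_tmul _ _ _)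
    rw [this, map_mul, tenVal_tmul]
    congr 1
    rw [plOf_π_eq_iff, sub_self, map_zero]
    exact zero_lt_one
  | add a b ha hb =>
    obtain ⟨ha, ha'⟩ := ha
    obtain ⟨hb, hb'⟩ := hb
    have h0 : tenIn (evPl P) (a + b) ∈ (plOf Ω P).V := by rw [map_add]; exact add_mem ha hb
    refine ⟨h0, ?_⟩
    have : (⟨_, h0⟩ : (plOf Ω P).V) = ⟨_, ha⟩ + ⟨_, hb⟩ := Subtype.ext (map_add _ _ _)
    rw [this, map_add, ha', hb', map_add]

theorem ord_tenIn {P : Place L (CF Ω F L)} {q : Pl Ω F L} (hP : evPl P = q)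
    {z : L ⊗[Ω] q.V} (hz : tenVal q z ≠ 0) : tenIn q z ≠ 0 ∧ P.ord (tenIn q z) = 0 := by
  obtain ⟨h1, h2⟩ := tenIn_value hP z
  have h3 : (plOf Ω P).π ⟨_, h1⟩ ≠ 0 := by rwa [h2]
  have h4 := (plOf Ω P).inv_mem_of_π_ne_zero h1 h3
  have h5 := Fermat.FF.ord_nonneg_of_mem P h1
  have h6 := Fermat.FF.ord_nonneg_of_mem P h4
  rw [P.ord_inv] at h6
  refine ⟨?_, by omega⟩
  intro h0
  apply h3
  have : (⟨_, h1⟩ : (plOf Ω P).V) = 0 := Subtype.ext h0
  rw [this, map_zero]

/-- normal form of elements of `L ⊗ F` at a rational place -/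
theorem exists_normal_form {q : Pl Ω F L} (P₀ : Place Ω F) (hP₀ : P₀.toValuationSubring = q.V)
    {t : F} (ht : P₀.ord t = 1) (z : L ⊗[Ω] F) (hz : z ≠ 0) :
    ∃ (m : ℤ) (z' : L ⊗[Ω] q.V), tenVal q z' ≠ 0 ∧
      CF.ofTensor Ω F L z = CF.inr Ω F L t ^ m * tenIn q z' := by
  classical
  have ht0 : t ≠ 0 := Fermat.FF.ne_zero_of_ord_ne_zero P₀ (by rw [ht]; exact one_ne_zero)
  let b := Module.Free.chooseBasis Ω L
  let e := TensorProduct.equivFinsuppOfBasisLeft (N := F) b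
  set f := e z with hf
  have hf0 : f ≠ 0 := by
    rw [hf]
    simpa using hz
  have hzsum : z = f.sum fun i n => b i ⊗ₜ[Ω] n := by
    rw [← TensorProduct.equivFinsuppOfBasisLeft_symm_apply, hf]
    exact (e.symm_apply_apply z).symm
  obtain ⟨k, hk, hmin⟩ := Finset.exists_min_image f.support (fun i => P₀.ord (f i))
    (Finsupp.support_nonempty_iff.mpr hf0)
  have hk0 : f k ≠ 0 := Finsupp.mem_support_iff.mp hk
  set m := P₀.ord (f k) with hm
  have htm : t ^ (-m) ≠ 0 := zpow_ne_zero _ ht0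
  have hmem : ∀ i, t ^ (-m) * f i ∈ q.V := by
    intro i
    rw [← hP₀]
    by_cases hi : f i = 0
    · rw [hi, mul_zero]; exact zero_mem _
    · rw [Fermat.FF.mem_iff_ord P₀ (mul_ne_zero htm hi), P₀.ord_mul htm hi, P₀.ord_zpow, ht]
      have := hmin i (Finsupp.mem_support_iff.mpr hi)
      linarith
  let z' : L ⊗[Ω] q.V := ∑ i ∈ f.support, b i ⊗ₜ[Ω] (⟨t ^ (-m) * f i, hmem i⟩ : q.V)
  -- residues are constants
  have hres : ∀ i, ∃ c : Ω, q.π ⟨t ^ (-m) * f i, hmem i⟩ = algebraMap Ω L c := by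
    intro i
    have hmem' : t ^ (-m) * f i ∈ P₀.toValuationSubring := by rw [hP₀]; exact hmem i
    obtain ⟨c, hc⟩ := Fermat.FF.exists_const_of_mem P₀ hmem'
    refine ⟨c, ?_⟩
    have h1 : t ^ (-m) * f i - algebraMap Ω F c ∈ q.V := sub_mem (hmem i) (q.alg_mem c)
    have h2 : q.π ⟨_, h1⟩ = 0 := by
      by_cases h0 : t ^ (-m) * f i - algebraMap Ω F c = 0
      · have : (⟨_, h1⟩ : q.V) = 0 := Subtype.ext h0
        rw [this, map_zero]
      · rw [q.π_eq_zero_iff h1 h0, ← hP₀, Fermat.FF.mem_iff_ord P₀ (inv_ne_zero h0), P₀.ord_inv]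
        have := Fermat.FF.ord_pos_of_val_lt_one P₀ h0 hc
        omega
    have h3 : (⟨_, h1⟩ : q.V) = ⟨_, hmem i⟩ - ⟨_, q.alg_mem c⟩ := rfl
    rw [h3, map_sub, q.π_alg, sub_eq_zero] at h2
    exact h2
  choose c hc using hres
  refine ⟨m, z', ?_, ?_⟩
  · intro h0
    simp only [z', map_sum, tenVal_tmul, hc] at h0
    have h1 : ∑ i ∈ f.support, c i • b i = 0 := by
      rw [← h0]
      refine Finset.sum_congr rfl fun i _ => ?_
      rw [Algebra.smul_def, mul_comm]
    have h2 := linearIndependent_iff'.mp b.linearIndependent _ _ h1 k hk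
    have h3 : q.π ⟨t ^ (-m) * f k, hmem k⟩ = 0 := by rw [hc, h2, map_zero]
    rw [q.π_eq_zero_iff _ (mul_ne_zero htm hk0)] at h3
    apply h3
    rw [← hP₀, Fermat.FF.mem_iff_ord P₀ (inv_ne_zero (mul_ne_zero htm hk0)), P₀.ord_inv,
      P₀.ord_mul htm hk0, P₀.ord_zpow, ht]
    linarith
  · have hT : CF.inr Ω F L t ≠ 0 := (_root_.map_ne_zero _).mpr ht0
    rw [hzsum, Finsupp.sum, map_sum]
    simp only [z', map_sum, tenIn_tmul, Finset.mul_sum]
    refine Finset.sum_congr rfl fun i _ => ?_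
    rw [CF.ofTensor_tmul, map_mul, map_zpow₀, zpow_neg]
    have hTm : CF.inr Ω F L t ^ m ≠ 0 := zpow_ne_zero _ hT
    field_simp

/-- uniqueness above a rational place -/
theorem evPl_injective_of_ne_top {P₁ P₂ : Place L (CF Ω F L)} {q : Pl Ω F L}
    (h₁ : evPl P₁ = q) (h₂ : evPl P₂ = q) (hq : q.V ≠ ⊤) : P₁ = P₂ := by
  obtain ⟨P₀, hP₀⟩ := exists_place_of_valuationSubring (K := Ω) q.V q.alg_mem hq
  obtain ⟨t, ht⟩ := Fermat.FF.exists_ord_eq_one P₀
  have ht0 : t ≠ 0 := Fermat.FF.ne_zero_of_ord_ne_zero P₀ (by rw [ht]; exact one_ne_zero)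
  have hT : CF.inr Ω F L t ≠ 0 := (_root_.map_ne_zero _).mpr ht0
  have htV : t ∈ q.V := by
    rw [← hP₀, Fermat.FF.mem_iff_ord P₀ ht0, ht]
    exact zero_le_one
  have hπt : q.π ⟨t, htV⟩ = 0 := by
    rw [q.π_eq_zero_iff htV ht0, ← hP₀, Fermat.FF.mem_iff_ord P₀ (inv_ne_zero ht0), P₀.ord_inv, ht]
    norm_num
  have hord : ∀ P : Place L (CF Ω F L), evPl P = q → 0 < P.ord (CF.inr Ω F L t) := by
    intro P hP
    subst hP
    have h1 := (evPl_π (P := P) htV 0).mp hπt
    rw [map_zero, sub_zero] at h1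
    exact Fermat.FF.ord_pos_of_val_lt_one P hT h1
  have key : ∀ f : CF Ω F L, f ≠ 0 → ∃ k : ℤ, ∀ P : Place L (CF Ω F L), evPl P = q →
      P.ord f = k * P.ord (CF.inr Ω F L t) := by
    intro f hf
    obtain ⟨a, b, hb, h⟩ := CF.exists_div f
    have hb' : CF.ofTensor Ω F L b ≠ 0 := by
      intro h0
      exact hb (CF.ofTensor_injective Ω F L (by rw [h0, map_zero]))
    have ha : a ≠ 0 := by
      rintro rfl
      rw [map_zero] at h
      exact (mul_ne_zero hf hb') h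
    obtain ⟨m, a', ha', ha''⟩ := exists_normal_form P₀ hP₀ ht a ha
    obtain ⟨n, b', hb1, hb2⟩ := exists_normal_form P₀ hP₀ ht b hb
    refine ⟨m - n, fun P hP => ?_⟩
    obtain ⟨h1, h2⟩ := ord_tenIn hP ha'
    obtain ⟨h3, h4⟩ := ord_tenIn hP hb1
    have h5 := congrArg P.ord h
    rw [P.ord_mul hf hb', ha'', hb2, P.ord_mul (zpow_ne_zero _ hT) h1,
      P.ord_mul (zpow_ne_zero _ hT) h3, P.ord_zpow, P.ord_zpow, h2, h4] at h5
    rw [sub_mul]
    linarith
  apply Fermat.FF.place_eq_of_le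
  intro f hf
  by_cases hf0 : f = 0
  · rw [hf0]; exact zero_mem _
  obtain ⟨k, hk⟩ := key f hf0
  rw [Fermat.FF.mem_iff_ord _ hf0, hk _ h₁] at hf
  rw [Fermat.FF.mem_iff_ord _ hf0, hk _ h₂]
  have h3 := hord P₁ h₁
  have h4 := hord P₂ h₂
  have h5 : 0 ≤ k := by
    by_contra hk'
    push Not at hk'
    nlinarith
  positivity

theorem exists_separating (Ω F : Type u) [Field Ω] [IsAlgClosed Ω] [Field F] [Algebra Ω F]
    [Fermat.FF.IsFF1 Ω F] : ∃ x : F, Transcendental Ω x ∧ Algebra.IsSeparable Ω⟮x⟯ F := by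
  have h1 : Algebra.EssFiniteType Ω F := Fermat.FF.IsFF1.essFiniteType Ω F
  obtain ⟨s, hs, hsep⟩ := exists_isTranscendenceBasis_and_isSeparable_of_perfectField Ω F
  have h2 := hs.lift_cardinalMk_eq_trdeg
  rw [Fermat.FF.IsFF1.trdeg_eq_one Ω F] at h2
  have h3 : s.card = 1 := by simpa using h2
  obtain ⟨x, rfl⟩ := Finset.card_eq_one.mp h3
  refine ⟨x, ?_, ?_⟩
  · have h4 := hs.1.transcendental ⟨x, Finset.mem_singleton_self x⟩
    exact h4
  · rw [Finset.coe_singleton] at hsep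
    exact hsep

/-- uniqueness above an embedding -/
theorem evPl_injective_of_top {P₁ P₂ : Place L (CF Ω F L)} {q : Pl Ω F L}
    (h₁ : evPl P₁ = q) (h₂ : evPl P₂ = q) (hq : q.V = ⊤) : P₁ = P₂ := by
  classical
  by_contra hne
  have hmemq : ∀ f : F, f ∈ q.V := fun f => by rw [hq]; trivial
  -- the embedding
  let σ : F →ₐ[Ω] L :=
    { toFun := fun f => q.π ⟨f, hmemq f⟩
      map_one' := map_one q.π
      map_mul' := fun a b => map_mul q.π ⟨a, hmemq a⟩ ⟨b, hmemq b⟩
      map_zero' := map_zero q.π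
      map_add' := fun a b => map_add q.π ⟨a, hmemq a⟩ ⟨b, hmemq b⟩
      commutes' := fun c => q.π_alg c }
  have hqσ : q = Pl.ofAlgHom σ := by
    apply Pl.ext'
    · intro f
      exact ⟨fun _ => trivial, fun _ => hmemq f⟩
    · intro f hp hq
      rfl
  obtain ⟨x, hx, hsep⟩ := exists_separating Ω F
  have := Fermat.FF.IsFF1.finiteDimensional_adjoin hx
  have hX := CF.transcendental_inr (L := L) hx
  set a := σ x with ha
  let _ : Algebra Ω⟮x⟯ L := ((σ : F →+* L).comp (algebraMap Ω⟮x⟯ F)).toAlgebra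
  have htow : IsScalarTower Ω Ω⟮x⟯ L := IsScalarTower.of_algebraMap_eq fun c => by
    show algebraMap Ω L c = σ (algebraMap Ω⟮x⟯ F (algebraMap Ω Ω⟮x⟯ c))
    rw [← IsScalarTower.algebraMap_apply, AlgHom.commutes]
  let σ' : F →ₐ[Ω⟮x⟯] L := { (σ : F →+* L) with commutes' := fun c => rfl }
  set S := (Fermat.FF.Gen.setOf_val_lt_one_finite hX a).toFinset with hS
  have hmemS : ∀ P : Place L (CF Ω F L), P ∈ S ↔
      P.adicValuation (CF.inr Ω F L x - algebraMap L (CF Ω F L) a) < 1 := by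
    intro P
    rw [hS, Set.Finite.mem_toFinset]
    rfl
  have hXa : CF.inr Ω F L x - algebraMap L (CF Ω F L) a ≠ 0 := by
    intro h
    rw [sub_eq_zero] at h
    exact hX (h ▸ isAlgebraic_algebraMap _)
  have hcard : S.card ≤ Module.finrank Ω⟮x⟯ F := by
    have h3 := Fermat.FF.Gen.sum_ord_sub_mul_deg hX a
    rw [CF.finrank_adjoin_inr hx] at h3
    have h4 : (S.card : ℤ) ≤ Module.finrank Ω⟮x⟯ F := by
      rw [← h3, ← hS, Finset.card_eq_sum_ones, Nat.cast_sum]
      refine Finset.sum_le_sum fun P hP => ?_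
      rw [hmemS] at hP
      have h5 := Fermat.FF.ord_pos_of_val_lt_one P hXa hP
      rw [RR.deg_eq_one P]
      push_cast
      omega
    exact_mod_cast h4
  have hin : ∀ (τ : F →ₐ[Ω⟮x⟯] L) (P : Place L (CF Ω F L)),
      evPl P = Pl.ofAlgHom (τ.restrictScalars Ω) → P ∈ S := by
    intro τ P hP
    rw [hmemS]
    have hxV : x ∈ (evPl P).V := by rw [hP]; trivial
    rw [← evPl_π hxV a, Pl.π_congr hP hxV trivial]
    have h3 : τ x = σ x := by
      have h4 := τ.commutes (AdjoinSimple.gen Ω x)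
      exact h4
    exact h3
  choose s hs using fun τ : F →ₐ[Ω⟮x⟯] L =>
    evPl_surjective (Ω := Ω) (F := F) (L := L) (Pl.ofAlgHom (τ.restrictScalars Ω))
  let s' : (F →ₐ[Ω⟮x⟯] L) → Place L (CF Ω F L) := fun τ => if τ = σ' then P₁ else s τ
  have hs' : ∀ τ, evPl (s' τ) = Pl.ofAlgHom (τ.restrictScalars Ω) := by
    intro τ
    by_cases h : τ = σ'
    · simp only [s', if_pos h]
      rw [h₁, hqσ, h]
      rfl
    · simp only [s', if_neg h]
      exact hs τ
  have hofinj : ∀ τ τ' : F →ₐ[Ω⟮x⟯] L, Pl.ofAlgHom (τ.restrictScalars Ω) =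
      Pl.ofAlgHom (τ'.restrictScalars Ω) → τ = τ' := by
    intro τ τ' h
    ext f
    exact Pl.π_congr h (x := f) trivial trivial
  have hinj : Function.Injective s' := by
    intro τ τ' h
    apply hofinj
    rw [← hs' τ, ← hs' τ', h]
  have hP₂ : P₂ ∉ Finset.univ.image s' := by
    intro h
    obtain ⟨τ, -, hτ⟩ := Finset.mem_image.mp h
    have h3 : τ = σ' := by
      apply hofinj
      rw [← hs' τ, hτ, h₂, hqσ]
      rfl
    apply hne
    rw [← hτ, h3]
    simp [s']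
  have hsub : insert P₂ (Finset.univ.image s') ⊆ S := by
    intro P hP
    rw [Finset.mem_insert] at hP
    rcases hP with rfl | hP
    · exact hin σ' _ (by rw [h₂, hqσ]; rfl)
    · obtain ⟨τ, -, rfl⟩ := Finset.mem_image.mp hP
      exact hin τ _ (hs' τ)
  have h3 := Finset.card_le_card hsub
  rw [Finset.card_insert_of_notMem hP₂, Finset.card_image_of_injective _ hinj, Finset.card_univ,
    AlgHom.card Ω⟮x⟯ F L] at h3
  omega

theorem evPl_injective : Function.Injective (evPl : Place L (CF Ω F L) → Pl Ω F L) := by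
  intro P₁ P₂ h
  by_cases hq : (evPl P₂).V = ⊤
  · exact evPl_injective_of_top h rfl hq
  · exact evPl_injective_of_ne_top h rfl hq

theorem evPl_bijective : Function.Bijective (evPl : Place L (CF Ω F L) → Pl Ω F L) :=
  ⟨evPl_injective, evPl_surjective⟩

/-- places of `L(F)` are the same as `L`-valued places of `F` -/
def placeEquiv : Place L (CF Ω F L) ≃ Pl Ω F L := Equiv.ofBijective _ evPl_bijective

@[simp] theorem placeEquiv_apply (P : Place L (CF Ω F L)) : placeEquiv P = evPl P := rfl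

@[simp] theorem evPl_placeEquiv_symm (q : Pl Ω F L) : evPl (placeEquiv.symm q) = q :=
  placeEquiv.apply_symm_apply q

variable {κ l : Type u} [Field κ] [Algebra Ω κ] [IsAlgClosed κ] [Field l] [Algebra Ω l]
  [IsAlgClosed l]

/-- reduction of places along `p : L ⇝ κ` -/
def redPlace (p : Pl Ω L κ) (P : Place L (CF Ω F L)) : Place κ (CF Ω F κ) :=
  placeEquiv.symm (p.comp (evPl P))

@[simp] theorem evPl_redPlace (p : Pl Ω L κ) (P : Place L (CF Ω F L)) :
    evPl (redPlace p P) = p.comp (evPl P) := evPl_placeEquiv_symm _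

theorem redPlace_comp (q : Pl Ω κ l) (p : Pl Ω L κ) (P : Place L (CF Ω F L)) :
    redPlace (q.comp p) P = redPlace q (redPlace p P) := by
  apply placeEquiv.injective
  simp [Pl.comp_assoc]

theorem redPlace_id (P : Place L (CF Ω F L)) :
    redPlace (Pl.ofAlgHom (AlgHom.id Ω L)) P = P := by
  apply placeEquiv.injective
  simp

theorem redPlace_ofAlgHom_injective (i : L →ₐ[Ω] κ) :
    Function.Injective (redPlace (F := F) (Pl.ofAlgHom i)) := by
  intro P₁ P₂ h
  apply evPl_injective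
  have h1 : (Pl.ofAlgHom i).comp (evPl P₁) = (Pl.ofAlgHom i).comp (evPl P₂) := by
    rw [← evPl_redPlace, ← evPl_redPlace, h]
  have hV : ∀ f, f ∈ (evPl P₁).V ↔ f ∈ (evPl P₂).V := by
    intro f
    constructor
    · intro hf
      have : f ∈ ((Pl.ofAlgHom i).comp (evPl P₂)).V := by
        rw [← h1]
        exact ⟨hf, trivial⟩
      exact this.1
    · intro hf
      have : f ∈ ((Pl.ofAlgHom i).comp (evPl P₁)).V := by
        rw [h1]
        exact ⟨hf, trivial⟩
      exact this.1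
  apply Pl.ext' hV
  intro f h2 h3
  apply i.injective
  exact Pl.π_congr h1 (x := f) ⟨h2, trivial⟩ ⟨h3, trivial⟩

end Fermat.Agent.AV
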