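import Mathlib
import Fermat.Agent.AV.Base

/-!
# Extension of places (team AV = S26, package P5e)
-/

set_option autoImplicit false

noncomputable section

universe u

namespace Fermat.Agent.AV

namespace Pl

variable {Ω L κ M : Type u} [Field Ω] [Field L] [Algebra Ω L] [Field κ] [Algebra Ω κ]
  [Field M] [Algebra Ω M]

section OfVal

variable (V : ValuationSubring M) (hV : ∀ x : Ω, algebraMap Ω M x ∈ V)

/-- the `Ω`-algebra structure of a valuation ring containing `Ω` -/
def algOfMem : Ω →+* V := (algebraMap Ω M).codRestrict V.toSubring hV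

/-- the residue field valued place attached to a valuation ring containing `Ω` -/
def residueAlgebra : Algebra Ω (IsLocalRing.ResidueField V) :=
  ((IsLocalRing.residue V).comp (algOfMem V hV)).toAlgebra

include hV in
theorem exists_of_valuationSubring [IsAlgClosed M] :
    ∃ (κ' : Type u) (_ : Field κ') (_ : Algebra Ω κ') (_ : IsAlgClosed κ') (p : Pl Ω M κ'),
      p.V = V ∧ Function.Surjective p.π := by
  letI := residueAlgebra V hV
  have hs : Function.Surjective (IsLocalRing.residue V) := IsLocalRing.residue_surjective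
  refine ⟨IsLocalRing.ResidueField V, inferInstance, inferInstance, isAlgClosed_of_surjective hs,
    ⟨V, hV, IsLocalRing.residue V, ?_, fun x => rfl⟩, rfl, hs⟩
  intro x hx
  rwa [IsLocalRing.residue_ne_zero_iff_isUnit] at hx

end OfVal

/-- the value of a place on a nonunit vanishes -/
theorem π_eq_zero_of_mem_nonunits (p : Pl Ω M κ) {x : M} (hx : x ∈ p.V) (h : x ∈ p.V.nonunits) :
    p.π ⟨x, hx⟩ = 0 := by
  by_contra h0
  have h1 := p.isLocal _ h0
  rw [ValuationSubring.mem_nonunits_iff_exists_mem_maximalIdeal] at h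
  obtain ⟨h2, h3⟩ := h
  exact h3 h1

theorem exists_extension [IsAlgClosed M] (p : Pl Ω L κ) (hp : Function.Surjective p.π)
    (i : L →ₐ[Ω] M) :
    ∃ (κ' : Type u) (_ : Field κ') (_ : Algebra Ω κ') (_ : IsAlgClosed κ') (p' : Pl Ω M κ')
      (j : κ →ₐ[Ω] κ'), Function.Surjective p'.π ∧
        p'.comp (Pl.ofAlgHom i) = (Pl.ofAlgHom j).comp p := by
  -- the image of the valuation ring of `p`
  let f : p.V →+* M := (i : L →+* M).comp p.V.subtype
  have hf : Function.Injective f := fun x y h => Subtype.ext (i.injective h)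
  let A : Subring M := f.range
  let I : Ideal A := (IsLocalRing.maximalIdeal p.V).map f.rangeRestrict
  have hI : I ≠ ⊤ := by
    intro h
    have h1 : (⊤ : Ideal p.V) = IsLocalRing.maximalIdeal p.V := by
      have h2 := congrArg (Ideal.comap f.rangeRestrict) h
      rw [Ideal.comap_top, Ideal.comap_map_of_bijective] at h2
      · exact h2.symm
      · exact ⟨fun x y h => hf (congrArg Subtype.val h), f.rangeRestrict_surjective⟩
    exact (IsLocalRing.maximalIdeal.isMaximal p.V).ne_top h1.symm
  obtain ⟨V, hAV, hIV⟩ := I.image_subset_nonunits_valuationSubring hI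
  have hmem : ∀ x (hx : x ∈ p.V), i x ∈ V := fun x hx => hAV ⟨⟨x, hx⟩, rfl⟩
  have hnon : ∀ x (hx : x ∈ p.V), p.π ⟨x, hx⟩ = 0 → i x ∈ V.nonunits := by
    intro x hx h
    apply hIV
    refine ⟨f.rangeRestrict ⟨x, hx⟩, Ideal.mem_map_of_mem _ ?_, rfl⟩
    rw [IsLocalRing.mem_maximalIdeal, mem_nonunits_iff, p.isUnit_iff, not_not]
    exact h
  have hΩ : ∀ x : Ω, algebraMap Ω M x ∈ V := by
    intro x
    rw [← i.commutes]
    exact hmem _ (p.alg_mem x)
  obtain ⟨κ', _, _, _, p', rfl, hsurj⟩ := exists_of_valuationSubring V hΩ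
  -- the map of residue fields
  let g : p.V →+* κ' := p'.π.comp
    (((i : L →+* M).comp p.V.subtype).codRestrict p'.V.toSubring fun x => hmem x.1 x.2)
  have hg : ∀ x (hx : x ∈ p.V), g ⟨x, hx⟩ = p'.π ⟨i x, hmem x hx⟩ := fun x hx => rfl
  have hker : RingHom.ker p.π ≤ RingHom.ker g := by
    rintro ⟨x, hx⟩ h
    rw [RingHom.mem_ker] at h ⊢
    rw [hg]
    exact p'.π_eq_zero_of_mem_nonunits _ (hnon x hx h)
  let j₀ : κ →+* κ' := RingHom.liftOfSurjective p.π hp ⟨g, hker⟩
  have hj : ∀ x (hx : x ∈ p.V), j₀ (p.π ⟨x, hx⟩) = p'.π ⟨i x, hmem x hx⟩ := by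
    intro x hx
    exact RingHom.liftOfRightInverse_comp_apply _ _ _ _ _
  let j : κ →ₐ[Ω] κ' :=
    { j₀ with
      commutes' := by
        intro x
        have h1 := hj _ (p.alg_mem x)
        rw [p.π_alg] at h1
        have h2 : (⟨i (algebraMap Ω L x), hmem _ (p.alg_mem x)⟩ : p'.V) =
          ⟨algebraMap Ω M x, p'.alg_mem x⟩ := Subtype.ext (i.commutes x)
        rw [h2, p'.π_alg] at h1
        exact h1 }
  refine ⟨κ', inferInstance, inferInstance, inferInstance, p', j, hsurj, ?_⟩
  apply ext'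
  · intro x
    rw [mem_comp_V, mem_comp_V]
    constructor
    · intro hix
      have hi : i x ∈ p'.V := hix.2
      refine ⟨?_, trivial⟩
      by_contra hx
      have hx0 : x ≠ 0 := by rintro rfl; exact hx (zero_mem _)
      have hx' : x⁻¹ ∈ p.V := (p.V.mem_or_inv_mem x).resolve_left hx
      have h0 : p.π ⟨x⁻¹, hx'⟩ = 0 := by
        rw [p.π_eq_zero_iff hx' (inv_ne_zero hx0), inv_inv]; exact hx
      have h1 := hnon _ hx' h0
      rw [map_inv₀, p'.V.inv_mem_nonunits_iff] at h1
      rcases h1 with h1 | h1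
      · exact hx0 ((map_eq_zero i).1 h1)
      · exact h1 hi
    · intro hx
      exact ⟨trivial, hmem x hx.1⟩
  · intro x hx hx'
    have hx1 := (mem_comp_V.1 hx').1
    exact (hj x hx1).symm

/-- there is an `Ω`-valued place of `M` -/
theorem exists_rational (Ω M : Type u) [Field Ω] [IsAlgClosed Ω] [Field M] [IsAlgClosed M]
    [Algebra Ω M] : Nonempty (Pl Ω M Ω) := by
  -- a minimal valuation ring containing `Ω`
  let S : Set (Set M) :=
    {s | ∃ V : ValuationSubring M, (∀ x : Ω, algebraMap Ω M x ∈ V) ∧ (V : Set M) = s}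
  have hchain : ∀ c ⊆ S, IsChain (· ⊆ ·) c → ∃ lb ∈ S, ∀ s ∈ c, lb ⊆ s := by
    intro c hcS hc
    let W : ValuationSubring M :=
      { carrier := {x | ∀ V : ValuationSubring M, (V : Set M) ∈ c → x ∈ V}
        mul_mem' := fun ha hb V hV => mul_mem (ha V hV) (hb V hV)
        one_mem' := fun V _ => one_mem V
        add_mem' := fun ha hb V hV => add_mem (ha V hV) (hb V hV)
        zero_mem' := fun V _ => zero_mem V
        neg_mem' := fun ha V hV => neg_mem (ha V hV)
        mem_or_inv_mem' := by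
          intro x
          by_contra h
          push Not at h
          obtain ⟨h1, h2⟩ := h
          simp only [Set.mem_ofPred_eq, not_forall] at h1 h2
          obtain ⟨V1, hV1, hx1⟩ := h1
          obtain ⟨V2, hV2, hx2⟩ := h2
          rcases hc.total hV1 hV2 with h | h
          · exact hx2 (h ((V1.mem_or_inv_mem x).resolve_left hx1))
          · exact ((V2.mem_or_inv_mem x).elim (fun h' => hx1 (h h')) hx2) }
    refine ⟨W, ⟨W, fun x V hV => ?_, rfl⟩, fun s hs x hx => ?_⟩
    · obtain ⟨V', hV', hVV'⟩ := hcS hV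
      obtain rfl : V' = V := SetLike.ext' hVV'
      exact hV' x
    · obtain ⟨V', -, rfl⟩ := hcS hs
      exact hx V' hs
  obtain ⟨m, hm⟩ := zorn_superset S hchain
  obtain ⟨V, hV, rfl⟩ := hm.1
  obtain ⟨κ', _, _, _, p, rfl, hsurj⟩ := exists_of_valuationSubring V hV
  -- the residue field is algebraic over `Ω`
  have halg : Algebra.IsAlgebraic Ω κ' := by
    constructor
    intro t
    by_contra ht
    have ht' : Transcendental Ω t := ht
    have ht0 : t ≠ 0 := by rintro rfl; exact ht (isAlgebraic_zero)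
    let A : Subring κ' := (Algebra.adjoin Ω {t}).toSubring
    let tA : A := ⟨t, Algebra.self_mem_adjoin_singleton Ω t⟩
    have hI : Ideal.span {tA} ≠ ⊤ := by
      intro h
      rw [Ideal.span_singleton_eq_top] at h
      obtain ⟨s, hs⟩ := h.exists_right_inv
      have hs1 : t * (s : κ') = 1 := congrArg Subtype.val hs
      have hsmem : (s : κ') ∈ Algebra.adjoin Ω {t} := s.2
      rw [Algebra.adjoin_singleton_eq_range_aeval] at hsmem
      obtain ⟨P, hP⟩ := hsmem
      have h1 : Polynomial.aeval t (Polynomial.X * P - 1) = 0 := by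
        rw [map_sub, map_mul, Polynomial.aeval_X, map_one]
        rw [show Polynomial.aeval t P = (s : κ') from hP, hs1, sub_self]
      have h2 : (Polynomial.X * P - 1 : Polynomial Ω) = 0 := by
        by_contra h3
        exact ht' ⟨_, h3, h1⟩
      have h4 := congrArg (Polynomial.eval 0) h2
      simp at h4
    obtain ⟨O, hAO, hIO⟩ := (Ideal.span {tA}).image_subset_nonunits_valuationSubring hI
    have htO : t ∈ O.nonunits := hIO ⟨tA, Ideal.mem_span_singleton_self _, rfl⟩
    have htO' : t⁻¹ ∉ O := by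
      rw [← inv_inv t, O.inv_mem_nonunits_iff] at htO
      exact htO.resolve_left (inv_ne_zero ht0)
    have hΩO : ∀ x : Ω, algebraMap Ω κ' x ∈ O := fun x =>
      hAO (Subalgebra.algebraMap_mem (Algebra.adjoin Ω {t}) x)
    obtain ⟨κ'', _, _, _, q, rfl, -⟩ := exists_of_valuationSubring O hΩO
    have hmin : ((q.comp p).V : Set M) ∈ S := ⟨_, (q.comp p).alg_mem, rfl⟩
    have hle : ((q.comp p).V : Set M) ⊆ p.V := fun x hx => (mem_comp_V.1 hx).1
    have hge := hm.2 hmin hle
    obtain ⟨⟨x, hx⟩, hxt⟩ := hsurj t⁻¹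
    obtain ⟨h1, h2⟩ := mem_comp_V.1 (hge hx)
    rw [hxt] at h2
    exact htO' h2
  have hbij : Function.Bijective (algebraMap Ω κ') :=
    IsAlgClosed.algebraMap_bijective_of_isIntegral
  let e : Ω ≃+* κ' := RingEquiv.ofBijective _ hbij
  refine ⟨⟨p.V, p.alg_mem, (e.symm : κ' →+* Ω).comp p.π, fun x hx => p.isLocal x ?_,
    fun x => ?_⟩⟩
  · intro h
    apply hx
    rw [RingHom.comp_apply, h, map_zero]
  · rw [RingHom.comp_apply, p.π_alg]
    exact e.symm_apply_apply x

end Pl

end Fermat.Agent.AV
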