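import Mathlib

/-!
# Commutative algebra for multiplication by `n` (team AV = S26)

`O` a noetherian local `K`-algebra with residue field `K`, `ψ : O → O` an endomorphism which acts
as multiplication by `n ∈ K^×` on the cotangent space.  Then `ψ` is injective and the maximal
ideal is generated by the image of the maximal ideal.
-/

set_option autoImplicit false

open IsLocalRing

namespace Fermat.Agent.AV

section LocalAlg

variable {K O : Type*} [Field K] [CommRing O] [IsLocalRing O] [Algebra K O]

theorem pow_congr_of_cotangent (ψ : O →ₐ[K] O) (n : ℕ)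
    (hres : ∀ x : O, ∃ c : K, x - algebraMap K O c ∈ maximalIdeal O)
    (h1 : ∀ y ∈ maximalIdeal O, ψ y - n • y ∈ maximalIdeal O ^ 2) (d : ℕ) :
    ∀ x ∈ maximalIdeal O ^ d, ψ x - n ^ d • x ∈ maximalIdeal O ^ (d + 1) := by
  have hψ : ∀ y ∈ maximalIdeal O, ψ y ∈ maximalIdeal O := by
    intro y hy
    have h2 : ψ y = (ψ y - n • y) + n • y := by ring
    rw [h2]
    exact add_mem (Ideal.pow_le_self two_ne_zero (h1 y hy)) (nsmul_mem hy n)
  induction d with
  | zero =>
    intro x _
    obtain ⟨c, hc⟩ := hres x
    rw [pow_zero, one_smul, zero_add, pow_one]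
    have : ψ x - x = ψ (x - algebraMap K O c) - (x - algebraMap K O c) := by
      rw [map_sub, AlgHom.commutes]
      ring
    rw [this]
    exact sub_mem (hψ _ hc) hc
  | succ d ih =>
    intro x hx
    rw [pow_succ] at hx
    induction hx using Submodule.mul_induction_on' with
    | mem_mul_mem a ha b hb =>
      have h3 : ψ (a * b) - n ^ (d + 1) • (a * b) =
          (ψ a - n ^ d • a) * ψ b + a * (n ^ d • (ψ b - n • b)) := by
        simp only [map_mul, nsmul_eq_mul]
        push_cast
        ring
      rw [h3]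
      refine add_mem ?_ ?_
      · rw [pow_succ]
        exact Ideal.mul_mem_mul (ih a ha) (hψ b hb)
      · have : maximalIdeal O ^ (d + 1 + 1) = maximalIdeal O ^ d * maximalIdeal O ^ 2 := by
          rw [← pow_add]
        rw [this]
        exact Ideal.mul_mem_mul ha (nsmul_mem (h1 b hb) _)
    | add a ha b hb iha ihb =>
      have h3 : ψ (a + b) - n ^ (d + 1) • (a + b) =
          (ψ a - n ^ (d + 1) • a) + (ψ b - n ^ (d + 1) • b) := by
        rw [map_add, smul_add]
        ring
      rw [h3]
      exact add_mem iha ihb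

/-- `ψ` is injective. -/
theorem injective_of_cotangent [IsNoetherianRing O] (ψ : O →ₐ[K] O) (n : ℕ) (hn : (n : K) ≠ 0)
    (hres : ∀ x : O, ∃ c : K, x - algebraMap K O c ∈ maximalIdeal O)
    (h1 : ∀ y ∈ maximalIdeal O, ψ y - n • y ∈ maximalIdeal O ^ 2) :
    Function.Injective ψ := by
  rw [injective_iff_map_eq_zero]
  intro x hx
  have h2 : ∀ d, x ∈ maximalIdeal O ^ d := by
    intro d
    induction d with
    | zero => simp
    | succ d ih =>
      have h3 := pow_congr_of_cotangent ψ n hres h1 d x ih
      rw [hx, zero_sub, neg_mem_iff] at h3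
      have h4 : IsUnit (((n ^ d : ℕ) : O)) := by
        have : ((n ^ d : ℕ) : O) = algebraMap K O ((n : K) ^ d) := by
          push_cast
          simp
        rw [this]
        exact (IsUnit.mk0 _ (pow_ne_zero d hn)).map _
      rw [nsmul_eq_mul] at h3
      exact (Ideal.unit_mul_mem_iff_mem _ h4).mp h3
  have h3 : x ∈ (⨅ i, maximalIdeal O ^ i : Ideal O) := by
    rw [Ideal.mem_iInf]
    exact h2
  rwa [Ideal.iInf_pow_eq_bot_of_isLocalRing _ (maximalIdeal.isMaximal O).ne_top,
    Ideal.mem_bot] at h3

/-- The maximal ideal is generated by its image under `ψ`. -/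
theorem maximalIdeal_le_span_of_cotangent [IsNoetherianRing O] (ψ : O →ₐ[K] O) (n : ℕ)
    (hn : (n : K) ≠ 0)
    (h1 : ∀ y ∈ maximalIdeal O, ψ y - n • y ∈ maximalIdeal O ^ 2) :
    maximalIdeal O ≤ Ideal.span (ψ '' maximalIdeal O) := by
  apply Submodule.le_of_le_smul_of_le_jacobson_bot (I := maximalIdeal O)
    (N := Ideal.span (ψ '' maximalIdeal O)) (N' := maximalIdeal O) (IsNoetherian.noetherian _)
  · rw [jacobson_eq_maximalIdeal _ bot_ne_top]
  · intro y hy
    have h4 : IsUnit (n : O) := by
      have : (n : O) = algebraMap K O (n : K) := by simp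
      rw [this]
      exact (IsUnit.mk0 _ hn).map _
    rw [← Ideal.unit_mul_mem_iff_mem _ h4]
    have h2 : (n : O) * y = ψ y - (ψ y - n • y) := by
      rw [nsmul_eq_mul]
      ring
    rw [h2]
    apply Submodule.sub_mem
    · exact Submodule.mem_sup_left (Ideal.subset_span ⟨y, hy, rfl⟩)
    · apply Submodule.mem_sup_right
      have := h1 y hy
      rwa [pow_two] at this

end LocalAlg

section Trdeg

variable {K E : Type*} [Field K] [Field E] [Algebra K E]

/-- An extension of finite transcendence degree is algebraic over the image of any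
endomorphism. -/
theorem isAlgebraic_range (h : Algebra.trdeg K E < Cardinal.aleph0) (μ : E →ₐ[K] E) :
    Algebra.IsAlgebraic μ.range E := by
  have h1 : Algebra.trdeg K μ.range + Algebra.trdeg μ.range E = Algebra.trdeg K E :=
    trdeg_add_eq K μ.range
  have h2 : Algebra.trdeg K μ.range = Algebra.trdeg K E :=
    ((AlgEquiv.ofInjective μ μ.toRingHom.injective).trdeg_eq).symm
  rw [h2] at h1
  have h3 : Algebra.trdeg μ.range E = 0 := by
    have h4 : Algebra.trdeg K E + Algebra.trdeg μ.range E = Algebra.trdeg K E + 0 := by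
      rw [h1, add_zero]
    rw [add_comm, add_comm (Algebra.trdeg K E)] at h4
    exact (Cardinal.add_right_inj_of_lt_aleph0 h).mp h4
  rwa [trdeg_eq_zero_iff] at h3

/-- A subring containing the image of an endomorphism is a field. -/
theorem inv_mem_of_endomorphism (h : Algebra.trdeg K E < Cardinal.aleph0) (μ : E →ₐ[K] E)
    (O : Subring E) (hO : ∀ x, μ x ∈ O) {x : E} (hx : x ∈ O) : x⁻¹ ∈ O := by
  have : Algebra.IsAlgebraic μ.fieldRange E := isAlgebraic_range h μ
  let O' : Subalgebra μ.fieldRange E :=
    { O with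
      algebraMap_mem' := by
        rintro ⟨_, ⟨y, rfl⟩⟩
        exact hO y }
  by_cases hx0 : x = 0
  · rw [hx0, inv_zero]
    exact O.zero_mem
  have h5 : IsField O' := Subalgebra.isField_of_algebraic O'
  obtain ⟨y, hy⟩ := h5.mul_inv_cancel (a := ⟨x, hx⟩) (by
    intro h
    exact hx0 (congrArg Subtype.val h))
  have h6 : x * (y : E) = 1 := congrArg Subtype.val hy
  have h7 : x⁻¹ = (y : E) := by
    field_simp
    exact h6.symm
  rw [h7]
  exact y.2

end Trdeg

end Fermat.Agent.AV
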