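import Mathlib

/-!
# Morphisms from spectra through local schemes (team AV = S26)

`IsAt P x φ` says that `P : Spec R ⟶ X` is the composition of `Spec φ` (`φ : 𝒪_{X,x} ⟶ R`) and
`Spec 𝒪_{X,x} ⟶ X`.  Since the latter is a monomorphism `φ` is uniquely determined by `P`.
-/

set_option autoImplicit false

noncomputable section

open CategoryTheory CategoryTheory.Limits AlgebraicGeometry IsLocalRing

universe u

namespace Fermat.Agent.AV

variable {X Y Z : Scheme.{u}} {R S : CommRingCat.{u}}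

/-- `P : Spec R ⟶ X` factors through `Spec 𝒪_{X,x}`, by the homomorphism `φ`. -/
def IsAt (P : Spec R ⟶ X) (x : X) (φ : X.presheaf.stalk x ⟶ R) : Prop :=
  Spec.map φ ≫ X.fromSpecStalk x = P

theorem IsAt.unique {P : Spec R ⟶ X} {x : X} {φ φ' : X.presheaf.stalk x ⟶ R}
    (h : IsAt P x φ) (h' : IsAt P x φ') : φ = φ' := by
  apply Spec.map_injective
  rw [← cancel_mono (X.fromSpecStalk x)]
  exact h.trans h'.symm

theorem IsAt.comp {P : Spec R ⟶ X} {x : X} {φ : X.presheaf.stalk x ⟶ R} (h : IsAt P x φ)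
    (g : R ⟶ S) : IsAt (Spec.map g ≫ P) x (φ ≫ g) := by
  rw [IsAt, Spec.map_comp, Category.assoc, h]

theorem isAt_fromSpecStalk (x : X) : IsAt (X.fromSpecStalk x) x (𝟙 _) := by
  rw [IsAt, Spec.map_id, Category.id_comp]

theorem isAt_of_specializes {x y : X} (h : x ⤳ y) :
    IsAt (X.fromSpecStalk x) y (X.presheaf.stalkSpecializes h) :=
  Scheme.SpecMap_stalkSpecializes_fromSpecStalk h

theorem isAt_stalkMap (ψ : X ⟶ Y) (x : X) :
    IsAt (X.fromSpecStalk x ≫ ψ) (ψ x) (ψ.stalkMap x) :=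
  Scheme.SpecMap_stalkMap_fromSpecStalk ψ

/-- The pull back homomorphism of local rings. -/
def pull (ψ : X ⟶ Y) {x : X} {y : Y} (h : ψ x ⤳ y) : Y.presheaf.stalk y ⟶ X.presheaf.stalk x :=
  Y.presheaf.stalkSpecializes h ≫ ψ.stalkMap x

theorem isAt_pull (ψ : X ⟶ Y) {x : X} {y : Y} (h : ψ x ⤳ y) :
    IsAt (X.fromSpecStalk x ≫ ψ) y (pull ψ h) := by
  rw [IsAt, pull, Spec.map_comp, Category.assoc, Scheme.SpecMap_stalkSpecializes_fromSpecStalk,
    Scheme.SpecMap_stalkMap_fromSpecStalk]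

theorem IsAt.pull {P : Spec R ⟶ X} {x : X} {φ : X.presheaf.stalk x ⟶ R} (hP : IsAt P x φ)
    (ψ : X ⟶ Y) {y : Y} (h : ψ x ⤳ y) : IsAt (P ≫ ψ) y (pull ψ h ≫ φ) := by
  rw [IsAt, Spec.map_comp, Category.assoc, isAt_pull ψ h, ← hP, Category.assoc]

theorem pull_eq_of_isAt {ψ : X ⟶ Y} {x : X} {y : Y} (h : ψ x ⤳ y)
    {φ : Y.presheaf.stalk y ⟶ X.presheaf.stalk x}
    (hφ : IsAt (X.fromSpecStalk x ≫ ψ) y φ) : pull ψ h = φ :=
  (isAt_pull ψ h).unique hφ

theorem IsAt.eq_pull {ψ : X ⟶ Y} {x : X} {y : Y}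
    {φ : Y.presheaf.stalk y ⟶ X.presheaf.stalk x}
    (hφ : IsAt (X.fromSpecStalk x ≫ ψ) y φ) (h : ψ x ⤳ y) : φ = AV.pull ψ h :=
  hφ.unique (isAt_pull ψ h)

/-- Functoriality of the pull back. -/
theorem pull_comp_pull (ψ : X ⟶ Y) (χ : Y ⟶ Z) {x : X} {y : Y} {z : Z} (h : ψ x ⤳ y)
    (h' : χ y ⤳ z) (h'' : (ψ ≫ χ) x ⤳ z) : pull χ h' ≫ pull ψ h = pull (ψ ≫ χ) h'' := by
  symm
  apply pull_eq_of_isAt
  have := (isAt_pull ψ h).pull χ h'
  rwa [Category.assoc] at this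

theorem pull_id {x : X} (h : (𝟙 X : X ⟶ X) x ⤳ x) : pull (𝟙 X) h = 𝟙 _ := by
  apply pull_eq_of_isAt
  rw [Category.comp_id]
  exact isAt_fromSpecStalk x

theorem pull_id_eq {x y : X} (h : (𝟙 X : X ⟶ X) x ⤳ y) (h' : x ⤳ y) :
    pull (𝟙 X) h = X.presheaf.stalkSpecializes h' := by
  apply pull_eq_of_isAt
  rw [Category.comp_id]
  exact isAt_of_specializes h'

theorem pull_comp_specializes (ψ : X ⟶ Y) {x x' : X} {y : Y} (h : ψ x ⤳ y) (hx : x' ⤳ x)
    (h' : ψ x' ⤳ y) : pull ψ h ≫ X.presheaf.stalkSpecializes hx = pull ψ h' := by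
  symm
  apply pull_eq_of_isAt
  have := (isAt_of_specializes hx).pull ψ h
  exact this

theorem specializes_comp_pull (ψ : X ⟶ Y) {x : X} {y y' : Y} (h : ψ x ⤳ y) (hy : y ⤳ y')
    (h' : ψ x ⤳ y') : Y.presheaf.stalkSpecializes hy ≫ pull ψ h = pull ψ h' := by
  symm
  apply pull_eq_of_isAt
  rw [IsAt, Spec.map_comp, Category.assoc, Scheme.SpecMap_stalkSpecializes_fromSpecStalk]
  exact isAt_pull ψ h

theorem isLocalHom_pull (ψ : X ⟶ Y) {x : X} {y : Y} (h : ψ x ⤳ y) (h' : ψ x = y) :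
    IsLocalHom (pull ψ h).hom := by
  subst h'
  have : pull ψ h = ψ.stalkMap x := pull_eq_of_isAt h (isAt_stalkMap ψ x)
  rw [this]
  infer_instance

section Local

variable [IsLocalRing R]

theorem IsAt.specializes {P : Spec R ⟶ X} {x : X} {φ : X.presheaf.stalk x ⟶ R}
    (h : IsAt P x φ) : P (closedPoint R) ⤳ x := by
  have h1 : P (closedPoint R) ∈ Set.range (X.fromSpecStalk x) := by
    rw [← h]
    exact ⟨Spec.map φ (closedPoint R), rfl⟩
  rw [Scheme.range_fromSpecStalk] at h1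
  exact h1

/-- The homomorphism `𝒪_{X,x} ⟶ R` attached to a morphism `Spec R ⟶ X`. -/
def evAt (P : Spec R ⟶ X) {x : X} (h : P (closedPoint R) ⤳ x) : X.presheaf.stalk x ⟶ R :=
  X.presheaf.stalkSpecializes h ≫ Scheme.stalkClosedPointTo P

theorem isAt_evAt (P : Spec R ⟶ X) {x : X} (h : P (closedPoint R) ⤳ x) : IsAt P x (evAt P h) := by
  rw [IsAt, evAt, Spec.map_comp, Category.assoc, Scheme.SpecMap_stalkSpecializes_fromSpecStalk,
    Scheme.Spec_stalkClosedPointTo_fromSpecStalk]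

set_option backward.isDefEq.respectTransparency.types false in
theorem IsAt.apply_closedPoint {P : Spec R ⟶ X} {x : X} {φ : X.presheaf.stalk x ⟶ R}
    (h : IsAt P x φ) (hφ : IsLocalHom φ.hom) : P (closedPoint R) = x := by
  rw [← h, Scheme.Hom.comp_apply, Spec_closedPoint, Scheme.fromSpecStalk_closedPoint]

theorem isLocalHom_evAt {P : Spec R ⟶ X} {x : X} (h : P (closedPoint R) ⤳ x)
    (h' : P (closedPoint R) = x) : IsLocalHom (evAt P h).hom := by
  subst h'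
  have : evAt P h = Scheme.stalkClosedPointTo P :=
    (isAt_evAt P h).unique (Scheme.Spec_stalkClosedPointTo_fromSpecStalk P)
  rw [this]
  infer_instance

theorem IsAt.isLocalHom {P : Spec R ⟶ X} {x : X} {φ : X.presheaf.stalk x ⟶ R}
    (h : IsAt P x φ) (h' : P (closedPoint R) = x) : IsLocalHom φ.hom := by
  rw [h.unique (isAt_evAt P h.specializes)]
  exact isLocalHom_evAt _ h'

theorem exists_isAt (P : Spec R ⟶ X) {x : X} (h : P (closedPoint R) ⤳ x) :
    ∃ φ, IsAt P x φ := ⟨_, isAt_evAt P h⟩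

end Local

end Fermat.Agent.AV
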