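import Mathlib
import Fermat.Prelude.Def_AlgebraicGeometry_RelativeGroupLaw
import Fermat.Prelude.Def_GoodReductionJacobian_RelativeGroupLawKernel
import Fermat.Prelude.Def_JacJ1Iface

/-!
# Commutative group schemes: points with values in arbitrary schemes (team AV = S26)

`AVar K` bundles a `K`-scheme with a commutative relative group law.
`X.Pt t` is the abelian group of `T`-valued points over `t : T ⟶ Spec K`.
-/

set_option autoImplicit false

noncomputable section

open CategoryTheory CategoryTheory.Limits AlgebraicGeometry NeronModelInfra GoodReductionJacobian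

universe u

namespace Fermat.Agent.AV

/-- A commutative group scheme over a field. -/
structure AVar (K : Type u) [Field K] where
  A : Scheme.{u}
  f : A ⟶ Spec (CommRingCat.of K)
  L : RelativeGroupLaw K f
  hc : L.IsCommutative

namespace AVar

variable {K : Type u} [Field K] (X : AVar K)

/-- The points of `X` over `t : T ⟶ Spec K`. -/
def Pt {T : Scheme.{u}} (t : T ⟶ Spec (CommRingCat.of K)) : Type u := SchemeHomOver t X.f

section Group

variable {X} {T T' T'' : Scheme.{u}} {t : T ⟶ Spec (CommRingCat.of K)}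
  {t' : T' ⟶ Spec (CommRingCat.of K)} {t'' : T'' ⟶ Spec (CommRingCat.of K)}

theorem Pt.ext {x y : X.Pt t} (h : x.1 = y.1) : x = y := Subtype.ext h

/-- Constructor for points. -/
def Pt.mk (x : T ⟶ X.A) (h : x ≫ X.f = t) : X.Pt t := ⟨x, h⟩

@[simp] theorem Pt.mk_fst (x : T ⟶ X.A) (h : x ≫ X.f = t) : (Pt.mk x h : X.Pt t).1 = x := rfl

instance : Add (X.Pt t) := ⟨fun x y => X.L.mul t x y⟩
instance : Zero (X.Pt t) := ⟨X.L.one t⟩
instance : Neg (X.Pt t) := ⟨fun x => X.L.inv t x⟩

instance : AddCommGroup (X.Pt t) where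
  add_assoc := X.L.mul_assoc t
  zero_add := X.L.one_mul t
  add_zero := X.L.mul_one t
  neg_add_cancel := X.L.inv_mul_cancel t
  add_comm := X.hc t
  nsmul := nsmulRec
  zsmul := zsmulRec

theorem Pt.add_def (x y : X.Pt t) : x + y = X.L.mul t x y := rfl

theorem Pt.zero_def : (0 : X.Pt t) = X.L.one t := rfl

theorem Pt.neg_def (x : X.Pt t) : -x = X.L.inv t x := rfl

theorem Pt.nsmul_def (n : ℕ) (x : X.Pt t) : n • x = X.L.nsmul t n x := by
  induction n with
  | zero => rw [zero_nsmul]; rfl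
  | succ n ih =>
    rw [succ_nsmul, ih]
    rfl

/-- Pull back of points. -/
def Pt.comp (ψ : T' ⟶ T) (hψ : ψ ≫ t = t') : X.Pt t →+ X.Pt t' where
  toFun x := schemeHomOverComp ψ hψ x
  map_zero' := X.L.one_natural t t' ψ hψ
  map_add' := X.L.mul_natural t t' ψ hψ

@[simp] theorem Pt.comp_fst (ψ : T' ⟶ T) (hψ : ψ ≫ t = t') (x : X.Pt t) :
    (Pt.comp ψ hψ x).1 = ψ ≫ x.1 := rfl

theorem Pt.comp_comp (ψ : T' ⟶ T) (hψ : ψ ≫ t = t') (φ : T'' ⟶ T') (hφ : φ ≫ t' = t'')
    (x : X.Pt t) :
    Pt.comp φ hφ (Pt.comp ψ hψ x) = Pt.comp (φ ≫ ψ) (by rw [Category.assoc, hψ, hφ]) x :=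
  Pt.ext (by simp)

@[simp] theorem Pt.comp_id (x : X.Pt t) : Pt.comp (𝟙 T) (Category.id_comp t) x = x :=
  Pt.ext (by simp)

/-- The tautological point. -/
def idPt : X.Pt X.f := ⟨𝟙 X.A, Category.id_comp X.f⟩

@[simp] theorem idPt_fst : (idPt (X := X)).1 = 𝟙 X.A := rfl

/-- Endomorphisms of `X` (as a scheme) act on points. -/
def Pt.act (x : X.Pt t) : X.Pt X.f →+ X.Pt t := Pt.comp x.1 x.2

@[simp] theorem Pt.act_fst (x : X.Pt t) (y : X.Pt X.f) : (x.act y).1 = x.1 ≫ y.1 := rfl

@[simp] theorem Pt.act_idPt (x : X.Pt t) : x.act idPt = x := Pt.ext (by simp)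

/-- The base change of a `K`-rational point. -/
def Pt.const (t : T ⟶ Spec (CommRingCat.of K)) :
    X.Pt (𝟙 (Spec (CommRingCat.of K))) →+ X.Pt t :=
  Pt.comp t (Category.comp_id t)

@[simp] theorem Pt.const_fst (a : X.Pt (𝟙 (Spec (CommRingCat.of K)))) :
    (Pt.const t a).1 = t ≫ a.1 := rfl

@[simp] theorem Pt.const_id (a : X.Pt (𝟙 (Spec (CommRingCat.of K)))) :
    Pt.const (𝟙 _) a = a := Pt.comp_id a

theorem Pt.comp_const (ψ : T' ⟶ T) (hψ : ψ ≫ t = t') (a : X.Pt (𝟙 (Spec (CommRingCat.of K)))) :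
    Pt.comp ψ hψ (Pt.const t a) = Pt.const t' a :=
  Pt.ext (by simp [← hψ])

@[simp] theorem Pt.act_const (x : X.Pt t) (a : X.Pt (𝟙 (Spec (CommRingCat.of K)))) :
    x.act (Pt.const X.f a) = Pt.const t a := Pt.comp_const _ _ _

end Group

/-- The group of `K`-rational points. -/
abbrev P0 : Type u := X.Pt (𝟙 (Spec (CommRingCat.of K)))

/-- Multiplication by `n`. -/
def mulN (n : ℕ) : X.A ⟶ X.A := (n • (idPt : X.Pt X.f)).1

theorem mulN_over (n : ℕ) : X.mulN n ≫ X.f = X.f := (n • (idPt : X.Pt X.f)).2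

/-- The inversion. -/
def inversion : X.A ⟶ X.A := (-(idPt : X.Pt X.f)).1

theorem inversion_over : X.inversion ≫ X.f = X.f := (-(idPt : X.Pt X.f)).2

/-- Translation by a `K`-rational point. -/
def trans (a : X.P0) : X.A ⟶ X.A := ((idPt : X.Pt X.f) + Pt.const X.f a).1

theorem trans_over (a : X.P0) : X.trans a ≫ X.f = X.f :=
  ((idPt : X.Pt X.f) + Pt.const X.f a).2

section Act

variable {X} {T : Scheme.{u}} {t : T ⟶ Spec (CommRingCat.of K)}

theorem comp_mulN (x : X.Pt t) (n : ℕ) : x.1 ≫ X.mulN n = (n • x).1 := by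
  have h : x.act (n • idPt) = n • x := by rw [map_nsmul, Pt.act_idPt]
  rw [← h]
  rfl

theorem comp_inversion (x : X.Pt t) : x.1 ≫ X.inversion = (-x).1 := by
  have h : x.act (-idPt) = -x := by rw [map_neg, Pt.act_idPt]
  rw [← h]
  rfl

theorem comp_trans (x : X.Pt t) (a : X.P0) : x.1 ≫ X.trans a = (x + Pt.const t a).1 := by
  have h : x.act (idPt + Pt.const X.f a) = x + Pt.const t a := by
    rw [map_add, Pt.act_idPt, Pt.act_const]
  rw [← h]
  rfl

end Act

@[simp] theorem mulN_comp_mulN (m n : ℕ) : X.mulN m ≫ X.mulN n = X.mulN (n * m) := by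
  have h := comp_mulN (X := X) (m • (idPt : X.Pt X.f)) n
  rw [← mul_nsmul'] at h
  exact h

@[simp] theorem inversion_comp_inversion : X.inversion ≫ X.inversion = 𝟙 _ := by
  have h := comp_inversion (X := X) (-(idPt : X.Pt X.f))
  rw [neg_neg] at h
  exact h

@[simp] theorem trans_comp_trans (a b : X.P0) : X.trans a ≫ X.trans b = X.trans (a + b) := by
  have h := comp_trans (X := X) ((idPt : X.Pt X.f) + Pt.const X.f a) b
  rw [add_assoc, ← map_add] at h
  exact h

@[simp] theorem trans_zero : X.trans (0 : X.P0) = 𝟙 _ := by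
  have h : (idPt : X.Pt X.f) + Pt.const X.f 0 = idPt := by rw [map_zero, add_zero]
  exact congrArg Subtype.val h

theorem trans_comp_mulN (a : X.P0) (n : ℕ) (h : n • a = 0) :
    X.trans a ≫ X.mulN n = X.mulN n := by
  have h1 := comp_mulN (X := X) ((idPt : X.Pt X.f) + Pt.const X.f a) n
  rw [nsmul_add, ← map_nsmul, h, map_zero, add_zero] at h1
  exact h1

/-- Translation as an isomorphism. -/
def transIso (a : X.P0) : X.A ≅ X.A where
  hom := X.trans a
  inv := X.trans (-a)
  hom_inv_id := by rw [trans_comp_trans, add_neg_cancel, trans_zero]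
  inv_hom_id := by rw [trans_comp_trans, neg_add_cancel, trans_zero]

instance (a : X.P0) : IsIso (X.trans a) := (X.transIso a).isIso_hom

/-- The inversion as an isomorphism. -/
def inversionIso : X.A ≅ X.A where
  hom := X.inversion
  inv := X.inversion
  hom_inv_id := X.inversion_comp_inversion
  inv_hom_id := X.inversion_comp_inversion

instance : IsIso X.inversion := X.inversionIso.isIso_hom

theorem trans_injective : Function.Injective X.trans := by
  intro a b h
  have h1 := comp_trans (X := X) (0 : X.P0) a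
  have h2 := comp_trans (X := X) (0 : X.P0) b
  rw [h, h2] at h1
  have := Pt.ext h1
  simpa using this.symm

end AVar

end Fermat.Agent.AV
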