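import Mathlib
import Fermat.Agent.AV.Pts
import Fermat.Agent.AV.Loc

/-!
# The local rings of a group scheme as `K`-algebras (team AV = S26)
-/

set_option autoImplicit false

noncomputable section

open CategoryTheory CategoryTheory.Limits AlgebraicGeometry NeronModelInfra GoodReductionJacobian
  IsLocalRing

universe u

namespace Fermat.Agent.AV

namespace AVar

variable {K : Type u} [Field K] (X : AVar K)

/-- The homomorphism `K → R` attached to `Spec R ⟶ X.A`. -/
def kHom {R : CommRingCat.{u}} (P : Spec R ⟶ X.A) : K →+* R := (Spec.preimage (P ≫ X.f)).hom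

variable {X}

theorem spec_kHom {R : CommRingCat.{u}} (P : Spec R ⟶ X.A) :
    Spec.map (CommRingCat.ofHom (X.kHom P)) = P ≫ X.f := Spec.map_preimage _

theorem kHom_eq {R : CommRingCat.{u}} {P : Spec R ⟶ X.A} {ρ : K →+* R}
    (h : P ≫ X.f = Spec.map (CommRingCat.ofHom ρ)) : X.kHom P = ρ := by
  rw [← spec_kHom] at h
  have := Spec.map_injective h
  exact congrArg CommRingCat.Hom.hom this

theorem kHom_comp {R S : CommRingCat.{u}} (P : Spec R ⟶ X.A) (φ : R ⟶ S) :
    X.kHom (Spec.map φ ≫ P) = φ.hom.comp (X.kHom P) := by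
  apply kHom_eq
  rw [Category.assoc, ← spec_kHom, ← Spec.map_comp]
  rfl

theorem kHom_over {R : CommRingCat.{u}} (P : Spec R ⟶ X.A) {ψ : X.A ⟶ X.A}
    (hψ : ψ ≫ X.f = X.f) : X.kHom (P ≫ ψ) = X.kHom P := by
  apply kHom_eq
  rw [Category.assoc, hψ, spec_kHom]

instance stalkAlgebra (x : X.A) : Algebra K (X.A.presheaf.stalk x) :=
  (X.kHom (X.A.fromSpecStalk x)).toAlgebra

theorem algebraMap_stalk (x : X.A) :
    algebraMap K (X.A.presheaf.stalk x) = X.kHom (X.A.fromSpecStalk x) := rfl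

theorem _root_.Fermat.Agent.AV.IsAt.comp_algebraMap {R : CommRingCat.{u}} {P : Spec R ⟶ X.A}
    {x : X.A} {φ : X.A.presheaf.stalk x ⟶ R} (h : IsAt P x φ) :
    φ.hom.comp (algebraMap K (X.A.presheaf.stalk x)) = X.kHom P := by
  rw [algebraMap_stalk, ← kHom_comp, h]

/-- The homomorphism attached to a local point, as a homomorphism of algebras. -/
def _root_.Fermat.Agent.AV.IsAt.algHom {R : CommRingCat.{u}} [Algebra K R] {P : Spec R ⟶ X.A}
    {x : X.A} {φ : X.A.presheaf.stalk x ⟶ R} (h : IsAt P x φ)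
    (hP : P ≫ X.f = Spec.map (CommRingCat.ofHom (algebraMap K R))) :
    X.A.presheaf.stalk x →ₐ[K] R :=
  { φ.hom with
    commutes' := fun c => by
      have h1 := congrArg (fun ρ : K →+* R => ρ c) h.comp_algebraMap
      simp only [kHom_eq hP] at h1
      exact h1 }

@[simp] theorem _root_.Fermat.Agent.AV.IsAt.algHom_apply {R : CommRingCat.{u}} [Algebra K R]
    {P : Spec R ⟶ X.A} {x : X.A} {φ : X.A.presheaf.stalk x ⟶ R} (h : IsAt P x φ)
    (hP : P ≫ X.f = Spec.map (CommRingCat.ofHom (algebraMap K R))) (y : X.A.presheaf.stalk x) :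
    h.algHom hP y = φ.hom y := rfl

theorem pull_algebraMap (ψ : X.A ⟶ X.A) (hψ : ψ ≫ X.f = X.f) {x y : X.A} (h : ψ x ⤳ y) (c : K) :
    (pull ψ h).hom (algebraMap K _ c) = algebraMap K _ c := by
  have h1 := (isAt_pull ψ h).comp_algebraMap
  rw [kHom_over _ hψ] at h1
  exact congrArg (fun ρ : K →+* _ => ρ c) h1

/-- Pull back of local rings as a homomorphism of algebras. -/
def pullAlg (ψ : X.A ⟶ X.A) (hψ : ψ ≫ X.f = X.f) {x y : X.A} (h : ψ x ⤳ y) :
    X.A.presheaf.stalk y →ₐ[K] X.A.presheaf.stalk x :=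
  { (pull ψ h).hom with commutes' := pull_algebraMap ψ hψ h }

@[simp] theorem pullAlg_apply (ψ : X.A ⟶ X.A) (hψ : ψ ≫ X.f = X.f) {x y : X.A} (h : ψ x ⤳ y)
    (z : X.A.presheaf.stalk y) : pullAlg ψ hψ h z = (pull ψ h).hom z := rfl

variable (X) in
/-- The point of the scheme underlying a `K`-rational point. -/
def pnt (a : X.P0) : X.A := a.1 (closedPoint K)

theorem pnt_def (a : X.P0) : X.pnt a = a.1 (closedPoint K) := rfl

set_option backward.isDefEq.respectTransparency.types false in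
theorem apply_pnt (a b : X.P0) (ψ : X.A ⟶ X.A) (h : a.1 ≫ ψ = b.1) : ψ (X.pnt a) = X.pnt b := by
  rw [pnt_def, pnt_def, ← h, Scheme.Hom.comp_apply]

theorem mulN_pnt (a : X.P0) (n : ℕ) : X.mulN n (X.pnt a) = X.pnt (n • a) :=
  apply_pnt _ _ _ (comp_mulN a n)

theorem inversion_pnt (a : X.P0) : X.inversion (X.pnt a) = X.pnt (-a) :=
  apply_pnt _ _ _ (comp_inversion a)

theorem trans_pnt (a b : X.P0) : X.trans a (X.pnt b) = X.pnt (b + a) := by
  refine apply_pnt _ _ _ ((comp_trans b a).trans ?_)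
  rw [Pt.const_id]

/-- The evaluation at a rational point. -/
def ev (a : X.P0) : X.A.presheaf.stalk (X.pnt a) ⟶ CommRingCat.of K :=
  evAt (R := CommRingCat.of K) a.1 (specializes_refl _)

theorem isAt_ev (a : X.P0) : IsAt a.1 (X.pnt a) (ev a) :=
  isAt_evAt (R := CommRingCat.of K) a.1 (specializes_refl _)

theorem isLocalHom_ev (a : X.P0) : IsLocalHom (ev a).hom :=
  isLocalHom_evAt (R := CommRingCat.of K) (P := a.1) (specializes_refl _) rfl

@[simp] theorem ev_algebraMap (a : X.P0) (c : K) : (ev a).hom (algebraMap K _ c) = c := by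
  have h := (isAt_ev a).comp_algebraMap
  have h2 : X.kHom (R := CommRingCat.of K) a.1 = RingHom.id K := by
    apply kHom_eq
    exact a.2.trans (Spec.map_id (CommRingCat.of K)).symm
  rw [h2] at h
  exact congrArg (fun ρ : K →+* K => ρ c) h

theorem mem_maximalIdeal_iff_ev (a : X.P0) (x : X.A.presheaf.stalk (X.pnt a)) :
    x ∈ maximalIdeal (X.A.presheaf.stalk (X.pnt a)) ↔ (ev a).hom x = 0 := by
  haveI := isLocalHom_ev a
  rw [mem_maximalIdeal, mem_nonunits_iff, not_iff_comm]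
  constructor
  · intro h
    exact isUnit_of_map_unit (ev a).hom x (IsUnit.mk0 _ h)
  · intro h
    exact (h.map (ev a).hom).ne_zero

theorem sub_ev_mem (a : X.P0) (x : X.A.presheaf.stalk (X.pnt a)) :
    x - algebraMap K _ ((ev a).hom x) ∈ maximalIdeal (X.A.presheaf.stalk (X.pnt a)) := by
  rw [mem_maximalIdeal_iff_ev, map_sub, ev_algebraMap, sub_self]

theorem exists_sub_algebraMap_mem (a : X.P0) (x : X.A.presheaf.stalk (X.pnt a)) :
    ∃ c : K, x - algebraMap K _ c ∈ maximalIdeal (X.A.presheaf.stalk (X.pnt a)) :=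
  ⟨_, sub_ev_mem a x⟩

end AVar

end Fermat.Agent.AV
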