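import Mathlib
import Fermat.Agent.AV.Stalks
import Fermat.Agent.AV.LocalAlg

/-!
# The tangent space of a group scheme at the origin (team AV = S26)

The group law on tangent vectors is the addition, hence `[n]` acts as multiplication by `n` on the
cotangent space.
-/

set_option autoImplicit false
set_option linter.unusedSectionVars false

noncomputable section

open CategoryTheory CategoryTheory.Limits AlgebraicGeometry NeronModelInfra GoodReductionJacobian
  IsLocalRing

universe u

namespace Fermat.Agent.AV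

section Tsze

variable {K W W' : Type u} [Field K] [AddCommGroup W] [Module K W] [Module Kᵐᵒᵖ W]
  [IsCentralScalar K W] [AddCommGroup W'] [Module K W'] [Module Kᵐᵒᵖ W']
  [IsCentralScalar K W']

instance tsze_isLocalRing : IsLocalRing (TrivSqZeroExt K W) where
  isUnit_or_isUnit_of_add_one {a b} h := by
    rw [TrivSqZeroExt.isUnit_iff_isUnit_fst, TrivSqZeroExt.isUnit_iff_isUnit_fst]
    have h1 : a.fst + b.fst = 1 := by
      rw [← TrivSqZeroExt.fst_add, h, TrivSqZeroExt.fst_one]
    exact IsLocalRing.isUnit_or_isUnit_of_add_one h1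

theorem tsze_isLocalHom_fst :
    IsLocalHom (TrivSqZeroExt.fstHom K K W : TrivSqZeroExt K W →+* K) where
  map_nonunit x hx := by
    rw [TrivSqZeroExt.isUnit_iff_isUnit_fst]
    exact hx

end Tsze

namespace AVar

variable {K : Type u} [Field K] {X : AVar K}

section Tangent

variable {W W' W'' : Type u} [AddCommGroup W] [Module K W] [Module Kᵐᵒᵖ W]
  [IsCentralScalar K W] [AddCommGroup W'] [Module K W'] [Module Kᵐᵒᵖ W']
  [IsCentralScalar K W']

variable (X W) in
/-- `W`-valued tangent vectors at the origin. -/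
structure Tan where
  toLin : X.A.presheaf.stalk (X.pnt 0) →ₗ[K] W
  leib : ∀ x y, toLin (x * y) = (ev (0 : X.P0)).hom x • toLin y + (ev (0 : X.P0)).hom y • toLin x

theorem Tan.ext {v w : Tan X W} (h : v.toLin = w.toLin) : v = w := by
  cases v; cases w; simp_all

theorem Tan.map_one (v : Tan X W) : v.toLin 1 = 0 := by
  have h := v.leib 1 1
  rw [mul_one, _root_.map_one (ev (0 : X.P0)).hom, one_smul] at h
  exact left_eq_add.mp h

theorem Tan.map_algebraMap (v : Tan X W) (c : K) : v.toLin (algebraMap K _ c) = 0 := by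
  rw [Algebra.algebraMap_eq_smul_one, map_smul, v.map_one, smul_zero]

/-- Composition with a linear map. -/
def Tan.comp (v : Tan X W) (l : W →ₗ[K] W') : Tan X W' where
  toLin := l ∘ₗ v.toLin
  leib x y := by simp [v.leib]

@[simp] theorem Tan.comp_toLin (v : Tan X W) (l : W →ₗ[K] W') :
    (v.comp l).toLin = l ∘ₗ v.toLin := rfl

/-- The homomorphism to the trivial square zero extension. -/
def Tan.hom (v : Tan X W) : X.A.presheaf.stalk (X.pnt 0) →+* TrivSqZeroExt K W where
  toFun x := TrivSqZeroExt.inl ((ev (0 : X.P0)).hom x) + TrivSqZeroExt.inr (v.toLin x)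
  map_one' := by rw [v.map_one, _root_.map_one (ev (0 : X.P0)).hom]; simp
  map_zero' := by simp
  map_add' x y := by ext <;> simp
  map_mul' x y := by
    ext
    · simp
    · simp [v.leib]

@[simp] theorem Tan.hom_fst (v : Tan X W) (x : X.A.presheaf.stalk (X.pnt 0)) :
    (v.hom x).fst = (ev (0 : X.P0)).hom x := by
  simp [Tan.hom]

@[simp] theorem Tan.hom_snd (v : Tan X W) (x : X.A.presheaf.stalk (X.pnt 0)) :
    (v.hom x).snd = v.toLin x := by
  simp [Tan.hom]

variable (K W) in
/-- The structure morphism of the spectrum of a trivial square zero extension. -/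
def tW : Spec (CommRingCat.of (TrivSqZeroExt K W)) ⟶ Spec (CommRingCat.of K) :=
  Spec.map (CommRingCat.ofHom (algebraMap K (TrivSqZeroExt K W)))

theorem hom_ofHom_comp_algebraMap (v : Tan X W) :
    v.hom.comp (algebraMap K _) = algebraMap K (TrivSqZeroExt K W) := by
  ext c
  · simp only [RingHom.comp_apply, Tan.hom_fst, TrivSqZeroExt.algebraMap_eq_inl,
      TrivSqZeroExt.fst_inl]
    exact ev_algebraMap 0 c
  · simp [v.map_algebraMap, TrivSqZeroExt.algebraMap_eq_inl]

/-- The tangent vector as a point. -/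
def Tan.pt (v : Tan X W) : X.Pt (tW K W) :=
  Pt.mk (Spec.map (CommRingCat.ofHom v.hom) ≫ X.A.fromSpecStalk (X.pnt 0)) (by
    rw [Category.assoc, ← spec_kHom, ← Spec.map_comp, tW, ← hom_ofHom_comp_algebraMap v]
    rfl)

theorem Tan.isAt (v : Tan X W) : IsAt v.pt.1 (X.pnt 0) (CommRingCat.ofHom v.hom) := rfl

theorem Tan.pt_injective : Function.Injective (Tan.pt : Tan X W → _) := by
  intro v w h
  have h1 := v.isAt
  rw [h] at h1
  have h2 := congrArg CommRingCat.Hom.hom (h1.unique w.isAt)
  apply Tan.ext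
  ext x
  have h3 : v.hom x = w.hom x := congrArg (fun ρ : _ →+* _ => ρ x) h2
  rw [← Tan.hom_snd, h3, Tan.hom_snd]

variable (K) in
/-- Functoriality of the spectrum of the trivial square zero extension. -/
def sW (l : W →ₗ[K] W') :
    Spec (CommRingCat.of (TrivSqZeroExt K W')) ⟶ Spec (CommRingCat.of (TrivSqZeroExt K W)) :=
  Spec.map (CommRingCat.ofHom (TrivSqZeroExt.map l : TrivSqZeroExt K W →+* TrivSqZeroExt K W'))

theorem sW_tW (l : W →ₗ[K] W') : sW K l ≫ tW K W = tW K W' := by
  rw [sW, tW, tW, ← Spec.map_comp, ← CommRingCat.ofHom_comp]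
  congr 2
  ext c
  · simp
  · simp

theorem Tan.comp_pt (v : Tan X W) (l : W →ₗ[K] W') :
    Pt.comp (sW K l) (sW_tW l) v.pt = (v.comp l).pt := by
  apply Pt.ext
  rw [Pt.comp_fst, Tan.pt, Tan.pt, Pt.mk_fst, Pt.mk_fst, ← Category.assoc, sW, ← Spec.map_comp,
    ← CommRingCat.ofHom_comp]
  congr 3
  ext x
  · simp [Tan.hom]
  · simp [Tan.hom]

/-- The zero tangent vector. -/
instance : Zero (Tan X W) := ⟨⟨0, by simp⟩⟩

@[simp] theorem Tan.zero_toLin : (0 : Tan X W).toLin = 0 := rfl

variable (K W) in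
/-- The retraction. -/
def rW : Spec (CommRingCat.of K) ⟶ Spec (CommRingCat.of (TrivSqZeroExt K W)) :=
  Spec.map (CommRingCat.ofHom (TrivSqZeroExt.fstHom K K W : TrivSqZeroExt K W →+* K))

theorem rW_tW : rW K W ≫ tW K W = 𝟙 _ := by
  rw [rW, tW, ← Spec.map_comp, ← CommRingCat.ofHom_comp, ← Spec.map_id]
  congr 2

theorem Tan.zero_pt : (0 : Tan X W).pt = 0 := by
  have h1 : (0 : X.Pt (tW K W)) = Pt.const (tW K W) 0 := (map_zero _).symm
  rw [h1]
  apply Pt.ext
  rw [Tan.pt, Pt.mk_fst, Pt.const_fst, ← isAt_ev (0 : X.P0), tW, ← Spec.map_comp_assoc]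
  congr 2
  ext x
  · simp [Tan.hom, TrivSqZeroExt.algebraMap_eq_inl]
  · simp [Tan.hom, TrivSqZeroExt.algebraMap_eq_inl]

set_option backward.isDefEq.respectTransparency.types false in
/-- A point reducing to the origin is a tangent vector. -/
theorem exists_tan (P : X.Pt (tW K W)) (h : Pt.comp (rW K W) rW_tW P = 0) :
    ∃ v : Tan X W, v.pt = P := by
  have h0 : rW K W ≫ P.1 = (0 : X.P0).1 := congrArg Subtype.val h
  have h1 : P.1 (closedPoint (TrivSqZeroExt K W)) = X.pnt 0 := by
    rw [pnt_def, ← h0, Scheme.Hom.comp_apply]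
    congr 1
    have := tsze_isLocalHom_fst (K := K) (W := W)
    have h2 : IsLocalHom (CommRingCat.ofHom
      (TrivSqZeroExt.fstHom K K W : TrivSqZeroExt K W →+* K)).hom := this
    exact (Spec_closedPoint (f := CommRingCat.ofHom
      (TrivSqZeroExt.fstHom K K W : TrivSqZeroExt K W →+* K))).symm
  have hloc : IsLocalRing (CommRingCat.of (TrivSqZeroExt K W)) := tsze_isLocalRing
  obtain ⟨φ, hφ⟩ := exists_isAt (R := CommRingCat.of (TrivSqZeroExt K W)) P.1
    (x := X.pnt 0) (specializes_of_eq h1)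
  have h2 : ∀ x, (φ.hom x : TrivSqZeroExt K W).fst = (ev (0 : X.P0)).hom x := by
    have h3 := hφ.comp (CommRingCat.ofHom
      (TrivSqZeroExt.fstHom K K W : TrivSqZeroExt K W →+* K))
    have h4 : Spec.map (CommRingCat.ofHom
      (TrivSqZeroExt.fstHom K K W : TrivSqZeroExt K W →+* K)) ≫ P.1 = (0 : X.P0).1 := h0
    rw [h4] at h3
    have h5 := h3.unique (isAt_ev (0 : X.P0))
    intro x
    exact congrArg (fun ρ : X.A.presheaf.stalk (X.pnt 0) ⟶ CommRingCat.of K => ρ.hom x) h5
  have h6 : ∀ c : K, (φ.hom (algebraMap K _ c) : TrivSqZeroExt K W) =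
      algebraMap K (TrivSqZeroExt K W) c := by
    intro c
    have h7 := hφ.comp_algebraMap
    rw [kHom_eq (X := X) (R := CommRingCat.of (TrivSqZeroExt K W)) P.2] at h7
    exact congrArg (fun ρ : K →+* TrivSqZeroExt K W => ρ c) h7
  let v : Tan X W :=
    { toLin :=
        { toFun := fun x => (φ.hom x : TrivSqZeroExt K W).snd
          map_add' := fun x y => by
            rw [map_add]
            exact TrivSqZeroExt.snd_add _ _
          map_smul' := fun c x => by
            rw [Algebra.smul_def, map_mul, h6]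
            simp [TrivSqZeroExt.algebraMap_eq_inl] }
      leib := fun x y => by
        show (φ.hom (x * y) : TrivSqZeroExt K W).snd = _
        rw [map_mul]
        erw [TrivSqZeroExt.snd_mul]
        rw [h2, h2, op_smul_eq_smul]
        rfl }
  refine ⟨v, ?_⟩
  apply Pt.ext
  rw [← hφ, Tan.pt, Pt.mk_fst]
  congr 2
  ext x
  · show (v.hom x).fst = (φ.hom x : TrivSqZeroExt K W).fst
    rw [Tan.hom_fst, h2]
  · show (v.hom x).snd = (φ.hom x : TrivSqZeroExt K W).snd
    rw [Tan.hom_snd]
    rfl

/-- Sum of tangent vectors. -/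
instance : Add (Tan X W) := ⟨fun v w => ⟨v.toLin + w.toLin, fun x y => by
  simp only [LinearMap.add_apply, v.leib, w.leib, smul_add]
  abel⟩⟩

@[simp] theorem Tan.add_toLin (v w : Tan X W) : (v + w).toLin = v.toLin + w.toLin := rfl

/-- The group law on tangent vectors is the addition. -/
theorem Tan.add_pt (v w : Tan X W) : (v + w).pt = v.pt + w.pt := by
  let vw : Tan X (W × W) :=
    { toLin := v.toLin.prod w.toLin
      leib := fun x y => by
        ext
        · simp [v.leib]
        · simp [w.leib] }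
  let D : X.Pt (tW K (W × W)) :=
    vw.pt - ((v.comp (LinearMap.inl K W W)).pt + (w.comp (LinearMap.inr K W W)).pt)
  have hr : ∀ u : Tan X (W × W), Pt.comp (rW K (W × W)) rW_tW u.pt = 0 := by
    intro u
    apply Pt.ext
    rw [Pt.comp_fst, Tan.pt, Pt.mk_fst, rW, ← Spec.map_comp_assoc, ← CommRingCat.ofHom_comp]
    have : (TrivSqZeroExt.fstHom K K (W × W) : TrivSqZeroExt K (W × W) →+* K).comp u.hom =
        (ev (0 : X.P0)).hom := by
      ext x
      exact u.hom_fst x
    rw [this]
    exact isAt_ev (0 : X.P0)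
  have hD0 : Pt.comp (rW K (W × W)) rW_tW D = 0 := by
    rw [map_sub, map_add, hr, hr, hr, add_zero, sub_zero]
  obtain ⟨δ, hδ⟩ := exists_tan D hD0
  have h1 : Pt.comp (sW K (LinearMap.fst K W W)) (sW_tW _) D = 0 := by
    rw [map_sub, map_add, Tan.comp_pt, Tan.comp_pt, Tan.comp_pt]
    have e1 : vw.comp (LinearMap.fst K W W) = v := Tan.ext (by ext; simp [vw])
    have e2 : (v.comp (LinearMap.inl K W W)).comp (LinearMap.fst K W W) = v :=
      Tan.ext (by ext; simp)
    have e3 : (w.comp (LinearMap.inr K W W)).comp (LinearMap.fst K W W) = 0 :=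
      Tan.ext (by ext; simp)
    rw [e1, e2, e3, Tan.zero_pt, add_zero, sub_self]
  have h2 : Pt.comp (sW K (LinearMap.snd K W W)) (sW_tW _) D = 0 := by
    rw [map_sub, map_add, Tan.comp_pt, Tan.comp_pt, Tan.comp_pt]
    have e1 : vw.comp (LinearMap.snd K W W) = w := Tan.ext (by ext; simp [vw])
    have e2 : (v.comp (LinearMap.inl K W W)).comp (LinearMap.snd K W W) = 0 :=
      Tan.ext (by ext; simp)
    have e3 : (w.comp (LinearMap.inr K W W)).comp (LinearMap.snd K W W) = w :=
      Tan.ext (by ext; simp)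
    rw [e1, e2, e3, Tan.zero_pt, zero_add, sub_self]
  rw [← hδ, Tan.comp_pt, ← Tan.zero_pt] at h1 h2
  have h3 := Tan.pt_injective h1
  have h4 := Tan.pt_injective h2
  have h5 : δ = 0 := by
    apply Tan.ext
    refine LinearMap.ext fun x => Prod.ext ?_ ?_
    · exact congrArg (fun u : Tan X W => u.toLin x) h3
    · exact congrArg (fun u : Tan X W => u.toLin x) h4
  have h6 : D = 0 := by rw [← hδ, h5, Tan.zero_pt]
  have h7 : vw.pt = (v.comp (LinearMap.inl K W W)).pt + (w.comp (LinearMap.inr K W W)).pt :=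
    sub_eq_zero.mp h6
  have h8 := congrArg (Pt.comp (sW K (LinearMap.fst K W W + LinearMap.snd K W W)) (sW_tW _)) h7
  rw [map_add, Tan.comp_pt, Tan.comp_pt, Tan.comp_pt] at h8
  have e1 : vw.comp (LinearMap.fst K W W + LinearMap.snd K W W) = v + w :=
    Tan.ext (by ext; simp [vw])
  have e2 : (v.comp (LinearMap.inl K W W)).comp (LinearMap.fst K W W + LinearMap.snd K W W) = v :=
    Tan.ext (by ext; simp)
  have e3 : (w.comp (LinearMap.inr K W W)).comp (LinearMap.fst K W W + LinearMap.snd K W W) = w :=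
    Tan.ext (by ext; simp)
  rwa [e1, e2, e3] at h8

/-- Multiples of tangent vectors. -/
theorem Tan.nsmul_pt (v : Tan X W) (n : ℕ) :
    n • v.pt = (v.comp ((n : K) • LinearMap.id)).pt := by
  induction n with
  | zero =>
    have : v.comp (((0 : ℕ) : K) • LinearMap.id) = 0 := Tan.ext (by ext; simp)
    rw [zero_smul, this, Tan.zero_pt]
  | succ n ih =>
    rw [succ_nsmul, ih, ← Tan.add_pt]
    congr 1
    apply Tan.ext
    ext x
    simp [add_smul]

end Tangent

variable (X) in
/-- The endomorphism of the local ring at the origin given by `[n]`. -/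
def psi (n : ℕ) : X.A.presheaf.stalk (X.pnt 0) →ₐ[K] X.A.presheaf.stalk (X.pnt 0) :=
  pullAlg (X.mulN n) (X.mulN_over n) (specializes_of_eq (by rw [mulN_pnt, smul_zero]))

theorem psi_tan {W : Type u} [AddCommGroup W] [Module K W] [Module Kᵐᵒᵖ W] [IsCentralScalar K W]
    (v : Tan X W) (n : ℕ) (x : X.A.presheaf.stalk (X.pnt 0)) :
    v.toLin (X.psi n x) = (n : K) • v.toLin x := by
  have h1 : v.pt.1 ≫ X.mulN n = (v.comp ((n : K) • LinearMap.id)).pt.1 := by
    rw [comp_mulN, Tan.nsmul_pt]
  have h2 := v.isAt.pull (X.mulN n) (y := X.pnt 0)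
    (specializes_of_eq (by rw [mulN_pnt, smul_zero]))
  rw [h1] at h2
  have h3 := h2.unique (Tan.isAt _)
  have h4 : v.hom (X.psi n x) = (v.comp ((n : K) • LinearMap.id)).hom x :=
    congrArg (fun ρ : X.A.presheaf.stalk (X.pnt 0) ⟶ CommRingCat.of (TrivSqZeroExt K W) =>
      ρ.hom x) h3
  have h5 := congrArg TrivSqZeroExt.snd h4
  rw [Tan.hom_snd, Tan.hom_snd] at h5
  rw [h5]
  simp

theorem psi_mem (n : ℕ) (y : X.A.presheaf.stalk (X.pnt 0))
    (hy : y ∈ maximalIdeal (X.A.presheaf.stalk (X.pnt 0))) :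
    X.psi n y ∈ maximalIdeal (X.A.presheaf.stalk (X.pnt 0)) := by
  have : IsLocalHom (pull (X.mulN n) (specializes_of_eq (by rw [mulN_pnt, smul_zero])) :
      X.A.presheaf.stalk (X.pnt 0) ⟶ X.A.presheaf.stalk (X.pnt 0)).hom :=
    isLocalHom_pull _ _ (by rw [mulN_pnt, smul_zero])
  rw [mem_maximalIdeal, mem_nonunits_iff] at hy ⊢
  exact fun h => hy (this.map_nonunit y h)

/-- `[n]` acts as multiplication by `n` on the cotangent space at the origin. -/
theorem psi_sub_mem (n : ℕ) (y : X.A.presheaf.stalk (X.pnt 0))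
    (hy : y ∈ maximalIdeal (X.A.presheaf.stalk (X.pnt 0))) :
    X.psi n y - n • y ∈ maximalIdeal (X.A.presheaf.stalk (X.pnt 0)) ^ 2 := by
  by_contra hcon
  obtain ⟨l, hl1, hl2⟩ := Submodule.exists_le_ker_of_notMem
    (p := (maximalIdeal (X.A.presheaf.stalk (X.pnt 0)) ^ 2).restrictScalars K) hcon
  have hl2' : ∀ z ∈ maximalIdeal (X.A.presheaf.stalk (X.pnt 0)) ^ 2, l z = 0 := fun z hz => hl2 hz
  let evl : X.A.presheaf.stalk (X.pnt 0) →ₗ[K] K :=
    { toFun := fun x => (ev (0 : X.P0)).hom x
      map_add' := fun x y => map_add _ x y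
      map_smul' := fun c x => by
        rw [Algebra.smul_def, map_mul]
        exact congrArg (· * (ev (0 : X.P0)).hom x) (ev_algebraMap 0 c) }
  let v : Tan X K :=
    { toLin := l - (l 1) • evl
      leib := fun x y => by
        have h1 := hl2' ((x - algebraMap K _ ((ev (0 : X.P0)).hom x)) *
          (y - algebraMap K _ ((ev (0 : X.P0)).hom y))) (by
            rw [pow_two]
            exact Ideal.mul_mem_mul (sub_ev_mem 0 x) (sub_ev_mem 0 y))
        have h2 : (x - algebraMap K _ ((ev (0 : X.P0)).hom x)) *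
          (y - algebraMap K _ ((ev (0 : X.P0)).hom y)) = x * y - (evl y) • x - (evl x) • y +
            (evl x * evl y) • (1 : X.A.presheaf.stalk (X.pnt 0)) := by
          simp only [Algebra.smul_def, map_mul, mul_one]
          show (x - algebraMap K _ (evl x)) * (y - algebraMap K _ (evl y)) = _
          ring
        rw [h2] at h1
        simp only [map_add, map_sub, map_smul, smul_eq_mul] at h1
        have h3 : evl (x * y) = evl x * evl y := map_mul (ev (0 : X.P0)).hom x y
        show l (x * y) - l 1 * evl (x * y) = evl x * (l y - l 1 * evl y) +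
          evl y * (l x - l 1 * evl x)
        rw [h3]
        linear_combination h1 }
  have h1 := psi_tan v n y
  have h2 : ∀ z ∈ maximalIdeal (X.A.presheaf.stalk (X.pnt 0)), v.toLin z = l z := by
    intro z hz
    have h3 : evl z = 0 := (mem_maximalIdeal_iff_ev 0 z).mp hz
    show l z - l 1 * evl z = l z
    rw [h3, mul_zero, sub_zero]
  rw [h2 _ (psi_mem n y hy), h2 _ hy, smul_eq_mul] at h1
  apply hl1
  rw [map_sub, map_nsmul, h1, nsmul_eq_mul, sub_self]

end AVar

end Fermat.Agent.AV
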