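import Mathlib
import Fermat.Agent.AV.Tangent

/-!
# The function field of a group variety and the isogeny `[n]` (team AV = S26)
-/

set_option autoImplicit false
set_option linter.unusedSectionVars false

noncomputable section

open CategoryTheory CategoryTheory.Limits AlgebraicGeometry NeronModelInfra GoodReductionJacobian
  IsLocalRing

universe u

namespace Fermat.Agent.AV

theorem fromSpecStalk_bot {Y : Scheme.{u}} [IsIntegral Y] (y : Y) :
    Y.fromSpecStalk y (⊥ : PrimeSpectrum (Y.presheaf.stalk y)) = genericPoint Y := by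
  have h1 : genericPoint Y ∈ Set.range (Y.fromSpecStalk y) := by
    rw [Scheme.range_fromSpecStalk]
    exact genericPoint_specializes y
  obtain ⟨p, hp⟩ := h1
  have h2 : (⊥ : PrimeSpectrum (Y.presheaf.stalk y)) ⤳ p :=
    (PrimeSpectrum.le_iff_specializes _ _).mp bot_le
  have h3 : Y.fromSpecStalk y (⊥ : PrimeSpectrum (Y.presheaf.stalk y)) ⤳ genericPoint Y := by
    rw [← hp]
    exact h2.map (Y.fromSpecStalk y).continuous
  exact (h3.antisymm (genericPoint_specializes _)).eq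

namespace AVar

variable {K : Type u} [Field K] (X : AVar K)

section Integral

variable [IsIntegral X.A]

/-- The generic point. -/
def gen : X.A := genericPoint X.A

/-- The function field. -/
def FF : Type u := X.A.presheaf.stalk X.gen

instance : Field X.FF := inferInstanceAs (Field X.A.functionField)

instance : Algebra K X.FF := inferInstanceAs (Algebra K (X.A.presheaf.stalk X.gen))

theorem gen_specializes (x : X.A) : X.gen ⤳ x := genericPoint_specializes x

/-- The inclusion of a local ring in the function field. -/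
def toFF (x : X.A) : X.A.presheaf.stalk x →ₐ[K] X.FF :=
  pullAlg (𝟙 X.A) (Category.id_comp _) (x := X.gen) (X.gen_specializes x)

variable {X}

theorem toFF_apply (x : X.A) (y : X.A.presheaf.stalk x) :
    X.toFF x y = (X.A.presheaf.stalkSpecializes (X.gen_specializes x)).hom y :=
  congrArg (fun ρ : X.A.presheaf.stalk x ⟶ X.A.presheaf.stalk X.gen => ρ.hom y)
    (pull_id_eq (X := X.A) (X.gen_specializes x) (X.gen_specializes x))

theorem toFF_injective (x : X.A) : Function.Injective (X.toFF x) := by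
  intro y z h
  rw [toFF_apply, toFF_apply] at h
  exact IsFractionRing.injective (X.A.presheaf.stalk x) X.A.functionField h

theorem exists_div (x : X.A) (z : X.FF) :
    ∃ a b : X.A.presheaf.stalk x, b ≠ 0 ∧ z * X.toFF x b = X.toFF x a := by
  obtain ⟨⟨a, b⟩, h⟩ := IsLocalization.surj (nonZeroDivisors (X.A.presheaf.stalk x))
    (S := X.A.functionField) z
  refine ⟨a, b, nonZeroDivisors.ne_zero b.2, ?_⟩
  rw [toFF_apply, toFF_apply]
  exact h

variable (X) in
/-- The local ring at a point as a subalgebra of the function field. -/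
def loc (x : X.A) : Subalgebra K X.FF := (X.toFF x).range

variable (X) in
/-- The local ring at a point as a subalgebra of the function field. -/
def locEquiv (x : X.A) : X.A.presheaf.stalk x ≃ₐ[K] X.loc x :=
  AlgEquiv.ofInjective (X.toFF x) (toFF_injective x)

@[simp] theorem locEquiv_coe (x : X.A) (y : X.A.presheaf.stalk x) :
    (X.locEquiv x y : X.FF) = X.toFF x y := rfl

theorem toFF_mem (x : X.A) (y : X.A.presheaf.stalk x) : X.toFF x y ∈ X.loc x := ⟨y, rfl⟩

theorem mem_loc {x : X.A} {z : X.FF} : z ∈ X.loc x ↔ ∃ y, X.toFF x y = z := Iff.rfl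

instance (x : X.A) : IsLocalRing (X.loc x) :=
  (X.locEquiv x).toRingEquiv.isLocalRing

theorem locEquiv_mem (x : X.A) (y : X.A.presheaf.stalk x) :
    X.locEquiv x y ∈ maximalIdeal (X.loc x) ↔ y ∈ maximalIdeal (X.A.presheaf.stalk x) := by
  rw [mem_maximalIdeal, mem_maximalIdeal, mem_nonunits_iff, mem_nonunits_iff]
  exact not_congr (MulEquiv.isUnit_map (X.locEquiv x))

theorem toFF_comp_specializes {x y : X.A} (h : y ⤳ x) (z : X.A.presheaf.stalk x) :
    X.toFF y ((X.A.presheaf.stalkSpecializes h).hom z) = X.toFF x z := by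
  rw [toFF_apply, toFF_apply]
  have := X.A.presheaf.stalkSpecializes_comp (X.gen_specializes y) h
  exact congrArg (fun ρ : X.A.presheaf.stalk x ⟶ X.A.presheaf.stalk X.gen => ρ.hom z) this

theorem loc_mono {x y : X.A} (h : y ⤳ x) : X.loc x ≤ X.loc y := by
  rintro _ ⟨z, rfl⟩
  exact ⟨_, toFF_comp_specializes h z⟩

/-- The map on function fields. -/
def ffMap (ψ : X.A ⟶ X.A) (hψ : ψ ≫ X.f = X.f) (h : ψ X.gen = X.gen) : X.FF →ₐ[K] X.FF :=
  pullAlg ψ hψ (specializes_of_eq h)

theorem ffMap_toFF (ψ : X.A ⟶ X.A) (hψ : ψ ≫ X.f = X.f) (h : ψ X.gen = X.gen) {x y : X.A}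
    (hxy : ψ x ⤳ y) (z : X.A.presheaf.stalk y) :
    ffMap ψ hψ h (X.toFF y z) = X.toFF x (pullAlg ψ hψ hxy z) := by
  rw [toFF_apply, toFF_apply]
  have h1 : ψ X.gen ⤳ y := by
    rw [h]
    exact X.gen_specializes y
  have h2 := specializes_comp_pull ψ (specializes_of_eq h) (X.gen_specializes y) h1
  have h3 := pull_comp_specializes ψ hxy (X.gen_specializes x) h1
  exact congrArg (fun ρ : X.A.presheaf.stalk y ⟶ X.A.presheaf.stalk X.gen => ρ.hom z)
    (h2.trans h3.symm)

theorem ffMap_mem_loc (ψ : X.A ⟶ X.A) (hψ : ψ ≫ X.f = X.f) (h : ψ X.gen = X.gen) {x y : X.A}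
    (hxy : ψ x ⤳ y) {z : X.FF} (hz : z ∈ X.loc y) : ffMap ψ hψ h z ∈ X.loc x := by
  obtain ⟨z, rfl⟩ := hz
  exact ⟨_, (ffMap_toFF ψ hψ h hxy z).symm⟩

theorem ffMap_comp (ψ χ : X.A ⟶ X.A) (hψ : ψ ≫ X.f = X.f) (h : ψ X.gen = X.gen)
    (hχ : χ ≫ X.f = X.f) (h' : χ X.gen = X.gen) (h'' : (ψ ≫ χ) ≫ X.f = X.f)
    (h''' : (ψ ≫ χ) X.gen = X.gen) (z : X.FF) :
    ffMap (ψ ≫ χ) h'' h''' z = ffMap ψ hψ h (ffMap χ hχ h' z) :=
  congrArg (fun ρ : X.A.presheaf.stalk X.gen ⟶ X.A.presheaf.stalk X.gen => ρ.hom z)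
    (pull_comp_pull ψ χ (specializes_of_eq h) (specializes_of_eq h') (specializes_of_eq h''')).symm

theorem ffMap_congr {ψ χ : X.A ⟶ X.A} (e : ψ = χ) (hψ : ψ ≫ X.f = X.f) (h : ψ X.gen = X.gen)
    (hχ : χ ≫ X.f = X.f) (h' : χ X.gen = X.gen) : ffMap ψ hψ h = ffMap χ hχ h' := by
  subst e
  rfl

theorem ffMap_id (h : (𝟙 X.A : X.A ⟶ X.A) X.gen = X.gen) (z : X.FF) :
    ffMap (𝟙 X.A) (Category.id_comp _) h z = z :=
  congrArg (fun ρ : X.A.presheaf.stalk X.gen ⟶ X.A.presheaf.stalk X.gen => ρ.hom z)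
    (pull_id (X := X.A) (specializes_of_eq h))

/-- Isomorphisms preserve the generic point. -/
theorem iso_gen (ψ : X.A ⟶ X.A) [IsIso ψ] : ψ X.gen = X.gen :=
  genericPoint_eq_of_isOpenImmersion ψ

/-- Automorphisms act on the function field. -/
def ffEquiv (e : X.A ≅ X.A) (h : e.hom ≫ X.f = X.f) : X.FF ≃ₐ[K] X.FF :=
  AlgEquiv.ofAlgHom (ffMap e.hom h (iso_gen e.hom))
    (ffMap e.inv (by rw [Iso.inv_comp_eq, h]) (iso_gen e.inv))
    (by
      ext z
      have h1 : (e.hom ≫ e.inv) ≫ X.f = X.f := by rw [Iso.hom_inv_id, Category.id_comp]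
      have h2 : (e.hom ≫ e.inv) X.gen = X.gen := by rw [Iso.hom_inv_id]; rfl
      have h3 := ffMap_comp e.hom e.inv h (iso_gen e.hom) (by rw [Iso.inv_comp_eq, h])
        (iso_gen e.inv) h1 h2 z
      have h4 := ffMap_congr e.hom_inv_id h1 h2 (Category.id_comp _) rfl
      refine h3.symm.trans ?_
      rw [h4]
      exact ffMap_id rfl z)
    (by
      ext z
      have h1 : (e.inv ≫ e.hom) ≫ X.f = X.f := by rw [Iso.inv_hom_id, Category.id_comp]
      have h2 : (e.inv ≫ e.hom) X.gen = X.gen := by rw [Iso.inv_hom_id]; rfl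
      have h3 := ffMap_comp e.inv e.hom (by rw [Iso.inv_comp_eq, h]) (iso_gen e.inv) h
        (iso_gen e.hom) h1 h2 z
      have h4 := ffMap_congr e.inv_hom_id h1 h2 (Category.id_comp _) rfl
      refine h3.symm.trans ?_
      rw [h4]
      exact ffMap_id rfl z)

end Integral

section Noetherian

variable [IsIntegral X.A] [LocallyOfFiniteType X.f]

theorem isLocallyNoetherian : IsLocallyNoetherian X.A :=
  LocallyOfFiniteType.isLocallyNoetherian X.f

instance (x : X.A) : IsNoetherianRing (X.A.presheaf.stalk x) := by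
  have := X.isLocallyNoetherian
  infer_instance

theorem psi_injective (n : ℕ) (hn : (n : K) ≠ 0) : Function.Injective (X.psi n) :=
  injective_of_cotangent (X.psi n) n hn (exists_sub_algebraMap_mem 0) (psi_sub_mem n)

theorem maximalIdeal_le_span (n : ℕ) (hn : (n : K) ≠ 0) :
    maximalIdeal (X.A.presheaf.stalk (X.pnt 0)) ≤
      Ideal.span (X.psi n '' maximalIdeal (X.A.presheaf.stalk (X.pnt 0))) :=
  maximalIdeal_le_span_of_cotangent (X.psi n) n hn (psi_sub_mem n)

theorem mulN_gen (n : ℕ) (hn : (n : K) ≠ 0) : X.mulN n X.gen = X.gen := by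
  have h1 : X.A.fromSpecStalk (X.pnt 0) (⊥ : PrimeSpectrum (X.A.presheaf.stalk (X.pnt 0))) =
    X.gen := fromSpecStalk_bot _
  have h2 := isAt_pull (X.mulN n) (x := X.pnt 0) (y := X.pnt 0)
    (specializes_of_eq (by rw [mulN_pnt, smul_zero]))
  have h3 : Spec.map (pull (X.mulN n) (x := X.pnt 0) (y := X.pnt 0)
    (specializes_of_eq (by rw [mulN_pnt, smul_zero])))
      (⊥ : PrimeSpectrum (X.A.presheaf.stalk (X.pnt 0))) =
        (⊥ : PrimeSpectrum (X.A.presheaf.stalk (X.pnt 0))) := by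
    apply PrimeSpectrum.ext
    exact Ideal.comap_bot_of_injective (X.psi n).toRingHom (X.psi_injective n hn)
  have h4 := congrArg (fun ρ : Spec (X.A.presheaf.stalk (X.pnt 0)) ⟶ X.A =>
    ρ (⊥ : PrimeSpectrum (X.A.presheaf.stalk (X.pnt 0)))) h2
  have h5 : X.A.fromSpecStalk (X.pnt 0) (Spec.map (pull (X.mulN n) (x := X.pnt 0) (y := X.pnt 0)
    (specializes_of_eq (by rw [mulN_pnt, smul_zero])))
      (⊥ : PrimeSpectrum (X.A.presheaf.stalk (X.pnt 0)))) = X.mulN n (X.A.fromSpecStalk (X.pnt 0)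
        (⊥ : PrimeSpectrum (X.A.presheaf.stalk (X.pnt 0)))) := h4
  rw [h1] at h5
  rw [← h5]
  exact (congrArg _ h3).trans h1

/-- `[n]^♯` on the function field. -/
def muAlg (n : ℕ) (hn : (n : K) ≠ 0) : X.FF →ₐ[K] X.FF :=
  ffMap (X.mulN n) (X.mulN_over n) (X.mulN_gen n hn)

end Noetherian

end AVar

end Fermat.Agent.AV
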