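import Mathlib
import Fermat.Agent.AV.Defs

/-!
# Geometric data of an abelian variety (team AV = S26)

`GeomDatum K Ω g` collects everything which the counting argument (package P8) needs to know about
an abelian variety `A` of dimension `g` over an algebraically closed field `K`
(and an algebraically closed `Ω ⊇ K`).  It is constructed from the scheme in packages P1, P3, P4.
-/

set_option autoImplicit false

noncomputable section

open AlgebraicCurve

universe u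

namespace Fermat.Agent.AV

structure GeomDatum (K Ω : Type u) [Field K] [Field Ω] [IsAlgClosed Ω] [Algebra K Ω] (g : ℕ) where
  /-- the height datum over `Ω`; `𝒜.Pt k = A(k)` for every field `k` over `Ω` -/
  𝒜 : HeightDatum Ω
  /-- the group `A(K)` -/
  P0 : Type u
  [grp : AddCommGroup P0]
  /-- the function field `K(A)` -/
  F0 : Type u
  [fld : Field F0]
  [alg : Algebra K F0]
  /-- the local ring of `A` at a `K`-point -/
  O : P0 → Subalgebra K F0
  /-- its maximal ideal -/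
  m : (a : P0) → Ideal (O a)
  /-- local equations of the Cartier divisor at the `K`-points -/
  s : P0 → F0
  /-- `LD r = H⁰(A, O(rD)) ⊆ K(A)` -/
  LD : ℕ → Submodule K F0
  /-- `A(K) → A(Ω)` -/
  pt : P0 →+ 𝒜.Pt Ω
  pt_injective : Function.Injective pt
  /-- torsion of `A(Ω)` is defined over `K` -/
  pt_torsion : ∀ (n : ℕ), (n : K) ≠ 0 → ∀ a : 𝒜.Pt Ω, n • a = 0 → ∃ a₀ : P0, pt a₀ = a
  /-- `m a` is generated by `g` elements -/
  m_span : ∀ a : P0, ∃ z : Fin g → O a, m a = Ideal.span (Set.range z)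
  /-- the residue field is `K` -/
  m_residue : ∀ (a : P0) (x : O a), ∃ c : K, x - algebraMap K (O a) c ∈ m a
  s_ne_zero : ∀ a : P0, s a ≠ 0
  LD_mem : ∀ (r : ℕ) (f : F0), f ∈ LD r → ∀ a : P0, f * s a ^ r ∈ O a
  LD_one : ∀ r : ℕ, (1 : F0) ∈ LD r
  LD_mul : ∀ (r r' : ℕ) (f f' : F0), f ∈ LD r → f' ∈ LD r' → f * f' ∈ LD (r + r')
  /-- `K(A)` is the field of fractions of `⋃ LD r` -/
  LD_frac : ∀ f : F0, ∃ (r : ℕ) (u v : F0), u ∈ LD r ∧ v ∈ LD r ∧ v ≠ 0 ∧ f * v = u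
  /-- there are `g` algebraically independent elements in some `LD r` -/
  LD_algInd : ∃ (r : ℕ) (f : Fin g → F0), AlgebraicIndependent K f ∧ ∀ i, f i ∈ LD r
  /-- `IsGen Q σ`: the point `Q : Spec k → A` hits the generic point of `A`, and `σ : K(A) → k`
  is the induced homomorphism -/
  IsGen : ∀ {k : Type u} [Field k] [Algebra Ω k], 𝒜.Pt k → (F0 →+* k) → Prop
  gen_alg : ∀ {k : Type u} [Field k] [Algebra Ω k] (Q : 𝒜.Pt k) (σ : F0 →+* k), IsGen Q σ →
    ∀ c : K, σ (algebraMap K F0 c) = algebraMap Ω k (algebraMap K Ω c)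
  gen_unique : ∀ {k : Type u} [Field k] [Algebra Ω k] (Q : 𝒜.Pt k) (σ σ' : F0 →+* k), IsGen Q σ →
    IsGen Q σ' → σ = σ'
  gen_map : ∀ {k k' : Type u} [Field k] [Algebra Ω k] [Field k'] [Algebra Ω k'] (i : k →ₐ[Ω] k')
    (Q : 𝒜.Pt k) (σ : F0 →+* k), IsGen Q σ →
      IsGen (𝒜.spec (Pl.ofAlgHom i) Q) ((i : k →+* k').comp σ)
  gen_neg : ∀ {k : Type u} [Field k] [Algebra Ω k] (Q : 𝒜.Pt k) (σ : F0 →+* k), IsGen Q σ →
    ∃ σ' : F0 →+* k, IsGen (-Q) σ'
  /-- sections of `O(rD)`, pulled back along a generic point over a function field, have poles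
  bounded by the pull back of `rD` -/
  gen_LD : ∀ {E : Type u} [Field E] [Algebra Ω E] [Fermat.FF.IsFF1 Ω E]
    (Q : 𝒜.Pt E) (σ : F0 →+* E), IsGen Q σ → ∀ (r : ℕ) (f : F0), f ∈ LD r → f ≠ 0 →
      ∀ P : Place Ω E, 0 ≤ P.ord (σ f) + r * P.ord (𝒜.g (plOf Ω P) Q)
  /-- local behaviour at places centred at `K`-points -/
  gen_local : ∀ {E : Type u} [Field E] [Algebra Ω E] [Fermat.FF.IsFF1 Ω E]
    (Q : 𝒜.Pt E) (σ : F0 →+* E), IsGen Q σ → ∀ (P : Place Ω E) (a : P0),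
      𝒜.spec (plOf Ω P) Q = pt a →
        (∀ x : O a, σ x ∈ P.toValuationSubring) ∧ (∀ x ∈ m a, P.adicValuation (σ (x : F0)) < 1) ∧
          P.ord (𝒜.g (plOf Ω P) Q) = P.ord (σ (s a))
  /-- the isogeny `[n]`, `n` invertible in `K` -/
  exists_mul : ∀ (n : ℕ), (n : K) ≠ 0 → ∃ μ : F0 →ₐ[K] F0,
    (∀ {k : Type u} [Field k] [Algebra Ω k] (Q : 𝒜.Pt k) (σ : F0 →+* k), IsGen Q σ →
      IsGen (n • Q) (σ.comp (μ : F0 →+* F0))) ∧
    (∀ a : P0, n • a = 0 → (∀ x ∈ O 0, μ x ∈ O a) ∧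
      m a ≤ Ideal.span {y : O a | ∃ x ∈ m 0, (y : F0) = μ (x : F0)}) ∧
    (∃ τ : {a : P0 // n • a = 0} → (F0 ≃ₐ[K] F0), Function.Injective τ ∧
      ∀ a f, τ a (μ f) = μ f)
  /-- a point some multiple of which is generic is generic -/
  gen_of_mul : ∀ {k : Type u} [Field k] [Algebra Ω k] (n : ℕ), (n : K) ≠ 0 →
    ∀ (Q : 𝒜.Pt k) (σ : F0 →+* k), IsGen (n • Q) σ → ∃ σ' : F0 →+* k, IsGen Q σ'
  /-- points over function fields are divisible by `n` after a finite extension -/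
  exists_div : ∀ {k : Type u} [Field k] [Algebra Ω k] [Fermat.FF.IsFF1 Ω k] (n : ℕ), (n : K) ≠ 0 →
    ∀ φ : 𝒜.Pt k, ∃ (k' : Type u) (_ : Field k') (_ : Algebra Ω k') (_ : Algebra k k')
      (_ : IsScalarTower Ω k k') (_ : FiniteDimensional k k') (φ' : 𝒜.Pt k'),
        n • φ' = 𝒜.spec (Pl.ofAlgHom (IsScalarTower.toAlgHom Ω k k')) φ
  /-- `A(K)` is `n`-divisible -/
  divisible : ∀ (n : ℕ), (n : K) ≠ 0 → ∀ a : P0, ∃ b : P0, n • b = a
  /-- there is a curve through the origin of `A` whose generic point is generic in `A` -/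
  exists_curve : ∃ (kC : Type u) (_ : Field kC) (_ : Algebra Ω kC) (_ : Fermat.FF.IsFF1 Ω kC)
    (φ : 𝒜.Pt kC) (σ : F0 →+* kC) (x₀ : Place Ω kC),
      IsGen φ σ ∧ 𝒜.spec (plOf Ω x₀) φ = 0

attribute [instance] GeomDatum.grp GeomDatum.fld GeomDatum.alg

end Fermat.Agent.AV
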