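import Mathlib
import Fermat.Agent.AV.SchemeCocycle
import Fermat.Agent.AV.Affine

/-!
# Finiteness of the support of the cocycle (team AV = S26)
-/

set_option autoImplicit false

noncomputable section

open CategoryTheory AlgebraicGeometry IsLocalRing NeronModelInfra GoodReductionJacobian
open AlgebraicCurve Fermat.Agent.S26T

universe u

namespace Fermat.Agent.AV.Sch

variable {K : Type u} [Field K] {X : GVar K}
variable {Ω : Type u} [Field Ω] [Algebra K Ω]

/-- the sections over an affine open are of finite type over `K` -/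
theorem finiteType_R {U : X.A.Opens} (hU : IsAffineOpen U) [Nonempty U] :
    Algebra.FiniteType K (X.R hU) := by
  have h1 : (X.f.appLE ⊤ U le_top).hom.FiniteType :=
    X.f.finiteType_appLE (isAffineOpen_top _) hU le_top
  have h2 : (X.algΓ U).FiniteType := by
    refine RingHom.FiniteType.comp (g := (X.f.appLE ⊤ U le_top).hom)
      (f := (Scheme.ΓSpecIso (.of K)).inv.hom) h1 ?_
    exact RingHom.FiniteType.of_surjective _
      (ConcreteCategory.bijective_of_isIso (Scheme.ΓSpecIso (.of K)).inv).2
  have h3 : ((X.rEquiv hU).toRingHom.comp (X.algΓ U)).FiniteType :=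
    RingHom.FiniteType.comp (RingHom.FiniteType.of_surjective _ (X.rEquiv hU).surjective) h2
  have h4 : (X.rEquiv hU).toRingHom.comp (X.algΓ U) = algebraMap K (X.R hU) :=
    RingHom.ext fun x => X.rEquiv_algΓ hU x
  rw [h4] at h3
  exact h3

section

variable {k κ : Type u} [Field k] [Field κ] [Algebra Ω k] [Algebra Ω κ]

/-- If the sections over an affine open containing the image point are integral at the place
then the centre lies in the affine open. -/
theorem centre_mem {U : X.A.Opens} (hU : IsAffineOpen U) [Nonempty U] (p : Pl Ω k κ)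
    (Q : Pt X Ω k) (hQ : Q.pt ∈ U)
    (h : ∀ x ∈ X.R hU, ∀ c, Val Q.mor x c → c ∈ p.V) : (specFun p Q).pt ∈ U := by
  let : Algebra K k := (toFld (K := K) Ω k).toAlgebra
  let : Algebra K p.V := (toV (K := K) p).toAlgebra
  let φ : X.R hU →ₐ[K] k := (X.ev (R := k) Q).comp (X.rIncl hU hQ)
  have hφ : X.pointR hU φ = Q := by
    exact (X.point_eq_pointR hU hQ (X.ev (R := k) Q)).symm.trans (X.point_ev (R := k) Q)
  have hval : ∀ x : X.R hU, Val Q.mor (x : X.F) (φ x) := by
    intro x
    have h1 := val_mk (X.vHom (X.ev (R := k) Q)) (X.oEquiv _ (X.rIncl hU hQ x))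
    have h2 : Var.mk _ (X.vHom (X.ev (R := k) Q)) = Q.mor :=
      congrArg Subtype.val (X.point_ev (R := k) Q)
    rw [h2] at h1
    exact h1
  have hmem : ∀ x, φ x ∈ p.V := fun x => h x x.2 _ (hval x)
  let φ' : X.R hU →ₐ[K] p.V :=
    { (φ : X.R hU →+* k).codRestrict p.V.toSubring hmem with
      commutes' := fun c => Subtype.ext (φ.commutes c) }
  have h1 : (X.pointR hU φ').1 = extend p Q := by
    apply eq_extend
    · have h2 := X.map (K := K) (R := p.V) (S := k)
        ⟨p.V.subtype, fun c => rfl⟩ (X.pointR hU φ')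
      have h3 : X.map (K := K) (R := p.V) (S := k) ⟨p.V.subtype, fun c => rfl⟩
          (X.pointR hU φ') = X.pointR hU φ := by
        apply Subtype.ext
        rw [X.map_coe]
        simp only [GVar.pointR]
        rw [← Category.assoc, ← Spec.map_comp]
        rfl
      rw [hφ] at h3
      exact congrArg Subtype.val h3
    · exact (X.pointR hU φ').2
  rw [← extend_closedPoint, ← h1]
  exact X.pt_pointR_mem hU φ'

end

variable (𝓛 : LocEq X)

theorem finite_support {L E : Type u} [Field L] [Field E] [Algebra Ω L] [Algebra Ω E]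
    [Algebra L E] [IsScalarTower Ω L E] [IsAlgClosed L] [Fermat.FF.IsFF1 L E] (Q : Pt X Ω E) :
    {P : Place L E | P.ord (gFun 𝓛 (plOf Ω P) Q) ≠ 0}.Finite := by
  obtain ⟨U', hU', hloc⟩ := 𝓛.loc Q.pt
  obtain ⟨_, ⟨U, hU, rfl⟩, hwU, hUU'⟩ :=
    X.A.isBasis_affineOpens.exists_subset_of_mem_open hU' U'.isOpen
  have : Nonempty U := ⟨⟨_, hwU⟩⟩
  let : Algebra K E := (toFld (K := K) Ω E).toAlgebra
  let φ : X.R hU →ₐ[K] E := (X.ev (R := E) Q).comp (X.rIncl hU hwU)
  have hval : ∀ x : X.R hU, Val Q.mor (x : X.F) (φ x) := by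
    intro x
    have h1 := val_mk (X.vHom (X.ev (R := E) Q)) (X.oEquiv _ (X.rIncl hU hwU x))
    have h2 : Var.mk _ (X.vHom (X.ev (R := E) Q)) = Q.mor :=
      congrArg Subtype.val (X.point_ev (R := E) Q)
    rw [h2] at h1
    exact h1
  obtain ⟨S, hS⟩ := finiteType_R (K := K) hU
  have : HasPrincipalDivisors L E := Fermat.FF.Gen.hasPrincipalDivisors
  have hfin : ∀ x : E, {P : Place L E | x ∉ P.toValuationSubring}.Finite := by
    intro x
    by_cases hx : x = 0
    · subst hx
      convert! Set.finite_empty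
      ext P
      simp [zero_mem]
    · obtain ⟨D, hD, -⟩ := HasPrincipalDivisors.exists_divisor (K := L) x hx
      refine (D.hasFiniteSupport).subset ?_
      intro P hP
      rw [Function.mem_support, hD]
      intro h0
      exact hP (RR.mem_of_ord_nonneg P h0.ge)
  have hfin2 : (⋃ x ∈ S, {P : Place L E | φ x ∉ P.toValuationSubring}).Finite :=
    S.finite_toSet.biUnion fun x _ => hfin _
  refine hfin2.subset ?_
  intro P hP
  by_contra hcon
  apply hP
  have h1 : ∀ x ∈ S, φ x ∈ P.toValuationSubring := by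
    intro x hx
    by_contra h2
    exact hcon (Set.mem_biUnion hx h2)
  have h2 : ∀ x : X.R hU, φ x ∈ P.toValuationSubring := by
    intro x
    have hx : x ∈ Algebra.adjoin K (S : Set (X.R hU)) := hS ▸ Algebra.mem_top
    induction hx using Algebra.adjoin_induction with
    | mem x hx => exact h1 x hx
    | algebraMap r =>
      rw [φ.commutes]
      exact (plOf Ω P).alg_mem _
    | add x y _ _ hx hy => rw [map_add]; exact add_mem hx hy
    | mul x y _ _ hx hy => rw [map_mul]; exact mul_mem hx hy
  have h3 : (specFun (plOf Ω P) Q).pt ∈ U := by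
    refine centre_mem hU (plOf Ω P) Q hwU fun x hx c hc => ?_
    have := hc.unique (hval ⟨x, hx⟩)
    rw [this]
    exact h2 _
  obtain ⟨c, hc, hc'⟩ := gFun_isUnit 𝓛 (plOf Ω P) Q (hloc _ (hUU' h3))
  rw [← hc']
  obtain ⟨d, hd⟩ := hc.exists_right_inv
  have h4 : P.ord (c : E) + P.ord (d : E) = 0 := by
    have h5 : (c : E) * (d : E) = 1 := congrArg Subtype.val hd
    rw [← P.ord_mul (left_ne_zero_of_mul_eq_one h5) (right_ne_zero_of_mul_eq_one h5), h5,
      P.ord_one]
  have h5 := RR.ord_nonneg_of_mem P c.2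
  have h6 := RR.ord_nonneg_of_mem P d.2
  omega

end Fermat.Agent.AV.Sch
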