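import Mathlib
import Fermat.Agent.AV.SchemeFinite
import Fermat.Agent.AV.TensorDomain
import Fermat.Agent.AV.Base

/-!
# Generic points and the height datum of an abelian variety (team AV = S26)
-/

set_option autoImplicit false

noncomputable section

open CategoryTheory AlgebraicGeometry IsLocalRing NeronModelInfra GoodReductionJacobian
open AlgebraicCurve Fermat.Agent.S26T
open scoped TensorProduct

universe u

namespace Fermat.Agent.AV.Sch

section Alg

variable {K L F M : Type u} [Field K] [Field L] [Field F] [Field M] [Algebra K L] [Algebra K F]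
  [Algebra K M]

/-- a valuation ring of `M ⊇ Frac (L ⊗ F)` centred at the graph of `ψ : O → L` -/
theorem exists_valuationSubring (iL : L →ₐ[K] M) (iF : F →ₐ[K] M)
    (hinj : Function.Injective (Algebra.TensorProduct.lift iL iF fun _ _ => Commute.all _ _))
    (O : Subalgebra K F) (ψ : O →ₐ[K] L) :
    ∃ V : ValuationSubring M, (∀ l, iL l ∈ V) ∧ (∀ x : O, iF x ∈ V) ∧
      ∀ x : O, iF x - iL (ψ x) ∈ V.nonunits := by
  let β : L ⊗[K] O →ₐ[K] M :=
    Algebra.TensorProduct.lift iL (iF.comp O.val) fun _ _ => Commute.all _ _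
  let χ : L ⊗[K] O →ₐ[K] L :=
    Algebra.TensorProduct.lift (AlgHom.id K L) ψ fun _ _ => Commute.all _ _
  have hβ : Function.Injective β := by
    have h1 : β = (Algebra.TensorProduct.lift iL iF fun _ _ => Commute.all _ _).comp
        (Algebra.TensorProduct.map (AlgHom.id K L) O.val) := by
      ext x <;> simp [β]
    have h2 : Function.Injective (Algebra.TensorProduct.map (AlgHom.id K L) O.val) :=
      Module.Flat.lTensor_preserves_injective_linearMap (M := L) O.val.toLinearMap
        Subtype.val_injective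
    rw [h1]
    exact hinj.comp h2
  let A : Subring M := (β : L ⊗[K] O →+* M).range
  let ρ : L ⊗[K] O →+* A := (β : L ⊗[K] O →+* M).rangeRestrict
  have hρ : Function.Surjective ρ := RingHom.rangeRestrict_surjective _
  let I : Ideal A := (RingHom.ker χ).map ρ
  have hI : I ≠ ⊤ := by
    intro h
    have h1 : (1 : A) ∈ I := h ▸ Submodule.mem_top
    obtain ⟨b, hb, hb'⟩ := (Ideal.mem_map_iff_of_surjective ρ hρ).mp h1
    have h2 : β b = 1 := congrArg Subtype.val hb'
    have h3 : b = 1 := hβ (h2.trans (map_one β).symm)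
    rw [h3, RingHom.mem_ker, map_one] at hb
    exact one_ne_zero hb
  obtain ⟨V, hV, hV'⟩ := Ideal.image_subset_nonunits_valuationSubring I hI
  have hβV : ∀ b, β b ∈ V := fun b => hV ⟨b, rfl⟩
  refine ⟨V, fun l => ?_, fun x => ?_, fun x => ?_⟩
  · have h1 : iL l = β (l ⊗ₜ 1) := by simp [β]
    rw [h1]
    exact hβV _
  · have h1 : iF x = β (1 ⊗ₜ x) := by simp [β]
    rw [h1]
    exact hβV _
  · have h1 : iF x - iL (ψ x) = A.subtype (ρ (1 ⊗ₜ x - ψ x ⊗ₜ 1)) := by
      have h2 : A.subtype (ρ (1 ⊗ₜ x - ψ x ⊗ₜ 1)) = β (1 ⊗ₜ x - ψ x ⊗ₜ 1) := rfl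
      rw [h2]
      simp [β]
    rw [h1]
    refine hV' ⟨_, Ideal.mem_map_of_mem ρ ?_, rfl⟩
    rw [RingHom.mem_ker]
    simp [χ]

end Alg

section Generic

variable {K : Type u} [Field K] {X : GVar K}
variable {Ω : Type u} [Field Ω] [Algebra K Ω]

/-- the point given by a homomorphism of the function field -/
def genPt {k : Type u} [Field k] [Algebra Ω k] (σ : X.F →+* k)
    (hσ : ∀ c : K, σ (algebraMap K X.F c) = toFld (K := K) Ω k c) : Pt X Ω k :=
  letI : Algebra K k := (toFld (K := K) Ω k).toAlgebra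
  X.genPt (R := k) ⟨σ, hσ⟩

/-- `IsGen Q σ`: the point `Q` hits the generic point and `σ` is the induced homomorphism. -/
def IsGen {k : Type u} [Field k] [Algebra Ω k] (Q : Pt X Ω k) (σ : X.F →+* k) : Prop :=
  ∃ hσ : ∀ c : K, σ (algebraMap K X.F c) = toFld (K := K) Ω k c, Q = genPt σ hσ

/-- a point given by a homomorphism of a local ring -/
def mkPt {k : Type u} [Field k] [Algebra Ω k] {w : X.A} (ψ : X.O w →+* k)
    (hψ : ∀ c : K, ψ (algebraMap K (X.O w) c) = toFld (K := K) Ω k c) : Pt X Ω k :=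
  letI : Algebra K k := (toFld (K := K) Ω k).toAlgebra
  X.point (R := k) w ⟨ψ, hψ⟩

theorem mkPt_mor {k : Type u} [Field k] [Algebra Ω k] {w : X.A} (ψ : X.O w →+* k)
    (hψ : ∀ c : K, ψ (algebraMap K (X.O w) c) = toFld (K := K) Ω k c) :
    (mkPt ψ hψ).mor = Var.mk w (ψ.comp (X.oEquiv w).symm.toRingHom) := rfl

theorem exists_eq_mkPt {k : Type u} [Field k] [Algebra Ω k] (Q : Pt X Ω k) :
    ∃ (ψ : X.O Q.pt →+* k)
    (hψ : ∀ c : K, ψ (algebraMap K (X.O Q.pt) c) = toFld (K := K) Ω k c),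
      Q = mkPt ψ hψ ∧ IsLocalHom ψ := by
  let : Algebra K k := (toFld (K := K) Ω k).toAlgebra
  exact ⟨(X.ev (R := k) Q).toRingHom, (X.ev (R := k) Q).commutes, (X.point_ev (R := k) Q).symm,
    X.isLocalHom_ev (R := k) Q⟩

theorem exists_eq_mkPt' {k : Type u} [Field k] [Algebra Ω k] (Q : Pt X Ω k) :
    ∃ (w : X.A) (ψ : X.O w →+* k)
    (hψ : ∀ c : K, ψ (algebraMap K (X.O w) c) = toFld (K := K) Ω k c),
      Q = mkPt ψ hψ ∧ IsLocalHom ψ := ⟨_, exists_eq_mkPt Q⟩

theorem genPt_mor {k : Type u} [Field k] [Algebra Ω k] (σ : X.F →+* k)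
    (hσ : ∀ c : K, σ (algebraMap K X.F c) = toFld (K := K) Ω k c) (w : X.A) :
    (genPt σ hσ).mor =
      Var.mk w ((σ.comp (X.O w).subtype).comp (X.oEquiv w).symm.toRingHom) := by
  let : Algebra K k := (toFld (K := K) Ω k).toAlgebra
  exact congrArg Subtype.val (X.point_ofF (R := k) ⟨σ, hσ⟩ w).symm

/-- specialisation of a generic point along a place whose valuation ring contains the local ring
at `w` -/
theorem specFun_genPt {k κ : Type u} [Field k] [Field κ] [Algebra Ω k] [Algebra Ω κ]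
    (p : Pl Ω k κ) (σ : X.F →+* k)
    (hσ : ∀ c : K, σ (algebraMap K X.F c) = toFld (K := K) Ω k c) (w : X.A)
    (hw : ∀ x : X.O w, σ x ∈ p.V) :
    (specFun p (genPt σ hσ)).mor = Var.mk w (p.π.comp
      (((σ.comp (X.O w).subtype).codRestrict p.V.toSubring hw).comp
        (X.oEquiv w).symm.toRingHom)) := by
  let : Algebra K p.V := (toV (K := K) p).toAlgebra
  let θ : X.O w →ₐ[K] p.V :=
    { (σ.comp (X.O w).subtype).codRestrict p.V.toSubring hw with
      commutes' := fun c => Subtype.ext (hσ c) }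
  have h1 : (X.point w θ).1 = extend p (genPt σ hσ) := by
    apply eq_extend
    · rw [genPt_mor σ hσ w]
      exact Var.map_mk p.V.subtype w (X.vHom θ)
    · exact (X.point w θ).2
  rw [specFun_mor, ← h1]
  exact Var.map_mk p.π w (X.vHom θ)

theorem exists_generic [IsAlgClosed K] (L : Type u) [Field L] [Algebra Ω L] [IsAlgClosed L] :
    ∃ (M : Type u) (_ : Field M) (_ : Algebra Ω M) (_ : IsAlgClosed M) (i : L →ₐ[Ω] M)
      (a : Pt X Ω M), ∀ a₁ : Pt X Ω L, ∃ (κ : Type u) (_ : Field κ) (_ : Algebra Ω κ)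
        (_ : IsAlgClosed κ) (p : Pl Ω M κ) (j : L →ₐ[Ω] κ), Function.Surjective p.π ∧
        p.comp (Pl.ofAlgHom i) = Pl.ofAlgHom j ∧ specFun p a = specFun (Pl.ofAlgHom j) a₁ := by
  let : Algebra K L := (toFld (K := K) Ω L).toAlgebra
  have : IsDomain (L ⊗[K] X.F) := isDomain_tensorProduct K L X.F
  let M := AlgebraicClosure (FractionRing (L ⊗[K] X.F))
  let iL : L →ₐ[K] M := (IsScalarTower.toAlgHom K (L ⊗[K] X.F) M).comp
    Algebra.TensorProduct.includeLeft
  let iF : X.F →ₐ[K] M := (IsScalarTower.toAlgHom K (L ⊗[K] X.F) M).comp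
    Algebra.TensorProduct.includeRight
  have hinj : Function.Injective
      (Algebra.TensorProduct.lift iL iF fun _ _ => Commute.all _ _) := by
    have h1 : (Algebra.TensorProduct.lift iL iF fun _ _ => Commute.all _ _) =
        IsScalarTower.toAlgHom K (L ⊗[K] X.F) M := by
      ext x <;> simp [iL, iF]
    rw [h1]
    change Function.Injective (algebraMap (L ⊗[K] X.F) M)
    rw [IsScalarTower.algebraMap_eq (L ⊗[K] X.F) (FractionRing (L ⊗[K] X.F)) M]
    exact (algebraMap (FractionRing (L ⊗[K] X.F)) M).injective.comp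
      (IsFractionRing.injective _ _)
  let : Algebra Ω M := ((iL : L →+* M).comp (algebraMap Ω L)).toAlgebra
  let i : L →ₐ[Ω] M := ⟨(iL : L →+* M), fun _ => rfl⟩
  have hσ : ∀ c : K, (iF : X.F →+* M) (algebraMap K X.F c) = toFld (K := K) Ω M c := by
    intro c
    change iF (algebraMap K X.F c) = iL (algebraMap K L c)
    rw [iF.commutes, iL.commutes]
  refine ⟨M, inferInstance, inferInstance, inferInstance, i, genPt (iF : X.F →+* M) hσ, ?_⟩
  intro a₁
  obtain ⟨w, ψ, hψ, rfl, -⟩ := exists_eq_mkPt' a₁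
  obtain ⟨V, hV1, hV2, hV3⟩ := exists_valuationSubring iL iF hinj (X.O w) ⟨ψ, hψ⟩
  let κ := IsLocalRing.ResidueField V
  let jr : L →+* κ := (IsLocalRing.residue V).comp
    ((iL : L →+* M).codRestrict V.toSubring hV1)
  let : Algebra Ω κ := (jr.comp (algebraMap Ω L)).toAlgebra
  have hsurj : Function.Surjective (IsLocalRing.residue V) := IsLocalRing.residue_surjective
  have : IsAlgClosed κ := isAlgClosed_of_surjective hsurj
  let p : Pl Ω M κ :=
    { V := V
      alg_mem := fun x => hV1 _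
      π := IsLocalRing.residue V
      isLocal := fun x hx => (IsLocalRing.residue_ne_zero_iff_isUnit x).mp hx
      π_alg := fun x => rfl }
  let j : L →ₐ[Ω] κ := ⟨jr, fun _ => rfl⟩
  refine ⟨κ, inferInstance, inferInstance, inferInstance, p, j, hsurj, ?_, ?_⟩
  · apply Pl.ext'
    · intro x
      rw [Pl.mem_comp_V]
      exact ⟨fun _ => trivial, fun _ => ⟨trivial, hV1 x⟩⟩
    · intro x hp hq
      rfl
  · apply Pt.ext
    rw [specFun_genPt p (iF : X.F →+* M) hσ w hV2, specFun_ofAlgHom, mkPt_mor]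
    have h1 := Var.map_mk (j : L →+* κ) w (ψ.comp (X.oEquiv w).symm.toRingHom)
    refine Eq.trans ?_ h1.symm
    congr 1
    ext x
    change IsLocalRing.residue V ⟨iF _, _⟩ = IsLocalRing.residue V ⟨iL _, _⟩
    rw [← sub_eq_zero, ← map_sub, IsLocalRing.residue_eq_zero_iff]
    have h2 := hV3 ((X.oEquiv w).symm x)
    exact (ValuationSubring.mem_nonunits_iff_exists_mem_maximalIdeal).mp h2 |>.2

end Generic

end Fermat.Agent.AV.Sch
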