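import Mathlib
import Fermat.Agent.AV.SchemeGeneric

/-!
# The height datum of an abelian variety with a Cartier divisor (team AV = S26)

`Sch.heightDatum 𝓛 : HeightDatum Ω` for `X : GVar K`, `K` algebraically closed,
`𝓛 : LocEq X` local equations of a Cartier divisor and `Ω` a field over `K`.

Fields of `GeomDatum` which follow from it: `Sch.gen_alg`, `Sch.gen_unique`, `Sch.gen_map`,
`Sch.gen_LD`, `Sch.gen_local`.
-/

set_option autoImplicit false

noncomputable section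

open CategoryTheory AlgebraicGeometry IsLocalRing NeronModelInfra GoodReductionJacobian
open AlgebraicCurve Fermat.Agent.S26T

universe u

namespace Fermat.Agent.AV.Sch

variable {K : Type u} [Field K] {X : GVar K}
variable {Ω : Type u} [Field Ω] [Algebra K Ω]

variable (Ω) in
/-- The height datum of an abelian variety with a Cartier divisor. -/
def heightDatum [IsAlgClosed K] (𝓛 : LocEq X) : HeightDatum Ω where
  Pt k _ _ := Pt X Ω k
  spec p := specHom p
  spec_id Q := specHom_id Q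
  spec_comp q p Q := specHom_comp q p Q
  g p Q := gFun 𝓛 p Q
  g_ne_zero p Q := gFun_ne_zero 𝓛 p Q
  g_ofAlgHom i Q := gFun_ofAlgHom 𝓛 i Q
  g_congr p p' Q h := gFun_congr 𝓛 p p' Q h
  g_ofAlgHom_comp i p Q := gFun_ofAlgHom_comp 𝓛 i p Q
  g_comp q p Q := gFun_comp 𝓛 q p Q
  finite_support Q := finite_support 𝓛 Q
  exists_generic L _ _ _ := exists_generic L

section Gen

variable {k κ : Type u} [Field k] [Algebra Ω k] [Field κ] [Algebra Ω κ]

theorem gen_alg (Q : Pt X Ω k) (σ : X.F →+* k) (h : IsGen Q σ) (c : K) :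
    σ (algebraMap K X.F c) = algebraMap Ω k (algebraMap K Ω c) := h.choose c

theorem gen_unique (Q : Pt X Ω k) (σ σ' : X.F →+* k) (h : IsGen Q σ) (h' : IsGen Q σ') :
    σ = σ' := by
  obtain ⟨hσ, rfl⟩ := h
  obtain ⟨hσ', h2⟩ := h'
  let : Algebra K k := (toFld (K := K) Ω k).toAlgebra
  have h3 := X.genPt_injective (R := k) (σ := ⟨σ, hσ⟩) (σ' := ⟨σ', hσ'⟩) h2
  exact congrArg (fun q : X.F →ₐ[K] k => (q : X.F →+* k)) h3

theorem genPt_mor_generic (σ : X.F →+* k)
    (hσ : ∀ c : K, σ (algebraMap K X.F c) = toFld (K := K) Ω k c) :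
    (genPt σ hσ).mor =
      Var.mk X.η ((σ.comp (X.O X.η).subtype).comp (X.oEquiv X.η).symm.toRingHom) :=
  genPt_mor σ hσ X.η

theorem gen_map (i : k →ₐ[Ω] κ) (Q : Pt X Ω k) (σ : X.F →+* k) (h : IsGen Q σ) :
    IsGen (specFun (Pl.ofAlgHom i) Q) ((i : k →+* κ).comp σ) := by
  obtain ⟨hσ, rfl⟩ := h
  have h1 : ∀ c : K, ((i : k →+* κ).comp σ) (algebraMap K X.F c) = toFld (K := K) Ω κ c := by
    intro c
    rw [RingHom.comp_apply, hσ]
    exact i.commutes _
  refine ⟨h1, Pt.ext ?_⟩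
  rw [specFun_ofAlgHom, genPt_mor_generic, genPt_mor_generic]
  exact Var.map_mk (i : k →+* κ) X.η _

/-- the image of a generic point is the generic point -/
theorem IsGen.pt_eq {Q : Pt X Ω k} {σ : X.F →+* k} (h : IsGen Q σ) : Q.pt = X.η := by
  obtain ⟨hσ, rfl⟩ := h
  let : Algebra K k := (toFld (K := K) Ω k).toAlgebra
  exact X.pt_genPt (k := k) ⟨σ, hσ⟩

/-- values at a generic point -/
theorem IsGen.val {Q : Pt X Ω k} {σ : X.F →+* k} (h : IsGen Q σ) (x : X.F) :
    Val Q.mor x (σ x) := by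
  obtain ⟨hσ, rfl⟩ := h
  rw [genPt_mor_generic]
  exact val_mk ((σ.comp (X.O X.η).subtype).comp (X.oEquiv X.η).symm.toRingHom)
    (X.oEquiv X.η ⟨x, X.mem_O_η x⟩)

/-- A point whose image is the generic point is given by a homomorphism of the function field. -/
theorem exists_isGen_of_pt_eq (Q : Pt X Ω k) (h : Q.pt = X.η) : ∃ σ : X.F →+* k, IsGen Q σ := by
  let : Algebra K k := (toFld (K := K) Ω k).toAlgebra
  obtain ⟨σ, hσ⟩ := X.exists_isGen_of_pt_eq (k := k) Q h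
  exact ⟨(σ : X.F →+* k), σ.commutes, hσ⟩

variable (𝓛 : LocEq X)

/-- the cocycle at a generic point -/
theorem IsGen.gFun_eq {Q : Pt X Ω k} {σ : X.F →+* k} (h : IsGen Q σ) (p : Pl Ω k κ) :
    gFun 𝓛 p Q = σ (𝓛.s (specFun p Q).pt) := by
  have h1 := val_gFun 𝓛 p Q
  rw [h.pt_eq, 𝓛.s_gen, div_one] at h1
  exact h1.unique (h.val _)

/-- regular functions at the centre of a place are integral at the place -/
theorem IsGen.mem_V {Q : Pt X Ω k} {σ : X.F →+* k} (h : IsGen Q σ) (p : Pl Ω k κ) {x : X.F}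
    (hx : x ∈ X.O (specFun p Q).pt) :
    ∃ hV : σ x ∈ p.V, Val (specFun p Q).mor x (p.π ⟨σ x, hV⟩) := by
  have h1 : x ∈ Var.O X.A (extend p Q (closedPoint p.V)) := by
    rw [extend_closedPoint]
    exact hx
  obtain ⟨c, hc⟩ := Val.exists_of_mem h1
  have h2 : (c : k) = σ x := hc.of_extend.unique (h.val x)
  have h3 : σ x ∈ p.V := h2 ▸ c.2
  refine ⟨h3, ?_⟩
  have h4 : (⟨σ x, h3⟩ : p.V) = c := Subtype.ext h2.symm
  rw [h4]
  exact hc.of_extend_spec

end Gen

section Curve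

variable {L E : Type u} [Field L] [Algebra Ω L] [Field E] [Algebra Ω E] [Algebra L E]
  [IsScalarTower Ω L E] [IsAlgClosed L] [Fermat.FF.IsFF1 L E] (𝓛 : LocEq X)

theorem gen_LD (Q : Pt X Ω E) (σ : X.F →+* E) (h : IsGen Q σ) (r : ℕ) (φ : X.F)
    (hφ : φ ∈ 𝓛.LD r) (hφ0 : φ ≠ 0) (P : Place L E) :
    0 ≤ P.ord (σ φ) + r * P.ord (gFun 𝓛 (plOf Ω P) Q) := by
  rw [h.gFun_eq 𝓛]
  obtain ⟨h1, -⟩ := h.mem_V (plOf Ω P) (hφ (specFun (plOf Ω P) Q).pt)
  have h2 : 0 ≤ P.ord (σ (φ * 𝓛.s (specFun (plOf Ω P) Q).pt ^ r)) :=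
    RR.ord_nonneg_of_mem P h1
  have h3 : σ φ ≠ 0 := (map_ne_zero σ).mpr hφ0
  have h4 : σ (𝓛.s (specFun (plOf Ω P) Q).pt) ≠ 0 := (map_ne_zero σ).mpr (𝓛.s_ne_zero _)
  rw [map_mul, map_pow, P.ord_mul h3 (pow_ne_zero _ h4), RR.ord_pow] at h2
  exact h2

end Curve

section Rational

variable (X)

/-- base change of `K`-points to `Ω` -/
def baseChange : X.Pt K →+ Pt X Ω Ω :=
  letI : Algebra K Ω := (toFld (K := K) Ω Ω).toAlgebra
  X.map (K := K) (R := K) (S := Ω) ⟨algebraMap K Ω, fun _ => rfl⟩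

theorem baseChange_mor (a : X.Pt K) :
    (baseChange X (Ω := Ω) a).mor = sp (algebraMap K Ω) ≫ a.1 := rfl

theorem baseChange_pt (a : X.Pt K) : (baseChange X (Ω := Ω) a).pt = X.pt a := by
  have : IsLocalHom (algebraMap K Ω) := inferInstance
  exact comp_closedPoint (algebraMap K Ω) a.1

theorem baseChange_injective : Function.Injective (baseChange X (Ω := Ω)) := by
  intro a b h
  have h1 : X.pt a = X.pt b := by
    rw [← baseChange_pt X (Ω := Ω) a, h, baseChange_pt]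
  have hl : IsLocalHom (algebraMap K Ω) := inferInstance
  have ha := X.isLocalHom_ev a
  have hb := X.isLocalHom_ev b
  let : Algebra K Ω := (toFld (K := K) Ω Ω).toAlgebra
  let i : K →ₐ[K] Ω := ⟨algebraMap K Ω, fun _ => rfl⟩
  have h2 : X.point _ (i.comp (X.ev a)) = X.point _ (i.comp (X.ev b)) := by
    rw [← X.map_point, ← X.map_point, X.point_ev, X.point_ev]
    exact h
  have h3 := (X.point_eq_point_iff _ _
    (RingHom.isLocalHom_comp i.toRingHom (X.ev a).toRingHom)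
    (RingHom.isLocalHom_comp i.toRingHom (X.ev b).toRingHom)).mp h2
  rw [← X.point_ev a, ← X.point_ev b]
  refine (X.point_eq_point_iff _ _ ha hb).mpr ⟨h3.1, fun x hx hx' => ?_⟩
  exact (algebraMap K Ω).injective (h3.2 x hx hx')

/-- values at a rational point -/
theorem val_baseChange (a : X.Pt K) (x : X.O (X.pt a)) :
    Val (baseChange X (Ω := Ω) a).mor (x : X.F) (algebraMap K Ω (X.ev a x)) := by
  have h1 := val_mk (X.vHom (X.ev a)) (X.oEquiv _ x)
  have h2 : Var.mk _ (X.vHom (X.ev a)) = a.1 := congrArg Subtype.val (X.point_ev a)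
  rw [h2] at h1
  rw [baseChange_mor]
  exact h1.map (algebraMap K Ω)

theorem m_residue (a : X.Pt K) (x : X.O (X.pt a)) :
    ∃ c : K, x - algebraMap K (X.O (X.pt a)) c ∈ X.m (X.pt a) := by
  refine ⟨X.ev a x, ?_⟩
  rw [X.mem_m_iff_ev, map_sub, AlgHom.commutes]
  simp

variable {X}

/-- the value of the cocycle and of regular functions at a place centred at a rational point -/
theorem gen_local [IsAlgClosed Ω] {E : Type u} [Field E] [Algebra Ω E] [Fermat.FF.IsFF1 Ω E]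
    (𝓛 : LocEq X) (Q : Pt X Ω E) (σ : X.F →+* E) (h : IsGen Q σ) (P : Place Ω E) (a : X.Pt K)
    (ha : specFun (plOf Ω P) Q = baseChange X a) :
    (∀ x : X.O (X.pt a), σ (x : X.F) ∈ P.toValuationSubring) ∧
      (∀ x ∈ X.m (X.pt a), P.adicValuation (σ (x : X.F)) < 1) ∧
      P.ord (gFun 𝓛 (plOf Ω P) Q) = P.ord (σ (𝓛.s (X.pt a))) := by
  have hpt : (specFun (plOf Ω P) Q).pt = X.pt a := by rw [ha, baseChange_pt]
  refine ⟨fun x => ?_, fun x hx => ?_, ?_⟩
  · exact (h.mem_V (plOf Ω P) (x := x) (by rw [hpt]; exact x.2)).choose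
  · obtain ⟨h1, h2⟩ := h.mem_V (plOf Ω P) (x := (x : X.F)) (by rw [hpt]; exact x.2)
    rw [ha] at h2
    have h3 := h2.unique (val_baseChange X a x)
    have h4 : X.ev a x = 0 := by
      have h5 := (X.mem_m_iff_ev a x).mp hx
      rw [maximalIdeal_eq_bot] at h5
      exact h5
    rw [h4, map_zero, plOf_π_eq_iff, map_zero, sub_zero] at h3
    exact h3
  · rw [h.gFun_eq 𝓛, hpt]

end Rational

end Fermat.Agent.AV.Sch
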