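import Mathlib
import Fermat.Agent.AV.Geom
import Fermat.Agent.AV.SchemeDatum

/-!
# Construction of the geometric datum of an abelian variety (team AV = S26)

* `DivInput 𝓛 Ω g` : the facts about the Cartier divisor and the generic curve (package P3);
* `GroupInput X Ω` : the facts about the group structure (package P4);
* `Sch.geomDatum : DivInput 𝓛 Ω g → GroupInput X Ω → GeomDatum K Ω g`.
-/

set_option autoImplicit false

noncomputable section

open CategoryTheory AlgebraicGeometry IsLocalRing NeronModelInfra GoodReductionJacobian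
open AlgebraicCurve Fermat.Agent.S26T

universe u

namespace Fermat.Agent.AV.Sch

variable {K : Type u} [Field K]

/-- The facts about the Cartier divisor (package P3). -/
structure DivInput {X : GVar K} (𝓛 : LocEq X) (Ω : Type u) [Field Ω] [IsAlgClosed Ω]
    [Algebra K Ω] (g : ℕ) : Prop where
  /-- the maximal ideal at a rational point is generated by `g` elements -/
  m_span : ∀ a : X.Pt K, ∃ z : Fin g → X.O (X.pt a), X.m (X.pt a) = Ideal.span (Set.range z)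
  LD_one : ∀ r : ℕ, (1 : X.F) ∈ 𝓛.LD r
  LD_frac : ∀ f : X.F, ∃ (r : ℕ) (u v : X.F), u ∈ 𝓛.LD r ∧ v ∈ 𝓛.LD r ∧ v ≠ 0 ∧ f * v = u
  LD_algInd : ∃ (r : ℕ) (f : Fin g → X.F), AlgebraicIndependent K f ∧ ∀ i, f i ∈ 𝓛.LD r
  /-- the generic curve through the origin -/
  exists_curve : ∃ (kC : Type u) (_ : Field kC) (_ : Algebra Ω kC) (_ : Fermat.FF.IsFF1 Ω kC)
    (σ : X.F →+* kC) (x₀ : Place Ω kC),
      (∀ c : K, σ (algebraMap K X.F c) = algebraMap Ω kC (algebraMap K Ω c)) ∧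
      (∀ x : X.O (X.pt (0 : X.Pt K)), σ (x : X.F) ∈ x₀.toValuationSubring) ∧
      (∀ x ∈ X.m (X.pt (0 : X.Pt K)), x₀.adicValuation (σ (x : X.F)) < 1)

/-- The facts about the group structure (package P4). -/
structure GroupInput (X : GVar K) (Ω : Type u) [Field Ω] [IsAlgClosed Ω] [Algebra K Ω] :
    Prop where
  pt_torsion : ∀ (n : ℕ), (n : K) ≠ 0 → ∀ a : Pt X Ω Ω, n • a = 0 →
    ∃ a₀ : X.Pt K, baseChange X a₀ = a
  gen_neg : ∀ {k : Type u} [Field k] [Algebra Ω k] (Q : Pt X Ω k) (σ : X.F →+* k), IsGen Q σ →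
    ∃ σ' : X.F →+* k, IsGen (-Q) σ'
  exists_mul : ∀ (n : ℕ), (n : K) ≠ 0 → ∃ μ : X.F →ₐ[K] X.F,
    (∀ {k : Type u} [Field k] [Algebra Ω k] (Q : Pt X Ω k) (σ : X.F →+* k), IsGen Q σ →
      IsGen (n • Q) (σ.comp (μ : X.F →+* X.F))) ∧
    (∀ a : X.Pt K, n • a = 0 → (∀ x ∈ X.O (X.pt (0 : X.Pt K)), μ x ∈ X.O (X.pt a)) ∧
      X.m (X.pt a) ≤ Ideal.span {y : X.O (X.pt a) | ∃ x ∈ X.m (X.pt (0 : X.Pt K)),
        (y : X.F) = μ (x : X.F)}) ∧
    (∃ τ : {a : X.Pt K // n • a = 0} → (X.F ≃ₐ[K] X.F), Function.Injective τ ∧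
      ∀ a f, τ a (μ f) = μ f)
  gen_of_mul : ∀ {k : Type u} [Field k] [Algebra Ω k] (n : ℕ), (n : K) ≠ 0 →
    ∀ (Q : Pt X Ω k) (σ : X.F →+* k), IsGen (n • Q) σ → ∃ σ' : X.F →+* k, IsGen Q σ'
  exists_div : ∀ {k : Type u} [Field k] [Algebra Ω k] [Fermat.FF.IsFF1 Ω k] (n : ℕ),
    (n : K) ≠ 0 →
    ∀ φ : Pt X Ω k, ∃ (k' : Type u) (_ : Field k') (_ : Algebra Ω k') (_ : Algebra k k')
      (_ : IsScalarTower Ω k k') (_ : FiniteDimensional k k') (φ' : Pt X Ω k'),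
        n • φ' = specHom (Pl.ofAlgHom (IsScalarTower.toAlgHom Ω k k')) φ
  divisible : ∀ (n : ℕ), (n : K) ≠ 0 → ∀ a : X.Pt K, ∃ b : X.Pt K, n • b = a

variable {X : GVar K} {Ω : Type u} [Field Ω] [Algebra K Ω]

/-- a place centred at a rational point -/
theorem specFun_genPt_eq_baseChange {k : Type u} [Field k] [Algebra Ω k]
    (p : Pl Ω k Ω) (σ : X.F →+* k)
    (hσ : ∀ c : K, σ (algebraMap K X.F c) = toFld (K := K) Ω k c) (a : X.Pt K)
    (h1 : ∀ x : X.O (X.pt a), σ (x : X.F) ∈ p.V)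
    (h2 : ∀ x ∈ X.m (X.pt a), p.π ⟨σ (x : X.F), h1 x⟩ = 0) :
    specFun p (genPt σ hσ) = baseChange X a := by
  apply Pt.ext
  rw [specFun_genPt p σ hσ (X.pt a) h1, baseChange_mor]
  have h3 : a.1 = Var.mk _ (X.vHom (X.ev a)) := congrArg Subtype.val (X.point_ev a).symm
  have h4 := Var.map_mk (algebraMap K Ω) (X.pt a) (X.vHom (X.ev a))
  refine Eq.trans ?_ ((congrArg (fun q => sp (algebraMap K Ω) ≫ q) h3).trans h4).symm
  congr 1
  ext x
  -- `x = c + y` with `y` in the maximal ideal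
  let x' : X.O (X.pt a) := (X.oEquiv (X.pt a)).symm x
  change p.π ⟨σ (x' : X.F), _⟩ = algebraMap K Ω (X.ev a x')
  have h5 : x' - algebraMap K _ (X.ev a x') ∈ X.m (X.pt a) := by
    rw [X.mem_m_iff_ev, map_sub, AlgHom.commutes]
    simp
  have h6 := h2 _ h5
  have h7 : (⟨σ ((x' - algebraMap K _ (X.ev a x') : X.O (X.pt a)) : X.F), h1 _⟩ : p.V) =
      ⟨σ (x' : X.F), h1 _⟩ - toV (K := K) p (X.ev a x') := by
    apply Subtype.ext
    change σ ((x' : X.F) - algebraMap K X.F (X.ev a x')) = σ (x' : X.F) -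
      toFld (K := K) Ω k (X.ev a x')
    rw [map_sub, hσ]
  rw [h7, map_sub, sub_eq_zero] at h6
  rw [h6]
  exact p.π_alg _

variable [IsAlgClosed K] [IsAlgClosed Ω] {g : ℕ}

/-- The geometric datum of an abelian variety. -/
def geomDatum (𝓛 : LocEq X) (hD : DivInput 𝓛 Ω g) (hG : GroupInput X Ω) : GeomDatum K Ω g where
  𝒜 := heightDatum Ω 𝓛
  P0 := X.Pt K
  F0 := X.F
  O a := X.O (X.pt a)
  m a := X.m (X.pt a)
  s a := 𝓛.s (X.pt a)
  LD := 𝓛.LD
  pt := baseChange X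
  pt_injective := baseChange_injective X
  pt_torsion := hG.pt_torsion
  m_span := hD.m_span
  m_residue := m_residue X
  s_ne_zero a := 𝓛.s_ne_zero _
  LD_mem r f hf a := hf _
  LD_one := hD.LD_one
  LD_mul := 𝓛.LD_mul
  LD_frac := hD.LD_frac
  LD_algInd := hD.LD_algInd
  IsGen Q σ := IsGen Q σ
  gen_alg Q σ h c := gen_alg Q σ h c
  gen_unique Q σ σ' h h' := gen_unique Q σ σ' h h'
  gen_map i Q σ h := gen_map i Q σ h
  gen_neg Q σ h := hG.gen_neg Q σ h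
  gen_LD Q σ h r f hf hf0 P := gen_LD 𝓛 Q σ h r f hf hf0 P
  gen_local Q σ h P a ha := gen_local 𝓛 Q σ h P a ha
  exists_mul := hG.exists_mul
  gen_of_mul n hn Q σ h := hG.gen_of_mul n hn Q σ h
  exists_div n hn φ := hG.exists_div n hn φ
  divisible := hG.divisible
  exists_curve := by
    obtain ⟨kC, i1, i2, i3, σ, x₀, h1, h2, h3⟩ := hD.exists_curve
    refine ⟨kC, i1, i2, i3, genPt σ h1, σ, x₀, ⟨h1, rfl⟩, ?_⟩
    have h4 : specFun (plOf Ω x₀) (genPt σ h1) = baseChange X 0 :=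
      specFun_genPt_eq_baseChange (plOf Ω x₀) σ h1 0 h2 (fun x hx =>
        (plOf_π_eq_iff Ω x₀ (h2 x) 0).mpr (by rw [map_zero, sub_zero]; exact h3 x hx))
    exact h4.trans (map_zero _)

end Fermat.Agent.AV.Sch
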