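import Mathlib
import Fermat.Agent.AV.Cartier
import Fermat.Agent.AV.SchemeGeom
import Fermat.Agent.FF.PlaceOfVal
import Fermat.Agent.FF.GenPrincipal

/-!
# The generic curve through the origin (package P3b)
-/

set_option autoImplicit false

noncomputable section

open MvPowerSeries

universe u

namespace Fermat.Agent.S26T.Line

variable {K Ω : Type u} [Field K] [Field Ω] [Algebra K Ω] {g : ℕ}

/-- `K⟦z₁, …, z_g⟧ → Ω⟦t⟧`, `z_i ↦ y_i t`. -/
def lineMap (y : Fin g → Ω) : MvPowerSeries (Fin g) K →+* PowerSeries Ω :=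
  ((MvPowerSeries.rename (R := Ω) (fun _ : Fin g => ())).toRingHom.comp
    (MvPowerSeries.rescale y)).comp (MvPowerSeries.map (algebraMap K Ω))

/-- The exponents of degree `d`. -/
def expo (g d : ℕ) : Finset (Fin g →₀ ℕ) :=
  (Filter.TendstoCofinite.finite_preimage_singleton
    (Finsupp.mapDomain (M := ℕ) (fun _ : Fin g => ())) (Finsupp.single () d)).toFinset

theorem mem_expo {g d : ℕ} (α : Fin g →₀ ℕ) :
    α ∈ expo g d ↔ Finsupp.mapDomain (M := ℕ) (fun _ : Fin g => ()) α = Finsupp.single () d := by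
  simp only [expo, Set.Finite.mem_toFinset, Set.mem_preimage, Set.mem_singleton_iff]

theorem exists_mem_expo {g : ℕ} (α : Fin g →₀ ℕ) : ∃ d, α ∈ expo g d := by
  refine ⟨Finsupp.mapDomain (M := ℕ) (fun _ : Fin g => ()) α (), ?_⟩
  rw [mem_expo]
  ext
  simp

theorem coeff_lineMap (y : Fin g → Ω) (f : MvPowerSeries (Fin g) K) (d : ℕ) :
    PowerSeries.coeff d (lineMap y f) =
      ∑ α ∈ expo g d, (α.prod fun s m => y s ^ m) * algebraMap K Ω (MvPowerSeries.coeff α f) := by
  rw [lineMap, RingHom.comp_apply, RingHom.comp_apply]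
  change MvPowerSeries.coeff (Finsupp.single () d) (MvPowerSeries.rename _ _) = _
  rw [MvPowerSeries.coeff_rename]
  refine Finset.sum_congr rfl fun α _ => ?_
  rw [MvPowerSeries.coeff_rescale, MvPowerSeries.coeff_map]

theorem lineMap_injective {y : Fin g → Ω} (hy : AlgebraicIndependent K y) :
    Function.Injective (lineMap (K := K) y) := by
  rw [injective_iff_map_eq_zero]
  intro f hf
  ext α
  obtain ⟨d, hd⟩ := exists_mem_expo α
  have h1 := congrArg (PowerSeries.coeff d) hf
  rw [coeff_lineMap, map_zero] at h1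
  have h2 : MvPolynomial.aeval y (∑ α ∈ expo g d,
      MvPolynomial.monomial α (MvPowerSeries.coeff α f)) = 0 := by
    rw [map_sum, ← h1]
    refine Finset.sum_congr rfl fun β _ => ?_
    rw [MvPolynomial.aeval_monomial, mul_comm]
  have h3 := (injective_iff_map_eq_zero _).mp hy _ h2
  have h4 := congrArg (MvPolynomial.coeff α) h3
  rw [MvPolynomial.coeff_sum, Finset.sum_eq_single α, MvPolynomial.coeff_monomial, if_pos rfl,
    MvPolynomial.coeff_zero] at h4
  · rw [h4, map_zero]
  · intro β _ hβ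
    rw [MvPolynomial.coeff_monomial, if_neg hβ]
  · intro h
    exact absurd hd h

theorem lineMap_X (y : Fin g → Ω) (i : Fin g) :
    lineMap (K := K) y (MvPowerSeries.X i) = PowerSeries.C (y i) * PowerSeries.X := by
  classical
  have h1 : MvPowerSeries.rescale y (MvPowerSeries.X i) =
      MvPowerSeries.C (y i) * MvPowerSeries.X i := by
    ext n
    rw [MvPowerSeries.coeff_rescale, MvPowerSeries.coeff_C_mul, MvPowerSeries.coeff_X]
    split_ifs with h
    · rw [h, Finsupp.prod_single_index (by simp), pow_one]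
    · rw [mul_zero, mul_zero]
  rw [lineMap, RingHom.comp_apply, RingHom.comp_apply, MvPowerSeries.map_X, h1, map_mul]
  change MvPowerSeries.rename _ _ * MvPowerSeries.rename _ _ = _
  rw [MvPowerSeries.rename_C, MvPowerSeries.rename_X]
  rfl

theorem lineMap_C (y : Fin g → Ω) (c : K) :
    lineMap (K := K) y (MvPowerSeries.C c) = PowerSeries.C (algebraMap K Ω c) := by
  classical
  have h1 : MvPowerSeries.rescale y (MvPowerSeries.C (algebraMap K Ω c)) =
      MvPowerSeries.C (algebraMap K Ω c) := by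
    ext n
    rw [MvPowerSeries.coeff_rescale, MvPowerSeries.coeff_C]
    split_ifs with h
    · rw [h, Finsupp.prod_zero_index, one_mul]
    · rw [mul_zero]
  rw [lineMap, RingHom.comp_apply, RingHom.comp_apply, MvPowerSeries.map_C, h1]
  exact MvPowerSeries.rename_C _ _

theorem constantCoeff_lineMap (y : Fin g → Ω) (f : MvPowerSeries (Fin g) K) :
    PowerSeries.constantCoeff (lineMap y f) =
      algebraMap K Ω (MvPowerSeries.constantCoeff f) := by
  rw [lineMap, RingHom.comp_apply, RingHom.comp_apply]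
  change MvPowerSeries.constantCoeff (MvPowerSeries.rename _ _) = _
  rw [MvPowerSeries.constantCoeff_rename, ← MvPowerSeries.coeff_zero_eq_constantCoeff_apply,
    MvPowerSeries.coeff_rescale, Finsupp.prod_zero_index, one_mul, MvPowerSeries.coeff_map,
    MvPowerSeries.coeff_zero_eq_constantCoeff_apply]

section Laurent

theorem orderTop_ofPowerSeries_nonneg (P : PowerSeries Ω) :
    0 ≤ (HahnSeries.ofPowerSeries ℤ Ω P).orderTop := by
  rw [HahnSeries.le_orderTop_iff_forall]
  intro j hj
  have hj' : j < 0 := by exact_mod_cast hj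
  have h1 := PowerSeries.coeff_coe P j
  rwa [if_pos hj'] at h1

theorem orderTop_ofPowerSeries_pos (P : PowerSeries Ω) (hP : PowerSeries.constantCoeff P = 0) :
    (1 : ℤ) ≤ (HahnSeries.ofPowerSeries ℤ Ω P).orderTop := by
  rw [HahnSeries.le_orderTop_iff_forall]
  intro j hj
  have hj' : j < 1 := by exact_mod_cast hj
  have h1 := PowerSeries.coeff_coe P j
  by_cases h : j < 0
  · rwa [if_pos h] at h1
  · have h0 : j = 0 := by omega
    subst h0
    rw [if_neg (lt_irrefl _), Int.natAbs_zero, PowerSeries.coeff_zero_eq_constantCoeff_apply,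
      hP] at h1
    exact h1

theorem algebraMap_laurent (a : Ω) : algebraMap Ω (LaurentSeries Ω) a =
    HahnSeries.ofPowerSeries ℤ Ω (PowerSeries.C a) := by
  rfl

theorem transcendental_X : Transcendental Ω (HahnSeries.ofPowerSeries ℤ Ω PowerSeries.X) := by
  rw [transcendental_iff]
  intro p hp
  let ψ : Polynomial Ω →+* LaurentSeries Ω :=
    (HahnSeries.ofPowerSeries ℤ Ω).comp Polynomial.coeToPowerSeries.ringHom
  have h1 : (Polynomial.aeval (HahnSeries.ofPowerSeries ℤ Ω PowerSeries.X)).toRingHom = ψ := by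
    apply Polynomial.ringHom_ext
    · intro a
      change Polynomial.aeval _ (Polynomial.C a) = HahnSeries.ofPowerSeries ℤ Ω (Polynomial.C a : Polynomial Ω)
      rw [Polynomial.aeval_C, Polynomial.coe_C]
      exact algebraMap_laurent a
    · change Polynomial.aeval _ Polynomial.X = HahnSeries.ofPowerSeries ℤ Ω (Polynomial.X : Polynomial Ω)
      rw [Polynomial.aeval_X, Polynomial.coe_X]
  have h2 : ψ p = 0 := by
    rw [← h1]
    exact hp
  have h3 : (p : PowerSeries Ω) = 0 :=
    HahnSeries.ofPowerSeries_injective (h2.trans (map_zero _).symm)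
  exact Polynomial.coe_eq_zero_iff.mp h3

end Laurent

end Fermat.Agent.S26T.Line

namespace Fermat.Agent.S26T.GVar

open SmoothCoords Line AlgebraicGeometry AlgebraicCurve

variable {K : Type u} [Field K] (X : GVar K) {Ω : Type u} [Field Ω] [Algebra K Ω]

/-- The generic curve through the origin. -/
theorem exists_curve (g : ℕ) [SmoothOfRelativeDimension g X.f] (y : Fin g → Ω)
    (hy : AlgebraicIndependent K y) :
    ∃ (kC : Type u) (_ : Field kC) (_ : Algebra Ω kC) (_ : Fermat.FF.IsFF1 Ω kC)
    (σ : X.F →+* kC) (x₀ : Place Ω kC),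
      (∀ c : K, σ (algebraMap K X.F c) = algebraMap Ω kC (algebraMap K Ω c)) ∧
      (∀ x : X.O (X.pt (0 : X.Pt K)), σ (x : X.F) ∈ x₀.toValuationSubring) ∧
      (∀ x ∈ X.m (X.pt (0 : X.Pt K)), x₀.adicValuation (σ (x : X.F)) < 1) := by
  classical
  obtain ⟨C, hfin⟩ := X.exists_coord' g (0 : X.Pt K)
  set L₀ := IntermediateField.adjoin K (Set.range fun i => (C.t i : X.F)) with hL₀
  let j : X.O (X.pt (0 : X.Pt K)) →+* LaurentSeries Ω :=
    (HahnSeries.ofPowerSeries ℤ Ω).comp ((lineMap y).comp C.ι.toRingHom)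
  have hj : Function.Injective j :=
    HahnSeries.ofPowerSeries_injective.comp ((lineMap_injective hy).comp C.ι_injective)
  let σ₀ : X.F →+* LaurentSeries Ω := IsFractionRing.lift hj
  have hσ₀ : ∀ x : X.O (X.pt (0 : X.Pt K)), σ₀ (x : X.F) = j x :=
    fun x => IsFractionRing.lift_algebraMap hj x
  let T : LaurentSeries Ω := HahnSeries.ofPowerSeries ℤ Ω PowerSeries.X
  have hT : Transcendental Ω T := transcendental_X
  let E₀ : IntermediateField Ω (LaurentSeries Ω) := IntermediateField.adjoin Ω {T}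
  have hE₀ : Fermat.FF.IsFF1 Ω E₀ := Fermat.FF.Gen.isFF1_adjoin hT
  have hTE : T ∈ E₀ := IntermediateField.subset_adjoin _ _ rfl
  -- constants
  have hc : ∀ c : K, σ₀ (algebraMap K X.F c) = algebraMap Ω (LaurentSeries Ω) (algebraMap K Ω c) := by
    intro c
    have h1 := hσ₀ (algebraMap K _ c)
    refine h1.trans ?_
    change HahnSeries.ofPowerSeries ℤ Ω (lineMap y (C.ι (algebraMap K _ c))) = _
    rw [AlgHom.commutes, MvPowerSeries.algebraMap_apply, Algebra.algebraMap_self,
      RingHom.id_apply, lineMap_C]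
    rfl
  -- the field generated by the coordinates goes into `Ω(T)`
  have hL : ∀ x ∈ L₀, σ₀ x ∈ E₀ := by
    intro x hx
    induction hx using IntermediateField.adjoin_induction with
    | mem x hx =>
      obtain ⟨i, rfl⟩ := hx
      have h1 : σ₀ (C.t i : X.F) = algebraMap Ω (LaurentSeries Ω) (y i) * T := by
        rw [hσ₀]
        change HahnSeries.ofPowerSeries ℤ Ω (lineMap y (C.ι (C.t i))) = _
        rw [C.ι_t, lineMap_X, map_mul]
        rfl
      rw [h1]
      exact mul_mem (algebraMap_mem _ _) hTE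
    | algebraMap x =>
      rw [hc]
      exact algebraMap_mem _ _
    | add x y _ _ hx hy => rw [map_add]; exact add_mem hx hy
    | inv x _ hx => rw [map_inv₀]; exact inv_mem hx
    | mul x y _ _ hx hy => rw [map_mul]; exact mul_mem hx hy
  let f : L₀ →+* E₀ := (σ₀.comp L₀.val.toRingHom).codRestrict E₀.toSubfield fun x => hL x.1 x.2
  have hf : (algebraMap E₀ (LaurentSeries Ω)).comp f = σ₀.comp (algebraMap L₀ X.F) := rfl
  have hint : ∀ x : X.F, IsIntegral E₀ (σ₀ x) := by
    intro x
    have h1 : IsIntegral L₀ x := Algebra.IsIntegral.isIntegral x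
    exact h1.map_of_comp_eq f σ₀ hf
  obtain ⟨B, hB⟩ := hfin.fg_top
  let kC : IntermediateField E₀ (LaurentSeries Ω) := IntermediateField.adjoin E₀ (σ₀ '' B)
  have hkfin : FiniteDimensional E₀ kC := by
    have : Finite (σ₀ '' (B : Set X.F)) := (B.finite_toSet.image σ₀).to_subtype
    exact IntermediateField.finiteDimensional_adjoin
      (by rintro _ ⟨x, _, rfl⟩; exact hint x)
  have hkFF : Fermat.FF.IsFF1 Ω kC := Fermat.FF.Gen.isFF1_of_finite Ω E₀ kC
  have hσk : ∀ x, σ₀ x ∈ kC := by
    intro x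
    have hx : x ∈ Submodule.span L₀ (B : Set X.F) := hB ▸ Submodule.mem_top
    induction hx using Submodule.span_induction with
    | mem x hx => exact IntermediateField.subset_adjoin _ _ ⟨x, hx, rfl⟩
    | zero => rw [map_zero]; exact zero_mem _
    | add x y _ _ hx hy => rw [map_add]; exact add_mem hx hy
    | smul c x _ hx =>
      rw [Algebra.smul_def, map_mul]
      exact mul_mem (algebraMap_mem kC (f c)) hx
  let σ : X.F →+* kC := σ₀.codRestrict kC.toSubfield hσk
  have hTk : T ∈ kC := algebraMap_mem kC (⟨T, hTE⟩ : E₀)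
  let ι : kC →+* LaurentSeries Ω := algebraMap kC (LaurentSeries Ω)
  have hT0 : T ≠ 0 := fun h => by
    rw [h] at hT
    exact hT (isAlgebraic_zero)
  have hTord : T.orderTop = ((1 : ℤ) : WithTop ℤ) := by
    change (HahnSeries.ofPowerSeries ℤ Ω PowerSeries.X).orderTop = _
    rw [HahnSeries.ofPowerSeries_X, HahnSeries.orderTop_single one_ne_zero]
  have hcons : ∀ c : Ω, 0 ≤ (ι (algebraMap Ω kC c)).orderTop := by
    intro c
    have h1 : ι (algebraMap Ω kC c) = HahnSeries.ofPowerSeries ℤ Ω (PowerSeries.C c) := rfl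
    rw [h1]
    exact orderTop_ofPowerSeries_nonneg _
  have hneg : (ι (⟨T, hTk⟩ : kC)⁻¹).orderTop < 0 := by
    have h1 := Fermat.FF.addVal_inv (HahnSeries.addVal ℤ Ω) hT0 hTord
    have h2 : ι (⟨T, hTk⟩ : kC)⁻¹ = T⁻¹ := map_inv₀ ι _
    rw [h2]
    change HahnSeries.addVal ℤ Ω T⁻¹ < 0
    rw [h1]
    exact_mod_cast (by norm_num : (-1 : ℤ) < 0)
  obtain ⟨x₀, hx₀, e, he, hord⟩ := Fermat.FF.exists_place_of_hom ι hcons _ hneg
  refine ⟨kC, inferInstance, inferInstance, hkFF, σ, x₀, ?_, ?_, ?_⟩
  · intro c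
    exact Subtype.ext (hc c)
  · intro x
    rw [hx₀]
    have h1 : ι (σ (x : X.F)) = j x := hσ₀ x
    rw [h1]
    exact orderTop_ofPowerSeries_nonneg _
  · intro x hx
    by_cases hx0 : σ (x : X.F) = 0
    · rw [hx0, map_zero]
      exact zero_lt_one
    have h1 : ι (σ (x : X.F)) = j x := hσ₀ x
    have h2 : (1 : ℤ) ≤ (ι (σ (x : X.F))).orderTop := by
      rw [h1]
      apply orderTop_ofPowerSeries_pos
      rw [RingHom.comp_apply, constantCoeff_lineMap]
      have h3 := (C.mem_maximalIdeal_iff x).mp hx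
      rw [C.res_apply] at h3
      exact (congrArg (algebraMap K Ω) h3).trans (map_zero _)
    rw [hord _ hx0] at h2
    have h4 : 0 < x₀.ord (σ (x : X.F)) := by
      have h5 : (1 : ℤ) ≤ e * x₀.ord (σ (x : X.F)) := by exact_mod_cast h2
      by_contra h6
      rw [not_lt] at h6
      nlinarith
    exact (Fermat.FF.val_lt_one_iff x₀).mpr (Or.inr h4)

end Fermat.Agent.S26T.GVar

namespace Fermat.Agent.AV.Sch

open Fermat.Agent.S26T AlgebraicGeometry

variable {K : Type u} [Field K]

/-- Package P3: all facts about the Cartier divisor and the generic curve. -/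
theorem exists_divInput (X : GVar K) (g : ℕ) [SmoothOfRelativeDimension g X.f] [IsAlgClosed K] :
    ∃ (Ω : Type u) (_ : Field Ω) (_ : IsAlgClosed Ω) (_ : Algebra K Ω) (𝓛 : LocEq X),
      DivInput 𝓛 Ω g := by
  let P := MvPolynomial (Fin g) K
  let Q := FractionRing P
  let Ω := AlgebraicClosure Q
  let : Algebra K Ω := ((algebraMap Q Ω).comp ((algebraMap P Q).comp (algebraMap K P))).toAlgebra
  obtain ⟨𝓛, -, h1, h2, h3⟩ := X.exists_locEq g
  refine ⟨Ω, inferInstance, inferInstance, inferInstance, 𝓛, ?_, h1, h2, h3, ?_⟩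
  · intro a
    obtain ⟨C⟩ := X.exists_coord g a
    exact ⟨C.t, C.maximalIdeal_eq_span⟩
  · let j : P →ₐ[K] Ω := { toRingHom := (algebraMap Q Ω).comp (algebraMap P Q), commutes' := fun _ => rfl }
    have hj : Function.Injective j :=
      (algebraMap Q Ω).injective.comp (IsFractionRing.injective P Q)
    exact X.exists_curve g (j ∘ MvPolynomial.X) ((MvPolynomial.algebraicIndependent_X _ _).map' hj)

end Fermat.Agent.AV.Sch
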