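import Mathlib
import Fermat.Agent.AV.FF

/-!
# Translations, torsion points and generic points (team AV = S26)
-/

set_option autoImplicit false
set_option linter.unusedSectionVars false

noncomputable section

open CategoryTheory CategoryTheory.Limits AlgebraicGeometry NeronModelInfra GoodReductionJacobian
  IsLocalRing

universe u

namespace Fermat.Agent.AV

namespace AVar

variable {K : Type u} [Field K] {X : AVar K}

section Integral

variable [IsIntegral X.A]

variable (X) in
/-- Translations acting on the function field. -/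
def tau (a : X.P0) : X.FF ≃ₐ[K] X.FF := ffEquiv (X.transIso a) (X.trans_over a)

theorem tau_apply (a : X.P0) (z : X.FF) :
    X.tau a z = ffMap (X.trans a) (X.trans_over a) (iso_gen (X.trans a)) z := rfl

/-- Two endomorphisms agreeing on the function field are equal. -/
theorem eq_of_ffMap [IsSeparated X.f] {ψ χ : X.A ⟶ X.A} (hψ : ψ ≫ X.f = X.f)
    (h : ψ X.gen = X.gen) (hχ : χ ≫ X.f = X.f) (h' : χ X.gen = X.gen)
    (e : ffMap ψ hψ h = ffMap χ hχ h') : ψ = χ := by
  have h1 : pull ψ (specializes_of_eq h) = pull χ (specializes_of_eq h') := by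
    ext z
    exact congrArg (fun ρ : X.FF →ₐ[K] X.FF => ρ z) e
  have h2 : X.A.fromSpecStalk X.gen ≫ ψ = X.A.fromSpecStalk X.gen ≫ χ := by
    rw [← isAt_pull ψ (specializes_of_eq h), ← isAt_pull χ (specializes_of_eq h'), h1]
  have h3 : IsDominant (X.A.fromSpecStalk X.gen) := by
    refine ⟨?_⟩
    have h4 : X.gen ∈ Set.range (X.A.fromSpecStalk X.gen) := by
      rw [Scheme.range_fromSpecStalk]
      exact specializes_refl _
    rw [DenseRange, dense_iff_closure_eq, Set.eq_univ_iff_forall]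
    intro x
    exact closure_mono (Set.singleton_subset_iff.mpr h4)
      ((X.gen_specializes x).mem_closure)
  exact ext_of_isDominant_of_isSeparated X.f (hψ.trans hχ.symm) (X.A.fromSpecStalk X.gen) h2

theorem tau_injective [IsSeparated X.f] : Function.Injective X.tau := by
  intro a b h
  apply X.trans_injective
  apply eq_of_ffMap (X.trans_over a) (iso_gen _) (X.trans_over b) (iso_gen _)
  ext z
  exact congrArg (fun ρ : X.FF ≃ₐ[K] X.FF => ρ z) h

end Integral

section Noetherian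

variable [IsIntegral X.A] [LocallyOfFiniteType X.f]

theorem tau_muAlg (n : ℕ) (hn : (n : K) ≠ 0) (a : X.P0) (ha : n • a = 0) (z : X.FF) :
    X.tau a (X.muAlg n hn z) = X.muAlg n hn z := by
  have h1 : (X.trans a ≫ X.mulN n) ≫ X.f = X.f := by
    rw [Category.assoc, X.mulN_over, X.trans_over]
  have h2 : (X.trans a ≫ X.mulN n) X.gen = X.gen := by
    rw [X.trans_comp_mulN a n ha, X.mulN_gen n hn]
  have h3 := ffMap_comp (X.trans a) (X.mulN n) (X.trans_over a) (iso_gen _) (X.mulN_over n)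
    (X.mulN_gen n hn) h1 h2 z
  refine h3.symm.trans ?_
  rw [ffMap_congr (X.trans_comp_mulN a n ha) h1 h2 (X.mulN_over n) (X.mulN_gen n hn)]
  rfl

theorem mulN_pnt_torsion {n : ℕ} {a : X.P0} (ha : n • a = 0) :
    X.mulN n (X.pnt a) = X.pnt 0 := by
  rw [mulN_pnt, ha]

theorem muAlg_mem (n : ℕ) (hn : (n : K) ≠ 0) (a : X.P0) (ha : n • a = 0) (z : X.FF)
    (hz : z ∈ X.loc (X.pnt 0)) : X.muAlg n hn z ∈ X.loc (X.pnt a) :=
  ffMap_mem_loc _ _ _ (specializes_of_eq (mulN_pnt_torsion ha)) hz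

/-- `m_a` is generated by `[n]^♯ m_0` if `n a = 0`. -/
theorem maximalIdeal_le_span_torsion (n : ℕ) (hn : (n : K) ≠ 0) (a : X.P0) (ha : n • a = 0) :
    maximalIdeal (X.A.presheaf.stalk (X.pnt a)) ≤ Ideal.span
      (pullAlg (X.mulN n) (X.mulN_over n) (specializes_of_eq (mulN_pnt_torsion ha)) ''
        maximalIdeal (X.A.presheaf.stalk (X.pnt 0))) := by
  have e1 : X.trans a (X.pnt 0) = X.pnt a := by rw [trans_pnt, zero_add]
  have e2 : X.trans (-a) (X.pnt a) = X.pnt 0 := by rw [trans_pnt, add_neg_cancel]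
  set p1 := pullAlg (X.mulN n) (X.mulN_over n) (specializes_of_eq (mulN_pnt_torsion ha)) with hp1
  set p2 := pullAlg (X.trans a) (X.trans_over a) (specializes_of_eq e1) with hp2
  set p3 := pullAlg (X.trans (-a)) (X.trans_over (-a)) (specializes_of_eq e2) with hp3
  have h32 : ∀ z, p3 (p2 z) = z := by
    intro z
    have h1 : (X.trans (-a) ≫ X.trans a) = 𝟙 _ := by
      rw [trans_comp_trans, neg_add_cancel, trans_zero]
    have h2 : (X.trans (-a) ≫ X.trans a) (X.pnt a) ⤳ X.pnt a := by rw [h1]; exact specializes_refl _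
    have h3 := pull_comp_pull (X.trans (-a)) (X.trans a) (specializes_of_eq e2)
      (specializes_of_eq e1) h2
    have h4 : pull (X.trans (-a) ≫ X.trans a) h2 = 𝟙 _ := by
      apply pull_eq_of_isAt
      rw [h1, Category.comp_id]
      exact isAt_fromSpecStalk _
    rw [h4] at h3
    exact congrArg (fun ρ : X.A.presheaf.stalk (X.pnt a) ⟶ X.A.presheaf.stalk (X.pnt a) =>
      ρ.hom z) h3
  have h12 : ∀ z, p2 (p1 z) = X.psi n z := by
    intro z
    have h2 : (X.trans a ≫ X.mulN n) (X.pnt 0) ⤳ X.pnt 0 := by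
      rw [X.trans_comp_mulN a n ha, mulN_pnt, smul_zero]
    have h3 := pull_comp_pull (X.trans a) (X.mulN n) (specializes_of_eq e1)
      (specializes_of_eq (mulN_pnt_torsion ha)) h2
    have h4 : pull (X.trans a ≫ X.mulN n) h2 =
        pull (X.mulN n) (specializes_of_eq (by rw [mulN_pnt, smul_zero])) := by
      apply pull_eq_of_isAt
      rw [X.trans_comp_mulN a n ha]
      exact isAt_pull _ _
    rw [h4] at h3
    exact congrArg (fun ρ : X.A.presheaf.stalk (X.pnt 0) ⟶ X.A.presheaf.stalk (X.pnt 0) =>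
      ρ.hom z) h3
  intro y hy
  have hloc : IsLocalHom (pull (X.trans (-a)) (specializes_of_eq e2)).hom :=
    isLocalHom_pull _ _ e2
  have h5 : p2 y ∈ maximalIdeal (X.A.presheaf.stalk (X.pnt 0)) := by
    rw [mem_maximalIdeal, mem_nonunits_iff] at hy ⊢
    intro h
    apply hy
    have := h.map p3
    rwa [h32] at this
  have h6 := X.maximalIdeal_le_span n hn h5
  have h7 : p3 (p2 y) ∈ (Ideal.span (X.psi n '' maximalIdeal (X.A.presheaf.stalk (X.pnt 0)))).map
    p3 := Ideal.mem_map_of_mem _ h6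
  rw [h32, Ideal.map_span] at h7
  refine Ideal.span_mono ?_ h7
  rintro _ ⟨_, ⟨z, hz, rfl⟩, rfl⟩
  refine ⟨z, hz, ?_⟩
  rw [← h12, h32]

/-- The same statement in the function field. -/
theorem maximalIdeal_le_span_FF (n : ℕ) (hn : (n : K) ≠ 0) (a : X.P0) (ha : n • a = 0) :
    maximalIdeal (X.loc (X.pnt a)) ≤ Ideal.span {y : X.loc (X.pnt a) |
      ∃ x ∈ maximalIdeal (X.loc (X.pnt 0)), (y : X.FF) = X.muAlg n hn (x : X.FF)} := by
  intro y hy
  obtain ⟨y, rfl⟩ := (X.locEquiv (X.pnt a)).surjective y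
  rw [locEquiv_mem] at hy
  have h1 := maximalIdeal_le_span_torsion n hn a ha hy
  have h2 := Ideal.mem_map_of_mem (X.locEquiv (X.pnt a) : _ →+* X.loc (X.pnt a)) h1
  rw [Ideal.map_span] at h2
  refine Ideal.span_mono ?_ h2
  rintro _ ⟨_, ⟨z, hz, rfl⟩, rfl⟩
  refine ⟨X.locEquiv _ z, (locEquiv_mem _ _).mpr hz, ?_⟩
  exact (ffMap_toFF _ _ _ _ z).symm

theorem exists_finite_open : ∃ (B : Type u) (_ : CommRing B) (_ : IsDomain B) (_ : Algebra K B)
    (_ : Algebra B X.FF) (_ : IsScalarTower K B X.FF) (_ : Algebra.FiniteType K B),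
      IsFractionRing B X.FF := by
  obtain ⟨_, ⟨U, hU, rfl⟩, hxU, -⟩ := X.A.isBasis_affineOpens.exists_subset_of_mem_open
    (Set.mem_univ X.gen) isOpen_univ
  have hne : Nonempty U := ⟨⟨_, hxU⟩⟩
  let algB : Algebra K Γ(X.A, U) := (X.kHom (R := Γ(X.A, U)) hU.fromSpec).toAlgebra
  have hfin : Algebra.FiniteType K Γ(X.A, U) := by
    have h0 : IsOpenImmersion hU.fromSpec := IsAffineOpen.isOpenImmersion_fromSpec hU
    have h1 : LocallyOfFiniteType (hU.fromSpec ≫ X.f) := inferInstance
    rw [← spec_kHom] at h1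
    exact (HasRingHomProperty.Spec_iff (P := @LocallyOfFiniteType)).mp h1
  let algF : Algebra Γ(X.A, U) X.FF := inferInstanceAs (Algebra Γ(X.A, U) X.A.functionField)
  refine ⟨Γ(X.A, U), inferInstance, inferInstance, algB, algF, ?_, hfin,
      functionField_isFractionRing_of_isAffineOpen X.A U hU⟩
  apply IsScalarTower.of_algebraMap_eq
  intro c
  have h3 : Spec.map (X.A.presheaf.germ U X.gen hxU) ≫ hU.fromSpec =
    X.A.fromSpecStalk X.gen := hU.fromSpecStalk_eq_fromSpecStalk hxU
  have h4 := kHom_comp (X := X) (R := Γ(X.A, U)) hU.fromSpec (X.A.presheaf.germ U X.gen hxU)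
  rw [h3] at h4
  exact congrArg (fun ρ : K →+* X.A.presheaf.stalk X.gen => ρ c) h4

theorem trdeg_lt : Algebra.trdeg K X.FF < Cardinal.aleph0 := by
  obtain ⟨B, _, _, _, _, _, _, _⟩ := X.exists_finite_open
  have h1 : Algebra.trdeg K B + Algebra.trdeg B X.FF = Algebra.trdeg K X.FF :=
    trdeg_add_eq K B
  have h2 : Algebra.trdeg B X.FF = 0 := by
    rw [trdeg_eq_zero_iff]
    exact IsLocalization.isAlgebraic _ (nonZeroDivisors B)
  rw [← h1, h2, add_zero]
  exact trdeg_lt_aleph0_of_finiteType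

end Noetherian

end AVar

end Fermat.Agent.AV
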