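import Mathlib
import Fermat.Agent.AV.MulN

/-!
# Generic points, divisibility and torsion (team AV = S26)
-/

set_option autoImplicit false
set_option linter.unusedSectionVars false

noncomputable section

open CategoryTheory CategoryTheory.Limits AlgebraicGeometry NeronModelInfra GoodReductionJacobian
  IsLocalRing

universe u

namespace Fermat.Agent.AV

namespace AVar

variable {K : Type u} [Field K] {X : AVar K}

section Gen

variable [IsIntegral X.A] {k k' : Type u} [Field k] [Field k']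
  {t : Spec (CommRingCat.of k) ⟶ Spec (CommRingCat.of K)}
  {t' : Spec (CommRingCat.of k') ⟶ Spec (CommRingCat.of K)}

/-- The morphism of `CommRingCat` attached to a homomorphism from the function field. -/
def ffHom (σ : X.FF →+* k) : X.A.presheaf.stalk X.gen ⟶ CommRingCat.of k :=
  CommRingCat.ofHom (R := X.A.presheaf.stalk X.gen) (S := k) σ

/-- `Q` hits the generic point and induces `σ`. -/
def IsGen (Q : X.Pt t) (σ : X.FF →+* k) : Prop :=
  IsAt (R := CommRingCat.of k) Q.1 X.gen (ffHom σ)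

theorem IsGen.unique {Q : X.Pt t} {σ σ' : X.FF →+* k} (h : IsGen Q σ) (h' : IsGen Q σ') :
    σ = σ' :=
  congrArg (fun ρ : X.A.presheaf.stalk X.gen ⟶ CommRingCat.of k => ρ.hom) (IsAt.unique h h')

theorem IsGen.algebraMap {ρ : K →+* k} {Q : X.Pt (Spec.map (CommRingCat.ofHom ρ))}
    {σ : X.FF →+* k} (h : IsGen Q σ) (c : K) : σ (algebraMap K X.FF c) = ρ c := by
  have h1 := IsAt.comp_algebraMap h
  rw [kHom_eq (X := X) (R := CommRingCat.of k) Q.2] at h1
  exact congrArg (fun τ : K →+* k => τ c) h1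

theorem IsGen.comp {Q : X.Pt t} {σ : X.FF →+* k} (h : IsGen Q σ) (i : k →+* k')
    (ht : Spec.map (CommRingCat.ofHom i) ≫ t = t') :
    IsGen (Pt.comp (Spec.map (CommRingCat.ofHom i)) ht Q) (i.comp σ) :=
  IsAt.comp h (CommRingCat.ofHom i)

theorem isUnit_of_hom (σ : X.FF →+* k) (x : X.FF) (h : IsUnit (σ x)) : IsUnit x :=
  IsUnit.mk0 x (fun h0 => h.ne_zero (by rw [h0, map_zero]))

theorem IsGen.apply_closedPoint {Q : X.Pt t} {σ : X.FF →+* k} (h : IsGen Q σ) :
    Q.1 (closedPoint k) = X.gen := by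
  refine IsAt.apply_closedPoint (R := CommRingCat.of k) h ⟨fun x hx => ?_⟩
  exact isUnit_of_hom σ x hx

theorem exists_isGen {Q : X.Pt t} (h : Q.1 (closedPoint k) = X.gen) : ∃ σ, IsGen Q σ := by
  obtain ⟨φ, hφ⟩ := exists_isAt (R := CommRingCat.of k) Q.1 (specializes_of_eq h)
  exact ⟨φ.hom, hφ⟩

theorem IsGen.endo {Q Q' : X.Pt t} {σ : X.FF →+* k} (h : IsGen Q σ) (ψ : X.A ⟶ X.A)
    (hψ : ψ ≫ X.f = X.f) (h' : ψ X.gen = X.gen) (e : Q.1 ≫ ψ = Q'.1) :
    IsGen Q' (σ.comp (ffMap ψ hψ h' : X.FF →+* X.FF)) := by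
  have h1 := IsAt.pull h ψ (specializes_of_eq h')
  rw [e] at h1
  exact h1

theorem IsGen.neg {Q : X.Pt t} {σ : X.FF →+* k} (h : IsGen Q σ) :
    IsGen (-Q) (σ.comp (ffMap X.inversion X.inversion_over (iso_gen _) : X.FF →+* X.FF)) :=
  h.endo _ _ _ (comp_inversion Q)

theorem IsGen.nsmul [LocallyOfFiniteType X.f] {Q : X.Pt t} {σ : X.FF →+* k} (h : IsGen Q σ)
    (n : ℕ) (hn : (n : K) ≠ 0) : IsGen (n • Q) (σ.comp (X.muAlg n hn : X.FF →+* X.FF)) :=
  h.endo _ _ _ (comp_mulN Q n)

/-- A point `q` such that `n q` is generic is generic. -/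
theorem eq_gen_of_mulN [LocallyOfFiniteType X.f] (n : ℕ) (hn : (n : K) ≠ 0) (q : X.A)
    (hq : X.mulN n q = X.gen) : q = X.gen := by
  have h1 : ∀ z : X.FF, X.muAlg n hn z ∈ X.loc q := by
    intro z
    refine ffMap_mem_loc _ _ _ (y := X.gen) (specializes_of_eq hq) ?_
    refine ⟨z, ?_⟩
    have h2 : pull (𝟙 X.A) (specializes_refl X.gen) = 𝟙 _ := pull_id _
    exact congrArg (fun ρ : X.A.presheaf.stalk X.gen ⟶ X.A.presheaf.stalk X.gen => ρ.hom z) h2
  have h2 : IsField (X.A.presheaf.stalk q) := by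
    refine ⟨⟨0, 1, zero_ne_one⟩, mul_comm, ?_⟩
    intro x hx
    have h3 := inv_mem_of_endomorphism X.trdeg_lt (X.muAlg n hn) (X.loc q).toSubring h1
      (x := X.toFF q x) (toFF_mem q x)
    obtain ⟨y, hy⟩ := h3
    refine ⟨y, toFF_injective q ?_⟩
    have hx' : X.toFF q x ≠ 0 := by
      rw [Ne, map_eq_zero_iff _ (toFF_injective q)]
      exact hx
    have hy' : X.toFF q y = (X.toFF q x)⁻¹ := hy
    rw [map_mul, hy', map_one, mul_inv_cancel₀ hx']
  have h3 : closedPoint (X.A.presheaf.stalk q) = (⊥ : PrimeSpectrum (X.A.presheaf.stalk q)) := by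
    apply PrimeSpectrum.ext
    exact isField_iff_maximalIdeal_eq.mp h2
  have h4 := fromSpecStalk_bot q
  rw [← h3, Scheme.fromSpecStalk_closedPoint] at h4
  exact h4

set_option backward.isDefEq.respectTransparency.types false in
theorem exists_isGen_of_nsmul [LocallyOfFiniteType X.f] (n : ℕ) (hn : (n : K) ≠ 0) {Q : X.Pt t}
    {σ : X.FF →+* k} (h : IsGen (n • Q) σ) : ∃ σ', IsGen Q σ' := by
  apply exists_isGen
  apply eq_gen_of_mulN n hn
  rw [← h.apply_closedPoint, ← comp_mulN, Scheme.Hom.comp_apply]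

end Gen

section Proper

variable [IsIntegral X.A] [IsProper X.f]

theorem isProper_mulN (n : ℕ) : IsProper (X.mulN n) := by
  have h1 : IsProper (X.mulN n ≫ X.f) := by
    rw [X.mulN_over]
    infer_instance
  exact IsProper.of_comp _ X.f

theorem surjective_mulN (n : ℕ) (hn : (n : K) ≠ 0) : Surjective (X.mulN n) := by
  have := X.isProper_mulN n
  have h1 : IsDominant (X.mulN n) := by
    refine ⟨?_⟩
    rw [DenseRange, dense_iff_closure_eq, Set.eq_univ_iff_forall]
    intro x
    have h4 : X.gen ∈ Set.range (X.mulN n) := ⟨X.gen, X.mulN_gen n hn⟩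
    exact closure_mono (Set.singleton_subset_iff.mpr h4)
      ((X.gen_specializes x).mem_closure)
  exact surjective_of_isDominant_of_isClosed_range _ (X.mulN n).isClosedMap.isClosed_range

variable [IsAlgClosed K]

theorem pnt_isClosed (a : X.P0) : IsClosed {X.pnt a} :=
  ((pointEquivClosedPoint X.f) ⟨a.1, a.2⟩).2

theorem exists_pnt_eq {x : X.A} (hx : IsClosed {x}) : ∃ a : X.P0, X.pnt a = x :=
  ⟨⟨pointOfClosedPoint X.f x hx, pointOfClosedPoint_comp X.f x hx⟩,
    pointOfClosedPoint_apply X.f x hx _⟩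

theorem pnt_injective : Function.Injective X.pnt := fun a b h =>
  Pt.ext (ext_of_apply_closedPoint_eq X.f a.2 b.2 h)

theorem divisible (n : ℕ) (hn : (n : K) ≠ 0) (a : X.P0) : ∃ b : X.P0, n • b = a := by
  have := X.surjective_mulN n hn
  obtain ⟨q, hq⟩ := (X.mulN n).surjective (X.pnt a)
  have hcl : IsClosed (X.mulN n ⁻¹' {X.pnt a}) :=
    (pnt_isClosed a).preimage (X.mulN n).continuous
  have hJ : JacobsonSpace X.A := LocallyOfFiniteType.jacobsonSpace X.f
  obtain ⟨z, hz, hz'⟩ := nonempty_inter_closedPoints (X := X.A) ⟨q, hq⟩ hcl.isLocallyClosed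
  obtain ⟨b, hb⟩ := exists_pnt_eq hz'
  refine ⟨b, pnt_injective ?_⟩
  rw [← mulN_pnt, hb]
  exact hz

/-- A torsion point hits a closed point. -/
theorem eq_pnt_of_mulN (n : ℕ) (hn : (n : K) ≠ 0) (w : X.A) (hw : X.mulN n w = X.pnt 0) :
    ∃ b : X.P0, n • b = 0 ∧ w = X.pnt b := by
  have hJ : JacobsonSpace X.A := LocallyOfFiniteType.jacobsonSpace X.f
  obtain ⟨z, hz, hz'⟩ := nonempty_inter_closedPoints (X := X.A) (Z := closure {w})
    ⟨w, subset_closure rfl⟩ isClosed_closure.isLocallyClosed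
  have hcl : IsClosed (X.mulN n ⁻¹' {X.pnt 0}) :=
    (pnt_isClosed 0).preimage (X.mulN n).continuous
  have hz2 : z ∈ X.mulN n ⁻¹' {X.pnt 0} :=
    closure_minimal (s := {w}) (t := X.mulN n ⁻¹' {X.pnt 0})
      (Set.singleton_subset_iff.mpr hw) hcl hz
  obtain ⟨b, rfl⟩ := exists_pnt_eq hz'
  have hb : n • b = 0 := by
    apply pnt_injective
    rw [← mulN_pnt]
    exact hz2
  refine ⟨b, hb, ?_⟩
  have hs : w ⤳ X.pnt b := specializes_iff_mem_closure.mpr hz
  have h1 := maximalIdeal_le_span_torsion n hn b hb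
  have h2 := pull_comp_specializes (X.mulN n) (specializes_of_eq (mulN_pnt_torsion hb)) hs
    (specializes_of_eq hw)
  have h3 : IsLocalHom (pull (X.mulN n) (specializes_of_eq hw)).hom := isLocalHom_pull _ _ hw
  have h4 : maximalIdeal (X.A.presheaf.stalk (X.pnt b)) ≤
      (maximalIdeal (X.A.presheaf.stalk w)).comap (X.A.presheaf.stalkSpecializes hs).hom := by
    refine h1.trans ?_
    rw [Ideal.span_le]
    rintro _ ⟨x, hx, rfl⟩
    have h5 : (X.A.presheaf.stalkSpecializes hs).hom (pullAlg (X.mulN n) (X.mulN_over n)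
      (specializes_of_eq (mulN_pnt_torsion hb)) x) =
        (pull (X.mulN n) (specializes_of_eq hw)).hom x :=
      congrArg (fun ρ : X.A.presheaf.stalk (X.pnt 0) ⟶ X.A.presheaf.stalk w => ρ.hom x) h2
    show (X.A.presheaf.stalkSpecializes hs).hom (pullAlg (X.mulN n) (X.mulN_over n)
      (specializes_of_eq (mulN_pnt_torsion hb)) x) ∈ maximalIdeal (X.A.presheaf.stalk w)
    rw [h5]
    rw [SetLike.mem_coe, mem_maximalIdeal, mem_nonunits_iff] at hx
    rw [mem_maximalIdeal, mem_nonunits_iff]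
    exact fun h => hx (h3.map_nonunit x h)
  have h5 : (maximalIdeal (X.A.presheaf.stalk w)).comap
      (X.A.presheaf.stalkSpecializes hs).hom = maximalIdeal (X.A.presheaf.stalk (X.pnt b)) :=
    ((maximalIdeal.isMaximal _).eq_of_le
      (Ideal.comap_ne_top _ (maximalIdeal.isMaximal _).ne_top) h4).symm
  have h6 : Spec.map (X.A.presheaf.stalkSpecializes hs) (closedPoint (X.A.presheaf.stalk w)) =
      closedPoint (X.A.presheaf.stalk (X.pnt b)) := PrimeSpectrum.ext h5
  have h7 := congrArg (fun ρ : Spec (X.A.presheaf.stalk w) ⟶ X.A =>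
    ρ (closedPoint (X.A.presheaf.stalk w))) (Scheme.SpecMap_stalkSpecializes_fromSpecStalk hs)
  have h8 : X.A.fromSpecStalk (X.pnt b) (Spec.map (X.A.presheaf.stalkSpecializes hs)
    (closedPoint (X.A.presheaf.stalk w))) = X.A.fromSpecStalk w
      (closedPoint (X.A.presheaf.stalk w)) := h7
  rw [h6, Scheme.fromSpecStalk_closedPoint, Scheme.fromSpecStalk_closedPoint] at h8
  exact h8.symm

set_option backward.isDefEq.respectTransparency.types false in
/-- Points of which the image is a rational point are constant. -/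
theorem eq_const_of_apply {k : Type u} [Field k] {ρ : K →+* k}
    (a : X.Pt (Spec.map (CommRingCat.ofHom ρ))) (b : X.P0)
    (h : a.1 (closedPoint k) = X.pnt b) : Pt.const _ b = a := by
  obtain ⟨φ, hφ⟩ := exists_isAt (R := CommRingCat.of k) a.1 (specializes_of_eq h)
  have hloc := IsAt.isLocalHom (R := CommRingCat.of k) hφ h
  have h1 := (isAt_ev b).comp (CommRingCat.ofHom ρ)
  have h2 : φ = ev b ≫ CommRingCat.ofHom ρ := by
    ext x
    have h3 : φ.hom (x - algebraMap K _ ((ev b).hom x)) = 0 := by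
      by_contra h4
      have h5 := hloc.map_nonunit _ (IsUnit.mk0 (G₀ := k) _ h4)
      exact (mem_maximalIdeal _).mp (sub_ev_mem b x) h5
    have h6 : ∀ c : K, φ.hom (algebraMap K _ c) = ρ c := by
      intro c
      have h7 := hφ.comp_algebraMap
      rw [kHom_eq (X := X) (R := CommRingCat.of k) a.2] at h7
      exact congrArg (fun ρ : K →+* k => ρ c) h7
    rw [map_sub, sub_eq_zero] at h3
    exact h3.trans (h6 _)
  apply Pt.ext
  rw [← hφ, h2]
  exact h1.symm

set_option backward.isDefEq.respectTransparency.types false in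
/-- Torsion points are defined over `K`. -/
theorem exists_const_of_torsion {k : Type u} [Field k] {ρ : K →+* k} (n : ℕ) (hn : (n : K) ≠ 0)
    (a : X.Pt (Spec.map (CommRingCat.ofHom ρ))) (ha : n • a = 0) :
    ∃ b : X.P0, Pt.const _ b = a := by
  have h1 : X.mulN n (a.1 (closedPoint k)) = X.pnt 0 := by
    have h2 : a.1 ≫ X.mulN n = Spec.map (CommRingCat.ofHom ρ) ≫ (0 : X.P0).1 := by
      rw [comp_mulN, ha, ← Pt.const_fst, map_zero]
    rw [← Scheme.Hom.comp_apply, h2, Scheme.Hom.comp_apply, pnt_def]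
    congr 1
    exact Subsingleton.elim (α := PrimeSpectrum K) _ _
  obtain ⟨b, -, hb⟩ := eq_pnt_of_mulN n hn _ h1
  exact ⟨b, eq_const_of_apply a b hb⟩

end Proper

section Div

variable [IsIntegral X.A] [IsProper X.f]

/-- Points over a field are divisible after a finite extension. -/
theorem exists_nsmul_eq {k : Type u} [Field k] {t : Spec (CommRingCat.of k) ⟶ Spec (CommRingCat.of K)}
    (n : ℕ) (hn : (n : K) ≠ 0) (φ : X.Pt t) :
    ∃ (k' : Type u) (_ : Field k') (i : k →+* k') (φ' : X.Pt (Spec.map (CommRingCat.ofHom i) ≫ t)),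
      i.Finite ∧ n • φ' = Pt.comp (Spec.map (CommRingCat.ofHom i)) rfl φ := by
  have hs := X.surjective_mulN n hn
  have hp := X.isProper_mulN n
  let W := pullback φ.1 (X.mulN n)
  let g : W ⟶ Spec (CommRingCat.of k) := pullback.fst φ.1 (X.mulN n)
  have hg : LocallyOfFiniteType g := inferInstance
  have hg' : Surjective g := inferInstance
  have hJ : JacobsonSpace W := LocallyOfFiniteType.jacobsonSpace g
  obtain ⟨w0, -⟩ := g.surjective (closedPoint k)
  obtain ⟨w, -, hw⟩ := nonempty_inter_closedPoints (X := W) (Z := Set.univ) ⟨w0, trivial⟩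
    isClosed_univ.isLocallyClosed
  have hfin : IsFinite (W.fromSpecResidueField w ≫ g) := by
    have hw' : IsClosed {w} := hw
    rw [isClosed_singleton_iff_isClosedImmersion] at hw'
    rw [isFinite_iff_locallyOfFiniteType_of_jacobsonSpace]
    infer_instance
  let i : CommRingCat.of k ⟶ W.residueField w := Spec.preimage (W.fromSpecResidueField w ≫ g)
  have hi : Spec.map i = W.fromSpecResidueField w ≫ g := Spec.map_preimage _
  have e1 : (W.fromSpecResidueField w ≫ pullback.snd φ.1 (X.mulN n)) ≫ X.mulN n =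
      Spec.map i ≫ φ.1 := by
    rw [hi, Category.assoc, Category.assoc, ← pullback.condition]
  refine ⟨W.residueField w, inferInstance, i.hom,
    Pt.mk (W.fromSpecResidueField w ≫ pullback.snd φ.1 (X.mulN n)) ?_, ?_, ?_⟩
  · have e2 : (W.fromSpecResidueField w ≫ pullback.snd φ.1 (X.mulN n)) ≫ X.mulN n ≫ X.f =
        Spec.map i ≫ t := by
      rw [← Category.assoc, e1, Category.assoc]
      exact congrArg (fun τ => Spec.map i ≫ τ) φ.2
    rw [X.mulN_over n] at e2
    exact e2
  · rw [← hi] at hfin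
    exact (IsFinite.SpecMap_iff i).mp hfin
  · apply Pt.ext
    exact (comp_mulN _ n).symm.trans e1

end Div

end AVar

end Fermat.Agent.AV
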