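import Mathlib
import Fermat.Agent.AV.Gen
import Fermat.Agent.AV.SchemePt
import Fermat.Agent.AV.SchemeGeom

/-!
# Package P4 in the language of `GVar` (team AV = S26)

Generic points `IsGen`, the isogeny `[n]`, translations, torsion and divisibility for
`X : S26T.GVar K` and the points `Sch.Pt X Ω k`.
-/

set_option autoImplicit false
set_option linter.unusedSectionVars false

noncomputable section

open CategoryTheory AlgebraicGeometry IsLocalRing NeronModelInfra GoodReductionJacobian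
open Fermat.Agent.S26T

universe u

namespace Fermat.Agent.AV.Sch

variable {K : Type u} [Field K] (X : GVar K)

/-- The underlying `AVar`. -/
abbrev toAV : AVar K := ⟨X.A, X.f, X.L, X.comm⟩

instance : AlgebraicGeometry.IsIntegral (toAV X).A := X.isIntegral
instance : IsProper (toAV X).f := X.isProper

variable {X}

theorem toFF_eq (w : X.A) (y : X.A.presheaf.stalk w) :
    (show X.A.functionField from (toAV X).toFF w y) =
      algebraMap (X.A.presheaf.stalk w) X.A.functionField y :=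
  AVar.toFF_apply (X := toAV X) w y

theorem algebraMap_generic (y : X.A.functionField) :
    @algebraMap (X.A.presheaf.stalk (genericPoint X.A)) X.A.functionField _ _
      (stalkFunctionFieldAlgebra X.A (genericPoint X.A)) y = y := by
  change (X.A.presheaf.stalkSpecializes (specializes_refl (genericPoint X.A))).hom y = y
  rw [TopCat.Presheaf.stalkSpecializes_refl]
  rfl

theorem algebraMap_FF (c : K) :
    (show X.A.functionField from algebraMap K (toAV X).FF c) =
      (show X.A.functionField from algebraMap K X.F c) :=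
  (algebraMap_generic (X := X) _).symm

theorem mem_loc_iff (w : X.A) (z : X.A.functionField) :
    (show (toAV X).FF from z) ∈ (toAV X).loc w ↔ (show X.F from z) ∈ X.O w := by
  constructor
  · rintro ⟨y, hy⟩
    exact ⟨y, (toFF_eq w y).symm.trans hy⟩
  · rintro ⟨y, hy⟩
    exact ⟨y, (toFF_eq w y).trans hy⟩

/-- The local rings in both languages. -/
def locIso (w : X.A) : (toAV X).loc w ≃+* X.O w where
  toFun z := ⟨z.1, (mem_loc_iff w z.1).mp z.2⟩
  invFun z := ⟨z.1, (mem_loc_iff w z.1).mpr z.2⟩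
  left_inv _ := rfl
  right_inv _ := rfl
  map_mul' _ _ := rfl
  map_add' _ _ := rfl

theorem locIso_mem (w : X.A) (z : (toAV X).loc w) :
    locIso w z ∈ X.m w ↔ z ∈ maximalIdeal ((toAV X).loc w) := by
  rw [GVar.m, mem_maximalIdeal, mem_maximalIdeal, mem_nonunits_iff, mem_nonunits_iff]
  exact not_congr (MulEquiv.isUnit_map (locIso w))

/-- Transport of endomorphisms of the function field. -/
def endF (φ : (toAV X).FF →ₐ[K] (toAV X).FF) : X.F →ₐ[K] X.F :=
  { (φ : (toAV X).FF →+* (toAV X).FF) with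
    commutes' := fun c => by
      have h := φ.commutes c
      have h1 : (show (toAV X).FF from algebraMap K X.F c) = algebraMap K (toAV X).FF c :=
        (algebraMap_FF c).symm
      exact (congrArg φ h1).trans (h.trans h1.symm) }

@[simp] theorem endF_apply (φ : (toAV X).FF →ₐ[K] (toAV X).FF) (z : X.F) :
    endF φ z = φ z := rfl

/-- Transport of automorphisms of the function field. -/
def autF (φ : (toAV X).FF ≃ₐ[K] (toAV X).FF) : X.F ≃ₐ[K] X.F :=
  AlgEquiv.ofAlgHom (endF φ.toAlgHom) (endF φ.symm.toAlgHom)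
    (by ext z; exact φ.apply_symm_apply z) (by ext z; exact φ.symm_apply_apply z)

@[simp] theorem autF_apply (φ : (toAV X).FF ≃ₐ[K] (toAV X).FF) (z : X.F) :
    autF φ z = φ z := rfl

theorem autF_injective : Function.Injective (autF : ((toAV X).FF ≃ₐ[K] (toAV X).FF) → _) := by
  intro φ φ' h
  ext z
  exact congrArg (fun q : X.F ≃ₐ[K] X.F => q z) h

section P0

/-- The identification of the points of `GVar` and `AVar`. -/
def gEquiv (R : Type u) [CommRing R] [Algebra K R] :
    X.Pt R ≃+ (toAV X).Pt (Spec.map (CommRingCat.ofHom (algebraMap K R))) where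
  toFun a := a
  invFun a := a
  left_inv _ := rfl
  right_inv _ := rfl
  map_add' _ _ := rfl

theorem gEquiv_fst (R : Type u) [CommRing R] [Algebra K R] (a : X.Pt R) :
    (gEquiv R a).1 = a.1 := rfl

theorem spec_algebraMap_self :
    Spec.map (CommRingCat.ofHom (algebraMap K K)) = 𝟙 (Spec (CommRingCat.of K)) :=
  Spec.map_id (CommRingCat.of K)

/-- Rational points in both languages. -/
def p0Equiv : X.Pt K ≃+ (toAV X).P0 :=
  (gEquiv K).trans (AddMonoidHom.toAddEquiv
    (AVar.Pt.comp (𝟙 _) ((Category.id_comp _).trans spec_algebraMap_self))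
    (AVar.Pt.comp (𝟙 _) ((Category.id_comp _).trans spec_algebraMap_self.symm))
    (by
      ext a
      apply AVar.Pt.ext
      simp)
    (by
      ext a
      apply AVar.Pt.ext
      simp))

theorem p0Equiv_fst (a : X.Pt K) : (p0Equiv a).1 = a.1 := Category.id_comp _

theorem pnt_p0Equiv (a : X.Pt K) : (toAV X).pnt (p0Equiv a) = X.pt a := by
  rw [AVar.pnt_def, p0Equiv_fst]
  rfl

end P0

section Points

variable {Ω : Type u} [Field Ω] [Algebra K Ω]

/-- The identification of the points of `Sch.Pt` and `AVar`. -/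
def sEquiv (k : Type u) [Field k] [Algebra Ω k] :
    Pt X Ω k ≃+ (toAV X).Pt (sp (toFld (K := K) Ω k)) where
  toFun a := a
  invFun a := a
  left_inv _ := rfl
  right_inv _ := rfl
  map_add' _ _ := rfl

theorem sEquiv_fst (k : Type u) [Field k] [Algebra Ω k] (Q : Pt X Ω k) :
    (sEquiv k Q).1 = Q.mor := rfl

variable (X Ω) in
/-- `A(K) → A(Ω)`. -/
def ptHom : X.Pt K →+ Pt X Ω Ω :=
  (sEquiv Ω).symm.toAddMonoidHom.comp
    ((AVar.Pt.const (X := toAV X) (sp (toFld (K := K) Ω Ω))).comp p0Equiv.toAddMonoidHom)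

theorem ptHom_mor (a : X.Pt K) : (ptHom X Ω a).mor = sp (toFld (K := K) Ω Ω) ≫ a.1 := by
  rw [← p0Equiv_fst]
  rfl

theorem ptHom_pt (a : X.Pt K) : (ptHom X Ω a).pt = X.pt a := by
  unfold Pt.pt
  rw [ptHom_mor]
  exact comp_closedPoint (toFld (K := K) Ω Ω) a.1

theorem ptHom_injective [IsAlgClosed K] : Function.Injective (ptHom X Ω) := by
  intro a b h
  apply p0Equiv.injective
  apply AVar.pnt_injective
  rw [pnt_p0Equiv, pnt_p0Equiv, ← ptHom_pt (Ω := Ω), ← ptHom_pt (Ω := Ω), h]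

/-- Torsion points are defined over `K`. -/
theorem ptHom_torsion [IsAlgClosed K] (n : ℕ) (hn : (n : K) ≠ 0) (a : Pt X Ω Ω)
    (ha : n • a = 0) : ∃ a₀ : X.Pt K, ptHom X Ω a₀ = a := by
  obtain ⟨b, hb⟩ := AVar.exists_const_of_torsion (X := toAV X) n hn (sEquiv Ω a)
    (by rw [← map_nsmul, ha, map_zero])
  refine ⟨p0Equiv.symm b, ?_⟩
  apply (sEquiv Ω).injective
  rw [← hb]
  show AVar.Pt.const (X := toAV X) (sp (toFld (K := K) Ω Ω)) (p0Equiv (p0Equiv.symm b)) = _
  rw [AddEquiv.apply_symm_apply]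

/-- `A(K)` is divisible. -/
theorem exists_nsmul_P0 [IsAlgClosed K] (n : ℕ) (hn : (n : K) ≠ 0) (a : X.Pt K) :
    ∃ b : X.Pt K, n • b = a := by
  obtain ⟨b, hb⟩ := AVar.divisible (X := toAV X) n hn (p0Equiv a)
  refine ⟨p0Equiv.symm b, ?_⟩
  rw [← map_nsmul, hb, AddEquiv.symm_apply_apply]

section Gen

variable {k k' : Type u} [Field k] [Algebra Ω k] [Field k'] [Algebra Ω k']

/-- Transport of homomorphisms from the function field. -/
def toFFHom (σ : X.F →+* k) : (toAV X).FF →+* k := σ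

@[simp] theorem toFFHom_apply (σ : X.F →+* k) (z : X.F) : toFFHom σ z = σ z := rfl

/-- `GenAt Q σ`: `Q` hits the generic point and induces `σ` on the function field. -/
def GenAt (Q : Pt X Ω k) (σ : X.F →+* k) : Prop :=
  AVar.IsGen (X := toAV X) (sEquiv k Q) (toFFHom σ)

theorem genAt_iff (Q : Pt X Ω k) (σ : X.F →+* k) : GenAt Q σ ↔
    Spec.map (CommRingCat.ofHom (R := X.A.presheaf.stalk X.η) (S := k) σ) ≫
      X.A.fromSpecStalk X.η = Q.mor := Iff.rfl

theorem genAt_iff_isGen (Q : Pt X Ω k) (σ : X.F →+* k) : GenAt Q σ ↔ IsGen Q σ := by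
  have key : ∀ hσ : ∀ c : K, σ (algebraMap K X.F c) = toFld (K := K) Ω k c,
      (genPt σ hσ).mor = Spec.map (CommRingCat.ofHom (R := X.A.presheaf.stalk X.η) (S := k) σ) ≫
        X.A.fromSpecStalk X.η := by
    intro hσ
    rw [genPt_mor σ hσ X.η, Var.mk]
    congr 2
    ext u
    exact congrArg σ (algebraMap_generic (X := X) u)
  constructor
  · intro h
    have hσ : ∀ c : K, σ (algebraMap K X.F c) = toFld (K := K) Ω k c := fun c =>
      (congrArg σ (algebraMap_FF (X := X) c).symm).trans (AVar.IsGen.algebraMap h c)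
    refine ⟨hσ, Pt.ext ?_⟩
    rw [key hσ]
    exact h.symm
  · rintro ⟨hσ, rfl⟩
    exact (key hσ).symm

theorem GenAt.val {Q : Pt X Ω k} {σ : X.F →+* k} (h : GenAt Q σ) (φ : X.F) :
    Val Q.mor φ (σ φ) := by
  have h1 := val_of_factor Q.mor (w := X.η)
    (CommRingCat.ofHom (R := X.A.presheaf.stalk X.η) (S := k) σ) h φ
  exact (congrArg (fun ψ => Val Q.mor ψ (σ φ)) (algebraMap_generic (X := X) φ)).mp h1

theorem GenAt.pt {Q : Pt X Ω k} {σ : X.F →+* k} (h : GenAt Q σ) : Q.pt = X.η :=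
  h.apply_closedPoint

theorem exists_genAt {Q : Pt X Ω k} (h : Q.pt = X.η) : ∃ σ, GenAt Q σ := by
  obtain ⟨σ, hσ⟩ := AVar.exists_isGen (X := toAV X) (Q := sEquiv k Q) h
  exact ⟨σ, hσ⟩

theorem GenAt.algebraMap_eq {Q : Pt X Ω k} {σ : X.F →+* k} (h : GenAt Q σ) (c : K) :
    σ (algebraMap K X.F c) = algebraMap Ω k (algebraMap K Ω c) :=
  (congrArg σ (algebraMap_FF (X := X) c).symm).trans (AVar.IsGen.algebraMap h c)

theorem GenAt.unique {Q : Pt X Ω k} {σ σ' : X.F →+* k} (h : GenAt Q σ) (h' : GenAt Q σ') :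
    σ = σ' := AVar.IsGen.unique h h'

theorem GenAt.map (i : k →ₐ[Ω] k') {Q : Pt X Ω k} {σ : X.F →+* k} (h : GenAt Q σ) :
    GenAt (specHom (Pl.ofAlgHom i) Q) ((i : k →+* k').comp σ) := by
  rw [genAt_iff, specHom_apply, specFun_ofAlgHom, ← (genAt_iff Q σ).mp h, ← Category.assoc,
    ← Spec.map_comp]
  rfl

theorem GenAt.neg {Q : Pt X Ω k} {σ : X.F →+* k} (h : GenAt Q σ) : ∃ σ', GenAt (-Q) σ' :=
  ⟨_, AVar.IsGen.neg h⟩

theorem exists_genAt_of_nsmul (n : ℕ) (hn : (n : K) ≠ 0) {Q : Pt X Ω k} {σ : X.F →+* k}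
    (h : GenAt (n • Q) σ) : ∃ σ', GenAt Q σ' := by
  have h1 : AVar.IsGen (X := toAV X) (n • sEquiv k Q) (toFFHom σ) := by
    rw [← map_nsmul]
    exact h
  obtain ⟨σ', h'⟩ := AVar.exists_isGen_of_nsmul n hn h1
  exact ⟨σ', h'⟩

/-- The isogeny `[n]`. -/
theorem exists_mul [IsAlgClosed K] (n : ℕ) (hn : (n : K) ≠ 0) : ∃ μ : X.F →ₐ[K] X.F,
    (∀ {k : Type u} [Field k] [Algebra Ω k] (Q : Pt X Ω k) (σ : X.F →+* k), GenAt Q σ →
      GenAt (n • Q) (σ.comp (μ : X.F →+* X.F))) ∧
    (∀ a : X.Pt K, n • a = 0 → (∀ x ∈ X.O (X.pt (0 : X.Pt K)), μ x ∈ X.O (X.pt a)) ∧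
      X.m (X.pt a) ≤ Ideal.span {y : X.O (X.pt a) | ∃ x ∈ X.m (X.pt (0 : X.Pt K)),
        (y : X.F) = μ (x : X.F)}) ∧
    (∃ τ : {a : X.Pt K // n • a = 0} → (X.F ≃ₐ[K] X.F), Function.Injective τ ∧
      ∀ a f, τ a (μ f) = μ f) := by
  refine ⟨endF ((toAV X).muAlg n hn), ?_, ?_, ?_⟩
  · intro k _ _ Q σ h
    have h1 := AVar.IsGen.nsmul h n hn
    rw [← map_nsmul] at h1
    exact h1
  · intro a ha
    have ha' : n • (p0Equiv a : (toAV X).P0) = 0 := by rw [← map_nsmul, ha, map_zero]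
    have e0 : (toAV X).pnt 0 = X.pt (0 : X.Pt K) := by rw [← pnt_p0Equiv, map_zero]
    have ea : (toAV X).pnt (p0Equiv a) = X.pt a := pnt_p0Equiv a
    constructor
    · intro x hx
      have h1 := AVar.muAlg_mem (X := toAV X) n hn (p0Equiv a) ha' x
        ((mem_loc_iff _ _).mpr (by rw [e0]; exact hx))
      have h2 := (mem_loc_iff _ _).mp h1
      rw [ea] at h2
      exact h2
    · have key : ∀ (w0 wa : X.A) (_ : (toAV X).pnt 0 = w0) (_ : (toAV X).pnt (p0Equiv a) = wa),
          X.m wa ≤ Ideal.span {y : X.O wa | ∃ x ∈ X.m w0,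
            (y : X.F) = endF ((toAV X).muAlg n hn) (x : X.F)} := by
        rintro _ _ rfl rfl y hy
        obtain ⟨z, rfl⟩ := (locIso _).surjective y
        have h1 := AVar.maximalIdeal_le_span_FF (X := toAV X) n hn (p0Equiv a) ha'
          ((locIso_mem _ z).mp hy)
        have h2 := Ideal.mem_map_of_mem (locIso ((toAV X).pnt (p0Equiv a))).toRingHom h1
        rw [Ideal.map_span] at h2
        refine Ideal.span_mono ?_ h2
        rintro _ ⟨u, ⟨x, hx, hux⟩, rfl⟩
        exact ⟨locIso _ x, (locIso_mem _ x).mpr hx, hux⟩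
      exact key _ _ e0 ea
  · refine ⟨fun a => autF ((toAV X).tau (p0Equiv a.1)), ?_, ?_⟩
    · intro a b h
      exact Subtype.ext (p0Equiv.injective (AVar.tau_injective (autF_injective h)))
    · intro a z
      exact AVar.tau_muAlg n hn (p0Equiv a.1) (by rw [← map_nsmul, a.2, map_zero]) z

/-- Points over a field become divisible after a finite extension. -/
theorem exists_nsmul_eq (n : ℕ) (hn : (n : K) ≠ 0) (φ : Pt X Ω k) :
    ∃ (k' : Type u) (_ : Field k') (_ : Algebra Ω k') (_ : Algebra k k')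
      (_ : IsScalarTower Ω k k') (_ : FiniteDimensional k k') (φ' : Pt X Ω k'),
        n • φ' = specHom (Pl.ofAlgHom (IsScalarTower.toAlgHom Ω k k')) φ := by
  obtain ⟨k', fk', i, φ', hi, h⟩ := AVar.exists_nsmul_eq (X := toAV X) n hn (sEquiv k φ)
  let a1 : Algebra k k' := i.toAlgebra
  let a2 : Algebra Ω k' := (i.comp (algebraMap Ω k)).toAlgebra
  have a3 : IsScalarTower Ω k k' := IsScalarTower.of_algebraMap_eq fun _ => rfl
  have a4 : FiniteDimensional k k' := hi
  have e : 𝟙 _ ≫ Spec.map (CommRingCat.ofHom i) ≫ sp (toFld (K := K) Ω k) =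
      sp (toFld (K := K) Ω k') := (Category.id_comp _).trans (sp_comp _ _)
  refine ⟨k', fk', a2, a1, a3, a4, (sEquiv k').symm (AVar.Pt.comp (𝟙 _) e φ'), ?_⟩
  rw [← map_nsmul, ← map_nsmul, h]
  apply Pt.ext
  rw [specHom_apply, specFun_ofAlgHom]
  exact Category.id_comp _

end Gen

variable (X Ω) in
theorem ptHom_eq_baseChange (a : X.Pt K) : ptHom X Ω a = baseChange X a := by
  apply Pt.ext
  rw [ptHom_mor, baseChange_mor]

/-- The facts about the group structure. -/
theorem groupInput [IsAlgClosed K] [IsAlgClosed Ω] : GroupInput X Ω where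
  pt_torsion n hn a ha := by
    obtain ⟨b, hb⟩ := ptHom_torsion n hn a ha
    exact ⟨b, (ptHom_eq_baseChange X Ω b).symm.trans hb⟩
  gen_neg Q σ h := by
    obtain ⟨σ', h'⟩ := ((genAt_iff_isGen Q σ).mpr h).neg
    exact ⟨σ', (genAt_iff_isGen _ _).mp h'⟩
  exists_mul n hn := by
    obtain ⟨μ, h1, h2, h3⟩ := exists_mul (X := X) (Ω := Ω) n hn
    refine ⟨μ, ?_, h2, h3⟩
    intro k _ _ Q σ h
    exact (genAt_iff_isGen _ _).mp (h1 Q σ ((genAt_iff_isGen _ _).mpr h))
  gen_of_mul n hn Q σ h := by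
    obtain ⟨σ', h'⟩ := exists_genAt_of_nsmul n hn ((genAt_iff_isGen _ _).mpr h)
    exact ⟨σ', (genAt_iff_isGen _ _).mp h'⟩
  exists_div n hn φ := exists_nsmul_eq n hn φ
  divisible n hn a := exists_nsmul_P0 n hn a

end Points

end Fermat.Agent.AV.Sch
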