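import Mathlib
import Fermat.Agent.AV.Base

/-!
# Basic properties of heights (team AV = S26, package P7)
-/

set_option autoImplicit false

noncomputable section

open AlgebraicCurve

universe u

namespace Fermat.Agent.AV

variable {Ω : Type u} [Field Ω]

namespace HeightDatum

variable (𝒜 : HeightDatum Ω)

section Cocycle

variable {k k' κ : Type u} [Field k] [Field k'] [Field κ] [Algebra Ω k] [Algebra Ω k']
  [Algebra Ω κ]

/-- the cocycle of a base changed point -/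
theorem g_spec_ofAlgHom (i : k →ₐ[Ω] k') (p : Pl Ω k' κ) (Q : 𝒜.Pt k) :
    𝒜.g p (𝒜.spec (Pl.ofAlgHom i) Q) = i (𝒜.g (p.comp (Pl.ofAlgHom i)) Q) := by
  obtain ⟨h, h'⟩ := 𝒜.g_comp p (Pl.ofAlgHom i) Q
  rw [← h', Pl.ofAlgHom_π, 𝒜.g_ofAlgHom, div_one]

end Cocycle

section Map

variable {L F F' : Type u} [Field L] [Algebra Ω L] [IsAlgClosed L] [Field F] [Field F']
  [Algebra Ω F] [Algebra Ω F'] [Algebra L F] [Algebra L F'] [IsScalarTower Ω L F]
  [IsScalarTower Ω L F'] [Algebra F F'] [IsScalarTower L F F'] [IsScalarTower Ω F F']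
  [Fermat.FF.IsFF1 L F] [Fermat.FF.IsFF1 L F'] [FiniteDimensional F F']

theorem plOf_comp_toAlgHom (P : Place L F') :
    (plOf Ω P).comp (Pl.ofAlgHom (IsScalarTower.toAlgHom Ω F F')) = plOf Ω (P.restrict F) := by
  apply Pl.ext'
  · intro x
    rw [Pl.mem_comp_V]
    exact ⟨fun ⟨_, h⟩ => h, fun h => ⟨trivial, h⟩⟩
  · intro x hp hq
    have h1 : (plOf Ω (P.restrict F)).π ⟨x, hq⟩ = (plOf Ω (P.restrict F)).π ⟨x, hq⟩ := rfl
    rw [plOf_π_eq_iff, Fermat.FF.val_lt_one_iff] at h1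
    refine (plOf_π_eq_iff Ω P (f := algebraMap F F' x) hq _).mpr ?_
    rw [IsScalarTower.algebraMap_apply L F F', ← map_sub, Fermat.FF.val_lt_one_iff]
    rcases h1 with h1 | h1
    · left
      rw [h1, map_zero]
    · right
      rw [P.ord_restrict]
      have h2 := P.ramificationIndex_pos (F := F)
      positivity

theorem div_spec_toAlgHom (φ : 𝒜.Pt F) :
    𝒜.div L (𝒜.spec (Pl.ofAlgHom (IsScalarTower.toAlgHom Ω F F')) φ) =
      haveI : HasPrincipalDivisors L F' := Fermat.FF.Gen.hasPrincipalDivisors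
      Divisor.pullback F' (𝒜.div L φ) := by
  have : HasPrincipalDivisors L F' := Fermat.FF.Gen.hasPrincipalDivisors
  ext P
  rw [div_apply, g_spec_ofAlgHom, plOf_comp_toAlgHom, Divisor.pullback_apply, div_apply,
    IsScalarTower.toAlgHom_apply, Place.ord_restrict]

/-- heights and finite extensions -/
theorem ht_map' (φ : 𝒜.Pt F) :
    𝒜.ht L (𝒜.spec (Pl.ofAlgHom (IsScalarTower.toAlgHom Ω F F')) φ) =
      Module.finrank F F' * 𝒜.ht L φ := by
  have : HasPrincipalDivisors L F' := Fermat.FF.Gen.hasPrincipalDivisors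
  have : SumRamificationInertia L F F' := Fermat.FF.Gen.sumRamificationInertia L F F'
  rw [ht, div_spec_toAlgHom, Divisor.degree_pullback]
  rfl

end Map

section AlgHom

variable {F F' : Type u} [Field F] [Field F'] [Algebra Ω F] [Algebra Ω F'] [IsAlgClosed Ω]
  [Fermat.FF.IsFF1 Ω F] [Fermat.FF.IsFF1 Ω F']

theorem ht_spec_of_bijective (i : F →ₐ[Ω] F') (hi : Function.Bijective i) (φ : 𝒜.Pt F) :
    𝒜.ht Ω (𝒜.spec (Pl.ofAlgHom i) φ) = 𝒜.ht Ω φ := by
  let : Algebra F F' := (i : F →+* F').toAlgebra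
  have : IsScalarTower Ω F F' := IsScalarTower.of_algebraMap_eq fun x => (i.commutes x).symm
  let e : F ≃ₗ[F] F' := LinearEquiv.ofBijective (Algebra.linearMap F F') hi
  have : FiniteDimensional F F' := Module.Finite.equiv e
  have h1 : Module.finrank F F' = 1 := by rw [← e.finrank_eq, Module.finrank_self]
  have h2 := 𝒜.ht_map' (L := Ω) (F := F) (F' := F') φ
  rw [h1, Nat.cast_one, one_mul] at h2
  exact h2

end AlgHom

section Const

variable {L F : Type u} [Field L] [Algebra Ω L] [IsAlgClosed L] [Field F]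
  [Algebra Ω F] [Algebra L F] [IsScalarTower Ω L F] [Fermat.FF.IsFF1 L F]

theorem div_const (a : 𝒜.Pt L) :
    𝒜.div L (𝒜.spec (Pl.ofAlgHom (IsScalarTower.toAlgHom Ω L F)) a) = 0 := by
  ext P
  rw [div_apply, g_spec_ofAlgHom, plOf_comp_algebraMap, 𝒜.g_ofAlgHom, map_one, P.ord_one]
  rfl

theorem ht_const' (a : 𝒜.Pt L) :
    𝒜.ht L (𝒜.spec (Pl.ofAlgHom (IsScalarTower.toAlgHom Ω L F)) a) = 0 := by
  rw [ht, div_const, map_zero]

end Const

theorem ht_const [IsAlgClosed Ω] (a : 𝒜.Pt Ω) (F : Type u) [Field F] [Algebra Ω F]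
    [Fermat.FF.IsFF1 Ω F] :
    𝒜.ht Ω (𝒜.spec (Pl.ofAlgHom (Algebra.ofId Ω F)) a) = 0 := 𝒜.ht_const' (L := Ω) a

/-- heights and finite extensions -/
theorem ht_map [IsAlgClosed Ω] {F F' : Type u} [Field F] [Field F'] [Algebra Ω F] [Algebra Ω F']
    [Algebra F F'] [IsScalarTower Ω F F'] [Fermat.FF.IsFF1 Ω F] [Fermat.FF.IsFF1 Ω F']
    [FiniteDimensional F F'] (φ : 𝒜.Pt F) :
    𝒜.ht Ω (𝒜.spec (Pl.ofAlgHom (IsScalarTower.toAlgHom Ω F F')) φ) =
      Module.finrank F F' * 𝒜.ht Ω φ := 𝒜.ht_map' (L := Ω) φ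

theorem ht_zero [IsAlgClosed Ω] (F : Type u) [Field F] [Algebra Ω F]
    [Fermat.FF.IsFF1 Ω F] : 𝒜.ht Ω (0 : 𝒜.Pt F) = 0 := by
  have := 𝒜.ht_const 0 F
  rwa [map_zero] at this

end HeightDatum

end Fermat.Agent.AV
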