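import Mathlib
import Fermat.Agent.S26T.SmoothCoords
import Fermat.Prelude.Def_JacJ1Iface

/-!
# A smooth connected scheme over an algebraically closed field is integral (team AV = S26)
-/

set_option autoImplicit false
set_option linter.unusedSectionVars false

noncomputable section

open CategoryTheory AlgebraicGeometry IsLocalRing TopologicalSpace

universe u

namespace Fermat.Agent.AV

open Fermat.Agent.S26T

theorem irreducibleSpace_of_components {X : Type*} [TopologicalSpace X] [NoetherianSpace X]
    [ConnectedSpace X] (h : ∀ Z₁ ∈ irreducibleComponents X, ∀ Z₂ ∈ irreducibleComponents X,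
      (Z₁ ∩ Z₂).Nonempty → Z₁ = Z₂) : IrreducibleSpace X := by
  obtain ⟨x⟩ : Nonempty X := inferInstance
  set Z := irreducibleComponent x with hZ
  have hZc : Z ∈ irreducibleComponents X := irreducibleComponent_mem_irreducibleComponents x
  set C : Set X := ⋃₀ (irreducibleComponents X \ {Z}) with hC
  have hCclosed : IsClosed C := by
    rw [hC, Set.sUnion_eq_biUnion]
    exact (NoetherianSpace.finite_irreducibleComponents.subset Set.sdiff_subset).isClosed_biUnion
      fun W hW => isClosed_of_mem_irreducibleComponents W hW.1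
  have hZclosed : IsClosed Z := isClosed_of_mem_irreducibleComponents Z hZc
  have hdisj : C = Zᶜ := by
    ext y
    constructor
    · rintro ⟨W, ⟨hW, hWZ⟩, hy⟩ hyZ
      exact hWZ (h W hW Z hZc ⟨y, hy, hyZ⟩)
    · intro hy
      refine ⟨irreducibleComponent y, ⟨irreducibleComponent_mem_irreducibleComponents y, ?_⟩,
        mem_irreducibleComponent⟩
      intro h1
      apply hy
      rw [Set.mem_singleton_iff] at h1
      rw [← h1]
      exact mem_irreducibleComponent
  have hopen : IsOpen Z := by
    rw [← isClosed_compl_iff, ← hdisj]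
    exact hCclosed
  have huniv : Z = Set.univ :=
    (IsClopen.eq_univ ⟨hZclosed, hopen⟩ ⟨x, mem_irreducibleComponent⟩)
  have h2 : IsIrreducible (Set.univ : Set X) := by
    rw [← huniv]
    exact isIrreducible_irreducibleComponent
  exact (irreducibleSpace_def X).mpr h2

section Alg

variable {K : Type u} [Field K] [IsAlgClosed K] (g : ℕ) (B : Type u) [CommRing B] [Algebra K B]
  [Algebra.IsStandardSmoothOfRelativeDimension g K B]

include K g in
theorem isDomain_localization_of_isMaximal (m : Ideal B) [hm : m.IsMaximal] (R : Type u)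
    [CommRing R] [Algebra B R] [IsLocalization.AtPrime R m] : IsDomain R := by
  let _ : Field (B ⧸ m) := Ideal.Quotient.field m
  have : Algebra.IsStandardSmooth K B :=
    Algebra.IsStandardSmoothOfRelativeDimension.isStandardSmooth g
  have : Algebra.FiniteType K B := inferInstance
  have : Algebra.FiniteType K (B ⧸ m) := inferInstance
  have : Module.Finite K (B ⧸ m) := finite_of_finite_type_of_isJacobsonRing K (B ⧸ m)
  have : Algebra.IsIntegral K (B ⧸ m) := Algebra.IsIntegral.of_finite _ _
  have hb : Function.Bijective (algebraMap K (B ⧸ m)) :=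
    IsAlgClosed.algebraMap_bijective_of_isIntegral
  let e : K ≃ₐ[K] (B ⧸ m) := AlgEquiv.ofBijective (Algebra.ofId K (B ⧸ m)) hb
  let w : B →ₐ[K] K := (e.symm : (B ⧸ m) →ₐ[K] K).comp (Ideal.Quotient.mkₐ K m)
  have hw : ∀ b, b ∈ m ↔ w b = 0 := by
    intro b
    show _ ↔ e.symm (Ideal.Quotient.mk m b) = 0
    rw [map_eq_zero_iff _ e.symm.injective, Ideal.Quotient.eq_zero_iff_mem]
  let _ : Algebra K R := ((algebraMap B R).comp (algebraMap K B)).toAlgebra
  have : IsScalarTower K B R := IsScalarTower.of_algebraMap_eq fun _ => rfl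
  obtain ⟨C, -⟩ := SmoothCoords.exists_coord_localization g B w m hw R
  exact C.isDomain

include K g in
theorem isReduced_of_standardSmooth : _root_.IsReduced B := by
  apply isReduced_ofLocalizationMaximal
  intro m hm
  have := isDomain_localization_of_isMaximal (K := K) g B m (Localization.AtPrime m)
  infer_instance

end Alg

section Scheme

variable {K : Type u} [Field K] [IsAlgClosed K] {A : Scheme.{u}} (f : A ⟶ Spec (.of K)) (g : ℕ)
  [SmoothOfRelativeDimension g f]

/-- Standard smooth affine charts. -/
theorem exists_chart' (w : A) :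
    ∃ (V : A.Opens) (_ : IsAffineOpen V), w ∈ V ∧
      RingHom.IsStandardSmoothOfRelativeDimension g
        ((Scheme.ΓSpecIso (.of K)).inv ≫ f.appLE ⊤ V le_top).hom := by
  obtain ⟨U, hU, V, hV, hw, e, h⟩ :=
    SmoothOfRelativeDimension.exists_isStandardSmoothOfRelativeDimension (n := g) (f := f) w
  refine ⟨V, hV, hw, ?_⟩
  have hU' : U = ⊤ := by
    ext x
    simp only [SetLike.mem_coe, TopologicalSpace.Opens.coe_top, Set.mem_univ, iff_true]
    have h1 : f w ∈ U := e hw
    have h2 : x = f w := by
      have : Subsingleton (PrimeSpectrum K) := inferInstance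
      exact Subsingleton.elim (α := PrimeSpectrum K) _ _
    rwa [h2]
  subst hU'
  exact RingHom.isStandardSmoothOfRelativeDimension_respectsIso.2 _
    (Scheme.ΓSpecIso (.of K)).symm.commRingCatIsoToRingEquiv h

include f g in
theorem isReduced_of_smooth : IsReduced A := by
  have : ∀ x : A, _root_.IsReduced (A.presheaf.stalk x) := by
    intro x
    obtain ⟨V, hV, hx, hst⟩ := exists_chart' f g x
    let : Algebra K Γ(A, V) :=
      ((Scheme.ΓSpecIso (.of K)).inv ≫ f.appLE ⊤ V le_top).hom.toAlgebra
    have : Algebra.IsStandardSmoothOfRelativeDimension g K Γ(A, V) := hst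
    have h1 : _root_.IsReduced Γ(A, V) := isReduced_of_standardSmooth (K := K) g _
    let := TopCat.Presheaf.algebra_section_stalk A.presheaf (⟨x, hx⟩ : V)
    have h := hV.isLocalization_stalk ⟨x, hx⟩
    exact isReduced_localizationPreserves (hV.primeIdealOf ⟨x, hx⟩).asIdeal.primeCompl
      (A.presheaf.stalk x) h1
  exact isReduced_of_isReduced_stalk A

include f g in
theorem isDomain_stalk_of_isClosed (x : A) (hx : IsClosed ({x} : Set A)) :
    IsDomain (A.presheaf.stalk x) := by
  obtain ⟨V, hV, hxV, hst⟩ := exists_chart' f g x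
  let : Algebra K Γ(A, V) :=
    ((Scheme.ΓSpecIso (.of K)).inv ≫ f.appLE ⊤ V le_top).hom.toAlgebra
  have : Algebra.IsStandardSmoothOfRelativeDimension g K Γ(A, V) := hst
  let := TopCat.Presheaf.algebra_section_stalk A.presheaf (⟨x, hxV⟩ : V)
  have h := hV.isLocalization_stalk ⟨x, hxV⟩
  have hm : (hV.primeIdealOf ⟨x, hxV⟩).asIdeal.IsMaximal := by
    rw [← PrimeSpectrum.isClosed_singleton_iff_isMaximal]
    have h1 : ({hV.primeIdealOf ⟨x, hxV⟩} : Set (PrimeSpectrum Γ(A, V))) =
        hV.fromSpec ⁻¹' {x} := by
      ext y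
      constructor
      · rintro rfl
        exact hV.fromSpec_primeIdealOf ⟨x, hxV⟩
      · intro hy
        have h2 : hV.fromSpec y = hV.fromSpec (hV.primeIdealOf ⟨x, hxV⟩) := by
          rw [hV.fromSpec_primeIdealOf]
          exact hy
        exact hV.fromSpec.isOpenEmbedding.injective h2
    rw [h1]
    exact hx.preimage hV.fromSpec.continuous
  exact isDomain_localization_of_isMaximal (K := K) g Γ(A, V)
    (hV.primeIdealOf ⟨x, hxV⟩).asIdeal (A.presheaf.stalk x)

include f g in
theorem isIntegral_of_smooth [QuasiCompact f] [ConnectedSpace A] : IsIntegral A := by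
  have h1 : IsReduced A := isReduced_of_smooth f g
  have hsm : Smooth f := SmoothOfRelativeDimension.smooth g f
  have hcs : CompactSpace A := QuasiCompact.compactSpace_of_compactSpace f
  have hN : IsNoetherian A := { __ := LocallyOfFiniteType.isLocallyNoetherian f }
  have h2 : IrreducibleSpace A := by
    apply irreducibleSpace_of_components
    have key : ∀ w : A, IsDomain (A.presheaf.stalk w) → ∃ n : A, ∀ Z ∈ irreducibleComponents A,
        w ∈ Z → Z = closure {n} := by
      intro w hw
      let b : Spec (A.presheaf.stalk w) := (⊥ : PrimeSpectrum (A.presheaf.stalk w))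
      refine ⟨A.fromSpecStalk w b, fun Z hZ hwZ => ?_⟩
      have hirr : IsIrreducible Z := hZ.1
      have hcl : IsClosed Z := isClosed_of_mem_irreducibleComponents Z hZ
      obtain ⟨η, hη⟩ := QuasiSober.sober hirr hcl
      have h3 : η ⤳ w := hη.specializes hwZ
      have h4 : η ∈ Set.range (A.fromSpecStalk w) := by
        rw [Scheme.range_fromSpecStalk]
        exact h3
      obtain ⟨q, hq⟩ := h4
      have h5 : b ⤳ q := by
        exact (PrimeSpectrum.le_iff_specializes (⊥ : PrimeSpectrum (A.presheaf.stalk w)) q).mp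
          bot_le
      have h6 : A.fromSpecStalk w b ⤳ η := by
        rw [← hq]
        exact h5.map (A.fromSpecStalk w).continuous
      have h7 : Z ⊆ closure {A.fromSpecStalk w b} := by
        rw [← hη.def]
        exact closure_minimal (Set.singleton_subset_iff.mpr h6.mem_closure) isClosed_closure
      exact h7.antisymm (hZ.2 isIrreducible_singleton.closure h7)
    rintro Z₁ hZ₁ Z₂ hZ₂ hne
    have hcl : IsClosed (Z₁ ∩ Z₂) :=
      (isClosed_of_mem_irreducibleComponents Z₁ hZ₁).inter
        (isClosed_of_mem_irreducibleComponents Z₂ hZ₂)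
    obtain ⟨w, hw, hwc⟩ := hcl.exists_closed_singleton hne
    obtain ⟨n, hn⟩ := key w (isDomain_stalk_of_isClosed f g w hwc)
    rw [hn Z₁ hZ₁ hw.1, hn Z₂ hZ₂ hw.2]
  exact isIntegral_of_irreducibleSpace_of_isReduced A

end Scheme

section Bundle

open GoodReductionJacobian

theorem connectedSpace_of_bundle {K : Type u} [Field K] {A : Scheme.{u}}
    (f : A ⟶ Spec (CommRingCat.of K)) (hA : AbelianSchemePropertyBundle K f) :
    ConnectedSpace A := by
  have hsub : Subsingleton (Spec (CommRingCat.of K)) :=
    inferInstanceAs (Subsingleton (PrimeSpectrum K))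
  let s : Spec (CommRingCat.of K) := (⊥ : PrimeSpectrum K)
  have h1 := hA.connectedFibres s
  have h2 : (f.base ⁻¹' {s}) = Set.univ := by
    ext x
    simp only [Set.mem_preimage, Set.mem_singleton_iff, Set.mem_univ, iff_true]
    exact Subsingleton.elim _ _
  rw [h2] at h1
  exact connectedSpace_iff_univ.mpr h1

theorem isIntegral_of_bundle {K : Type u} [Field K] [IsAlgClosed K] {A : Scheme.{u}}
    (f : A ⟶ Spec (CommRingCat.of K)) (hA : AbelianSchemePropertyBundle K f) (g : ℕ)
    [SmoothOfRelativeDimension g f] : IsIntegral A := by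
  have := connectedSpace_of_bundle f hA
  have := hA.proper
  exact isIntegral_of_smooth f g

end Bundle

end Fermat.Agent.AV
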