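import Mathlib
import Fermat.Agent.AV.Base

/-!
# Orders at the places above a point of the line, and norms (team AV = S26)
-/

set_option autoImplicit false
set_option linter.unusedSectionVars false

noncomputable section

open Polynomial AlgebraicCurve IntermediateField

namespace Fermat.Agent.AV

open Fermat.FF.Gen

variable {K F : Type*} [Field K] [Field F] [Algebra K F] {y : F} (hy : Transcendental K y)

/-- `ord_{y = c} r(y)` is the multiplicity of the root `c` of `r`. -/
theorem ord_linePlace_aeval (c : K) {r : K[X]} (hr : r ≠ 0) :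
    (linePlace hy c).ord (aeval (AdjoinSimple.gen K y) r) = r.rootMultiplicity c := by
  set z := AdjoinSimple.gen K y with hz
  have hzt : Transcendental K z := by
    rw [← transcendental_algebraMap_iff (algebraMap K⟮y⟯ F).injective]
    exact hy
  have hmem : z ∈ (linePlace hy c).toValuationSubring := by
    have h1 := ord_linePlace hy c
    have h2 : z - algebraMap K K⟮y⟯ c ∈ (linePlace hy c).toValuationSubring := by
      rw [Fermat.FF.mem_iff_ord]
      · rw [hz, h1]; exact zero_le_one
      · exact Fermat.FF.ne_zero_of_ord_ne_zero (linePlace hy c) (by rw [h1]; exact one_ne_zero)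
    have h3 := add_mem h2 ((linePlace hy c).algebraMap_mem' c)
    simpa using h3
  have hpoly : ∀ q : K[X], aeval z q ∈ (linePlace hy c).toValuationSubring := by
    intro q
    exact Fermat.FF.Gen.adjoin_le_of_mem (linePlace hy c) hmem
      ⟨aeval z q, by rw [Algebra.adjoin_singleton_eq_range_aeval]; exact ⟨q, rfl⟩⟩
  obtain ⟨q, hq, hq'⟩ := Polynomial.exists_eq_pow_rootMultiplicity_mul_and_not_dvd r hr c
  have hq0 : q ≠ 0 := by
    rintro rfl
    exact hq' (dvd_zero _)
  have hzc : z - algebraMap K K⟮y⟯ c ≠ 0 :=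
    Fermat.FF.ne_zero_of_ord_ne_zero (linePlace hy c) (by
      rw [hz, ord_linePlace hy c]; exact one_ne_zero)
  have hqz : aeval z q ≠ 0 := fun h => hq0 ((transcendental_iff.mp hzt) q h)
  have hoq : (linePlace hy c).ord (aeval z q) = 0 := by
    -- `q(z) = q(c) + (z - c) * q₁(z)`
    have h1 : q.eval c ≠ 0 := by
      intro h
      exact hq' (dvd_iff_isRoot.mpr h)
    obtain ⟨q₁, hq₁⟩ := (dvd_iff_isRoot (p := q - C (q.eval c)) (a := c)).mpr (by simp)
    have h2 : aeval z q = algebraMap K K⟮y⟯ (q.eval c) +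
        (z - algebraMap K K⟮y⟯ c) * aeval z q₁ := by
      have h3 := congrArg (aeval z) hq₁
      simp only [map_sub, map_mul, aeval_C, aeval_X] at h3
      rw [← h3]; ring
    by_cases hq₁0 : aeval z q₁ = 0
    · rw [h2, hq₁0, mul_zero, add_zero, Fermat.FF.ord_algebraMap]
    · rw [h2, Fermat.FF.ord_add_of_lt, Fermat.FF.ord_algebraMap]
      · simpa using h1
      · exact mul_ne_zero hzc hq₁0
      · rw [Fermat.FF.ord_algebraMap, (linePlace hy c).ord_mul hzc hq₁0, hz, ord_linePlace hy c]
        have := Fermat.FF.ord_nonneg_of_mem _ (hpoly q₁)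
        rw [hz] at this
        omega
  conv_lhs => rw [hq]
  rw [map_mul, map_pow, map_sub, aeval_X, aeval_C,
    (linePlace hy c).ord_mul (pow_ne_zero _ hzc) hqz, Fermat.FF.ord_pow, hoq, hz,
    ord_linePlace hy c]
  simp

variable [Fermat.FF.IsFF1 K F] [IsAlgClosed K]

/-- `∑_{v(y) = c} ord_v(u) = ord_{y = c} (N u)` -/
theorem sum_ord_eq_ord_norm (c : K) {u : F} (hu : u ≠ 0) :
    ∑ v ∈ (setOf_val_lt_one_finite hy c).toFinset, v.ord u =
      (linePlace hy c).ord (Algebra.norm K⟮y⟯ u) := by
  have := Fermat.FF.IsFF1.finiteDimensional_adjoin hy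
  have := isFF1_adjoin hy
  have := finiteAt F (linePlace hy c)
  rw [← Fermat.FF.Rel.sum_ord_mul_inertiaDeg (linePlace hy c) hu]
  refine Finset.sum_congr ?_ fun v hv => ?_
  · ext v
    rw [Set.Finite.mem_toFinset, Set.Finite.mem_toFinset]
    exact (restrict_eq_linePlace_iff hy c v).symm
  · rw [Set.Finite.mem_toFinset] at hv
    have hv' : v.restrict K⟮y⟯ = linePlace hy c := hv
    have h1 := v.deg_restrict_mul_inertiaDeg (F := K⟮y⟯)
    rw [hv', deg_linePlace, one_mul, RR.deg_eq_one v] at h1
    rw [h1]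
    simp

/-- `∑_{v(y) = c} ord_v(u)` in terms of a representation of the norm as a quotient of
polynomials -/
theorem sum_ord_eq_rootMultiplicity (c : K) {u : F} (hu : u ≠ 0) {r s : K[X]} (hr : r ≠ 0)
    (hs : s ≠ 0) (h : Algebra.norm K⟮y⟯ u * aeval (AdjoinSimple.gen K y) s =
      aeval (AdjoinSimple.gen K y) r) :
    ∑ v ∈ (setOf_val_lt_one_finite hy c).toFinset, v.ord u =
      (r.rootMultiplicity c : ℤ) - s.rootMultiplicity c := by
  have := Fermat.FF.IsFF1.finiteDimensional_adjoin hy
  have hzt : Transcendental K (AdjoinSimple.gen K y) := by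
    rw [← transcendental_algebraMap_iff (algebraMap K⟮y⟯ F).injective]
    exact hy
  have hN : Algebra.norm K⟮y⟯ u ≠ 0 := Algebra.norm_ne_zero_iff.mpr hu
  have hs' : aeval (AdjoinSimple.gen K y) s ≠ 0 := fun h => hs ((transcendental_iff.mp hzt) s h)
  rw [sum_ord_eq_ord_norm hy c hu]
  have h1 := congrArg (linePlace hy c).ord h
  rw [(linePlace hy c).ord_mul hN hs', ord_linePlace_aeval hy c hr, ord_linePlace_aeval hy c hs]
    at h1
  omega

end Fermat.Agent.AV
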