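import Mathlib
import Fermat.Agent.AV.Gauss

/-!
# Roots of primitive polynomials over a valuation ring (team AV = S26)
-/

set_option autoImplicit false
set_option linter.unusedSectionVars false

noncomputable section

open Polynomial

universe u

namespace Fermat.Agent.AV

namespace Pl

variable {Ω L κ : Type u} [Field Ω] [Field L] [Field κ] [Algebra Ω L] [Algebra Ω κ]
  (p : Pl Ω L κ)

theorem coe_injective : Function.Injective (algebraMap p.V L) := Subtype.val_injective

theorem inv_mem_of_notMem {x : L} (hx : x ∉ p.V) : x⁻¹ ∈ p.V :=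
  (p.V.mem_or_inv_mem x).resolve_left hx

theorem π_inv_eq_zero {x : L} (hx : x ∉ p.V) : p.π ⟨x⁻¹, p.inv_mem_of_notMem hx⟩ = 0 := by
  have hx0 : x ≠ 0 := by
    rintro rfl
    exact hx (zero_mem _)
  rw [p.π_eq_zero_iff _ (inv_ne_zero hx0), inv_inv]
  exact hx

open Classical in
/-- A primitive linear polynomial with root `r`. -/
def lin (r : L) : p.V[X] :=
  if h : r ∈ p.V then X - C ⟨r, h⟩ else C ⟨r⁻¹, p.inv_mem_of_notMem h⟩ * X - 1

/-- `λ` specialises to `c` -/
def SpecTo (p : Pl Ω L κ) (r : L) (c : κ) : Prop := ∃ h : r ∈ p.V, p.π ⟨r, h⟩ = c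

theorem lin_map_roots (r : L) : ((p.lin r).map (algebraMap p.V L)).roots = {r} := by
  unfold lin
  split_ifs with h
  · simp
  · have hr0 : r ≠ 0 := by rintro rfl; exact h p.V.zero_mem
    have e : (C (⟨r⁻¹, p.inv_mem_of_notMem h⟩ : p.V) * X - 1).map (algebraMap p.V L) =
        C r⁻¹ * (X - C r) := by
      rw [mul_sub, ← C_mul, inv_mul_cancel₀ hr0]
      simp
    rw [e, roots_C_mul _ (inv_ne_zero hr0), roots_X_sub_C]

theorem lin_map_ne_zero (r : L) : (p.lin r).map (algebraMap p.V L) ≠ 0 := by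
  intro h
  have := p.lin_map_roots r
  rw [h] at this
  simp at this

open Classical in
theorem lin_red (r : L) : (∀ c : κ, ((p.lin r).map p.π).rootMultiplicity c =
      if p.SpecTo r c then 1 else 0) ∧ (p.lin r).map p.π ≠ 0 := by
  by_cases h : r ∈ p.V
  · have e : (p.lin r).map p.π = X - C (p.π ⟨r, h⟩) := by
      simp [lin, h]
    rw [e]
    refine ⟨fun c => ?_, X_sub_C_ne_zero _⟩
    rw [rootMultiplicity_X_sub_C]
    have : p.SpecTo r c ↔ c = p.π ⟨r, h⟩ := ⟨fun ⟨_, h2⟩ => h2.symm, fun h2 => ⟨h, h2.symm⟩⟩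
    simp only [this]
  · have e : (p.lin r).map p.π = -1 := by
      simp only [lin, h, dite_false, Polynomial.map_sub, Polynomial.map_mul, map_C, map_X,
        Polynomial.map_one, p.π_inv_eq_zero h, C_0, zero_mul, zero_sub]
    rw [e]
    refine ⟨fun c => ?_, by simp⟩
    have h2 : ¬ p.SpecTo r c := fun ⟨h3, _⟩ => h h3
    rw [if_neg h2]
    rw [rootMultiplicity_eq_zero]
    simp

open Classical in
theorem prod_lin_red (R : Multiset L) :
    (∀ c : κ, (((R.map p.lin).prod).map p.π).rootMultiplicity c =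
      (R.filter fun r => p.SpecTo r c).card) ∧ ((R.map p.lin).prod).map p.π ≠ 0 := by
  induction R using Multiset.induction_on with
  | empty => simp
  | cons r R ih =>
    obtain ⟨h1, h2⟩ := p.lin_red r
    obtain ⟨h3, h4⟩ := ih
    have hne : (p.lin r).map p.π * ((R.map p.lin).prod).map p.π ≠ 0 := mul_ne_zero h2 h4
    rw [Multiset.map_cons, Multiset.prod_cons, Polynomial.map_mul]
    refine ⟨fun c => ?_, hne⟩
    rw [rootMultiplicity_mul hne, h1, h3]
    by_cases hc : p.SpecTo r c
    · rw [if_pos hc, Multiset.filter_cons_of_pos (p := fun r => p.SpecTo r c) R hc, Multiset.card_cons, add_comm]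
    · rw [if_neg hc, Multiset.filter_cons_of_neg (p := fun r => p.SpecTo r c) R hc, zero_add]

theorem prod_lin_map (R : Multiset L) :
    (((R.map p.lin).prod).map (algebraMap p.V L)).roots = R ∧
    ((R.map p.lin).prod).map (algebraMap p.V L) ≠ 0 := by
  induction R using Multiset.induction_on with
  | empty => simp
  | cons r R ih =>
    obtain ⟨h3, h4⟩ := ih
    have hne : (p.lin r).map (algebraMap p.V L) *
        ((R.map p.lin).prod).map (algebraMap p.V L) ≠ 0 :=
      mul_ne_zero (p.lin_map_ne_zero r) h4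
    rw [Multiset.map_cons, Multiset.prod_cons, Polynomial.map_mul]
    refine ⟨?_, hne⟩
    rw [roots_mul hne, lin_map_roots, h3, Multiset.singleton_add]

open Classical in
/-- Roots of a primitive polynomial over a valuation ring of an algebraically closed field reduce
to the roots of the reduction. -/
theorem rootMultiplicity_reduction [IsAlgClosed L] (f : p.V[X]) (hf : f.map p.π ≠ 0) (c : κ) :
    (f.map p.π).rootMultiplicity c =
      ((f.map (algebraMap p.V L)).roots.filter fun r => p.SpecTo r c).card := by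
  set R := (f.map (algebraMap p.V L)).roots with hR
  set g := (R.map p.lin).prod with hg
  obtain ⟨h1, h2⟩ := p.prod_lin_red R
  obtain ⟨h3, h4⟩ := p.prod_lin_map R
  rw [← hg] at h1 h2 h3 h4
  have hinj := p.coe_injective
  have hf0 : f.map (algebraMap p.V L) ≠ 0 := by
    rw [Polynomial.map_ne_zero_iff hinj]
    rintro rfl
    simp at hf
  have hass : Associated (f.map (algebraMap p.V L)) (g.map (algebraMap p.V L)) :=
    (IsAlgClosed.associated_iff_roots_eq_roots hf0 h4).mpr (by rw [h3])
  rw [← h1]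
  obtain ⟨u, hu⟩ := hass
  obtain ⟨c', hc, hcu⟩ := Polynomial.isUnit_iff.mp u.isUnit
  rw [← hcu] at hu
  have hmul : ∀ (a : κ) (q : κ[X]), a ≠ 0 → (C a * q).rootMultiplicity c =
      q.rootMultiplicity c := by
    intro a q ha
    by_cases hq : q = 0
    · simp [hq]
    rw [rootMultiplicity_mul (mul_ne_zero (C_ne_zero.mpr ha) hq), rootMultiplicity_C, zero_add]
  rcases p.V.mem_or_inv_mem c' with h | h
  · -- `g = C c * f`
    have e : g = C ⟨c', h⟩ * f := by
      apply Polynomial.map_injective _ hinj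
      rw [← hu, Polynomial.map_mul, map_C, mul_comm]
      rfl
    have e2 := congrArg (Polynomial.map p.π) e
    rw [Polynomial.map_mul, map_C] at e2
    have hc0 : p.π ⟨c', h⟩ ≠ 0 := by
      intro h0
      rw [h0, C_0, zero_mul] at e2
      exact h2 e2
    rw [e2, hmul _ _ hc0]
  · have hc0 : c' ≠ 0 := hc.ne_zero
    have e : f = C ⟨c'⁻¹, h⟩ * g := by
      apply Polynomial.map_injective _ hinj
      rw [Polynomial.map_mul, map_C, ← hu]
      change _ = C c'⁻¹ * (_ * C c')
      rw [mul_comm _ (C c'), ← mul_assoc, ← C_mul, inv_mul_cancel₀ hc0, C_1, one_mul]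
    have e2 := congrArg (Polynomial.map p.π) e
    rw [Polynomial.map_mul, map_C] at e2
    have hc1 : p.π ⟨c'⁻¹, h⟩ ≠ 0 := by
      intro h0
      rw [h0, C_0, zero_mul] at e2
      exact hf e2
    rw [e2, hmul _ _ hc1]

open Classical in
/-- version with sums over finite sets of possible roots -/
theorem sum_rootMultiplicity [IsAlgClosed L] (f : p.V[X]) (hf : f.map p.π ≠ 0) (c : κ)
    (T : Finset L) (hT : ∀ r ∈ T, p.SpecTo r c)
    (hT' : ∀ r, p.SpecTo r c → (f.map (algebraMap p.V L)).IsRoot r → r ∈ T) :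
    ∑ r ∈ T, (f.map (algebraMap p.V L)).rootMultiplicity r =
      (f.map p.π).rootMultiplicity c := by
  rw [p.rootMultiplicity_reduction f hf c]
  set R := (f.map (algebraMap p.V L)).roots with hR
  have hf0 : f.map (algebraMap p.V L) ≠ 0 := by
    rw [Polynomial.map_ne_zero_iff p.coe_injective]
    rintro rfl
    simp at hf
  rw [← Multiset.sum_count_eq_card (s := T)]
  · refine Finset.sum_congr rfl fun r hr => ?_
    rw [Multiset.count_filter_of_pos (p := fun r => p.SpecTo r c) (hT r hr), hR, count_roots]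
  · intro r hr
    rw [Multiset.mem_filter] at hr
    exact hT' r hr.2 (isRoot_of_mem_roots hr.1)

/-- content of polynomials -/
theorem exists_primitive_poly (f : L[X]) (hf : f ≠ 0) :
    ∃ (c : L) (f₀ : p.V[X]), c ≠ 0 ∧ C c * f = f₀.map (algebraMap p.V L) ∧ f₀.map p.π ≠ 0 := by
  classical
  obtain ⟨k, hk, hmax⟩ := Finset.exists_max_image f.support (fun j => p.V.valuation (f.coeff j))
    (support_nonempty.mpr hf)
  have hk0 : f.coeff k ≠ 0 := mem_support_iff.mp hk
  have hmem : ∀ j, (f.coeff k)⁻¹ * f.coeff j ∈ p.V := by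
    intro j
    by_cases hj : f.coeff j = 0
    · rw [hj, mul_zero]; exact zero_mem _
    · rw [← ValuationSubring.valuation_le_one_iff, map_mul, map_inv₀]
      have h1 : p.V.valuation (f.coeff k) ≠ 0 := (Valuation.ne_zero_iff _).mpr hk0
      rw [mul_comm, ← div_eq_mul_inv]
      exact (div_le_one₀ (zero_lt_iff.mpr h1)).mpr (hmax j (mem_support_iff.mpr hj))
  have hlift : C (f.coeff k)⁻¹ * f ∈ Polynomial.lifts (algebraMap p.V L) := by
    rw [Polynomial.lifts_iff_coeff_lifts]
    intro n
    rw [coeff_C_mul]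
    exact ⟨⟨_, hmem n⟩, rfl⟩
  obtain ⟨f₀, hf₀⟩ := (Polynomial.mem_lifts _).mp hlift
  refine ⟨_, f₀, inv_ne_zero hk0, hf₀.symm, ?_⟩
  intro h0
  have h1 : f₀.coeff k = 1 := by
    apply p.coe_injective
    have h2 := congrArg (fun q : L[X] => q.coeff k) hf₀
    simp only [coeff_map, coeff_C_mul] at h2
    rw [h2, inv_mul_cancel₀ hk0, map_one]
  have h2 := congrArg (fun q : κ[X] => q.coeff k) h0
  simp only [coeff_map, h1, map_one, coeff_zero] at h2
  exact one_ne_zero h2

end Pl

end Fermat.Agent.AV
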