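import Mathlib
import Fermat.Agent.AV.PolyRed
import Fermat.Agent.AV.Base

/-!
# Norms to `L(x)` and the Gauss place (team AV = S26)
-/

set_option autoImplicit false
set_option linter.unusedSectionVars false

noncomputable section

open Polynomial AlgebraicCurve IntermediateField

universe u

namespace Fermat.Agent.AV

theorem Pl.mem_of_mul_mem {Ω k κ : Type u} [Field Ω] [Field k] [Field κ] [Algebra Ω k]
    [Algebra Ω κ] (p : Pl Ω k κ) {x u : k} (hu : u ∈ p.V) (hu0 : p.π ⟨u, hu⟩ ≠ 0)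
    (h : x * u ∈ p.V) : x ∈ p.V := by
  have h1 := p.inv_mem_of_π_ne_zero hu hu0
  have hu' : u ≠ 0 := by
    rintro rfl
    apply hu0
    have : (⟨0, hu⟩ : p.V) = 0 := rfl
    rw [this, map_zero]
  have h2 : x = x * u * u⁻¹ := by rw [mul_assoc, mul_inv_cancel₀ hu', mul_one]
  rw [h2]
  exact mul_mem h h1

theorem Pl.π_mul {Ω k κ : Type u} [Field Ω] [Field k] [Field κ] [Algebra Ω k]
    [Algebra Ω κ] (p : Pl Ω k κ) {x y : k} (hx : x ∈ p.V) (hy : y ∈ p.V) (hxy : x * y ∈ p.V) :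
    p.π ⟨x * y, hxy⟩ = p.π ⟨x, hx⟩ * p.π ⟨y, hy⟩ := by
  rw [← map_mul]
  rfl

section

variable {Ω F L κ : Type u} [Field Ω] [IsAlgClosed Ω] [Field F] [Algebra Ω F]
  [Field L] [Algebra Ω L] [Field κ] [Algebra Ω κ] (p : Pl Ω L κ)

theorem aeval_mem_gauss (x : F) (r₀ : p.V[X]) :
    ∃ h : aeval (CF.inr Ω F L x) (r₀.map (algebraMap p.V L)) ∈ (gauss F p).V,
      (gauss F p).π ⟨_, h⟩ = aeval (CF.inr Ω F κ x) (r₀.map p.π) := by
  let j : p.V →+* (gauss F p).V :=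
    ((algebraMap L (CF Ω F L)).comp (algebraMap p.V L)).codRestrict (gauss F p).V.toSubring
      (fun r => inl_mem p r.2)
  let x' : (gauss F p).V := ⟨CF.inr Ω F L x, inr_mem p x⟩
  have h1 : ((r₀.eval₂ j x' : (gauss F p).V) : CF Ω F L) =
      aeval (CF.inr Ω F L x) (r₀.map (algebraMap p.V L)) := by
    have := Polynomial.hom_eval₂ r₀ j (gauss F p).V.subtype x'
    rw [aeval_def, eval₂_map]
    exact this
  have h2 : (gauss F p).π (r₀.eval₂ j x') = aeval (CF.inr Ω F κ x) (r₀.map p.π) := by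
    rw [Polynomial.hom_eval₂ r₀ j (gauss F p).π x', aeval_def, eval₂_map]
    have e1 : ((gauss F p).π).comp j = (algebraMap κ (CF Ω F κ)).comp p.π := by
      ext r
      exact gauss_π_inl p r.2 (inl_mem p r.2)
    have e2 : (gauss F p).π x' = CF.inr Ω F κ x := gauss_π_inr p x (inr_mem p x)
    rw [e1, e2]
  refine ⟨by rw [← h1]; exact (r₀.eval₂ j x').2, ?_⟩
  rw [← h2]
  congr 1
  exact Subtype.ext h1.symm

variable {x : F} (hx : Transcendental Ω x)

include hx in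
theorem aeval_gauss_ne_zero {r₀ : p.V[X]} (hr : r₀.map p.π ≠ 0) :
    aeval (CF.inr Ω F κ x) (r₀.map p.π) ≠ 0 := by
  intro h
  exact hr ((transcendental_iff.mp (CF.transcendental_inr (L := κ) hx)) _ h)

theorem adjoin_form {y : CF Ω F L} (hy : y ∈ L⟮CF.inr Ω F L x⟯) (hy0 : y ≠ 0) :
    ∃ (c : L) (r₀ s₀ : p.V[X]), c ≠ 0 ∧ r₀.map p.π ≠ 0 ∧ s₀.map p.π ≠ 0 ∧
      algebraMap L (CF Ω F L) c * y * aeval (CF.inr Ω F L x) (s₀.map (algebraMap p.V L)) =
        aeval (CF.inr Ω F L x) (r₀.map (algebraMap p.V L)) := by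
  obtain ⟨r, s, hrs⟩ := (IntermediateField.mem_adjoin_simple_iff L y).mp hy
  have hs' : aeval (CF.inr Ω F L x) s ≠ 0 := by
    intro h0
    rw [h0, div_zero] at hrs
    exact hy0 hrs
  have hs : s ≠ 0 := by
    rintro rfl
    exact hs' (map_zero _)
  have hr : r ≠ 0 := by
    rintro rfl
    rw [map_zero, zero_div] at hrs
    exact hy0 hrs
  obtain ⟨c, r₀, hc, h1, h2⟩ := p.exists_primitive_poly r hr
  obtain ⟨d, s₀, hd, h3, h4⟩ := p.exists_primitive_poly s hs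
  refine ⟨c / d, r₀, s₀, div_ne_zero hc hd, h2, h4, ?_⟩
  rw [← h1, ← h3, map_mul, map_mul, aeval_C, aeval_C, hrs, map_div₀]
  have hd' : algebraMap L (CF Ω F L) d ≠ 0 := (_root_.map_ne_zero _).mpr hd
  field_simp

include hx in
/-- the Gauss place restricts to a Gauss place of `L(x)` -/
theorem adjoin_gauss {y : CF Ω F L} (hy : y ∈ L⟮CF.inr Ω F L x⟯) (hyV : y ∈ (gauss F p).V) :
    (gauss F p).π ⟨y, hyV⟩ ∈ κ⟮CF.inr Ω F κ x⟯ := by
  by_cases hy0 : y = 0
  · subst hy0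
    have : (⟨0, hyV⟩ : (gauss F p).V) = 0 := rfl
    rw [this, map_zero]
    exact zero_mem _
  obtain ⟨c, r₀, s₀, hc, hr, hs, h⟩ := adjoin_form p hy hy0
  obtain ⟨h1, h2⟩ := aeval_mem_gauss (F := F) p x r₀
  obtain ⟨h3, h4⟩ := aeval_mem_gauss (F := F) p x s₀
  have hr' := aeval_gauss_ne_zero p hx hr
  have hs' := aeval_gauss_ne_zero p hx hs
  -- `c⁻¹` is in the valuation ring
  have hc' : algebraMap L (CF Ω F L) c ≠ 0 := (_root_.map_ne_zero _).mpr hc
  have h5 : algebraMap L (CF Ω F L) c⁻¹ *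
      aeval (CF.inr Ω F L x) (r₀.map (algebraMap p.V L)) =
        y * aeval (CF.inr Ω F L x) (s₀.map (algebraMap p.V L)) := by
    rw [← h, map_inv₀]
    field_simp
  have h6 : algebraMap L (CF Ω F L) c⁻¹ ∈ (gauss F p).V := by
    refine (gauss F p).mem_of_mul_mem h1 (by rw [h2]; exact hr') ?_
    rw [h5]
    exact mul_mem hyV h3
  have h7 := (inl_mem_iff p).mp h6
  have h8 : (gauss F p).π ⟨y, hyV⟩ * aeval (CF.inr Ω F κ x) (s₀.map p.π) =
      algebraMap κ (CF Ω F κ) (p.π ⟨c⁻¹, h7⟩) * aeval (CF.inr Ω F κ x) (r₀.map p.π) := by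
    rw [← h2, ← h4, ← gauss_π_inl p h7 h6, ← map_mul, ← map_mul]
    congr 1
    exact Subtype.ext h5.symm
  have h9 : (gauss F p).π ⟨y, hyV⟩ = algebraMap κ (CF Ω F κ) (p.π ⟨c⁻¹, h7⟩) *
      aeval (CF.inr Ω F κ x) (r₀.map p.π) / aeval (CF.inr Ω F κ x) (s₀.map p.π) := by
    rw [eq_div_iff hs', h8]
  rw [h9]
  have hmem : ∀ q : κ[X], aeval (CF.inr Ω F κ x) q ∈ κ⟮CF.inr Ω F κ x⟯ := fun q =>
    IntermediateField.algebra_adjoin_le_adjoin _ _
      (by rw [Algebra.adjoin_singleton_eq_range_aeval]; exact ⟨q, rfl⟩)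
  exact div_mem (mul_mem (IntermediateField.algebraMap_mem _ _) (hmem _)) (hmem _)

variable {ι : Type*} [Fintype ι] (w : Module.Basis ι Ω⟮x⟯ F)

/-- coordinates of Gauss integral elements are Gauss integral -/
theorem repr_mem_gauss {a : CF Ω F L} (ha : a ∈ (gauss F p).V) (j : ι) :
    (((CF.basisAdjoin (L := L) hx w).repr a j : L⟮CF.inr Ω F L x⟯) : CF Ω F L) ∈
      (gauss F p).V := by
  classical
  set bL := CF.basisAdjoin (L := L) hx w with hbL
  by_cases ha0 : a = 0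
  · rw [ha0, map_zero]
    exact zero_mem _
  -- scaling factors
  have h1 : ∀ j, ∃ c : L, c ≠ 0 ∧ (bL.repr a j ≠ 0 →
      ∃ h : algebraMap L (CF Ω F L) c * (bL.repr a j : CF Ω F L) ∈ (gauss F p).V,
        (gauss F p).π ⟨_, h⟩ ≠ 0) := by
    intro j
    by_cases hj : bL.repr a j = 0
    · exact ⟨1, one_ne_zero, fun h => absurd hj h⟩
    · obtain ⟨c, hc, h, h'⟩ := exists_const_mul_gaussUnit p (bL.repr a j : CF Ω F L)
        (by simpa using hj)
      exact ⟨c, hc, fun _ => ⟨h, h'⟩⟩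
  choose c hc hcu using h1
  let J := Finset.univ.filter fun j => bL.repr a j ≠ 0
  have hJ : J.Nonempty := by
    by_contra hJ
    rw [Finset.not_nonempty_iff_eq_empty] at hJ
    apply ha0
    apply bL.repr.injective
    ext j
    have hj : j ∉ J := by rw [hJ]; exact Finset.notMem_empty _
    simp only [J, Finset.mem_filter, Finset.mem_univ, true_and, not_not] at hj
    rw [hj]
    simp
  obtain ⟨j₀, hj₀, hmin⟩ := Finset.exists_min_image J (fun j => p.V.valuation (c j)) hJ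
  have hj₀' : bL.repr a j₀ ≠ 0 := (Finset.mem_filter.mp hj₀).2
  have h2 : ∀ j, algebraMap L (CF Ω F L) (c j₀) * (bL.repr a j : CF Ω F L) ∈ (gauss F p).V := by
    intro j
    by_cases hj : bL.repr a j = 0
    · rw [hj, ZeroMemClass.coe_zero, mul_zero]
      exact zero_mem _
    · obtain ⟨h, -⟩ := hcu j hj
      have h3 : c j₀ / c j ∈ p.V := by
        rw [← ValuationSubring.valuation_le_one_iff, map_div₀]
        have h4 : p.V.valuation (c j) ≠ 0 := (Valuation.ne_zero_iff _).mpr (hc j)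
        exact (div_le_one₀ (zero_lt_iff.mpr h4)).mpr
          (hmin j (Finset.mem_filter.mpr ⟨Finset.mem_univ _, hj⟩))
      have h4 : algebraMap L (CF Ω F L) (c j₀) * (bL.repr a j : CF Ω F L) =
          algebraMap L (CF Ω F L) (c j₀ / c j) *
            (algebraMap L (CF Ω F L) (c j) * (bL.repr a j : CF Ω F L)) := by
        rw [← mul_assoc, ← map_mul, div_mul_cancel₀ _ (hc j)]
      rw [h4]
      exact mul_mem (inl_mem p h3) h
  -- the residue of `c j₀ * a` is nonzero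
  have h3 : ∀ j, algebraMap L (CF Ω F L) (c j₀) * (bL.repr a j : CF Ω F L) ∈
      L⟮CF.inr Ω F L x⟯ := fun j =>
    mul_mem (IntermediateField.algebraMap_mem _ _) (bL.repr a j).2
  let e : ι → κ⟮CF.inr Ω F κ x⟯ := fun j =>
    ⟨(gauss F p).π ⟨_, h2 j⟩, adjoin_gauss p hx (h3 j) (h2 j)⟩
  have h4 : algebraMap L (CF Ω F L) (c j₀) * a =
      ∑ j, (algebraMap L (CF Ω F L) (c j₀) * (bL.repr a j : CF Ω F L)) * CF.inr Ω F L (w j) := by
    conv_lhs => rw [← bL.sum_repr a]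
    rw [Finset.mul_sum]
    refine Finset.sum_congr rfl fun j _ => ?_
    rw [hbL, CF.basisAdjoin_apply, mul_assoc]
    rfl
  have h5 : algebraMap L (CF Ω F L) (c j₀) * a ∈ (gauss F p).V := by
    rw [h4]
    exact sum_mem fun j _ => mul_mem (h2 j) (inr_mem p _)
  have h6 : (gauss F p).π ⟨_, h5⟩ = ∑ j, e j • CF.basisAdjoin (L := κ) hx w j := by
    have h7 : (⟨_, h5⟩ : (gauss F p).V) = ∑ j, ⟨_, h2 j⟩ * ⟨_, inr_mem p (w j)⟩ := by
      apply Subtype.ext
      show algebraMap L (CF Ω F L) (c j₀) * a = _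
      rw [h4, AddSubmonoidClass.coe_finsetSum]
      rfl
    rw [h7, map_sum]
    refine Finset.sum_congr rfl fun j _ => ?_
    rw [map_mul, CF.basisAdjoin_apply, gauss_π_inr p (w j) (inr_mem p _)]
    rfl
  have h7 : (gauss F p).π ⟨_, h5⟩ ≠ 0 := by
    rw [h6]
    intro h0
    have h8 := Fintype.linearIndependent_iff.mp (CF.basisAdjoin (L := κ) hx w).linearIndependent e
      h0 j₀
    have h9 : ∀ (hm : algebraMap L (CF Ω F L) (c j₀) * (bL.repr a j₀ : CF Ω F L) ∈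
        (gauss F p).V), (gauss F p).π ⟨_, hm⟩ ≠ 0 := by
      intro hm
      obtain ⟨h10, h11⟩ := hcu j₀ hj₀'
      exact h11
    exact h9 (h2 j₀) (congrArg Subtype.val h8)
  -- hence `(c j₀)⁻¹` is integral
  have hc0 : algebraMap L (CF Ω F L) (c j₀) ≠ 0 := (_root_.map_ne_zero _).mpr (hc j₀)
  have h8 : algebraMap L (CF Ω F L) (c j₀)⁻¹ ∈ (gauss F p).V := by
    refine (gauss F p).mem_of_mul_mem h5 h7 ?_
    rw [map_inv₀, inv_mul_cancel_left₀ hc0]
    exact ha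
  have h9 : (bL.repr a j : CF Ω F L) = algebraMap L (CF Ω F L) (c j₀)⁻¹ *
      (algebraMap L (CF Ω F L) (c j₀) * (bL.repr a j : CF Ω F L)) := by
    rw [map_inv₀, inv_mul_cancel_left₀ hc0]
  rw [h9]
  exact mul_mem h8 (h2 j)

/-- coordinates reduce to coordinates -/
theorem repr_gauss {a : CF Ω F L} (ha : a ∈ (gauss F p).V) (j : ι)
    (hj : (((CF.basisAdjoin (L := L) hx w).repr a j : L⟮CF.inr Ω F L x⟯) : CF Ω F L) ∈
      (gauss F p).V) :
    (gauss F p).π ⟨_, hj⟩ =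
      (((CF.basisAdjoin (L := κ) hx w).repr ((gauss F p).π ⟨a, ha⟩) j :
        κ⟮CF.inr Ω F κ x⟯) : CF Ω F κ) := by
  classical
  set bL := CF.basisAdjoin (L := L) hx w with hbL
  have h2 := repr_mem_gauss p hx w ha
  rw [← hbL] at h2
  let e : ι → κ⟮CF.inr Ω F κ x⟯ := fun j =>
    ⟨(gauss F p).π ⟨_, h2 j⟩, adjoin_gauss p hx (bL.repr a j).2 (h2 j)⟩
  have h4 : a = ∑ j, (bL.repr a j : CF Ω F L) * CF.inr Ω F L (w j) := by
    conv_lhs => rw [← bL.sum_repr a]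
    refine Finset.sum_congr rfl fun j _ => ?_
    rw [hbL, CF.basisAdjoin_apply]
    rfl
  have h6 : (gauss F p).π ⟨a, ha⟩ = ∑ j, e j • CF.basisAdjoin (L := κ) hx w j := by
    have h7 : (⟨a, ha⟩ : (gauss F p).V) = ∑ j, ⟨_, h2 j⟩ * ⟨_, inr_mem p (w j)⟩ := by
      apply Subtype.ext
      show a = _
      rw [AddSubmonoidClass.coe_finsetSum]
      exact h4
    rw [h7, map_sum]
    refine Finset.sum_congr rfl fun j _ => ?_
    rw [map_mul, CF.basisAdjoin_apply, gauss_π_inr p (w j) (inr_mem p _)]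
    rfl
  rw [h6, Module.Basis.repr_sum_self]

include hx w in
/-- norms of Gauss integral elements -/
theorem norm_gauss_aux {a : CF Ω F L} (ha : a ∈ (gauss F p).V) :
    ∃ h : ((Algebra.norm L⟮CF.inr Ω F L x⟯ a : L⟮CF.inr Ω F L x⟯) : CF Ω F L) ∈ (gauss F p).V,
      (gauss F p).π ⟨_, h⟩ =
        ((Algebra.norm κ⟮CF.inr Ω F κ x⟯ ((gauss F p).π ⟨a, ha⟩) : κ⟮CF.inr Ω F κ x⟯) :
          CF Ω F κ) := by
  classical
  set bL := CF.basisAdjoin (L := L) hx w with hbL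
  set bκ := CF.basisAdjoin (L := κ) hx w with hbκ
  set ā := (gauss F p).π ⟨a, ha⟩ with hā
  -- the product with basis elements
  have h1 : ∀ j, a * CF.inr Ω F L (w j) ∈ (gauss F p).V := fun j => mul_mem ha (inr_mem p _)
  have h2 : ∀ j, (gauss F p).π ⟨_, h1 j⟩ = ā * bκ j := by
    intro j
    rw [(gauss F p).π_mul ha (inr_mem p _), gauss_π_inr p (w j) (inr_mem p _), hbκ,
      CF.basisAdjoin_apply]
  have h3 : ∀ i j, ((bL.repr (a * bL j) i : L⟮CF.inr Ω F L x⟯) : CF Ω F L) ∈ (gauss F p).V := by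
    intro i j
    rw [hbL, CF.basisAdjoin_apply]
    exact repr_mem_gauss p hx w (h1 j) i
  let M : Matrix ι ι (gauss F p).V := fun i j => ⟨_, h3 i j⟩
  have h4 : M.map (gauss F p).V.subtype =
      (Algebra.leftMulMatrix bL a).map (algebraMap L⟮CF.inr Ω F L x⟯ (CF Ω F L)) := by
    ext i j
    rw [Matrix.map_apply, Matrix.map_apply, Algebra.leftMulMatrix_eq_repr_mul]
    rfl
  have h5 : M.map (gauss F p).π =
      (Algebra.leftMulMatrix bκ ā).map (algebraMap κ⟮CF.inr Ω F κ x⟯ (CF Ω F κ)) := by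
    ext i j
    rw [Matrix.map_apply, Matrix.map_apply, Algebra.leftMulMatrix_eq_repr_mul, ← h2 j]
    have h6 : ((bL.repr (a * CF.inr Ω F L (w j)) i : L⟮CF.inr Ω F L x⟯) : CF Ω F L) ∈
        (gauss F p).V := repr_mem_gauss p hx w (h1 j) i
    have h7 := repr_gauss p hx w (h1 j) i h6
    refine Eq.trans ?_ h7
    congr 1
    apply Subtype.ext
    show ((bL.repr (a * bL j) i : L⟮CF.inr Ω F L x⟯) : CF Ω F L) = _
    rw [hbL, CF.basisAdjoin_apply]
  have h6 : ((M.det : (gauss F p).V) : CF Ω F L) =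
      ((Algebra.norm L⟮CF.inr Ω F L x⟯ a : L⟮CF.inr Ω F L x⟯) : CF Ω F L) := by
    have h7 := RingHom.map_det (gauss F p).V.subtype M
    rw [RingHom.mapMatrix_apply, h4, ← RingHom.mapMatrix_apply, ← RingHom.map_det,
      ← Algebra.norm_eq_matrix_det] at h7
    exact h7
  have h7 : (gauss F p).π M.det =
      ((Algebra.norm κ⟮CF.inr Ω F κ x⟯ ā : κ⟮CF.inr Ω F κ x⟯) : CF Ω F κ) := by
    have h8 := RingHom.map_det (gauss F p).π M
    rw [RingHom.mapMatrix_apply, h5, ← RingHom.mapMatrix_apply, ← RingHom.map_det,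
      ← Algebra.norm_eq_matrix_det] at h8
    exact h8
  refine ⟨by rw [← h6]; exact M.det.2, ?_⟩
  rw [← h7]
  congr 1
  exact Subtype.ext h6.symm

end

section

variable {Ω F L κ : Type u} [Field Ω] [IsAlgClosed Ω] [Field F] [Algebra Ω F]
  [Fermat.FF.IsFF1 Ω F] [Field L] [Algebra Ω L] [Field κ] [Algebra Ω κ] (p : Pl Ω L κ)
  {x : F} (hx : Transcendental Ω x)

include hx in
/-- norms of Gauss integral elements -/
theorem norm_gauss {a : CF Ω F L} (ha : a ∈ (gauss F p).V) :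
    ∃ h : ((Algebra.norm L⟮CF.inr Ω F L x⟯ a : L⟮CF.inr Ω F L x⟯) : CF Ω F L) ∈ (gauss F p).V,
      (gauss F p).π ⟨_, h⟩ =
        ((Algebra.norm κ⟮CF.inr Ω F κ x⟯ ((gauss F p).π ⟨a, ha⟩) : κ⟮CF.inr Ω F κ x⟯) :
          CF Ω F κ) := by
  have := Fermat.FF.IsFF1.finiteDimensional_adjoin hx
  exact norm_gauss_aux p hx (Module.finBasis Ω⟮x⟯ F) ha

include hx in
/-- the norm of a Gauss unit as a quotient of primitive polynomials, compatible with reduction -/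
theorem norm_gaussUnit {u : CF Ω F L} (hu : u ∈ (gauss F p).V)
    (hu0 : (gauss F p).π ⟨u, hu⟩ ≠ 0) :
    ∃ r₀ s₀ : p.V[X], r₀.map p.π ≠ 0 ∧ s₀.map p.π ≠ 0 ∧
      Algebra.norm L⟮CF.inr Ω F L x⟯ u *
        aeval (AdjoinSimple.gen L (CF.inr Ω F L x)) (s₀.map (algebraMap p.V L)) =
          aeval (AdjoinSimple.gen L (CF.inr Ω F L x)) (r₀.map (algebraMap p.V L)) ∧
      Algebra.norm κ⟮CF.inr Ω F κ x⟯ ((gauss F p).π ⟨u, hu⟩) *
        aeval (AdjoinSimple.gen κ (CF.inr Ω F κ x)) (s₀.map p.π) =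
          aeval (AdjoinSimple.gen κ (CF.inr Ω F κ x)) (r₀.map p.π) := by
  have hXL := CF.transcendental_inr (L := L) hx
  have hXκ := CF.transcendental_inr (L := κ) hx
  have := Fermat.FF.IsFF1.finiteDimensional_adjoin hXL
  have := Fermat.FF.IsFF1.finiteDimensional_adjoin hXκ
  set ū := (gauss F p).π ⟨u, hu⟩ with hū
  obtain ⟨hN, hN'⟩ := norm_gauss p hx hu
  rw [← hū] at hN'
  set y := Algebra.norm L⟮CF.inr Ω F L x⟯ u with hy
  have hu1 : u ≠ 0 := by
    rintro rfl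
    apply hu0
    rw [hū]
    have : (⟨0, hu⟩ : (gauss F p).V) = 0 := rfl
    rw [this, map_zero]
  have hy0 : y ≠ 0 := Algebra.norm_ne_zero_iff.mpr hu1
  have hNu : Algebra.norm κ⟮CF.inr Ω F κ x⟯ ū ≠ 0 := Algebra.norm_ne_zero_iff.mpr hu0
  obtain ⟨c, r₀, s₀, hc, hr, hs, h⟩ := adjoin_form p y.2 (by simpa using hy0)
  obtain ⟨h1, h2⟩ := aeval_mem_gauss (F := F) p x r₀
  obtain ⟨h3, h4⟩ := aeval_mem_gauss (F := F) p x s₀
  have hr' := aeval_gauss_ne_zero p hx hr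
  have hs' := aeval_gauss_ne_zero p hx hs
  have hc' : algebraMap L (CF Ω F L) c ≠ 0 := (_root_.map_ne_zero _).mpr hc
  have hys : (y : CF Ω F L) * aeval (CF.inr Ω F L x) (s₀.map (algebraMap p.V L)) ∈
      (gauss F p).V := mul_mem hN h3
  have hys' : (gauss F p).π ⟨_, hys⟩ ≠ 0 := by
    rw [(gauss F p).π_mul hN h3, hN', h4]
    exact mul_ne_zero (by simpa using hNu) hs'
  have h5 : algebraMap L (CF Ω F L) c ∈ (gauss F p).V := by
    refine (gauss F p).mem_of_mul_mem hys hys' ?_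
    rw [← mul_assoc, h]
    exact h1
  have hcV := (inl_mem_iff p).mp h5
  have h6 : algebraMap L (CF Ω F L) c⁻¹ ∈ (gauss F p).V := by
    refine (gauss F p).mem_of_mul_mem h1 (by rw [h2]; exact hr') ?_
    rw [← h, map_inv₀, ← mul_assoc, ← mul_assoc, inv_mul_cancel₀ hc', one_mul]
    exact hys
  have hcV' := (inl_mem_iff p).mp h6
  have hπ : p.π ⟨c⁻¹, hcV'⟩ ≠ 0 := by
    intro h0
    rw [p.π_eq_zero_iff hcV' (inv_ne_zero hc), inv_inv] at h0
    exact h0 hcV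
  refine ⟨C ⟨c⁻¹, hcV'⟩ * r₀, s₀, ?_, hs, ?_, ?_⟩
  · rw [Polynomial.map_mul, map_C]
    exact mul_ne_zero (C_ne_zero.mpr hπ) hr
  · apply (algebraMap L⟮CF.inr Ω F L x⟯ (CF Ω F L)).injective
    rw [map_mul, ← aeval_algebraMap_apply, ← aeval_algebraMap_apply]
    show (y : CF Ω F L) * aeval (CF.inr Ω F L x) (s₀.map (algebraMap p.V L)) =
      aeval (CF.inr Ω F L x) _
    rw [Polynomial.map_mul, map_C, map_mul, aeval_C, ← h]
    show _ = algebraMap L (CF Ω F L) c⁻¹ * _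
    rw [map_inv₀, ← mul_assoc, ← mul_assoc, inv_mul_cancel₀ hc', one_mul]
  · apply (algebraMap κ⟮CF.inr Ω F κ x⟯ (CF Ω F κ)).injective
    rw [map_mul, ← aeval_algebraMap_apply, ← aeval_algebraMap_apply]
    show ((Algebra.norm κ⟮CF.inr Ω F κ x⟯ ū : κ⟮CF.inr Ω F κ x⟯) : CF Ω F κ) *
      aeval (CF.inr Ω F κ x) (s₀.map p.π) = aeval (CF.inr Ω F κ x) _
    rw [Polynomial.map_mul, map_C, map_mul, aeval_C, ← hN', ← h4, ← h2,
      ← (gauss F p).π_mul hN h3 hys, ← gauss_π_inl p hcV' h6, ← (gauss F p).π_mul h6 h1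
      (mul_mem h6 h1)]
    congr 1
    apply Subtype.ext
    show (y : CF Ω F L) * _ = algebraMap L (CF Ω F L) c⁻¹ * _
    rw [← h, map_inv₀, ← mul_assoc, ← mul_assoc, inv_mul_cancel₀ hc', one_mul]

end

end Fermat.Agent.AV
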