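import Mathlib
import Fermat.Agent.AV.EvPlace
import Fermat.Agent.AV.NormGauss
import Fermat.Agent.AV.LineOrd

/-!
# The divisor of the reduction is the reduction of the divisor (team AV = S26)
-/

set_option autoImplicit false
set_option linter.unusedSectionVars false

noncomputable section

open TensorProduct AlgebraicCurve IntermediateField Polynomial

universe u

namespace Fermat.Agent.AV

section FibSum

open Classical in
/-- the sum of the coefficients over a set -/
def fibSum {α : Type*} (c : α → Prop) : (α →₀ ℤ) →+ ℤ :=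
  Finsupp.liftAddHom fun a => if c a then AddMonoidHom.id ℤ else 0

open Classical in
theorem fibSum_apply {α : Type*} (c : α → Prop) (D : α →₀ ℤ) :
    fibSum c D = ∑ a ∈ D.support with c a, D a := by
  unfold fibSum
  rw [Finsupp.liftAddHom_apply, Finsupp.sum, Finset.sum_filter]
  refine Finset.sum_congr rfl fun a _ => ?_
  split_ifs <;> simp

theorem fibSum_mapDomain {α β : Type*} (c : β → Prop) (r : α → β) (D : α →₀ ℤ) :
    fibSum c (D.mapDomain r) = fibSum (fun a => c (r a)) D := by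
  induction D using Finsupp.induction_linear with
  | zero => simp
  | add D E hD hE => rw [Finsupp.mapDomain_add, map_add, map_add, hD, hE]
  | single v n =>
    rw [Finsupp.mapDomain_single]
    simp [fibSum]

theorem fibSum_eq_of_unique {α : Type*} (c : α → Prop) (D : α →₀ ℤ) (a₀ : α) (h₀ : c a₀)
    (h : ∀ a ∈ D.support, c a → a = a₀) : fibSum c D = D a₀ := by
  classical
  rw [fibSum_apply, Finset.sum_eq_single a₀]
  · intro b hb hb'
    rw [Finset.mem_filter] at hb
    exact absurd (h b hb.1 hb.2) hb'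
  · intro ha
    rw [Finset.mem_filter, not_and] at ha
    by_contra hne
    exact ha (Finsupp.mem_support_iff.mpr hne) h₀

theorem fibSum_eq_sum {α : Type*} (c : α → Prop) (D : α →₀ ℤ) (S : Finset α)
    (hS : ∀ a ∈ S, c a) (h : ∀ a ∈ D.support, c a → a ∈ S) : fibSum c D = ∑ a ∈ S, D a := by
  classical
  rw [fibSum_apply]
  refine Finset.sum_subset (fun a ha => ?_) fun a ha ha' => ?_
  · rw [Finset.mem_filter] at ha
    exact h a ha.1 ha.2
  · rw [Finset.mem_filter, not_and] at ha'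
    by_contra hne
    exact ha' (Finsupp.mem_support_iff.mpr hne) (hS a ha)

end FibSum

variable {Ω F L κ : Type u} [Field Ω] [IsAlgClosed Ω] [Field F] [Algebra Ω F]
  [Fermat.FF.IsFF1 Ω F] [Field L] [Algebra Ω L] [IsAlgClosed L] [Field κ] [Algebra Ω κ]
  [IsAlgClosed κ]

/-- the function `x ∈ F` takes the value `c` at `P` -/
def HasVal (x : F) (P : Place L (CF Ω F L)) (c : L) : Prop :=
  P.adicValuation (CF.inr Ω F L x - algebraMap L (CF Ω F L) c) < 1

theorem hasVal_iff {x : F} {P : Place L (CF Ω F L)} {c : L} :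
    HasVal x P c ↔ ∃ h : x ∈ (evPl P).V, (evPl P).π ⟨x, h⟩ = c := by
  constructor
  · intro h
    have h2 : CF.inr Ω F L x - algebraMap L (CF Ω F L) c ∈ P.toValuationSubring :=
      (Fermat.FF.mem_iff_val_le_one P _).mpr (le_of_lt h)
    have h3 := add_mem h2 (P.algebraMap_mem' c)
    rw [sub_add_cancel] at h3
    have h4 := mem_evPl.mpr h3
    exact ⟨h4, (evPl_π h4 c).mpr h⟩
  · rintro ⟨h1, h2⟩
    exact (evPl_π h1 c).mp h2

theorem HasVal.unique {x : F} {P : Place L (CF Ω F L)} {c d : L} (h : HasVal x P c)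
    (h' : HasVal x P d) : c = d := by
  obtain ⟨h1, h2⟩ := hasVal_iff.mp h
  obtain ⟨h3, h4⟩ := hasVal_iff.mp h'
  rw [← h2, ← h4]

theorem hasVal_redPlace {x : F} {p : Pl Ω L κ} {P : Place L (CF Ω F L)} {c : κ} :
    HasVal x (redPlace p P) c ↔ ∃ a : L, HasVal x P a ∧ p.SpecTo a c := by
  rw [hasVal_iff, evPl_redPlace]
  constructor
  · rintro ⟨h, h'⟩
    obtain ⟨h1, h2⟩ := Pl.mem_comp_V.mp h
    exact ⟨_, hasVal_iff.mpr ⟨h1, rfl⟩, h2, h'⟩
  · rintro ⟨a, ha, h3, h4⟩
    obtain ⟨h1, rfl⟩ := hasVal_iff.mp ha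
    exact ⟨Pl.mem_comp_V.mpr ⟨h1, h3⟩, h4⟩

/-- (F4) on fibres of `x` -/
theorem fibSum_divOf_gauss (p : Pl Ω L κ) {u : CF Ω F L} (hu : u ∈ (gauss F p).V)
    (hu0 : (gauss F p).π ⟨u, hu⟩ ≠ 0) {x : F} (hx : Transcendental Ω x) (c : κ) :
    fibSum (fun P => HasVal x P c)
      ((RR.divOf u : Divisor L (CF Ω F L)).mapDomain (redPlace p)) =
      fibSum (fun P => HasVal x P c) (RR.divOf (K := κ) ((gauss F p).π ⟨u, hu⟩)) := by
  classical
  have hXL := CF.transcendental_inr (L := L) hx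
  have hXκ := CF.transcendental_inr (L := κ) hx
  have hu1 : u ≠ 0 := by
    rintro rfl
    apply hu0
    have : (⟨0, hu⟩ : (gauss F p).V) = 0 := rfl
    rw [this, map_zero]
  obtain ⟨r₀, s₀, hr, hs, hN, hN'⟩ := norm_gaussUnit p hx hu hu0
  have hr' : r₀.map (algebraMap p.V L) ≠ 0 := by
    rw [Polynomial.map_ne_zero_iff p.coe_injective]
    rintro rfl
    simp at hr
  have hs' : s₀.map (algebraMap p.V L) ≠ 0 := by
    rw [Polynomial.map_ne_zero_iff p.coe_injective]
    rintro rfl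
    simp at hs
  -- right hand side
  have hR : fibSum (fun P => HasVal x P c) (RR.divOf (K := κ) ((gauss F p).π ⟨u, hu⟩)) =
      ((r₀.map p.π).rootMultiplicity c : ℤ) - (s₀.map p.π).rootMultiplicity c := by
    rw [← sum_ord_eq_rootMultiplicity hXκ c hu0 hr hs hN']
    rw [fibSum_eq_sum _ _ (Fermat.FF.Gen.setOf_val_lt_one_finite hXκ c).toFinset]
    · refine Finset.sum_congr rfl fun P _ => RR.divOf_apply _ _
    · intro P hP
      rw [Set.Finite.mem_toFinset] at hP
      exact hP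
    · intro P _ hP
      rw [Set.Finite.mem_toFinset]
      exact hP
  -- left hand side
  rw [hR, fibSum_mapDomain]
  set D : Divisor L (CF Ω F L) := RR.divOf u with hD
  let vals : Finset L := D.support.biUnion fun P =>
    if h : ∃ a, HasVal x P a then {h.choose} else ∅
  have hvals : ∀ P ∈ D.support, ∀ a, HasVal x P a → a ∈ vals := by
    intro P hP a ha
    rw [Finset.mem_biUnion]
    refine ⟨P, hP, ?_⟩
    have h : ∃ a, HasVal x P a := ⟨a, ha⟩
    rw [dif_pos h, Finset.mem_singleton]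
    exact ha.unique h.choose_spec
  let T : Finset L := (vals ∪ (r₀.map (algebraMap p.V L)).roots.toFinset ∪
    (s₀.map (algebraMap p.V L)).roots.toFinset).filter fun a => p.SpecTo a c
  have hT : ∀ a ∈ T, p.SpecTo a c := fun a ha => (Finset.mem_filter.mp ha).2
  rw [← p.sum_rootMultiplicity r₀ hr c T hT, ← p.sum_rootMultiplicity s₀ hs c T hT]
  · push_cast
    rw [← Finset.sum_sub_distrib]
    simp only [hasVal_redPlace]
    have h1 : ∀ a : L, (((r₀.map (algebraMap p.V L)).rootMultiplicity a : ℤ) -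
        (s₀.map (algebraMap p.V L)).rootMultiplicity a) =
        ∑ P ∈ (Fermat.FF.Gen.setOf_val_lt_one_finite hXL a).toFinset, D P := by
      intro a
      rw [← sum_ord_eq_rootMultiplicity hXL a hu1 hr' hs' hN]
      refine Finset.sum_congr rfl fun P _ => ?_
      rw [hD, RR.divOf_apply]
    simp only [h1]
    rw [← Finset.sum_biUnion]
    · apply fibSum_eq_sum
      · intro P hP
        obtain ⟨a, ha, hPa⟩ := Finset.mem_biUnion.mp hP
        rw [Set.Finite.mem_toFinset] at hPa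
        exact ⟨a, hPa, hT a ha⟩
      · rintro P hP ⟨a, ha, hac⟩
        rw [Finset.mem_biUnion]
        refine ⟨a, ?_, ?_⟩
        · rw [Finset.mem_filter]
          refine ⟨?_, hac⟩
          rw [Finset.mem_union, Finset.mem_union]
          exact Or.inl (Or.inl (hvals P hP a ha))
        · rw [Set.Finite.mem_toFinset]
          exact ha
    · intro a _ b _ hab
      rw [Function.onFun, Finset.disjoint_left]
      intro P hP hP'
      rw [Set.Finite.mem_toFinset] at hP hP'
      exact hab (HasVal.unique (x := x) (P := P) hP hP')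
  · intro a hac ha
    rw [Finset.mem_filter]
    refine ⟨?_, hac⟩
    rw [Finset.mem_union]
    right
    rw [Multiset.mem_toFinset, mem_roots hs']
    exact ha
  · intro a hac ha
    rw [Finset.mem_filter]
    refine ⟨?_, hac⟩
    rw [Finset.mem_union, Finset.mem_union]
    left; right
    rw [Multiset.mem_toFinset, mem_roots hr']
    exact ha

/-- functions separating a place from finitely many others -/
theorem exists_separating_function (P₀ : Place L (CF Ω F L)) (S : Finset (Place L (CF Ω F L)))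
    (hS : P₀ ∉ S) : ∃ (x : F) (c : L), Transcendental Ω x ∧ HasVal x P₀ c ∧
      ∀ P ∈ S, ¬ HasVal x P c := by
  classical
  set q₀ := evPl P₀ with hq₀
  have hinf : Infinite Ω := IsAlgClosed.instInfinite
  let W : Place L (CF Ω F L) → Submodule Ω q₀.V := fun P =>
    { carrier := {x | ∃ h : (x : F) ∈ (evPl P).V, (evPl P).π ⟨x, h⟩ = q₀.π x}
      zero_mem' := by
        refine ⟨zero_mem _, ?_⟩
        have : (⟨((0 : q₀.V) : F), zero_mem _⟩ : (evPl P).V) = 0 := rfl
        rw [this, map_zero, map_zero]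
      add_mem' := by
        rintro a b ⟨ha, ha'⟩ ⟨hb, hb'⟩
        refine ⟨add_mem ha hb, ?_⟩
        rw [map_add, ← ha', ← hb', ← map_add]
        rfl
      smul_mem' := by
        rintro c a ⟨ha, ha'⟩
        have h1 : ((c • a : q₀.V) : F) = algebraMap Ω F c * a := by
          rw [Algebra.smul_def]; rfl
        have h2 : ((c • a : q₀.V) : F) ∈ (evPl P).V := by
          rw [h1]; exact mul_mem ((evPl P).alg_mem c) ha
        refine ⟨h2, ?_⟩
        have h3 : (⟨((c • a : q₀.V) : F), h2⟩ : (evPl P).V) =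
            ⟨_, (evPl P).alg_mem c⟩ * ⟨_, ha⟩ := Subtype.ext h1
        have h4 : (c • a : q₀.V) = ⟨_, q₀.alg_mem c⟩ * a := Subtype.ext h1
        rw [h3, h4, map_mul, map_mul, ha', (evPl P).π_alg, q₀.π_alg] }
  let W₀ : Submodule Ω q₀.V := LinearMap.range (Algebra.linearMap Ω q₀.V)
  have hW : ∀ P ∈ S, W P ≠ ⊤ := by
    intro P hP htop
    apply hS
    have h1 : ∀ (f : F) (hf : f ∈ q₀.V), ∃ h : f ∈ (evPl P).V,
        (evPl P).π ⟨f, h⟩ = q₀.π ⟨f, hf⟩ := by
      intro f hf
      have : (⟨f, hf⟩ : q₀.V) ∈ W P := by rw [htop]; trivial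
      exact this
    have h2 : evPl P = evPl P₀ := by
      apply evPl_eq_of_forall
      intro f hf
      obtain ⟨h3, h4⟩ := h1 f hf
      exact (evPl_π h3 _).mp h4
    rw [← evPl_injective h2]
    exact hP
  have hW₀ : W₀ ≠ ⊤ := by
    intro htop
    obtain ⟨x, hx, -⟩ := ‹Fermat.FF.IsFF1 Ω F›.exists_finite
    obtain ⟨x', hx', hx'V⟩ : ∃ x' : F, Transcendental Ω x' ∧ x' ∈ q₀.V := by
      rcases q₀.V.mem_or_inv_mem x with h | h
      · exact ⟨x, hx, h⟩
      · refine ⟨x⁻¹, fun halg => hx ?_, h⟩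
        have := halg.inv
        rwa [inv_inv] at this
    have h1 : (⟨x', hx'V⟩ : q₀.V) ∈ W₀ := by rw [htop]; trivial
    obtain ⟨c, hc⟩ := h1
    have h2 : algebraMap Ω F c = x' := congrArg Subtype.val hc
    exact hx' (h2 ▸ isAlgebraic_algebraMap c)
  have h1 : (⊤ : Submodule Ω q₀.V) ∉ insert W₀ (S.image W) := by
    intro h
    rw [Finset.mem_insert] at h
    rcases h with h | h
    · exact hW₀ h.symm
    · obtain ⟨P, hP, hP'⟩ := Finset.mem_image.mp h
      exact hW P hP hP'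
  have h2 := Subspace.biUnion_ne_univ_of_top_notMem h1
  obtain ⟨x, hx⟩ : ∃ x : q₀.V, x ∉ ⋃ p ∈ insert W₀ (S.image W), (p : Set q₀.V) := by
    by_contra h
    push Not at h
    exact h2 (Set.eq_univ_of_forall h)
  simp only [Set.mem_iUnion, not_exists] at hx
  refine ⟨x, q₀.π x, ?_, hasVal_iff.mpr ⟨x.2, rfl⟩, ?_⟩
  · apply Fermat.FF.transcendental_of_not_mem_range
    rintro ⟨c, hc⟩
    exact hx W₀ (Finset.mem_insert_self _ _) ⟨c, Subtype.ext hc⟩
  · intro P hP hval
    apply hx (W P) (Finset.mem_insert_of_mem (Finset.mem_image_of_mem W hP))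
    exact hasVal_iff.mp hval

/-- **(F4)** the divisor of the reduction is the reduction of the divisor -/
theorem divOf_gauss (p : Pl Ω L κ) (u : CF Ω F L) (hu : u ∈ (gauss F p).V)
    (hu0 : (gauss F p).π ⟨u, hu⟩ ≠ 0) :
    RR.divOf (K := κ) ((gauss F p).π ⟨u, hu⟩) =
      ((RR.divOf u : Divisor L (CF Ω F L))).mapDomain (redPlace p) := by
  classical
  set D : Divisor κ (CF Ω F κ) := RR.divOf (K := κ) ((gauss F p).π ⟨u, hu⟩) -
      ((RR.divOf u : Divisor L (CF Ω F L))).mapDomain (redPlace p) with hD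
  suffices h : D = 0 by rwa [hD, sub_eq_zero] at h
  ext P₀
  rw [Finsupp.zero_apply]
  obtain ⟨x, c, hx, hval, hsep⟩ := exists_separating_function P₀ (D.support.erase P₀)
    (Finset.notMem_erase _ _)
  rw [← fibSum_eq_of_unique (fun P => HasVal x P c) D P₀ hval]
  · rw [hD, map_sub, fibSum_divOf_gauss p hu hu0 hx c, sub_self]
  · intro P hP hP'
    by_contra hne
    exact hsep P (Finset.mem_erase.mpr ⟨hne, hP⟩) hP'

theorem ord_gauss (p : Pl Ω L κ) (u : CF Ω F L) (hu : u ∈ (gauss F p).V)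
    (hu0 : (gauss F p).π ⟨u, hu⟩ ≠ 0) (Q : Place κ (CF Ω F κ)) :
    Q.ord ((gauss F p).π ⟨u, hu⟩) =
      fibSum (fun P => redPlace p P = Q) (RR.divOf u : Divisor L (CF Ω F L)) := by
  rw [← RR.divOf_apply, divOf_gauss p u hu hu0, ← fibSum_mapDomain (fun Q' => Q' = Q)]
  exact (fibSum_eq_of_unique (fun Q' => Q' = Q) _ Q rfl (fun _ _ h => h)).symm

/-- if `u` has no poles over `Q` and a zero at some place above `Q`, then the reduction
vanishes at `Q` -/
theorem ord_gauss_pos (p : Pl Ω L κ) (u : CF Ω F L) (hu : u ∈ (gauss F p).V)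
    (hu0 : (gauss F p).π ⟨u, hu⟩ ≠ 0) (P : Place L (CF Ω F L)) (hP : 0 < P.ord u)
    (h : ∀ P' : Place L (CF Ω F L), redPlace p P' = redPlace p P → 0 ≤ P'.ord u) :
    0 < (redPlace p P).ord ((gauss F p).π ⟨u, hu⟩) := by
  classical
  rw [ord_gauss p u hu hu0, fibSum_apply]
  refine Finset.sum_pos' ?_ ⟨P, ?_, ?_⟩
  · intro P' hP'
    rw [RR.divOf_apply]
    exact h P' (Finset.mem_filter.mp hP').2
  · rw [Finset.mem_filter]
    refine ⟨?_, rfl⟩
    rw [Finsupp.mem_support_iff, RR.divOf_apply]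
    exact hP.ne'
  · rw [RR.divOf_apply]
    exact hP

/-- **(F6)** a Gauss unit without zeros and poles over a place of the special fibre takes unit
values, and its value reduces to the value of the reduction. -/
theorem gauss_value' (p : Pl Ω L κ) (P : Place L (CF Ω F L)) (u : CF Ω F L)
    (hu : u ∈ (gauss F p).V) (hu0 : (gauss F p).π ⟨u, hu⟩ ≠ 0)
    (h : ∀ P' : Place L (CF Ω F L), redPlace p P' = redPlace p P → P'.ord u = 0) :
    ∃ (h1 : u ∈ (plOf Ω P).V) (h2 : (plOf Ω P).π ⟨u, h1⟩ ∈ p.V)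
      (h3 : (gauss F p).π ⟨u, hu⟩ ∈ (plOf Ω (redPlace p P)).V), p.π ⟨_, h2⟩ ≠ 0 ∧
        (plOf Ω (redPlace p P)).π ⟨_, h3⟩ = p.π ⟨_, h2⟩ := by
  classical
  have hu1 : u ≠ 0 := by
    rintro rfl
    apply hu0
    have : (⟨0, hu⟩ : (gauss F p).V) = 0 := rfl
    rw [this, map_zero]
  have hPu : P.ord u = 0 := h P rfl
  have h1 : u ∈ (plOf Ω P).V := (Fermat.FF.mem_iff_ord P hu1).mpr hPu.ge
  set c := (plOf Ω P).π ⟨u, h1⟩ with hc
  have hcP : P.adicValuation (u - algebraMap L (CF Ω F L) c) < 1 := (plOf_π_eq_iff Ω P h1 c).mp rfl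
  -- reduction at the special place
  have hQ0 : (redPlace p P).ord ((gauss F p).π ⟨u, hu⟩) = 0 := by
    rw [ord_gauss p u hu hu0, fibSum_apply]
    refine Finset.sum_eq_zero fun P' hP' => ?_
    rw [RR.divOf_apply]
    exact h P' (Finset.mem_filter.mp hP').2
  have h3 : (gauss F p).π ⟨u, hu⟩ ∈ (plOf Ω (redPlace p P)).V :=
    (Fermat.FF.mem_iff_ord _ hu0).mpr hQ0.ge
  have hc0 : c ≠ 0 := by
    intro h0
    rw [h0, map_zero, sub_zero] at hcP
    have := Fermat.FF.ord_pos_of_val_lt_one P hu1 hcP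
    omega
  have hc0' : algebraMap L (CF Ω F L) c ≠ 0 := (_root_.map_ne_zero _).mpr hc0
  -- `c` is integral
  have h2 : c ∈ p.V := by
    by_contra hcV
    have hcV' := p.inv_mem_of_notMem hcV
    have hcπ := p.π_inv_eq_zero hcV
    set v : CF Ω F L := algebraMap L (CF Ω F L) c⁻¹ * u - 1 with hv
    have hvV : v ∈ (gauss F p).V := sub_mem (mul_mem (inl_mem p hcV') hu) (one_mem _)
    have hvπ : (gauss F p).π ⟨v, hvV⟩ = -1 := by
      have h4 : (⟨v, hvV⟩ : (gauss F p).V) = ⟨_, inl_mem p hcV'⟩ * ⟨u, hu⟩ - 1 := rfl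
      rw [h4, map_sub, map_mul, gauss_π_inl p hcV', hcπ, map_zero, zero_mul, map_one, zero_sub]
    have hvne : (gauss F p).π ⟨v, hvV⟩ ≠ 0 := by rw [hvπ]; exact neg_ne_zero.mpr one_ne_zero
    have hv0 : v ≠ 0 := by
      intro h0
      apply hvne
      have : (⟨v, hvV⟩ : (gauss F p).V) = 0 := Subtype.ext h0
      rw [this, map_zero]
    have hveq : v = algebraMap L (CF Ω F L) c⁻¹ * (u - algebraMap L (CF Ω F L) c) := by
      rw [hv, mul_sub, ← map_mul, inv_mul_cancel₀ hc0, map_one]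
    have huc : u - algebraMap L (CF Ω F L) c ≠ 0 := by
      intro h0
      rw [h0, mul_zero] at hveq
      exact hv0 hveq
    have h5 : 0 < P.ord v := by
      rw [hveq, P.ord_mul ((_root_.map_ne_zero _).mpr (inv_ne_zero hc0)) huc,
        Fermat.FF.ord_algebraMap, zero_add]
      exact Fermat.FF.ord_pos_of_val_lt_one P huc hcP
    have h6 := ord_gauss_pos p v hvV hvne P h5 (fun P' hP' => by
      apply Fermat.FF.ord_nonneg_of_mem
      refine sub_mem (mul_mem (P'.algebraMap_mem' _) ?_) (one_mem _)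
      rw [Fermat.FF.mem_iff_ord P' hu1, h P' hP'])
    rw [hvπ, Fermat.FF.ord_neg, (redPlace p P).ord_one] at h6
    exact lt_irrefl _ h6
  have hval : (plOf Ω (redPlace p P)).π ⟨_, h3⟩ = p.π ⟨_, h2⟩ := by
    rw [plOf_π_eq_iff]
    set v : CF Ω F L := u - algebraMap L (CF Ω F L) c with hv
    have hvV : v ∈ (gauss F p).V := sub_mem hu (inl_mem p h2)
    have hvπ : (gauss F p).π ⟨v, hvV⟩ =
        (gauss F p).π ⟨u, hu⟩ - algebraMap κ (CF Ω F κ) (p.π ⟨c, h2⟩) := by
      have h4 : (⟨v, hvV⟩ : (gauss F p).V) = ⟨u, hu⟩ - ⟨_, inl_mem p h2⟩ := rfl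
      rw [h4, map_sub, gauss_π_inl p h2]
    rw [← hvπ, Fermat.FF.val_lt_one_iff]
    by_cases hvne : (gauss F p).π ⟨v, hvV⟩ = 0
    · exact Or.inl hvne
    · right
      have hv0 : v ≠ 0 := by
        intro h0
        apply hvne
        have : (⟨v, hvV⟩ : (gauss F p).V) = 0 := Subtype.ext h0
        rw [this, map_zero]
      refine ord_gauss_pos p v hvV hvne P (Fermat.FF.ord_pos_of_val_lt_one P hv0 hcP)
        (fun P' hP' => ?_)
      apply Fermat.FF.ord_nonneg_of_mem
      refine sub_mem ?_ (P'.algebraMap_mem' _)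
      rw [Fermat.FF.mem_iff_ord P' hu1, h P' hP']
  refine ⟨h1, h2, h3, fun h0 => ?_, hval⟩
  rw [h0, plOf_π_eq_iff, map_zero, sub_zero] at hval
  have := Fermat.FF.ord_pos_of_val_lt_one _ hu0 hval
  omega

theorem gauss_value (p : Pl Ω L κ) (P : Place L (CF Ω F L)) (u : CF Ω F L)
    (hu : u ∈ (gauss F p).V) (hu0 : (gauss F p).π ⟨u, hu⟩ ≠ 0)
    (h : ∀ P' : Place L (CF Ω F L), redPlace p P' = redPlace p P → P'.ord u = 0) :
    ∃ (h1 : u ∈ (plOf Ω P).V) (h2 : (plOf Ω P).π ⟨u, h1⟩ ∈ p.V), p.π ⟨_, h2⟩ ≠ 0 := by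
  obtain ⟨h1, h2, -, h3, -⟩ := gauss_value' p P u hu hu0 h
  exact ⟨h1, h2, h3⟩

end Fermat.Agent.AV
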