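import Mathlib
import Fermat.Agent.RR.Corollaries

/-!
# A non special effective divisor of degree `g` (team AV = S26, package P5e)
-/

set_option autoImplicit false

noncomputable section

open AlgebraicCurve

namespace Fermat.Agent.AV

open RR

variable {K F : Type*} [Field K] [Field F] [Algebra K F] [IsAlgClosed K] [FunctionField K F]

theorem exists_notMem_place (S : Finset (Place K F)) : ∃ v : Place K F, v ∉ S := by
  classical
  by_contra hS
  push Not at hS
  choose t ht using fun v : Place K F => RR.exists_ord_eq_one v
  obtain ⟨f, hf⟩ := RR.weak_approximation S t 2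
  have hord : ∀ v : Place K F, v.ord f = 1 := by
    intro v
    have h1 := hf v (hS v)
    have ht0 : t v ≠ 0 := by
      intro h0
      have := ht v
      rw [h0, Place.ord_zero] at this
      norm_num at this
    have h3 : f = t v + (f - t v) := by ring
    rw [h3, RR.ord_add_eq_of_lt v ht0, ht]
    rcases h1 with h1 | h1
    · exact Or.inl h1
    · right; rw [ht]; omega
  obtain ⟨v⟩ := RR.FunctionField.nonempty_place (K := K) (F := F)
  have h1 := RR.degree_divOf (K := K) f
  rw [RR.degree_eq_sum] at h1
  have h2 : (RR.divOf (K := K) f).sum (fun _ n => n) = S.card := by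
    rw [Finsupp.sum]
    have : (RR.divOf (K := K) f).support = S := by
      ext w
      simp [hord, hS]
    rw [this]
    simp [hord]
  rw [h2] at h1
  have : 0 < S.card := Finset.card_pos.mpr ⟨v, hS v⟩
  omega

/-- If `ℓ(D) > 0` there is a place `v` with `ℓ(D - v) < ℓ(D)`. -/
theorem exists_place_lt {D : Divisor K F} (h : 0 < Module.finrank K (riemannRochSpace D)) :
    ∃ v : Place K F, Module.finrank K (riemannRochSpace (D - Finsupp.single v 1)) <
      Module.finrank K (riemannRochSpace D) := by
  classical
  have h1 : riemannRochSpace D ≠ ⊥ := by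
    intro h0
    rw [h0, finrank_bot] at h
    exact lt_irrefl _ h
  obtain ⟨f, hf, hf0⟩ := Submodule.exists_mem_ne_zero_of_ne_bot h1
  obtain ⟨v, hv⟩ := exists_notMem_place (D.support ∪ (divOf (K := K) f).support)
  rw [Finset.notMem_union] at hv
  refine ⟨v, Submodule.finrank_lt_finrank_of_lt ?_⟩
  rw [SetLike.lt_iff_le_and_exists]
  refine ⟨riemannRochSpace_mono ?_, f, hf, ?_⟩
  · intro w
    by_cases hw : w = v
    · subst hw; simp
    · simp [Finsupp.single_apply, Ne.symm hw]
  · intro hf'
    have h2 := (mem_riemannRochSpace_iff.mp hf' v).resolve_left hf0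
    have h3 : D v = 0 := Finsupp.notMem_support_iff.1 hv.1
    have h4 : v.ord f = 0 := by
      have := Finsupp.notMem_support_iff.1 hv.2
      rwa [divOf_apply] at this
    rw [h4] at h2
    simp [h3] at h2

/-- There are effective divisors `E` of degree `n ≤ g` with `ℓ(E) = 1`. -/
theorem exists_nonspecial_le (n : ℕ) (hn : n ≤ genusFF K F) :
    ∃ E : Divisor K F, 0 ≤ E ∧ Divisor.degree E = n ∧
      Module.finrank K (riemannRochSpace E) = 1 := by
  induction n with
  | zero => exact ⟨0, le_rfl, by simp, finrank_riemannRochSpace_zero⟩
  | succ n ih =>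
    obtain ⟨E, hE, hdeg, hl⟩ := ih (by omega)
    have h1 := riemannRoch E
    rw [hdeg, hl] at h1
    have h2 : 0 < Module.finrank K (riemannRochSpace (canDiv K F - E)) := by
      have : (0 : ℤ) < Module.finrank K (riemannRochSpace (canDiv K F - E)) := by
        push_cast at h1; omega
      exact_mod_cast this
    obtain ⟨v, hv⟩ := exists_place_lt h2
    refine ⟨E + Finsupp.single v 1, ?_, ?_, ?_⟩
    · intro w
      have := hE w
      classical
      simp only [Finsupp.coe_zero, Pi.zero_apply, Finsupp.coe_add, Pi.add_apply,
        Finsupp.single_apply] at this ⊢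
      split_ifs <;> omega
    · rw [map_add, hdeg, degree_single_one]; push_cast; ring
    · have h3 := riemannRoch (E + Finsupp.single v 1)
      rw [map_add, hdeg, degree_single_one, ← sub_sub] at h3
      have h4 : Module.finrank K (riemannRochSpace E) ≤
          Module.finrank K (riemannRochSpace (E + Finsupp.single v 1)) := by
        apply finrank_riemannRochSpace_mono
        intro w
        classical
        simp only [Finsupp.coe_add, Pi.add_apply, Finsupp.single_apply]
        split_ifs <;> omega
      rw [hl] at h4
      push_cast at h1 h3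
      omega

/-- There is an effective divisor `E` of degree `g` with `ℓ(E) = 1`. -/
theorem exists_nonspecial : ∃ E : Divisor K F, 0 ≤ E ∧ Divisor.degree E = genusFF K F ∧
      Module.finrank K (riemannRochSpace E) = 1 :=
  exists_nonspecial_le _ le_rfl

end Fermat.Agent.AV
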