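import Mathlib
import Fermat.Agent.AV.Reduction
import Fermat.Agent.AV.Extend
import Fermat.Agent.AV.NonSpecial

/-!
# Rigid divisors (team AV = S26)
-/

set_option autoImplicit false
set_option linter.unusedSectionVars false

noncomputable section

open TensorProduct AlgebraicCurve IntermediateField

universe u

namespace Fermat.Agent.AV

variable {Ω F : Type u} [Field Ω] [IsAlgClosed Ω] [Field F] [Algebra Ω F]
  [Fermat.FF.IsFF1 Ω F]

/-- base change of divisors along `Ω → M` -/
def bc (F : Type u) [Field F] [Algebra Ω F] [Fermat.FF.IsFF1 Ω F] (M : Type u) [Field M]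
    [IsAlgClosed M] [Algebra Ω M] (E : Divisor Ω (CF Ω F Ω)) : Divisor M (CF Ω F M) :=
  E.mapDomain (redPlace (Pl.ofAlgHom (Algebra.ofId Ω M)))

theorem mapDomain_nonneg {α β : Type*} (r : α → β) {D : α →₀ ℤ} (h : 0 ≤ D) :
    0 ≤ D.mapDomain r := by
  intro b
  rw [Finsupp.mapDomain, Finsupp.sum, Finsupp.finsetSum_apply]
  refine Finset.sum_nonneg fun a _ => ?_
  classical
  rw [Finsupp.single_apply]
  split_ifs
  · exact h a
  · exact le_rfl

/-- every element of `Ω(F) = F` comes from `F` -/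
theorem CF.inr_surjective : Function.Surjective (CF.inr Ω F Ω) := by
  have h1 : ∀ a : Ω ⊗[Ω] F, ∃ f : F, CF.inr Ω F Ω f = CF.ofTensor Ω F Ω a := by
    intro a
    induction a using TensorProduct.induction_on with
    | zero => exact ⟨0, by simp⟩
    | tmul l f =>
      refine ⟨algebraMap Ω F l * f, ?_⟩
      rw [CF.ofTensor_tmul, map_mul, AlgHom.commutes]
    | add a b ha hb =>
      obtain ⟨f, hf⟩ := ha
      obtain ⟨g, hg⟩ := hb
      exact ⟨f + g, by rw [map_add, map_add, hf, hg]⟩
  intro f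
  obtain ⟨a, b, hb, h⟩ := CF.exists_div f
  obtain ⟨a', ha'⟩ := h1 a
  obtain ⟨b', hb'⟩ := h1 b
  have hb0 : CF.ofTensor Ω F Ω b ≠ 0 := by
    intro h0
    exact hb (CF.ofTensor_injective Ω F Ω (by rw [h0, map_zero]))
  refine ⟨a' / b', ?_⟩
  rw [map_div₀, ha', hb', div_eq_iff hb0, h]

variable {M : Type u} [Field M] [IsAlgClosed M] [Algebra Ω M]

theorem degree_bc (E : Divisor Ω (CF Ω F Ω)) : Divisor.degree (bc F M E) = Divisor.degree E :=
  degree_mapDomain _ _

/-- the divisor of a function on `F` after base change -/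
theorem divOf_inr (g : F) :
    RR.divOf (K := M) (CF.inr Ω F M g) = bc F M (RR.divOf (K := Ω) (CF.inr Ω F Ω g)) := by
  by_cases hg : g = 0
  · subst hg
    have h1 : RR.divOf (K := M) (CF.inr Ω F M 0) = 0 := by
      ext P
      simp
    have h2 : RR.divOf (K := Ω) (CF.inr Ω F Ω 0) = 0 := by
      ext P
      simp
    rw [h1, h2, bc, Finsupp.mapDomain_zero]
  · have h1 := gauss_π_inr (Pl.ofAlgHom (Algebra.ofId Ω M)) g
      (inr_mem (Pl.ofAlgHom (Algebra.ofId Ω M)) g)
    have h2 := divOf_gauss (Pl.ofAlgHom (Algebra.ofId Ω M)) (CF.inr Ω F Ω g)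
      (inr_mem (Pl.ofAlgHom (Algebra.ofId Ω M)) g) (by
        rw [h1]
        exact (_root_.map_ne_zero _).mpr hg)
    rw [h1] at h2
    exact h2

theorem bc_add (D E : Divisor Ω (CF Ω F Ω)) : bc F M (D + E) = bc F M D + bc F M E :=
  Finsupp.mapDomain_add

theorem finrank_bc_ge (D : Divisor Ω (CF Ω F Ω)) :
    Module.finrank Ω (riemannRochSpace D) ≤ Module.finrank M (riemannRochSpace (bc F M D)) := by
  let b := Module.finBasis Ω (riemannRochSpace D)
  choose g hg using fun i => CF.inr_surjective (Ω := Ω) (F := F) (b i : CF Ω F Ω)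
  have h1 : LinearIndependent Ω g := by
    have h2 : LinearIndependent Ω (fun i => (b i : CF Ω F Ω)) :=
      b.linearIndependent.map' (riemannRochSpace D).subtype (Submodule.ker_subtype _)
    have h3 : (fun i => (b i : CF Ω F Ω)) = (CF.inr Ω F Ω).toLinearMap ∘ g := by
      ext i
      exact (hg i).symm
    rw [h3] at h2
    exact h2.of_comp _
  have h4 := CF.linearIndependent_inr (L := M) h1
  have h5 : ∀ i, CF.inr Ω F M (g i) ∈ riemannRochSpace (bc F M D) := by
    intro i
    have hgi : g i ≠ 0 := h1.ne_zero i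
    have hbi : (b i : CF Ω F Ω) ≠ 0 := by rw [← hg i]; exact (_root_.map_ne_zero _).mpr hgi
    rw [RR.mem_riemannRochSpace_of_ne_zero ((_root_.map_ne_zero _).mpr hgi), divOf_inr,
      ← bc_add]
    apply mapDomain_nonneg
    rw [hg i]
    exact (RR.mem_riemannRochSpace_of_ne_zero hbi).mp (b i).2
  let v : Fin (Module.finrank Ω (riemannRochSpace D)) → riemannRochSpace (bc F M D) :=
    fun i => ⟨_, h5 i⟩
  have h6 : LinearIndependent M v := by
    apply LinearIndependent.of_comp (riemannRochSpace (bc F M D)).subtype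
    exact h4
  have h7 := h6.fintype_card_le_finrank
  rwa [Fintype.card_fin] at h7

theorem genusFF_CF_le : genusFF M (CF Ω F M) ≤ genusFF Ω (CF Ω F Ω) := by
  obtain ⟨P⟩ := RR.FunctionField.nonempty_place (K := Ω) (F := CF Ω F Ω)
  set n : ℤ := 2 * (genusFF M (CF Ω F M) + genusFF Ω (CF Ω F Ω)) with hn
  let D : Divisor Ω (CF Ω F Ω) := Finsupp.single P n
  have hdeg : Divisor.degree D = n := RR.degree_single_one P n
  have h1 := RR.finrank_riemannRochSpace_eq (D := D) (by rw [hdeg, hn]; linarith)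
  have h2 := RR.finrank_riemannRochSpace_eq (D := bc F M D)
    (by rw [degree_bc, hdeg, hn]; linarith)
  have h3 := finrank_bc_ge (M := M) D
  rw [degree_bc] at h2
  have h4 : (Module.finrank Ω (riemannRochSpace D) : ℤ) ≤
      Module.finrank M (riemannRochSpace (bc F M D)) := by exact_mod_cast h3
  rw [h1, h2] at h4
  have h5 : (genusFF M (CF Ω F M) : ℤ) ≤ genusFF Ω (CF Ω F Ω) := by linarith
  exact_mod_cast h5

theorem Pl.eq_ofAlgHom_id (p : Pl Ω Ω Ω) : p = Pl.ofAlgHom (AlgHom.id Ω Ω) := by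
  apply Pl.ext'
  · intro x
    exact ⟨fun _ => trivial, fun _ => p.alg_mem x⟩
  · intro x hp hq
    exact p.π_alg x

/-- reduction of a base change along a rational place -/
theorem mapDomain_bc (p : Pl Ω M Ω) (E : Divisor Ω (CF Ω F Ω)) :
    (bc F M E).mapDomain (redPlace p) = E := by
  rw [bc, ← Finsupp.mapDomain_comp]
  have h1 : (redPlace p ∘ redPlace (Pl.ofAlgHom (Algebra.ofId Ω M)) :
      Place Ω (CF Ω F Ω) → Place Ω (CF Ω F Ω)) = id := by
    ext1 P
    rw [Function.comp_apply, ← redPlace_comp, Pl.eq_ofAlgHom_id (p.comp _), redPlace_id]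
    rfl
  rw [h1, Finsupp.mapDomain_id]

theorem eq_bc_of_effective {E : Divisor Ω (CF Ω F Ω)} (hE : 0 ≤ E)
    (hl : Module.finrank Ω (riemannRochSpace E) = 1) (D : Divisor M (CF Ω F M)) (f : CF Ω F M)
    (hD : 0 ≤ D) (hf : f ≠ 0) (h : D = bc F M E + RR.divOf f) : D = bc F M E := by
  by_cases hc : ∃ c : M, f = algebraMap M (CF Ω F M) c
  · obtain ⟨c, rfl⟩ := hc
    rw [h]
    have : RR.divOf (K := M) (algebraMap M (CF Ω F M) c) = 0 := by
      ext P
      simp [Fermat.FF.ord_algebraMap]
    rw [this, add_zero]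
  · exfalso
    push Not at hc
    obtain ⟨p⟩ := Pl.exists_rational Ω M
    obtain ⟨c, d, hd, hu, hne⟩ := exists_affine_gaussUnit p f hc
    set u := algebraMap M (CF Ω F M) d * (f - algebraMap M (CF Ω F M) c) with hudef
    have hu0 : (gauss F p).π ⟨u, hu⟩ ≠ 0 := by
      have := hne 0
      rwa [map_zero] at this
    have hfc : f - algebraMap M (CF Ω F M) c ≠ 0 := sub_ne_zero.mpr (hc c)
    have hbc : 0 ≤ bc F M E := mapDomain_nonneg _ hE
    have h1 : 0 ≤ bc F M E + RR.divOf u := by
      intro P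
      have h2 : 0 ≤ (bc F M E) P + P.ord f := by
        have := hD P
        rw [h] at this
        simpa using this
      have h3 : 0 ≤ (bc F M E) P := hbc P
      have h4 : -(bc F M E) P ≤ P.ord (f - algebraMap M (CF Ω F M) c) := by
        rw [sub_eq_add_neg]
        apply Fermat.FF.ord_add_ge P (by rwa [← sub_eq_add_neg])
        · right; linarith
        · right
          rw [Fermat.FF.ord_neg, Fermat.FF.ord_algebraMap]
          linarith
      have h5 : P.ord u = P.ord (f - algebraMap M (CF Ω F M) c) := by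
        rw [hudef, P.ord_mul ((_root_.map_ne_zero _).mpr hd) hfc, Fermat.FF.ord_algebraMap,
          zero_add]
      simp only [Finsupp.coe_zero, Pi.zero_apply, Finsupp.coe_add, Pi.add_apply,
        RR.divOf_apply, h5]
      linarith
    have h2 := mapDomain_nonneg (redPlace p) h1
    rw [Finsupp.mapDomain_add, mapDomain_bc, ← divOf_gauss p u hu hu0,
      ← RR.mem_riemannRochSpace_of_ne_zero hu0] at h2
    have h3 : (1 : CF Ω F Ω) ∈ riemannRochSpace E := by
      rw [RR.mem_riemannRochSpace_of_ne_zero one_ne_zero]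
      intro P
      have := hE P
      simpa using this
    have h4 := (finrank_eq_one_iff_of_nonzero' (⟨1, h3⟩ : riemannRochSpace E)
      (fun h0 => one_ne_zero (congrArg Subtype.val h0))).mp hl ⟨_, h2⟩
    obtain ⟨e, he⟩ := h4
    apply hne e
    have h5 := congrArg Subtype.val he
    refine h5.symm.trans ?_
    show e • (1 : CF Ω F Ω) = _
    rw [Algebra.algebraMap_eq_smul_one]

/-- There is an effective divisor `E` which, after every extension of constants, is the only
effective divisor in its class, and such that every divisor of the same degree is equivalent to an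
effective one. -/
theorem exists_rigid (Ω F : Type u) [Field Ω] [IsAlgClosed Ω] [Field F] [Algebra Ω F]
    [Fermat.FF.IsFF1 Ω F] : ∃ E : Divisor Ω (CF Ω F Ω), 0 ≤ E ∧
    ∀ (M : Type u) [Field M] [IsAlgClosed M] [Algebra Ω M],
      (∀ (D : Divisor M (CF Ω F M)) (f : CF Ω F M), 0 ≤ D → f ≠ 0 →
        D = bc F M E + RR.divOf f → D = bc F M E) ∧
      (∀ D : Divisor M (CF Ω F M), Divisor.degree D = Divisor.degree E →
        ∃ (D' : Divisor M (CF Ω F M)) (f : CF Ω F M), f ≠ 0 ∧ 0 ≤ D' ∧
          D' = D + RR.divOf f) := by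
  obtain ⟨E, hE, hdeg, hl⟩ := exists_nonspecial (K := Ω) (F := CF Ω F Ω)
  refine ⟨E, hE, fun M _ _ _ => ⟨fun D f hD hf h => eq_bc_of_effective hE hl D f hD hf h,
    fun D hD => ?_⟩⟩
  have h1 : (genusFF M (CF Ω F M) : ℤ) ≤ Divisor.degree D := by
    rw [hD, hdeg]
    exact_mod_cast genusFF_CF_le
  obtain ⟨f, hf, h2⟩ := RR.exists_effective h1
  exact ⟨_, f, hf, h2, rfl⟩

end Fermat.Agent.AV
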