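import Mathlib
import Fermat.Agent.AV.EvPlace
import Fermat.Agent.AV.Reduction
import Fermat.Agent.AV.Extend
import Fermat.Agent.AV.RigidDivisor

/-!
# The theorem of the square for height data (team AV = S26, package P6)
-/

set_option autoImplicit false
set_option linter.unusedSectionVars false

noncomputable section

open TensorProduct AlgebraicCurve IntermediateField
open scoped Classical

universe u

namespace Fermat.Agent.AV

variable {Ω F L κ l M : Type u} [Field Ω] [IsAlgClosed Ω] [Field F] [Algebra Ω F]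
  [Fermat.FF.IsFF1 Ω F] [Field L] [Algebra Ω L] [Field κ] [Algebra Ω κ] [Field l] [Algebra Ω l]
  [Field M] [Algebra Ω M]

theorem mapDomain_apply_eq_zero {α β G : Type*} [AddCommGroup G] (r : α → β) (D : α →₀ G) (b : β)
    (h : ∀ a, r a = b → D a = 0) : D.mapDomain r b = 0 := by
  rw [Finsupp.mapDomain, Finsupp.sum_apply, Finsupp.sum]
  refine Finset.sum_eq_zero fun a _ => ?_
  rw [Finsupp.single_apply]
  split_ifs with h1
  · exact h a h1
  · rfl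

theorem mapDomain_apply_congr {α β G : Type*} [AddCommGroup G] (r : α → β) (D D' : α →₀ G) (b : β)
    (h : ∀ a, r a = b → D a = D' a) : D.mapDomain r b = D'.mapDomain r b := by
  have h1 := mapDomain_apply_eq_zero r (D - D') b (fun a ha => by
    rw [Finsupp.sub_apply, h a ha, sub_self])
  have h2 : (D - D').mapDomain r = D.mapDomain r - D'.mapDomain r :=
    (Finsupp.mapDomain.addMonoidHom r).map_sub D D'
  rw [h2, Finsupp.sub_apply, sub_eq_zero] at h1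
  exact h1

theorem sq_mapDomain_nonneg {α β : Type*} (r : α → β) {D : α →₀ ℤ} (h : 0 ≤ D) :
    0 ≤ D.mapDomain r := by
  intro b
  rw [Finsupp.mapDomain, Finsupp.sum_apply, Finsupp.coe_zero, Pi.zero_apply, Finsupp.sum]
  refine Finset.sum_nonneg fun a _ => ?_
  rw [Finsupp.single_apply]
  split_ifs
  · exact h a
  · exact le_rfl

theorem mem_support_mapDomain {α β : Type*} (r : α → β) {D : α →₀ ℤ} (h : 0 ≤ D) {a : α}
    (ha : a ∈ D.support) : r a ∈ (D.mapDomain r).support := by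
  rw [Finsupp.mem_support_iff] at ha ⊢
  have h1 : 0 < D a := lt_of_le_of_ne (h a) (Ne.symm ha)
  have h2 : D.mapDomain r (r a) = ∑ x ∈ D.support, (if r x = r a then D x else 0) := by
    rw [Finsupp.mapDomain, Finsupp.sum_apply, Finsupp.sum]
    exact Finset.sum_congr rfl fun x _ => Finsupp.single_apply
  have h3 : D a ≤ D.mapDomain r (r a) := by
    rw [h2]
    have h4 := Finset.single_le_sum (f := fun x => if r x = r a then D x else 0)
      (s := D.support) (fun x _ => by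
        show 0 ≤ if r x = r a then D x else 0
        split_ifs
        · exact h x
        · exact le_rfl) (Finsupp.mem_support_iff.mpr ha)
    simpa using h4
  omega

section Principal

variable [IsAlgClosed L] [IsAlgClosed κ]

/-- units of the valuation ring of a place have order zero -/
theorem ord_eq_zero_of_plOf (P : Place L (CF Ω F L)) {x : CF Ω F L} (h : x ∈ (plOf Ω P).V)
    (h0 : (plOf Ω P).π ⟨x, h⟩ ≠ 0) : P.ord x = 0 := by
  have h1 : 0 ≤ P.ord x := RR.ord_nonneg_of_mem P h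
  have h2 : 0 ≤ P.ord x⁻¹ := RR.ord_nonneg_of_mem P ((plOf Ω P).inv_mem_of_π_ne_zero h h0)
  rw [P.ord_inv] at h2
  omega

/-- Principal divisors specialise to principal divisors. -/
theorem divOf_mapDomain (p : Pl Ω L κ) (f : CF Ω F L) (hf : f ≠ 0) :
    ∃ f' : CF Ω F κ, f' ≠ 0 ∧ ((RR.divOf f : Divisor L (CF Ω F L))).mapDomain (redPlace p) =
      RR.divOf f' := by
  obtain ⟨c, hc, h, h0⟩ := exists_const_mul_gaussUnit p f hf
  refine ⟨_, h0, ?_⟩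
  rw [divOf_gauss p _ h h0, RR.divOf_mul (by simpa using hc) hf]
  have : (RR.divOf (algebraMap L (CF Ω F L) c) : Divisor L (CF Ω F L)) = 0 := by
    ext P
    rw [RR.divOf_apply, RR.ord_algebraMap]
    rfl
  rw [this, zero_add]

end Principal

namespace HeightDatum

variable (𝒜 : HeightDatum Ω)

/-- the point `φ + a` on the curve `L(F)` -/
def tr (φ : 𝒜.Pt F) (a : 𝒜.Pt L) : 𝒜.Pt (CF Ω F L) :=
  𝒜.spec (Pl.ofAlgHom (CF.inr Ω F L)) φ + 𝒜.spec (Pl.ofAlgHom (CF.inl Ω F L)) a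

theorem spec_gauss_tr (p : Pl Ω L κ) (φ : 𝒜.Pt F) (a : 𝒜.Pt L) :
    𝒜.spec (gauss F p) (𝒜.tr φ a) = 𝒜.tr φ (𝒜.spec p a) := by
  rw [tr, map_add, ← 𝒜.spec_comp, ← 𝒜.spec_comp, gauss_comp_inl, gauss_comp_inr, 𝒜.spec_comp]
  rfl

variable [IsAlgClosed L] [IsAlgClosed κ]

theorem spec_plOf_tr (P : Place L (CF Ω F L)) (φ : 𝒜.Pt F) (a : 𝒜.Pt L) :
    𝒜.spec (plOf Ω P) (𝒜.tr φ a) = 𝒜.spec (evPl P) φ + a := by
  rw [tr, map_add, ← 𝒜.spec_comp, ← 𝒜.spec_comp]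
  have h : (plOf Ω P).comp (Pl.ofAlgHom (CF.inl Ω F L)) = Pl.ofAlgHom (AlgHom.id Ω L) :=
    plOf_comp_algebraMap Ω P
  rw [h, 𝒜.spec_id]
  rfl

/-- the two ways to specialise the point `φ + a` to `κ` agree -/
theorem spec_two_ways (p : Pl Ω L κ) (P : Place L (CF Ω F L)) (φ : 𝒜.Pt F) (a : 𝒜.Pt L) :
    𝒜.spec (p.comp (plOf Ω P)) (𝒜.tr φ a) =
      𝒜.spec ((plOf Ω (redPlace p P)).comp (gauss F p)) (𝒜.tr φ a) := by
  rw [𝒜.spec_comp, 𝒜.spec_comp, spec_gauss_tr, spec_plOf_tr, spec_plOf_tr, map_add,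
    evPl_redPlace, 𝒜.spec_comp]

/-- (F5) specialisation of the divisors of the points `φ + a` -/
theorem div_red (p : Pl Ω L κ) (φ : 𝒜.Pt F) (a : 𝒜.Pt L) :
    ∃ f : CF Ω F κ, f ≠ 0 ∧ (𝒜.div L (𝒜.tr φ a)).mapDomain (redPlace p) =
      𝒜.div κ (𝒜.tr φ (𝒜.spec p a)) + RR.divOf f := by
  set Q := 𝒜.tr φ a with hQ
  set γ := 𝒜.g (gauss F p) Q with hγ
  have hγ0 : γ ≠ 0 := 𝒜.g_ne_zero _ _
  obtain ⟨f, hf0, hf⟩ := divOf_mapDomain p γ hγ0
  refine ⟨f, hf0, ?_⟩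
  -- the Gauss units
  let G : Place κ (CF Ω F κ) → CF Ω F L := fun P' => 𝒜.g ((plOf Ω P').comp (gauss F p)) Q
  have hG0 : ∀ P', G P' ≠ 0 := fun P' => 𝒜.g_ne_zero _ _
  have hG1 : ∀ P', ∃ h : G P' / γ ∈ (gauss F p).V, (gauss F p).π ⟨_, h⟩ =
      𝒜.g (plOf Ω P') (𝒜.tr φ (𝒜.spec p a)) := by
    intro P'
    obtain ⟨h, h'⟩ := 𝒜.g_comp (plOf Ω P') (gauss F p) Q
    refine ⟨h, ?_⟩
    rw [h', hQ, spec_gauss_tr]
  have hG2 : ∀ P : Place L (CF Ω F L), P.ord (𝒜.g (plOf Ω P) Q) = P.ord γ + P.ord (G (redPlace p P) / γ) := by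
    intro P
    have h1 : 𝒜.g (p.comp (plOf Ω P)) Q = G (redPlace p P) :=
      𝒜.g_congr _ _ _ (𝒜.spec_two_ways p P φ a)
    obtain ⟨h, h'⟩ := 𝒜.g_comp p (plOf Ω P) Q
    have h2 : P.ord (𝒜.g (p.comp (plOf Ω P)) Q / 𝒜.g (plOf Ω P) Q) = 0 :=
      ord_eq_zero_of_plOf P h (by rw [h']; exact 𝒜.g_ne_zero _ _)
    rw [h1, RR.ord_div P (hG0 _) (𝒜.g_ne_zero _ _)] at h2
    rw [RR.ord_div P (hG0 _) hγ0]
    omega
  ext P'
  obtain ⟨h, h'⟩ := hG1 P'
  have h0 : (gauss F p).π ⟨_, h⟩ ≠ 0 := by rw [h']; exact 𝒜.g_ne_zero _ _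
  have h1 := divOf_gauss p _ h h0
  rw [h'] at h1
  rw [Finsupp.add_apply, ← hf, div_apply, ← RR.divOf_apply (𝒜.g (plOf Ω P') _) P', h1,
    ← Finsupp.add_apply, ← Finsupp.mapDomain_add]
  refine mapDomain_apply_congr _ _ _ _ ?_
  rintro P rfl
  rw [Finsupp.add_apply, RR.divOf_apply, RR.divOf_apply, div_apply, hG2 P, add_comm]

theorem ht_red (p : Pl Ω L κ) (φ : 𝒜.Pt F) (a : 𝒜.Pt L) :
    𝒜.ht κ (𝒜.tr φ (𝒜.spec p a)) = 𝒜.ht L (𝒜.tr φ a) := by
  obtain ⟨f, hf0, hf⟩ := 𝒜.div_red p φ a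
  have h1 := congrArg Divisor.degree hf
  rw [degree_mapDomain, map_add, RR.degree_divOf, add_zero] at h1
  exact h1.symm

/-- the height of `φ + a` does not depend on the constant point `a` -/
theorem ht_tr_eq (φ : 𝒜.Pt F) (a b : 𝒜.Pt L) : 𝒜.ht L (𝒜.tr φ a) = 𝒜.ht L (𝒜.tr φ b) := by
  obtain ⟨M, _, _, _, i, α, hα⟩ := 𝒜.exists_generic L
  have key : ∀ a : 𝒜.Pt L, 𝒜.ht L (𝒜.tr φ a) = 𝒜.ht M (𝒜.tr φ α) := by
    intro a
    obtain ⟨κ', _, _, _, p, j, -, hj, hp⟩ := hα a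
    rw [← 𝒜.ht_red p φ α, hp, 𝒜.ht_red]
  rw [key a, key b]

/-- the divisor which is principal by the theorem of the square -/
def sqDiv (φ : 𝒜.Pt F) (a b : 𝒜.Pt L) : Divisor L (CF Ω F L) :=
  𝒜.div L (𝒜.tr φ (a + b)) - 𝒜.div L (𝒜.tr φ a) - 𝒜.div L (𝒜.tr φ b) + 𝒜.div L (𝒜.tr φ 0)

@[simp] theorem sqDiv_zero_right (φ : 𝒜.Pt F) (a : 𝒜.Pt L) : 𝒜.sqDiv φ a 0 = 0 := by
  rw [sqDiv, add_zero]
  abel

@[simp] theorem sqDiv_zero_left (φ : 𝒜.Pt F) (a : 𝒜.Pt L) : 𝒜.sqDiv φ 0 a = 0 := by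
  rw [sqDiv, zero_add]
  abel

theorem degree_sqDiv (φ : 𝒜.Pt F) (a b : 𝒜.Pt L) : Divisor.degree (𝒜.sqDiv φ a b) = 0 := by
  rw [sqDiv, map_add, map_sub, map_sub]
  have h1 := 𝒜.ht_tr_eq φ (a + b) 0
  have h2 := 𝒜.ht_tr_eq φ a 0
  have h3 := 𝒜.ht_tr_eq φ b 0
  simp only [ht] at h1 h2 h3
  rw [h1, h2, h3]
  abel

theorem mapDomain_sub' {α β : Type*} (r : α → β) (D D' : α →₀ ℤ) :
    (D - D').mapDomain r = D.mapDomain r - D'.mapDomain r :=
  (Finsupp.mapDomain.addMonoidHom r).map_sub D D'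

theorem sqDiv_red (p : Pl Ω L κ) (φ : 𝒜.Pt F) (a b : 𝒜.Pt L) :
    ∃ f : CF Ω F κ, f ≠ 0 ∧ (𝒜.sqDiv φ a b).mapDomain (redPlace p) =
      𝒜.sqDiv φ (𝒜.spec p a) (𝒜.spec p b) + RR.divOf f := by
  obtain ⟨f1, h1, h1'⟩ := 𝒜.div_red p φ (a + b)
  obtain ⟨f2, h2, h2'⟩ := 𝒜.div_red p φ a
  obtain ⟨f3, h3, h3'⟩ := 𝒜.div_red p φ b
  obtain ⟨f4, h4, h4'⟩ := 𝒜.div_red p φ 0
  refine ⟨f1 * f2⁻¹ * f3⁻¹ * f4, mul_ne_zero (mul_ne_zero (mul_ne_zero h1 (inv_ne_zero h2))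
    (inv_ne_zero h3)) h4, ?_⟩
  rw [RR.divOf_mul (mul_ne_zero (mul_ne_zero h1 (inv_ne_zero h2)) (inv_ne_zero h3)) h4,
    RR.divOf_mul (mul_ne_zero h1 (inv_ne_zero h2)) (inv_ne_zero h3),
    RR.divOf_mul h1 (inv_ne_zero h2), RR.divOf_inv, RR.divOf_inv, sqDiv, sqDiv,
    Finsupp.mapDomain_add, mapDomain_sub', mapDomain_sub', h1', h2', h3', h4', map_add,
    map_zero]
  abel

end HeightDatum

section Bc

variable [IsAlgClosed L] [IsAlgClosed κ]

theorem bc_red (p : Pl Ω L κ) (E : Divisor Ω (CF Ω F Ω)) :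
    (bc F L E).mapDomain (redPlace p) = bc F κ E := by
  have h : p.comp (Pl.ofAlgHom (Algebra.ofId Ω L)) = Pl.ofAlgHom (Algebra.ofId Ω κ) := by
    apply Pl.ext'
    · intro x
      rw [Pl.mem_comp_V]
      exact ⟨fun _ => trivial, fun _ => ⟨trivial, p.alg_mem x⟩⟩
    · intro x hp hq
      exact p.π_alg x
  rw [bc, bc, ← Finsupp.mapDomain_comp]
  congr 1
  funext P
  rw [Function.comp_apply, ← redPlace_comp, h]

end Bc

theorem Pl.exists_comp_eq (p : Pl Ω M κ) (i : L →ₐ[Ω] M) (h : ∀ y, i y ∈ p.V) :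
    ∃ j : L →ₐ[Ω] κ, p.comp (Pl.ofAlgHom i) = Pl.ofAlgHom j := by
  let j : L →ₐ[Ω] κ :=
    { p.π.comp ((i : L →+* M).codRestrict p.V.toSubring h) with
      commutes' := fun c => by
        have h1 : (⟨i (algebraMap Ω L c), h _⟩ : p.V) = ⟨algebraMap Ω M c, p.alg_mem c⟩ :=
          Subtype.ext (i.commutes c)
        exact (congrArg p.π h1).trans (p.π_alg c) }
  refine ⟨j, ?_⟩
  apply Pl.ext'
  · intro x
    rw [Pl.mem_comp_V]
    exact ⟨fun _ => trivial, fun _ => ⟨trivial, h x⟩⟩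
  · intro x hp hq
    rfl

section Factor

/-- An algebraically closed subfield is an intersection of valuation rings. -/
theorem mem_range_of_forall_valuationSubring {L₁ M : Type u} [Field L₁] [IsAlgClosed L₁] [Field M]
    (i : L₁ →+* M) (x : M) (h : ∀ V : ValuationSubring M, (∀ y, i y ∈ V) → x ∈ V) :
    x ∈ i.range := by
  by_contra hx
  have h1 : IsIntegrallyClosedIn i.range M := by
    rw [Subring.isIntegrallyClosedIn_iff]
    intro y hy
    algebraize [i]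
    have h2 : IsIntegral L₁ y := by
      obtain ⟨p, hp, hpy⟩ := hy
      obtain ⟨q, hq, -, hqm⟩ := Polynomial.lifts_and_natDegree_eq_and_monic
        (p := p) (f := i.rangeRestrict) ((Polynomial.lifts_iff_coeff_lifts p).mpr fun n =>
          i.rangeRestrict_surjective _) hp
      refine ⟨q, hqm, ?_⟩
      rw [← hq, Polynomial.eval₂_map] at hpy
      exact hpy
    have h3 : Algebra.IsAlgebraic L₁ (IntermediateField.adjoin L₁ {y}) :=
      IntermediateField.isAlgebraic_adjoin_simple h2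
    have h4 : IntermediateField.adjoin L₁ {y} = ⊥ :=
      IntermediateField.eq_bot_of_isAlgClosed_of_isAlgebraic _
    have h5 : y ∈ (⊥ : IntermediateField L₁ M) := h4 ▸ IntermediateField.mem_adjoin_simple_self L₁ y
    exact IntermediateField.mem_bot.mp h5
  obtain ⟨V, hV, hxV⟩ := Subring.exists_le_valuationSubring_of_isIntegrallyClosedIn hx
  exact hxV (h V fun y => hV ⟨y, rfl⟩)

/-- A place with values in a subfield. -/
theorem exists_factor {L₁ M : Type u} [Field L₁] [Algebra Ω L₁] [Field M] [Algebra Ω M]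
    (i : L₁ →ₐ[Ω] M) (q' : Pl Ω F M) (hq : ∀ x (hx : x ∈ q'.V), q'.π ⟨x, hx⟩ ∈ (i : L₁ →+* M).range) :
    ∃ q : Pl Ω F L₁, (Pl.ofAlgHom i).comp q = q' := by
  let e : L₁ ≃+* (i : L₁ →+* M).range :=
    RingEquiv.ofBijective (i : L₁ →+* M).rangeRestrict
      ⟨fun x y h => i.injective (congrArg Subtype.val h), (i : L₁ →+* M).rangeRestrict_surjective⟩
  have he : ∀ y, i (e.symm y) = y := fun y => congrArg Subtype.val (e.apply_symm_apply y)
  let π' : q'.V →+* L₁ := (e.symm : _ →+* L₁).comp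
    (q'.π.codRestrict (i : L₁ →+* M).range (fun x => hq x.1 x.2))
  have hπ : ∀ x, i (π' x) = q'.π x := fun x => he _
  refine ⟨⟨q'.V, q'.alg_mem, π', ?_, ?_⟩, ?_⟩
  · intro x hx
    apply q'.isLocal
    rw [← hπ]
    exact (map_ne_zero i).mpr hx
  · intro x
    apply i.injective
    exact (hπ _).trans ((q'.π_alg x).trans (i.commutes x).symm)
  · apply Pl.ext'
    · intro x
      rw [Pl.mem_comp_V]
      exact ⟨fun h => h.1, fun h => ⟨h, trivial⟩⟩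
    · intro x hp hq''
      exact hπ ⟨x, hq''⟩

/-- For all but finitely many constants `c`, the function `1 / (x - c)` is regular at given
places. -/
theorem exists_const_inv_mem {ι : Type*} (S : Finset ι) (V : ι → Pl Ω F Ω) (x : F) :
    ∃ c : Ω, ∀ s ∈ S, (x - algebraMap Ω F c)⁻¹ ∈ (V s).V := by
  let bad : ι → Set Ω := fun s => {c | (x - algebraMap Ω F c)⁻¹ ∉ (V s).V}
  have hbad : ∀ s, (bad s).Finite := by
    intro s
    apply Set.Subsingleton.finite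
    have key : ∀ c ∈ bad s, ∃ h : x - algebraMap Ω F c ∈ (V s).V, (V s).π ⟨_, h⟩ = 0 := by
      intro c hc
      have h1 : x - algebraMap Ω F c ∈ (V s).V := ((V s).V.mem_or_inv_mem _).resolve_right hc
      refine ⟨h1, ?_⟩
      by_contra h2
      exact hc ((V s).inv_mem_of_π_ne_zero h1 h2)
    intro c hc d hd
    obtain ⟨h1, h1'⟩ := key c hc
    obtain ⟨h2, h2'⟩ := key d hd
    have h3 : (⟨x - algebraMap Ω F c, h1⟩ : (V s).V) =
        ⟨x - algebraMap Ω F d, h2⟩ - ⟨algebraMap Ω F (c - d), (V s).alg_mem _⟩ := by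
      apply Subtype.ext
      show x - algebraMap Ω F c = x - algebraMap Ω F d - algebraMap Ω F (c - d)
      rw [map_sub]
      ring
    rw [h3, map_sub, h2', zero_sub, (V s).π_alg, neg_eq_zero] at h1'
    exact sub_eq_zero.mp h1'
  obtain ⟨c, hc⟩ := ((S.finite_toSet.biUnion fun s _ => hbad s)).exists_notMem
  refine ⟨c, fun s hs => ?_⟩
  by_contra h
  exact hc (Set.mem_biUnion hs h)

/-- If all functions regular at the places `V s`, `s ∈ S` take values in the algebraically closed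
field `L₁` at `q'`, then `q'` is defined over `L₁`. -/
theorem exists_factor' {ι : Type*} (S : Finset ι) (V : ι → Pl Ω F Ω) {L₁ M : Type u} [Field L₁]
    [Algebra Ω L₁] [Field M] [Algebra Ω M] (i : L₁ →ₐ[Ω] M) (q' : Pl Ω F M)
    (h : ∀ x : F, (∀ s ∈ S, x ∈ (V s).V) → ∃ hx : x ∈ q'.V, q'.π ⟨x, hx⟩ ∈ (i : L₁ →+* M).range) :
    ∃ q : Pl Ω F L₁, (Pl.ofAlgHom i).comp q = q' := by
  apply exists_factor
  intro x hx
  obtain ⟨c, hc⟩ := exists_const_inv_mem S V x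
  obtain ⟨hv, hv'⟩ := h _ hc
  by_cases h0 : x - algebraMap Ω F c = 0
  · have h1 : x = algebraMap Ω F c := sub_eq_zero.mp h0
    subst h1
    rw [q'.π_alg]
    exact ⟨algebraMap Ω L₁ c, i.commutes c⟩
  · have h1 : x - algebraMap Ω F c ∈ q'.V := sub_mem hx (q'.alg_mem c)
    have h2 := q'.π_inv h1 hv h0
    have h3 : q'.π ⟨_, h1⟩ = q'.π ⟨x, hx⟩ - algebraMap Ω M c := by
      rw [← q'.π_alg c, ← map_sub]
      rfl
    have h4 : q'.π ⟨x, hx⟩ = (q'.π ⟨_, hv⟩)⁻¹ + algebraMap Ω M c := by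
      rw [h2, inv_inv, h3]
      ring
    rw [h4]
    refine add_mem ?_ ⟨algebraMap Ω L₁ c, i.commutes c⟩
    obtain ⟨y, hy⟩ := hv'
    exact ⟨y⁻¹, by rw [map_inv₀, hy]⟩

end Factor

namespace HeightDatum

variable (𝒜 : HeightDatum Ω)

/-- The generic case of the theorem of the square. -/
theorem square_generic [IsAlgClosed L] (φ : 𝒜.Pt F) (b : 𝒜.Pt L)
    (κ₀ : Type u) [Field κ₀] [Algebra Ω κ₀] [IsAlgClosed κ₀] (p₀ : Pl Ω L κ₀)
    (hp₀ : Function.Surjective p₀.π) (hb : 𝒜.spec p₀ b = 0)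
    [IsAlgClosed M] (i : L →ₐ[Ω] M) (a : 𝒜.Pt M)
    (ha : ∃ (κ : Type u) (_ : Field κ) (_ : Algebra Ω κ) (_ : IsAlgClosed κ) (p : Pl Ω M κ)
      (j : L →ₐ[Ω] κ), p.comp (Pl.ofAlgHom i) = Pl.ofAlgHom j ∧ 𝒜.spec p a = 0) :
    ∃ f : CF Ω F M, f ≠ 0 ∧ 𝒜.sqDiv φ a (𝒜.spec (Pl.ofAlgHom i) b) = RR.divOf f := by
  obtain ⟨E, hE0, hE⟩ := exists_rigid Ω F
  set b' := 𝒜.spec (Pl.ofAlgHom i) b with hb'
  -- the effective divisor
  obtain ⟨D, f, hf0, hD0, hD⟩ := (hE M).2 (𝒜.sqDiv φ a b' + bc F M E) (by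
    rw [map_add, degree_sqDiv, zero_add, bc, degree_mapDomain])
  -- the reduction of `D`
  have hred : ∀ (κ : Type u) [Field κ] [Algebra Ω κ] [IsAlgClosed κ] (p : Pl Ω M κ),
      𝒜.sqDiv φ (𝒜.spec p a) (𝒜.spec p b') = 0 → D.mapDomain (redPlace p) = bc F κ E := by
    intro κ _ _ _ p hp
    obtain ⟨f1, h1, h1'⟩ := 𝒜.sqDiv_red p φ a b'
    obtain ⟨f2, h2, h2'⟩ := divOf_mapDomain p f hf0
    refine (hE κ).1 _ (f1 * f2) ?_ (mul_ne_zero h1 h2) ?_
    · exact sq_mapDomain_nonneg _ hD0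
    · rw [hD, Finsupp.mapDomain_add, Finsupp.mapDomain_add, h1', h2', bc_red, hp,
        RR.divOf_mul h1 h2]
      abel
  -- every place in the support of `D` is defined over `L`
  have hfac : ∀ P ∈ D.support, ∃ P₁ : Place L (CF Ω F L), redPlace (Pl.ofAlgHom i) P₁ = P := by
    intro P hP
    have h1 : ∃ q : Pl Ω F L, (Pl.ofAlgHom i).comp q = evPl P := by
      refine exists_factor' (E.support) (fun P => evPl P) i (evPl P) ?_
      intro x hx
      have key : ∀ V : ValuationSubring M, (∀ y, i y ∈ V) →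
          ∃ hx : x ∈ (evPl P).V, (evPl P).π ⟨x, hx⟩ ∈ V := by
        intro V hV
        obtain ⟨κV, _, _, _, pV, hpV, -⟩ := Pl.exists_of_valuationSubring (Ω := Ω) V (fun c => by
          rw [← i.commutes c]
          exact hV _)
        obtain ⟨j₁, hj₁⟩ := pV.exists_comp_eq i (fun y => hpV ▸ hV y)
        obtain ⟨κ', _, _, _, p', j, -, hj⟩ := Pl.exists_extension p₀ hp₀ j₁
        have h1 : 𝒜.spec (p'.comp pV) b' = 0 := by
          rw [hb', ← 𝒜.spec_comp, Pl.comp_assoc, hj₁, hj, 𝒜.spec_comp, hb, map_zero]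
        have h2 := hred κ' (p'.comp pV) (by rw [h1, sqDiv_zero_right])
        have h3 := mem_support_mapDomain (redPlace (p'.comp pV)) hD0 hP
        rw [h2, bc] at h3
        have h4 := Finsupp.mapDomain_support h3
        rw [Finset.mem_image] at h4
        obtain ⟨PE, hPE, h5⟩ := h4
        have h6 := congrArg evPl h5
        rw [evPl_redPlace, evPl_redPlace] at h6
        have h7 : x ∈ ((p'.comp pV).comp (evPl P)).V := by
          rw [← h6, Pl.mem_comp_V]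
          exact ⟨hx PE hPE, trivial⟩
        rw [Pl.mem_comp_V] at h7
        obtain ⟨h8, h9⟩ := h7
        rw [Pl.mem_comp_V] at h9
        exact ⟨h8, hpV ▸ h9.1⟩
      obtain ⟨hx', -⟩ := key ⊤ (fun _ => trivial)
      exact ⟨hx', mem_range_of_forall_valuationSubring (i : L →+* M) _ fun V hV => (key V hV).2⟩
    obtain ⟨q, hq⟩ := h1
    refine ⟨placeEquiv.symm q, placeEquiv.injective ?_⟩
    rw [placeEquiv_apply, placeEquiv_apply, evPl_redPlace, evPl_placeEquiv_symm, hq]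
  -- the divisor `D` is defined over `L`
  have hne : Nonempty (Place L (CF Ω F L)) := RR.FunctionField.nonempty_place
  choose! σ hσ using hfac
  obtain ⟨D₁, hD₁⟩ : ∃ D₁ : Divisor L (CF Ω F L), D₁.mapDomain (redPlace (Pl.ofAlgHom i)) = D := by
    refine ⟨D.mapDomain σ, ?_⟩
    rw [← Finsupp.mapDomain_comp]
    exact (Finsupp.mapDomain_congr (g := id) fun P hP => hσ P hP).trans Finsupp.mapDomain_id
  obtain ⟨κ, _, _, _, p, j, hj, hpa⟩ := ha
  have h1 := hred κ p (by rw [hpa, sqDiv_zero_left])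
  have h2 : D₁ = bc F L E := by
    apply Finsupp.mapDomain_injective (redPlace_ofAlgHom_injective j)
    rw [bc_red, ← h1, ← hD₁, ← Finsupp.mapDomain_comp]
    congr 1
    funext P
    rw [Function.comp_apply, ← redPlace_comp, hj]
  have h3 : D = bc F M E := by rw [← hD₁, h2, bc_red]
  refine ⟨f⁻¹, inv_ne_zero hf0, ?_⟩
  rw [RR.divOf_inv]
  rw [h3] at hD
  have h4 : 𝒜.sqDiv φ a b' + RR.divOf f = 0 := by
    have h5 : bc F M E = (𝒜.sqDiv φ a b' + RR.divOf f) + bc F M E := by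
      rw [add_right_comm]
      exact hD
    exact right_eq_add.mp h5
  exact eq_neg_of_add_eq_zero_left h4

variable [IsAlgClosed L]

/-- (Sq) theorem of the square -/
theorem square (φ : 𝒜.Pt F) (a b : 𝒜.Pt L) :
    ∃ (κ' : Type u) (_ : Field κ') (_ : Algebra Ω κ') (_ : IsAlgClosed κ') (j : L →ₐ[Ω] κ')
      (h : CF Ω F κ'), h ≠ 0 ∧
      𝒜.div κ' (𝒜.tr φ (𝒜.spec (Pl.ofAlgHom j) a + 𝒜.spec (Pl.ofAlgHom j) b)) -
        𝒜.div κ' (𝒜.tr φ (𝒜.spec (Pl.ofAlgHom j) a)) -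
        𝒜.div κ' (𝒜.tr φ (𝒜.spec (Pl.ofAlgHom j) b)) + 𝒜.div κ' (𝒜.tr φ 0) = RR.divOf h := by
  obtain ⟨L₁, _, _, _, i₁, β, hβ⟩ := 𝒜.exists_generic L
  obtain ⟨M₂, _, _, _, i₂, α, hα⟩ := 𝒜.exists_generic L₁
  obtain ⟨κ₀, _, _, _, p₀, j₀, hp₀, -, hb₀⟩ := hβ 0
  rw [map_zero] at hb₀
  obtain ⟨f, hf0, hf⟩ := 𝒜.square_generic φ β κ₀ p₀ hp₀ hb₀ i₂ α (by
    obtain ⟨κ, h1, h2, h3, p, j, -, hj, hp⟩ := hα 0
    exact ⟨κ, h1, h2, h3, p, j, hj, by rw [hp, map_zero]⟩)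
  -- specialise
  obtain ⟨κ₁, _, _, _, p₁, j₁, hp₁, hj₁, hb₁⟩ := hβ b
  obtain ⟨κ₂, _, _, _, p₂, j₂, hp₂, hj₂, ha₂⟩ := hα (𝒜.spec (Pl.ofAlgHom i₁) a)
  obtain ⟨κ', _, _, _, p', j, -, hj⟩ := Pl.exists_extension p₁ hp₁ j₂
  obtain ⟨f1, h1, h1'⟩ := 𝒜.sqDiv_red (p'.comp p₂) φ α (𝒜.spec (Pl.ofAlgHom i₂) β)
  rw [hf] at h1'
  obtain ⟨f2, h2, h2'⟩ := divOf_mapDomain (p'.comp p₂) f hf0
  rw [h2'] at h1'
  have ea : 𝒜.spec (p'.comp p₂) α = 𝒜.spec (Pl.ofAlgHom (j.comp j₁)) a := by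
    rw [𝒜.spec_comp, ha₂, ← 𝒜.spec_comp, ← 𝒜.spec_comp, hj, Pl.comp_assoc, hj₁,
      Pl.comp_ofAlgHom_ofAlgHom]
  have eb : 𝒜.spec (p'.comp p₂) (𝒜.spec (Pl.ofAlgHom i₂) β) =
      𝒜.spec (Pl.ofAlgHom (j.comp j₁)) b := by
    rw [← 𝒜.spec_comp, Pl.comp_assoc, hj₂, hj, 𝒜.spec_comp, hb₁, ← 𝒜.spec_comp,
      Pl.comp_ofAlgHom_ofAlgHom]
  rw [ea, eb] at h1'
  refine ⟨κ', inferInstance, inferInstance, inferInstance, j.comp j₁, f2 * f1⁻¹,
    mul_ne_zero h2 (inv_ne_zero h1), ?_⟩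
  rw [RR.divOf_mul h2 (inv_ne_zero h1), RR.divOf_inv, h1', add_neg_cancel_right]
  rfl

end HeightDatum

end Fermat.Agent.AV
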