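import Mathlib
import Fermat.Agent.AV.HtBasic

/-!
# Units at a place and their values (team AV = S26)

`p.UV x c` : `x` is a unit of the valuation ring of the place `p` and its residue is `c ≠ 0`.
-/

set_option autoImplicit false

noncomputable section

open AlgebraicCurve

universe u

namespace Fermat.Agent.AV

namespace Pl

variable {Ω k κ l : Type u} [Field Ω] [Field k] [Field κ] [Field l]
  [Algebra Ω k] [Algebra Ω κ] [Algebra Ω l]

/-- `x` is a unit at `p` with value `c` -/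
def UV (p : Pl Ω k κ) (x : k) (c : κ) : Prop := c ≠ 0 ∧ ∃ h : x ∈ p.V, p.π ⟨x, h⟩ = c

namespace UV

variable {p : Pl Ω k κ} {x y : k} {c d : κ}

theorem mem (h : p.UV x c) : x ∈ p.V := h.2.choose

theorem val (h : p.UV x c) : p.π ⟨x, h.mem⟩ = c := h.2.choose_spec

theorem ne_zero (h : p.UV x c) : x ≠ 0 := by
  rintro rfl
  apply h.1
  rw [← h.val]
  exact map_zero p.π

theorem ne_zero' (h : p.UV x c) : c ≠ 0 := h.1

theorem unique (h : p.UV x c) (h' : p.UV x d) : c = d := by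
  rw [← h.val, ← h'.val]

theorem one : p.UV 1 1 := ⟨one_ne_zero, one_mem _, map_one p.π⟩

theorem mul (h : p.UV x c) (h' : p.UV y d) : p.UV (x * y) (c * d) := by
  obtain ⟨hc, hx, rfl⟩ := h
  obtain ⟨hd, hy, rfl⟩ := h'
  exact ⟨mul_ne_zero hc hd, mul_mem hx hy, map_mul p.π ⟨x, hx⟩ ⟨y, hy⟩⟩

theorem inv (h : p.UV x c) : p.UV x⁻¹ c⁻¹ := by
  have h1 : x⁻¹ ∈ p.V := p.inv_mem_of_π_ne_zero h.mem (by rw [h.val]; exact h.1)
  refine ⟨inv_ne_zero h.1, h1, ?_⟩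
  rw [p.π_inv h.mem h1 h.ne_zero, h.val]

theorem div (h : p.UV x c) (h' : p.UV y d) : p.UV (x / y) (c / d) := by
  rw [div_eq_mul_inv, div_eq_mul_inv]
  exact h.mul h'.inv

theorem pow (h : p.UV x c) (n : ℕ) : p.UV (x ^ n) (c ^ n) := by
  induction n with
  | zero => rw [pow_zero, pow_zero]; exact one
  | succ n ih => rw [pow_succ, pow_succ]; exact ih.mul h

theorem zpow (h : p.UV x c) (n : ℤ) : p.UV (x ^ n) (c ^ n) := by
  cases n with
  | ofNat n =>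
    rw [Int.ofNat_eq_natCast, zpow_natCast, zpow_natCast]
    exact h.pow n
  | negSucc n =>
    rw [zpow_negSucc, zpow_negSucc]
    exact (h.pow _).inv

theorem prod {ι : Type*} (s : Finset ι) (x : ι → k) (c : ι → κ) (h : ∀ i ∈ s, p.UV (x i) (c i)) :
    p.UV (∏ i ∈ s, x i) (∏ i ∈ s, c i) := by
  classical
  induction s using Finset.induction_on with
  | empty => simpa using one
  | insert a s ha ih =>
    rw [Finset.prod_insert ha, Finset.prod_insert ha]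
    exact (h a (Finset.mem_insert_self a s)).mul
      (ih fun i hi => h i (Finset.mem_insert_of_mem hi))

theorem prod_zpow {ι : Type*} (s : Finset ι) (ε : ι → ℤ) (x : ι → k) (c : ι → κ)
    (h : ∀ i ∈ s, p.UV (x i) (c i)) :
    p.UV (∏ i ∈ s, x i ^ ε i) (∏ i ∈ s, c i ^ ε i) :=
  prod s _ _ fun i hi => (h i hi).zpow (ε i)

theorem of_comp {q : Pl Ω κ l} {c : l} (h : (q.comp p).UV x c) : ∃ d, p.UV x d ∧ q.UV d c := by
  obtain ⟨hc, hx, hv⟩ := h
  obtain ⟨hx1, hx2⟩ := mem_comp_V.mp hx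
  rw [comp_π hx hx1 hx2] at hv
  refine ⟨p.π ⟨x, hx1⟩, ⟨?_, hx1, rfl⟩, hc, hx2, hv⟩
  intro h0
  apply hc
  rw [← hv]
  have : (⟨p.π ⟨x, hx1⟩, hx2⟩ : q.V) = 0 := Subtype.ext h0
  rw [this, map_zero]

theorem comp {q : Pl Ω κ l} {e : l} (h : p.UV x c) (h' : q.UV c e) : (q.comp p).UV x e := by
  obtain ⟨hc, hx, rfl⟩ := h
  obtain ⟨he, hx', rfl⟩ := h'
  exact ⟨he, ⟨hx, hx'⟩, rfl⟩

theorem ofAlgHom {i : k →ₐ[Ω] κ} (hx : x ≠ 0) : (Pl.ofAlgHom i).UV x (i x) :=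
  ⟨(map_ne_zero i).mpr hx, trivial, rfl⟩

end UV

end Pl

section PlOf

variable {Ω L E : Type u} [Field Ω] [Field L] [Field E] [Algebra Ω L] [Algebra Ω E]
  [Algebra L E] [IsAlgClosed L] [Fermat.FF.IsFF1 L E] [IsScalarTower Ω L E] {P : Place L E}

theorem Pl.UV.ord_eq_zero {x : E} {c : L} (h : (plOf Ω P).UV x c) : P.ord x = 0 := by
  have h1 := RR.ord_nonneg_of_mem P h.mem
  have h2 := RR.ord_nonneg_of_mem P h.inv.mem
  rw [P.ord_inv] at h2
  omega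

theorem exists_uv_of_ord_eq_zero {x : E} (hx : x ≠ 0) (h : P.ord x = 0) :
    ∃ c, (plOf Ω P).UV x c := by
  have h1 : x ∈ (plOf Ω P).V := RR.mem_of_ord_nonneg P h.ge
  refine ⟨_, ?_, h1, rfl⟩
  rw [Ne, Pl.π_eq_zero_iff _ _ hx, not_not]
  refine RR.mem_of_ord_nonneg P ?_
  rw [P.ord_inv, h, neg_zero]

theorem uv_algebraMap {c : L} (hc : c ≠ 0) : (plOf Ω P).UV (algebraMap L E c) c := by
  refine ⟨hc, P.algebraMap_mem' c, (plOf_π_eq_iff Ω P (P.algebraMap_mem' c) c).mpr ?_⟩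
  rw [sub_self, map_zero]
  exact zero_lt_one

end PlOf

section G

variable {Ω k κ l : Type u} [Field Ω] [Field k] [Field κ] [Field l]
  [Algebra Ω k] [Algebra Ω κ] [Algebra Ω l] (𝒜 : HeightDatum Ω)

theorem HeightDatum.uv_g_comp (q : Pl Ω κ l) (p : Pl Ω k κ) (Q : 𝒜.Pt k) :
    p.UV (𝒜.g (q.comp p) Q / 𝒜.g p Q) (𝒜.g q (𝒜.spec p Q)) := by
  obtain ⟨h, h'⟩ := 𝒜.g_comp q p Q
  exact ⟨𝒜.g_ne_zero _ _, h, h'⟩

end G

end Fermat.Agent.AV
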