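import Mathlib
import Fermat.Agent.AV.Square
import Fermat.Agent.AV.UVal

/-!
# Quadraticity of heights (team AV = S26, package P7)
-/

set_option autoImplicit false

noncomputable section

open TensorProduct AlgebraicCurve IntermediateField
open scoped Classical

universe u

namespace Fermat.Agent.AV

variable {Ω F : Type u} [Field Ω] [IsAlgClosed Ω] [Field F] [Algebra Ω F]
  [Fermat.FF.IsFF1 Ω F]

namespace HeightDatum

variable (𝒜 : HeightDatum Ω)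

section Eval

variable {κ κ₂ : Type u} [Field κ] [IsAlgClosed κ] [Algebra Ω κ] [Field κ₂] [IsAlgClosed κ₂]
  [Algebra Ω κ₂] (p : Pl Ω κ κ₂) (φ : 𝒜.Pt F) {ι : Type} [Fintype ι] (a : ι → 𝒜.Pt κ) (ε : ι → ℤ)
  (h : CF Ω F κ)

/-- the product of the local equations -/
def gProd (P : Place κ (CF Ω F κ)) : CF Ω F κ :=
  ∏ i, 𝒜.g (plOf Ω P) (𝒜.tr φ (a i)) ^ ε i

theorem gProd_ne_zero (P : Place κ (CF Ω F κ)) : 𝒜.gProd φ a ε P ≠ 0 :=
  Finset.prod_ne_zero_iff.mpr fun _ _ => zpow_ne_zero _ (𝒜.g_ne_zero _ _)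

/-- the product of the values of the cocycle at the place `p` of `κ` -/
def zProd (P : Place κ (CF Ω F κ)) : κ :=
  ∏ i, 𝒜.g p (𝒜.spec (plOf Ω P) (𝒜.tr φ (a i))) ^ ε i

omit [IsAlgClosed κ₂] in
theorem zProd_ne_zero (P : Place κ (CF Ω F κ)) : 𝒜.zProd p φ a ε P ≠ 0 :=
  Finset.prod_ne_zero_iff.mpr fun _ _ => zpow_ne_zero _ (𝒜.g_ne_zero _ _)

theorem exists_value (hh : h ≠ 0)
    (hdiv : ∑ i, ε i • 𝒜.div κ (𝒜.tr φ (a i)) = RR.divOf h) (P : Place κ (CF Ω F κ)) :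
    ∃ N, (plOf Ω P).UV (h / 𝒜.gProd φ a ε P) N := by
  apply exists_uv_of_ord_eq_zero (div_ne_zero hh (𝒜.gProd_ne_zero φ a ε P))
  rw [RR.ord_div P hh (𝒜.gProd_ne_zero φ a ε P)]
  have h1 := congrArg (fun D : Divisor κ (CF Ω F κ) => D P) hdiv
  simp only [RR.divOf_apply] at h1
  rw [← h1, Finsupp.finsetSum_apply]
  have h2 : ∀ (s : Finset ι), P.ord (∏ i ∈ s, 𝒜.g (plOf Ω P) (𝒜.tr φ (a i)) ^ ε i) =
      ∑ i ∈ s, (ε i • 𝒜.div κ (𝒜.tr φ (a i)) : Divisor κ (CF Ω F κ)) P := by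
    intro s
    induction s using Finset.induction_on with
    | empty => simp [P.ord_one]
    | insert i s hi ih =>
      rw [Finset.prod_insert hi, Finset.sum_insert hi,
        P.ord_mul (zpow_ne_zero _ (𝒜.g_ne_zero _ _))
          (Finset.prod_ne_zero_iff.mpr fun _ _ => zpow_ne_zero _ (𝒜.g_ne_zero _ _)), ih,
        P.ord_zpow]
      rfl
  rw [gProd, h2, sub_self]

/-- the same centre in the special fibre -/
theorem g_same (P P' : Place κ (CF Ω F κ)) (hP : redPlace p P' = redPlace p P) (b : 𝒜.Pt κ) :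
    𝒜.g (p.comp (plOf Ω P')) (𝒜.tr φ b) =
      𝒜.g ((plOf Ω (redPlace p P)).comp (gauss F p)) (𝒜.tr φ b) := by
  apply 𝒜.g_congr
  rw [𝒜.spec_comp, 𝒜.spec_comp, spec_gauss_tr, spec_plOf_tr, spec_plOf_tr, map_add,
    ← 𝒜.spec_comp, ← hP, evPl_redPlace]

/-- (the key computation) the values of `h` compared with the cocycle at `p` -/
theorem exists_scalar (hh : h ≠ 0)
    (hdiv : ∑ i, ε i • 𝒜.div κ (𝒜.tr φ (a i)) = RR.divOf h) :
    ∃ c : κ, c ≠ 0 ∧ ∀ (P : Place κ (CF Ω F κ)) (N : κ),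
      (plOf Ω P).UV (h / 𝒜.gProd φ a ε P) N → ∃ e, p.UV (c * N / 𝒜.zProd p φ a ε P) e := by
  set G := gauss F p with hG
  set γ : ι → CF Ω F κ := fun i => 𝒜.g G (𝒜.tr φ (a i)) with hγ
  have hγ0 : ∏ i, γ i ^ ε i ≠ 0 :=
    Finset.prod_ne_zero_iff.mpr fun _ _ => zpow_ne_zero _ (𝒜.g_ne_zero _ _)
  obtain ⟨c, hc, hv, hv0⟩ := exists_const_mul_gaussUnit p (h / ∏ i, γ i ^ ε i)
    (div_ne_zero hh hγ0)
  refine ⟨c, hc, fun P N hN => ?_⟩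
  set v := algebraMap κ (CF Ω F κ) c * (h / ∏ i, γ i ^ ε i) with hvdef
  have hvG : G.UV v (G.π ⟨v, hv⟩) := ⟨hv0, hv, rfl⟩
  -- the Gauss units `u i`
  set m : ι → CF Ω F κ := fun i =>
    𝒜.g ((plOf Ω (redPlace p P)).comp G) (𝒜.tr φ (a i)) with hm
  have hm0 : ∏ i, m i ^ ε i ≠ 0 :=
    Finset.prod_ne_zero_iff.mpr fun _ _ => zpow_ne_zero _ (𝒜.g_ne_zero _ _)
  have hu := fun i => 𝒜.uv_g_comp (plOf Ω (redPlace p P)) G (𝒜.tr φ (a i))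
  have hq := hvG.div (Pl.UV.prod_zpow Finset.univ ε _ _ fun i _ => hu i)
  have hq' : v / ∏ i, (m i / γ i) ^ ε i =
      algebraMap κ (CF Ω F κ) c * (h / ∏ i, m i ^ ε i) := by
    have h1 : ∏ i, (m i / γ i) ^ ε i = (∏ i, m i ^ ε i) / ∏ i, γ i ^ ε i := by
      rw [← Finset.prod_div_distrib]
      exact Finset.prod_congr rfl fun i _ => div_zpow _ _ _
    rw [h1, hvdef]
    field_simp
  rw [hq'] at hq
  -- values at the places over the special place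
  have hval : ∀ (P' : Place κ (CF Ω F κ)) (N' : κ), redPlace p P' = redPlace p P →
      (plOf Ω P').UV (h / 𝒜.gProd φ a ε P') N' →
      (plOf Ω P').UV (algebraMap κ (CF Ω F κ) c * (h / ∏ i, m i ^ ε i))
        (c * (N' / 𝒜.zProd p φ a ε P')) := by
    intro P' N' hP' hN'
    have h1 := fun i => 𝒜.uv_g_comp p (plOf Ω P') (𝒜.tr φ (a i))
    have h2 := (uv_algebraMap (Ω := Ω) (P := P') hc).mul
      (hN'.div (Pl.UV.prod_zpow Finset.univ ε _ _ fun i _ => h1 i))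
    have h3 : h / 𝒜.gProd φ a ε P' /
        ∏ i, (𝒜.g (p.comp (plOf Ω P')) (𝒜.tr φ (a i)) / 𝒜.g (plOf Ω P') (𝒜.tr φ (a i))) ^ ε i =
        h / ∏ i, m i ^ ε i := by
      have h4 : ∏ i, (𝒜.g (p.comp (plOf Ω P')) (𝒜.tr φ (a i)) /
          𝒜.g (plOf Ω P') (𝒜.tr φ (a i))) ^ ε i =
          (∏ i, m i ^ ε i) / 𝒜.gProd φ a ε P' := by
        rw [gProd, ← Finset.prod_div_distrib]
        refine Finset.prod_congr rfl fun i _ => ?_
        rw [div_zpow, 𝒜.g_same p φ P P' hP']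
      have h5 := 𝒜.gProd_ne_zero φ a ε P'
      rw [h4]
      field_simp
    rw [h3] at h2
    exact h2
  -- apply (F6)
  have hord : ∀ P' : Place κ (CF Ω F κ), redPlace p P' = redPlace p P →
      P'.ord (algebraMap κ (CF Ω F κ) c * (h / ∏ i, m i ^ ε i)) = 0 := by
    intro P' hP'
    obtain ⟨N', hN'⟩ := 𝒜.exists_value φ a ε h hh hdiv P'
    exact (hval P' N' hP' hN').ord_eq_zero
  obtain ⟨h1, h2, h3⟩ := gauss_value p P _ hq.mem (by rw [hq.val]; exact hq.1) hord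
  have h4 := (hval P N rfl hN).val
  refine ⟨_, h3, ?_⟩
  have h5 : c * N / 𝒜.zProd p φ a ε P = (plOf Ω P).π ⟨_, h1⟩ := by
    rw [mul_div_assoc]
    exact h4.symm
  rw [h5]
  exact ⟨h2, rfl⟩

/-- ratio of the values at two places -/
theorem exists_ratio (hh : h ≠ 0)
    (hdiv : ∑ i, ε i • 𝒜.div κ (𝒜.tr φ (a i)) = RR.divOf h)
    (P P' : Place κ (CF Ω F κ)) (N N' : κ) (hN : (plOf Ω P).UV (h / 𝒜.gProd φ a ε P) N)
    (hN' : (plOf Ω P').UV (h / 𝒜.gProd φ a ε P') N') :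
    ∃ e, p.UV (N / N' / (𝒜.zProd p φ a ε P / 𝒜.zProd p φ a ε P')) e := by
  obtain ⟨c, hc, hc'⟩ := 𝒜.exists_scalar p φ a ε h hh hdiv
  obtain ⟨e, he⟩ := hc' P N hN
  obtain ⟨e', he'⟩ := hc' P' N' hN'
  have h1 := he.div he'
  have h2 : c * N / 𝒜.zProd p φ a ε P / (c * N' / 𝒜.zProd p φ a ε P') =
      N / N' / (𝒜.zProd p φ a ε P / 𝒜.zProd p φ a ε P') := by
    have := hN'.1
    have := 𝒜.zProd_ne_zero p φ a ε P
    have := 𝒜.zProd_ne_zero p φ a ε P'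
    field_simp
  exact ⟨e / e', h2 ▸ h1⟩

end Eval

section Descent

variable {κ : Type u} [Field κ] [IsAlgClosed κ] [Algebra Ω κ] (y : F →ₐ[Ω] κ)

omit [IsAlgClosed Ω] [Fermat.FF.IsFF1 Ω F] [IsAlgClosed κ] in
/-- the value of the cocycle at base changed points, for a place which is trivial on `F` -/
theorem g_spec_of_comp_eq {κ₂ : Type u} [Field κ₂] [Algebra Ω κ₂] (p : Pl Ω κ κ₂)
    (y₂ : F →ₐ[Ω] κ₂) (hy : p.comp (Pl.ofAlgHom y) = Pl.ofAlgHom y₂) (ζ : 𝒜.Pt F) :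
    𝒜.g p (𝒜.spec (Pl.ofAlgHom y) ζ) = 1 := by
  rw [g_spec_ofAlgHom, hy, 𝒜.g_ofAlgHom, map_one]

omit [Fermat.FF.IsFF1 Ω F] in
/-- a valuation ring containing `y(F)` gives a place trivial on `F` -/
theorem exists_place_of_le (V : ValuationSubring κ) (hV : ∀ x, y x ∈ V) :
    ∃ (κ₂ : Type u) (_ : Field κ₂) (_ : Algebra Ω κ₂) (_ : IsAlgClosed κ₂) (p : Pl Ω κ κ₂)
      (y₂ : F →ₐ[Ω] κ₂), p.V = V ∧ p.comp (Pl.ofAlgHom y) = Pl.ofAlgHom y₂ := by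
  obtain ⟨κ₂, i1, i2, i3, p, hp, -⟩ := Pl.exists_of_valuationSubring (Ω := Ω) V (fun x => by
    rw [← y.commutes]
    exact hV _)
  subst hp
  let y₂ : F →ₐ[Ω] κ₂ :=
    { toRingHom := p.π.comp ((y : F →+* κ).codRestrict p.V.toSubring hV)
      commutes' := fun x => by
        rw [← p.π_alg]
        change p.π _ = p.π _
        congr 1
        exact Subtype.ext (y.commutes x) }
  refine ⟨κ₂, i1, i2, i3, p, y₂, rfl, ?_⟩
  apply Pl.ext'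
  · intro x
    rw [Pl.mem_comp_V]
    exact ⟨fun _ => trivial, fun _ => ⟨trivial, hV x⟩⟩
  · intro x hp hq
    rfl

omit [IsAlgClosed Ω] [Fermat.FF.IsFF1 Ω F] [IsAlgClosed κ] in
/-- an element of `κ` which lies in all valuation rings containing `y(F)` is algebraic -/
theorem isIntegral_of_forall_valuationSubring (η : κ)
    (h : ∀ V : ValuationSubring κ, (∀ x, y x ∈ V) → η ∈ V) :
    (y : F →+* κ).IsIntegralElem η := by
  let : Algebra F κ := (y : F →+* κ).toAlgebra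
  change IsIntegral F η
  by_contra hη
  let R : Subring κ := (integralClosure F κ).toSubring
  have hR : IsIntegrallyClosedIn R κ := inferInstanceAs
    (IsIntegrallyClosedIn (integralClosure F κ) κ)
  obtain ⟨V, hV, hV'⟩ := Subring.exists_le_valuationSubring_of_isIntegrallyClosedIn
    (R := R) (x := η) hη
  exact hV' (h V fun x => hV (isIntegral_algebraMap : IsIntegral F (algebraMap F κ x)))

omit [IsAlgClosed Ω] in
theorem ord_prod_zpow {E : Type u} [Field E] [Algebra Ω E] (P : Place Ω E)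
    {ι : Type} (s : Finset ι) (ε : ι → ℤ) (x : ι → E) (hx : ∀ i, x i ≠ 0) :
    P.ord (∏ i ∈ s, x i ^ ε i) = ∑ i ∈ s, ε i * P.ord (x i) := by
  induction s using Finset.induction_on with
  | empty => simp [P.ord_one]
  | insert i s hi ih =>
    rw [Finset.prod_insert hi, Finset.sum_insert hi,
      P.ord_mul (zpow_ne_zero _ (hx i))
        (Finset.prod_ne_zero_iff.mpr fun _ _ => zpow_ne_zero _ (hx _)), ih, P.ord_zpow]

/-- the descent argument: comparison of heights -/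
theorem sum_ht_eq {ι : Type} [Fintype ι] (ε : ι → ℤ) (ζ ω : ι → 𝒜.Pt F) (η : κ) (hη0 : η ≠ 0)
    (h : ∀ (κ₂ : Type u) (_ : Field κ₂) (_ : IsAlgClosed κ₂) (_ : Algebra Ω κ₂) (p : Pl Ω κ κ₂),
      ∃ e, p.UV (η / ((∏ i, 𝒜.g p (𝒜.spec (Pl.ofAlgHom y) (ζ i)) ^ ε i) /
        ∏ i, 𝒜.g p (𝒜.spec (Pl.ofAlgHom y) (ω i)) ^ ε i)) e) :
    ∑ i, ε i * 𝒜.ht Ω (ζ i) = ∑ i, ε i * 𝒜.ht Ω (ω i) := by
  have hint : (y : F →+* κ).IsIntegralElem η := by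
    apply isIntegral_of_forall_valuationSubring
    intro V hV
    obtain ⟨κ₂, i1, i2, i3, p, y₂, rfl, hp⟩ := exists_place_of_le y V hV
    obtain ⟨e, he⟩ := h κ₂ i1 i3 i2 p
    simp only [𝒜.g_spec_of_comp_eq y p y₂ hp, one_zpow, Finset.prod_const_one, div_one] at he
    exact he.mem
  let : Algebra F κ := (y : F →+* κ).toAlgebra
  have : IsScalarTower Ω F κ := IsScalarTower.of_algebraMap_eq fun x => (y.commutes x).symm
  have hint' : IsIntegral F η := hint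
  let F' := F⟮η⟯
  have : FiniteDimensional F F' := IntermediateField.adjoin.finiteDimensional hint'
  have : Fermat.FF.IsFF1 Ω F' := Fermat.FF.Gen.isFF1_of_finite Ω F F'
  let i : F' →ₐ[Ω] κ := F'.val.restrictScalars Ω
  let η' : F' := AdjoinSimple.gen F η
  have hη' : i η' = η := AdjoinSimple.coe_gen F η
  have hη'0 : η' ≠ 0 := by
    intro h0
    rw [h0, map_zero] at hη'
    exact hη0 hη'.symm
  let t : F →ₐ[Ω] F' := IsScalarTower.toAlgHom Ω F F'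
  have hyt : ∀ ζ : 𝒜.Pt F, 𝒜.spec (Pl.ofAlgHom y) ζ =
      𝒜.spec (Pl.ofAlgHom i) (𝒜.spec (Pl.ofAlgHom t) ζ) := by
    intro ζ
    rw [← 𝒜.spec_comp, Pl.comp_ofAlgHom_ofAlgHom]
    rfl
  have key : RR.divOf η' = ∑ j, ε j • 𝒜.div Ω (𝒜.spec (Pl.ofAlgHom t) (ζ j)) -
      ∑ j, ε j • 𝒜.div Ω (𝒜.spec (Pl.ofAlgHom t) (ω j)) := by
    ext P
    rw [RR.divOf_apply, Finsupp.sub_apply, Finsupp.finsetSum_apply, Finsupp.finsetSum_apply]
    obtain ⟨κ₂, i1, i2, i3, p₂, jj, -, hp₂⟩ := Pl.exists_extension (plOf Ω P)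
      (fun c => ⟨⟨algebraMap Ω F' c, P.algebraMap_mem' c⟩, (plOf Ω P).π_alg c⟩) i
    obtain ⟨e, he⟩ := h κ₂ i1 i3 i2 p₂
    have hg : ∀ ζ : 𝒜.Pt F, 𝒜.g p₂ (𝒜.spec (Pl.ofAlgHom y) ζ) =
        i (𝒜.g (plOf Ω P) (𝒜.spec (Pl.ofAlgHom t) ζ)) := by
      intro ζ
      rw [hyt, g_spec_ofAlgHom, hp₂, 𝒜.g_ofAlgHom_comp]
    simp only [hg] at he
    set X : F' := η' / ((∏ j, 𝒜.g (plOf Ω P) (𝒜.spec (Pl.ofAlgHom t) (ζ j)) ^ ε j) /
        ∏ j, 𝒜.g (plOf Ω P) (𝒜.spec (Pl.ofAlgHom t) (ω j)) ^ ε j) with hX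
    have h1 : i X = η / ((∏ j, i (𝒜.g (plOf Ω P) (𝒜.spec (Pl.ofAlgHom t) (ζ j))) ^ ε j) /
        ∏ j, i (𝒜.g (plOf Ω P) (𝒜.spec (Pl.ofAlgHom t) (ω j))) ^ ε j) := by
      rw [hX]
      simp only [map_div₀, map_prod, map_zpow₀, hη']
    rw [← h1] at he
    have hA : ∏ j, 𝒜.g (plOf Ω P) (𝒜.spec (Pl.ofAlgHom t) (ζ j)) ^ ε j ≠ 0 :=
      Finset.prod_ne_zero_iff.mpr fun _ _ => zpow_ne_zero _ (𝒜.g_ne_zero _ _)
    have hB : ∏ j, 𝒜.g (plOf Ω P) (𝒜.spec (Pl.ofAlgHom t) (ω j)) ^ ε j ≠ 0 :=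
      Finset.prod_ne_zero_iff.mpr fun _ _ => zpow_ne_zero _ (𝒜.g_ne_zero _ _)
    have hX0 : X ≠ 0 := div_ne_zero hη'0 (div_ne_zero hA hB)
    have h2 := (Pl.UV.ofAlgHom (i := i) hX0).comp he
    rw [hp₂] at h2
    obtain ⟨d, hd, -⟩ := h2.of_comp
    have h3 := hd.ord_eq_zero
    rw [hX, RR.ord_div P hη'0 (div_ne_zero hA hB), RR.ord_div P hA hB,
      ord_prod_zpow P _ _ _ (fun _ => 𝒜.g_ne_zero _ _),
      ord_prod_zpow P _ _ _ (fun _ => 𝒜.g_ne_zero _ _), sub_eq_zero] at h3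
    rw [h3]
    rfl
  have h4 := congrArg Divisor.degree key
  rw [RR.degree_divOf, map_sub, map_sum, map_sum] at h4
  simp only [map_zsmul] at h4
  have h5 : ∀ ζ : 𝒜.Pt F, Divisor.degree (𝒜.div Ω (𝒜.spec (Pl.ofAlgHom t) ζ)) =
      Module.finrank F F' * 𝒜.ht Ω ζ := fun ζ => 𝒜.ht_map (F := F) (F' := F') ζ
  simp only [h5, smul_eq_mul] at h4
  have h6 : (0 : ℤ) < Module.finrank F F' := by exact_mod_cast Module.finrank_pos
  have h7 : (Module.finrank F F' : ℤ) * (∑ i, ε i * 𝒜.ht Ω (ζ i) - ∑ i, ε i * 𝒜.ht Ω (ω i)) = 0 := by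
    rw [mul_sub, Finset.mul_sum, Finset.mul_sum, h4]
    congr 1 <;> exact Finset.sum_congr rfl fun _ _ => by ring
  rcases mul_eq_zero.mp h7 with h8 | h8
  · omega
  · linarith

end Descent

section Const

omit [Fermat.FF.IsFF1 Ω F] in
theorem inr_bijective_self : Function.Bijective (CF.inr Ω F Ω) := by
  refine ⟨CF.inr_injective, fun f => ?_⟩
  have h1 : ∀ x : Ω ⊗[Ω] F, ∃ y : F, CF.ofTensor Ω F Ω x = CF.inr Ω F Ω y := by
    intro x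
    induction x using TensorProduct.induction_on with
    | zero => exact ⟨0, by rw [map_zero, map_zero]⟩
    | tmul l f =>
      refine ⟨algebraMap Ω F l * f, ?_⟩
      rw [CF.ofTensor_tmul, map_mul, AlgHom.commutes]
    | add a b ha hb =>
      obtain ⟨a', ha'⟩ := ha
      obtain ⟨b', hb'⟩ := hb
      exact ⟨a' + b', by rw [map_add, map_add, ha', hb']⟩
  obtain ⟨a, b, hb, hab⟩ := CF.exists_div f
  obtain ⟨a', ha'⟩ := h1 a
  obtain ⟨b', hb'⟩ := h1 b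
  have hb0 : CF.ofTensor Ω F Ω b ≠ 0 := by
    intro h0
    exact hb (CF.ofTensor_injective Ω F Ω (by rw [h0, map_zero]))
  refine ⟨a' / b', ?_⟩
  rw [map_div₀, ← ha', ← hb', ← hab, mul_div_assoc, div_self hb0, mul_one]

theorem tr_self (ψ : 𝒜.Pt F) (c : 𝒜.Pt Ω) : 𝒜.tr ψ c =
    𝒜.spec (Pl.ofAlgHom (CF.inr Ω F Ω)) (ψ + 𝒜.spec (Pl.ofAlgHom (Algebra.ofId Ω F)) c) := by
  rw [tr, map_add, ← 𝒜.spec_comp, Pl.comp_ofAlgHom_ofAlgHom]
  congr 4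
  exact Subsingleton.elim _ _

theorem ht_tr_self (ψ : 𝒜.Pt F) (c : 𝒜.Pt Ω) : 𝒜.ht Ω (𝒜.tr ψ c) =
    𝒜.ht Ω (ψ + 𝒜.spec (Pl.ofAlgHom (Algebra.ofId Ω F)) c) := by
  rw [tr_self, 𝒜.ht_spec_of_bijective _ inr_bijective_self]

/-- the height does not change under translation by constants -/
theorem ht_add_const (ψ : 𝒜.Pt F) (c : 𝒜.Pt Ω) :
    𝒜.ht Ω (ψ + 𝒜.spec (Pl.ofAlgHom (Algebra.ofId Ω F)) c) = 𝒜.ht Ω ψ := by
  rw [← ht_tr_self, 𝒜.ht_tr_eq ψ c 0, ht_tr_self, map_zero, add_zero]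

theorem ht_tr {L : Type u} [Field L] [IsAlgClosed L] [Algebra Ω L] (φ : 𝒜.Pt F) (a : 𝒜.Pt L) :
    𝒜.ht L (𝒜.tr φ a) = 𝒜.ht Ω φ := by
  rw [𝒜.ht_tr_eq φ a 0]
  obtain ⟨f, hf, h1⟩ := 𝒜.div_red (Pl.ofAlgHom (Algebra.ofId Ω L)) φ 0
  have h2 := congrArg Divisor.degree h1
  rw [degree_mapDomain, map_add, RR.degree_divOf, add_zero, map_zero] at h2
  have h3 : 𝒜.ht Ω (𝒜.tr φ (0 : 𝒜.Pt Ω)) = 𝒜.ht L (𝒜.tr φ (0 : 𝒜.Pt L)) := h2
  rw [← h3, ht_tr_self, ht_add_const]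

end Const

section Quadratic

theorem sum_eq_of_principal {κ : Type u} [Field κ] [IsAlgClosed κ] [Algebra Ω κ]
    (y : F →ₐ[Ω] κ) (φ : 𝒜.Pt F) {ι : Type} [Fintype ι] (ε : ι → ℤ) (α : ι → 𝒜.Pt F)
    (h : CF Ω F κ) (hh : h ≠ 0)
    (hdiv : ∑ i, ε i • 𝒜.div κ (𝒜.tr φ (𝒜.spec (Pl.ofAlgHom y) (α i))) = RR.divOf h) :
    ∑ i, ε i * 𝒜.ht Ω (φ + α i) = ∑ i, ε i * 𝒜.ht Ω (α i) := by
  obtain ⟨P₁⟩ := RR.FunctionField.nonempty_place (K := Ω) (F := F)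
  set δ : Place κ (CF Ω F κ) := placeEquiv.symm (Pl.ofAlgHom y) with hδ
  set c₁ : Place κ (CF Ω F κ) :=
    placeEquiv.symm ((Pl.ofAlgHom (Algebra.ofId Ω κ)).comp (plOf Ω P₁)) with hc₁
  obtain ⟨N, hN⟩ := 𝒜.exists_value φ _ ε h hh hdiv δ
  obtain ⟨N', hN'⟩ := 𝒜.exists_value φ _ ε h hh hdiv c₁
  set c : 𝒜.Pt Ω := 𝒜.spec (plOf Ω P₁) φ with hc
  have h1 := 𝒜.sum_ht_eq y ε (fun i => φ + α i)
    (fun i => α i + 𝒜.spec (Pl.ofAlgHom (Algebra.ofId Ω F)) c) (N / N')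
    (div_ne_zero hN.1 hN'.1) (by
      intro κ₂ i1 i2 i3 p
      obtain ⟨e, he⟩ := 𝒜.exists_ratio p φ _ ε h hh hdiv δ c₁ N N' hN hN'
      refine ⟨e, ?_⟩
      have h2 : ∀ i, 𝒜.spec (plOf Ω δ) (𝒜.tr φ (𝒜.spec (Pl.ofAlgHom y) (α i))) =
          𝒜.spec (Pl.ofAlgHom y) (φ + α i) := by
        intro i
        rw [spec_plOf_tr, hδ, evPl_placeEquiv_symm, map_add]
      have h3 : ∀ i, 𝒜.spec (plOf Ω c₁) (𝒜.tr φ (𝒜.spec (Pl.ofAlgHom y) (α i))) =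
          𝒜.spec (Pl.ofAlgHom y) (α i + 𝒜.spec (Pl.ofAlgHom (Algebra.ofId Ω F)) c) := by
        intro i
        rw [spec_plOf_tr, hc₁, evPl_placeEquiv_symm, map_add, 𝒜.spec_comp, ← hc,
          ← 𝒜.spec_comp (Pl.ofAlgHom y), Pl.comp_ofAlgHom_ofAlgHom, add_comm]
        congr 4
        exact Subsingleton.elim _ _
      simp only [zProd, h2, h3] at he
      exact he)
  simp only [ht_add_const] at h1
  exact h1

/-- quadraticity of heights -/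
theorem ht_quadratic (φ : 𝒜.Pt F) (n : ℕ) :
    𝒜.ht Ω ((n + 2) • φ) + 𝒜.ht Ω (n • φ) =
      2 * 𝒜.ht Ω ((n + 1) • φ) + 𝒜.ht Ω φ + 𝒜.ht Ω (-φ) := by
  let L := AlgebraicClosure F
  let y₀ : F →ₐ[Ω] L := IsScalarTower.toAlgHom Ω F L
  obtain ⟨κ, i1, i2, i3, j, h, hh, hdiv⟩ := 𝒜.square φ
    (𝒜.spec (Pl.ofAlgHom y₀) ((n + 1) • φ)) (𝒜.spec (Pl.ofAlgHom y₀) (-φ))
  let y : F →ₐ[Ω] κ := j.comp y₀
  have hy : ∀ ψ : 𝒜.Pt F, 𝒜.spec (Pl.ofAlgHom j) (𝒜.spec (Pl.ofAlgHom y₀) ψ) =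
      𝒜.spec (Pl.ofAlgHom y) ψ := by
    intro ψ
    rw [← 𝒜.spec_comp, Pl.comp_ofAlgHom_ofAlgHom]
  rw [hy, hy, ← map_add] at hdiv
  have h1 := 𝒜.sum_eq_of_principal y φ ![1, -1, -1, 1]
    ![(n + 1) • φ + -φ, (n + 1) • φ, -φ, 0] h hh (by
      rw [← hdiv]
      simp [Fin.sum_univ_four]
      abel)
  simp only [Fin.sum_univ_four] at h1
  simp only [Matrix.cons_val_zero, Matrix.cons_val_one, Matrix.cons_val, one_mul, neg_mul,
    add_zero, add_neg_cancel] at h1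
  have h2 : (n + 1) • φ + -φ = n • φ := by rw [succ_nsmul]; abel
  have h3 : φ + ((n + 1) • φ + -φ) = (n + 1) • φ := by abel
  have h4 : φ + (n + 1) • φ = (n + 2) • φ := by rw [succ_nsmul φ (n + 1)]; abel
  rw [h3, h4, h2, 𝒜.ht_zero] at h1
  linarith

end Quadratic

end HeightDatum

end Fermat.Agent.AV
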