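import Mathlib
import Fermat.Agent.AV.Counting
import Fermat.Agent.AV.GeomP4
import Fermat.Agent.AV.GenericCurve
import Fermat.Agent.AV.Integral
import Fermat.Agent.AV.HtBasic
import Fermat.Agent.AV.Quadratic

/-!
# The number of torsion points of an abelian variety (team AV = S26): final assembly
-/

set_option autoImplicit false

noncomputable section

open CategoryTheory AlgebraicGeometry IsLocalRing NeronModelInfra GoodReductionJacobian
open AlgebraicCurve Fermat.Agent.S26T

universe u

namespace Fermat.Agent.AV.Sch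

variable {K : Type u} [Field K]

/-- The number of `n`-torsion points of an abelian variety of dimension `g`. -/
theorem card_torsion_gvar [IsAlgClosed K] (X : GVar K) (g : ℕ) [SmoothOfRelativeDimension g X.f]
    (n : ℕ) (hn : (n : K) ≠ 0) : Nat.card {a : X.Pt K // n • a = 0} = n ^ (2 * g) := by
  obtain ⟨Ω, _, _, _, 𝓛, hD⟩ := exists_divInput X g
  let G : GeomDatum K Ω g := geomDatum (g := g) 𝓛 hD groupInput
  have hmap : G.𝒜.HtMap := by
    intro F F' _ _ _ _ _ _ _ _ _ φ
    exact G.𝒜.ht_map φ
  have hquad : G.𝒜.IsQuadratic := by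
    intro F _ _ _ φ n
    exact G.𝒜.ht_quadratic φ n
  exact G.card_torsion hquad hmap hn

theorem natCard_isTorsionPoint_eq_pow [IsAlgClosed K] {A : Scheme.{u}}
    (f : A ⟶ Spec (CommRingCat.of K)) (L : RelativeGroupLaw K f) (hc : L.IsCommutative)
    (hA : AbelianSchemePropertyBundle K f) (g : ℕ) [SmoothOfRelativeDimension g f]
    (n : ℕ) (hn : (n : K) ≠ 0) :
    Nat.card {x : SchemeHomOver (𝟙 (Spec (CommRingCat.of K))) f //
        L.IsTorsionPoint (𝟙 (Spec (CommRingCat.of K))) n x} = n ^ (2 * g) := by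
  have h1 : AlgebraicGeometry.IsIntegral A := isIntegral_of_bundle f hA g
  have h2 := hA.proper
  let X : GVar K := ⟨A, f, L, hc⟩
  have h3 : SmoothOfRelativeDimension g X.f := ‹_›
  rw [← card_torsion_gvar X g n hn]
  refine Nat.card_congr (Equiv.symm ?_)
  refine (p0Equiv (X := X)).toEquiv.subtypeEquiv fun a => ?_
  show n • a = 0 ↔ L.nsmul _ n (p0Equiv a) = L.one _
  have h4 : n • (p0Equiv a) = L.nsmul _ n (p0Equiv a) := AVar.Pt.nsmul_def n (p0Equiv a)
  rw [← h4, ← map_nsmul]
  exact (map_eq_zero_iff (p0Equiv (X := X)) (p0Equiv (X := X)).injective).symm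

end Fermat.Agent.AV.Sch
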